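import Mathlib
import Fermat.Prelude.Def_ModularCurve_PeriodHomPair
import Fermat.Prelude.Sol.S_ModularForm_heckeT_slash_eq_self_of_mem_Gamma0

/-!
# S16, block PER-HECKE (1): algebraic Hecke operators on `Hom(Γ₀(N), A)`

For a finite family `α : ι → GL (Fin 2) ℝ` of representatives such that every `α x * γ`
(`γ ∈ Γ₀(N)`) is of the form `γ' * α y` with `γ' ∈ Γ₀(N)` (`h30_Ex`), the `α x` lying in
distinct left cosets of `SL(2, ℤ)` (`h30_Inj`), the operator
`(h30_hecke ψ) γ = ∑ x, ψ (γ'_x)` is an additive endomorphism of `Hom(Γ₀(N), A)`.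
-/

set_option autoImplicit false

namespace Fermat.Agent.S16

open CongruenceSubgroup Matrix.SpecialLinearGroup ModularCurve.Period
open scoped MatrixGroups

section Abstract

variable {N : ℕ} {ι : Type*}

/-- Existence of the Hecke transition. -/
def h30_Ex (N : ℕ) (α : ι → GL (Fin 2) ℝ) : Prop :=
  ∀ (γ : Gamma0 N) (x : ι), ∃ (γ' : Gamma0 N) (y : ι),
    α x * mapGL ℝ (γ : SL(2, ℤ)) = mapGL ℝ (γ' : SL(2, ℤ)) * α y

/-- The representatives lie in distinct left cosets of `SL(2, ℤ)`. -/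
def h30_Inj (α : ι → GL (Fin 2) ℝ) : Prop :=
  ∀ x y : ι, (∃ δ : SL(2, ℤ), α x = mapGL ℝ δ * α y) → x = y

variable {α : ι → GL (Fin 2) ℝ}

/-- The `Γ₀(N)`-part of `α x * γ`. -/
noncomputable def h30_step (hex : h30_Ex N α) (γ : Gamma0 N) (x : ι) : Gamma0 N :=
  (hex γ x).choose

/-- The index of the coset of `α x * γ`. -/
noncomputable def h30_idx (hex : h30_Ex N α) (γ : Gamma0 N) (x : ι) : ι :=
  (hex γ x).choose_spec.choose

theorem h30_step_spec (hex : h30_Ex N α) (γ : Gamma0 N) (x : ι) :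
    α x * mapGL ℝ (γ : SL(2, ℤ)) =
      mapGL ℝ (h30_step hex γ x : SL(2, ℤ)) * α (h30_idx hex γ x) :=
  (hex γ x).choose_spec.choose_spec

theorem h30_unique (hex : h30_Ex N α) (hinj : h30_Inj α) (γ : Gamma0 N) (x : ι)
    (γ' : Gamma0 N) (y : ι)
    (h : α x * mapGL ℝ (γ : SL(2, ℤ)) = mapGL ℝ (γ' : SL(2, ℤ)) * α y) :
    h30_step hex γ x = γ' ∧ h30_idx hex γ x = y := by
  have h1 := h30_step_spec hex γ x
  rw [h] at h1
  have hy : y = h30_idx hex γ x := by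
    apply hinj
    refine ⟨(γ' : SL(2, ℤ))⁻¹ * (h30_step hex γ x : SL(2, ℤ)), ?_⟩
    rw [map_mul, map_inv, mul_assoc, ← h1, inv_mul_cancel_left]
  subst hy
  have h2 : mapGL ℝ (γ' : SL(2, ℤ)) = mapGL ℝ (h30_step hex γ x : SL(2, ℤ)) :=
    mul_right_cancel h1
  exact ⟨Subtype.ext (mapGL_injective h2).symm, rfl⟩

theorem h30_idx_injective (hex : h30_Ex N α) (hinj : h30_Inj α) (γ : Gamma0 N) :
    Function.Injective (h30_idx hex γ) := by
  intro x x' hxx
  apply hinj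
  have h1 := h30_step_spec hex γ x
  have h2 := h30_step_spec hex γ x'
  rw [hxx] at h1
  refine ⟨(h30_step hex γ x : SL(2, ℤ)) * (h30_step hex γ x' : SL(2, ℤ))⁻¹, ?_⟩
  have h3 : α x = mapGL ℝ (h30_step hex γ x : SL(2, ℤ)) * α (h30_idx hex γ x') *
      (mapGL ℝ (γ : SL(2, ℤ)))⁻¹ := by
    rw [← h1, mul_inv_cancel_right]
  have h4 : α (h30_idx hex γ x') = (mapGL ℝ (h30_step hex γ x' : SL(2, ℤ)))⁻¹ * α x' *
      mapGL ℝ (γ : SL(2, ℤ)) := by
    rw [mul_assoc, h2, inv_mul_cancel_left]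
  rw [h3, h4, map_mul, map_inv]
  group

theorem h30_step_one (hex : h30_Ex N α) (hinj : h30_Inj α) (x : ι) :
    h30_step hex (1 : Gamma0 N) x = 1 ∧ h30_idx hex (1 : Gamma0 N) x = x :=
  h30_unique hex hinj 1 x 1 x (by simp)

theorem h30_step_mul (hex : h30_Ex N α) (hinj : h30_Inj α) (γ δ : Gamma0 N) (x : ι) :
    h30_step hex (γ * δ) x = h30_step hex γ x * h30_step hex δ (h30_idx hex γ x) ∧
      h30_idx hex (γ * δ) x = h30_idx hex δ (h30_idx hex γ x) := by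
  apply h30_unique hex hinj
  rw [Subgroup.coe_mul, Subgroup.coe_mul, map_mul, map_mul, ← mul_assoc, h30_step_spec hex γ x,
    mul_assoc, h30_step_spec hex δ, ← mul_assoc]

variable [Fintype ι]

/-- The permutation of the index set induced by `γ`. -/
noncomputable def h30_idxEquiv (hex : h30_Ex N α) (hinj : h30_Inj α) (γ : Gamma0 N) :
    Equiv.Perm ι :=
  Equiv.ofBijective (h30_idx hex γ)
    (Finite.injective_iff_bijective.mp (h30_idx_injective hex hinj γ))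

@[simp] theorem h30_idxEquiv_apply (hex : h30_Ex N α) (hinj : h30_Inj α) (γ : Gamma0 N) (x : ι) :
    h30_idxEquiv hex hinj γ x = h30_idx hex γ x := rfl

variable {A : Type*} [AddCommGroup A]

/-- The Hecke operator attached to `α` on a single homomorphism. -/
noncomputable def h30_heckeFun (hex : h30_Ex N α) (hinj : h30_Inj α)
    (ψ : Additive (Gamma0 N) →+ A) : Additive (Gamma0 N) →+ A where
  toFun γ := ∑ x, ψ (Additive.ofMul (h30_step hex (Additive.toMul γ) x))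
  map_zero' := by
    have h : ∀ x, h30_step hex (Additive.toMul (0 : Additive (Gamma0 N))) x = 1 :=
      fun x => (h30_step_one hex hinj x).1
    simp only [h, ofMul_one, map_zero, Finset.sum_const_zero]
  map_add' γ δ := by
    rw [← Equiv.sum_comp (h30_idxEquiv hex hinj (Additive.toMul γ))
      (fun x => ψ (Additive.ofMul (h30_step hex (Additive.toMul δ) x))),
      ← Finset.sum_add_distrib]
    refine Finset.sum_congr rfl fun x _ => ?_
    rw [toMul_add, (h30_step_mul hex hinj _ _ x).1, ofMul_mul, map_add]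
    rfl

/-- The Hecke operator attached to `α` on `Hom(Γ₀(N), A)`. -/
noncomputable def h30_hecke (hex : h30_Ex N α) (hinj : h30_Inj α) :
    (Additive (Gamma0 N) →+ A) →+ (Additive (Gamma0 N) →+ A) where
  toFun ψ := h30_heckeFun hex hinj ψ
  map_zero' := by
    refine AddMonoidHom.ext fun γ => ?_
    simp [h30_heckeFun]
  map_add' ψ φ := by
    refine AddMonoidHom.ext fun γ => ?_
    simp [h30_heckeFun, Finset.sum_add_distrib]

theorem h30_hecke_apply (hex : h30_Ex N α) (hinj : h30_Inj α) (ψ : Additive (Gamma0 N) →+ A)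
    (γ : Gamma0 N) :
    h30_hecke hex hinj ψ (Additive.ofMul γ) =
      ∑ x, ψ (Additive.ofMul (h30_step hex γ x)) := rfl

/-- The value of the Hecke operator from ANY decomposition `α x * γ = γ' x * α (y x)`. -/
theorem h30_hecke_apply_of (hex : h30_Ex N α) (hinj : h30_Inj α) (ψ : Additive (Gamma0 N) →+ A)
    (γ : Gamma0 N) (γ' : ι → Gamma0 N) (y : ι → ι)
    (h : ∀ x, α x * mapGL ℝ (γ : SL(2, ℤ)) = mapGL ℝ (γ' x : SL(2, ℤ)) * α (y x)) :
    h30_hecke hex hinj ψ (Additive.ofMul γ) = ∑ x, ψ (Additive.ofMul (γ' x)) := by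
  rw [h30_hecke_apply]
  refine Finset.sum_congr rfl fun x _ => ?_
  rw [(h30_unique hex hinj γ x (γ' x) (y x) (h x)).1]

/-- Compatibility with a change of coefficients. -/
theorem h30_hecke_comp {B : Type*} [AddCommGroup B] (hex : h30_Ex N α) (hinj : h30_Inj α)
    (g : A →+ B) (ψ : Additive (Gamma0 N) →+ A) :
    h30_hecke hex hinj (g.comp ψ) = g.comp (h30_hecke hex hinj ψ) := by
  refine AddMonoidHom.ext fun γ => ?_
  show ∑ x, g (ψ _) = g (∑ x, ψ _)
  rw [map_sum]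

end Abstract

/-! ### Commutation with the involution `jConj` -/

section Involution

/-- `diag(1, -1)`. -/
noncomputable def h30_E : GL (Fin 2) ℝ :=
  Matrix.GeneralLinearGroup.mkOfDetNeZero !![1, 0; 0, -1] (by simp [Matrix.det_fin_two_of])

theorem h30_E_mul_self : h30_E * h30_E = 1 := by
  ext i j
  fin_cases i <;> fin_cases j <;> simp [h30_E, Matrix.mul_apply, Fin.sum_univ_two]

theorem h30_mapGL_jConj (γ : SL(2, ℤ)) :
    mapGL ℝ (jConjSL γ) = h30_E * mapGL ℝ γ * h30_E := by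
  ext i j
  fin_cases i <;> fin_cases j <;>
    simp [h30_E, Matrix.mul_apply, Fin.sum_univ_two, jConjMat, Matrix.vecMul, dotProduct]

variable {N : ℕ} {ι : Type*} [Fintype ι] {α : ι → GL (Fin 2) ℝ}
  {A : Type*} [AddCommGroup A]

/-- The Hecke operator commutes with composition with `jConj`, provided the family of
representatives is stable under conjugation by `diag(1, -1)` up to `Γ₀(N)`. -/
theorem h30_hecke_jConj (hex : h30_Ex N α) (hinj : h30_Inj α)
    (hsym : ∀ x, ∃ (t : Gamma0 N) (x' : ι),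
      h30_E * α x * h30_E = mapGL ℝ (t : SL(2, ℤ)) * α x')
    (ψ : Additive (Gamma0 N) →+ A) :
    h30_hecke hex hinj (ψ.comp (MonoidHom.toAdditive (jConjGamma0 N))) =
      (h30_hecke hex hinj ψ).comp (MonoidHom.toAdditive (jConjGamma0 N)) := by
  choose t σ hσ using hsym
  have hE : ∀ g : GL (Fin 2) ℝ, h30_E * (h30_E * g) = g := fun g => by
    rw [← mul_assoc, h30_E_mul_self, one_mul]
  have hE' : ∀ g : GL (Fin 2) ℝ, g * h30_E * h30_E = g := fun g => by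
    rw [mul_assoc, h30_E_mul_self, mul_one]
  have hj : ∀ γ : Gamma0 N, mapGL ℝ ((jConjGamma0 N γ : Gamma0 N) : SL(2, ℤ)) =
      h30_E * mapGL ℝ (γ : SL(2, ℤ)) * h30_E := fun γ => h30_mapGL_jConj _
  -- `α x * E = E * t x * α (σ x)`
  have hαE : ∀ x, α x * h30_E = h30_E * (mapGL ℝ (t x : SL(2, ℤ)) * α (σ x)) := fun x => by
    rw [← hσ x, mul_assoc, hE]
  have hαE' : ∀ (x : ι) (g' : GL (Fin 2) ℝ), α x * (h30_E * g') =
      h30_E * (mapGL ℝ (t x : SL(2, ℤ)) * (α (σ x) * g')) := fun x g' => by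
    rw [← mul_assoc, hαE, mul_assoc, mul_assoc]
  have hinv : ∀ x, σ (σ x) = x ∧ jConjGamma0 N (t x) * t (σ x) = 1 := by
    intro x
    have h1 : α x * mapGL ℝ ((1 : Gamma0 N) : SL(2, ℤ)) =
        mapGL ℝ ((jConjGamma0 N (t x) * t (σ x) : Gamma0 N) : SL(2, ℤ)) * α (σ (σ x)) := by
      rw [Subgroup.coe_mul, map_mul, hj, OneMemClass.coe_one, map_one, mul_one]
      have h2 : α x = h30_E * (mapGL ℝ (t x : SL(2, ℤ)) * (α (σ x) * h30_E)) := by
        have h3 := congrArg (· * h30_E) (hαE x)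
        simp only [mul_assoc, h30_E_mul_self, mul_one] at h3
        exact h3
      rw [hαE (σ x)] at h2
      simp only [mul_assoc]
      exact h2
    have h4 := h30_unique hex hinj 1 x _ _ h1
    have h5 := h30_step_one hex hinj x
    exact ⟨h4.2.symm.trans h5.2, h4.1.symm.trans h5.1⟩
  let σe : Equiv.Perm ι := Function.Involutive.toPerm σ fun x => (hinv x).1
  have hσe : ∀ x, σe x = σ x := fun x => rfl
  refine AddMonoidHom.ext fun γa => ?_
  obtain ⟨γ, rfl⟩ : ∃ γ : Gamma0 N, Additive.ofMul γ = γa := ⟨Additive.toMul γa, rfl⟩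
  show h30_hecke hex hinj (ψ.comp (MonoidHom.toAdditive (jConjGamma0 N))) (Additive.ofMul γ) =
    h30_hecke hex hinj ψ (Additive.ofMul (jConjGamma0 N γ))
  have hdec : ∀ x, α x * mapGL ℝ ((jConjGamma0 N γ : Gamma0 N) : SL(2, ℤ)) =
      mapGL ℝ ((jConjGamma0 N (t x) * jConjGamma0 N (h30_step hex γ (σ x)) *
        t (h30_idx hex γ (σ x)) : Gamma0 N) : SL(2, ℤ)) * α (σ (h30_idx hex γ (σ x))) := by
    intro x
    rw [Subgroup.coe_mul, Subgroup.coe_mul, map_mul, map_mul, hj, hj, hj]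
    have h1 := h30_step_spec hex γ (σ x)
    have h1' : ∀ g' : GL (Fin 2) ℝ, α (σ x) * (mapGL ℝ (γ : SL(2, ℤ)) * g') =
        mapGL ℝ (h30_step hex γ (σ x) : SL(2, ℤ)) * (α (h30_idx hex γ (σ x)) * g') :=
      fun g' => by rw [← mul_assoc, h1, mul_assoc]
    have h2 := hαE (h30_idx hex γ (σ x))
    simp only [mul_assoc, hE]
    rw [hαE', h1', h2]
  rw [h30_hecke_apply_of hex hinj ψ (jConjGamma0 N γ) _ _ hdec, h30_hecke_apply]
  simp only [ofMul_mul, map_add, Finset.sum_add_distrib]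
  have e1 : ∑ x, ψ (Additive.ofMul (jConjGamma0 N (h30_step hex γ (σ x)))) =
      ∑ x, ψ (Additive.ofMul (jConjGamma0 N (h30_step hex γ x))) :=
    Equiv.sum_comp σe (fun x => ψ (Additive.ofMul (jConjGamma0 N (h30_step hex γ x))))
  have e2 : ∑ x, ψ (Additive.ofMul (t (h30_idx hex γ (σ x)))) =
      ∑ x, ψ (Additive.ofMul (t x)) :=
    Equiv.sum_comp (σe.trans (h30_idxEquiv hex hinj γ)) (fun x => ψ (Additive.ofMul (t x)))
  have e3 : ∑ x, ψ (Additive.ofMul (t x)) = ∑ x, ψ (Additive.ofMul (t (σ x))) :=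
    (Equiv.sum_comp σe (fun x => ψ (Additive.ofMul (t x)))).symm
  have e4 : ∀ x, ψ (Additive.ofMul (t (σ x))) = -ψ (Additive.ofMul (jConjGamma0 N (t x))) := by
    intro x
    have h := (hinv x).2
    have h' : t (σ x) = (jConjGamma0 N (t x))⁻¹ := (inv_eq_of_mul_eq_one_right h).symm
    rw [h', ofMul_inv, map_neg]
  rw [e1, e2, e3, Finset.sum_congr rfl fun x _ => e4 x, Finset.sum_neg_distrib]
  show ∑ x, ψ (Additive.ofMul (jConjGamma0 N (h30_step hex γ x))) = _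
  abel

/-- The same statement in terms of the prelude's `charInvolution`. -/
theorem h30_hecke_charInvolution (R : Type*) [Semiring R] [Module R A]
    (hex : h30_Ex N α) (hinj : h30_Inj α)
    (hsym : ∀ x, ∃ (t : Gamma0 N) (x' : ι),
      h30_E * α x * h30_E = mapGL ℝ (t : SL(2, ℤ)) * α x')
    (ψ : Additive (Gamma0 N) →+ A) :
    h30_hecke hex hinj (charInvolution N R A ψ) =
      charInvolution N R A (h30_hecke hex hinj ψ) :=
  h30_hecke_jConj hex hinj hsym ψ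

end Involution

/-! ### The concrete operators `T_ℓ` (`ℓ ∤ N`) and `U_q` (`q ∣ N`) -/

section Concrete

open P2MW.S_ModularForm_heckeT_slash_eq_self_of_mem_Gamma0.ModularForm.HeckeSlashInvariance

theorem h30_coe_mapGL (δ : SL(2, ℤ)) :
    ((mapGL ℝ δ : GL (Fin 2) ℝ) : Matrix (Fin 2) (Fin 2) ℝ) =
      !![((δ 0 0 : ℤ) : ℝ), ((δ 0 1 : ℤ) : ℝ); ((δ 1 0 : ℤ) : ℝ), ((δ 1 1 : ℤ) : ℝ)] := by
  ext i j
  fin_cases i <;> fin_cases j <;> simp

theorem h30_coe_E : ((h30_E : GL (Fin 2) ℝ) : Matrix (Fin 2) (Fin 2) ℝ) = !![1, 0; 0, -1] := rfl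

/-- `[[1, k], [0, 1]]` as an element of `Γ₀(N)`. -/
def h30_upper (N : ℕ) (k : ℤ) : Gamma0 N :=
  ⟨⟨!![1, k; 0, 1], by simp [Matrix.det_fin_two_of]⟩, by simp [Gamma0_mem]⟩

theorem h30_heckeMatrix_eq {l : ℕ} (hl : l ≠ 0) {a b : ℕ} {δ : SL(2, ℤ)}
    (h : ModularForm.heckeMatrix l a = mapGL ℝ δ * ModularForm.heckeMatrix l b) :
    (l : ℤ) ∣ (a : ℤ) - b := by
  have h' := congrArg (fun M : GL (Fin 2) ℝ => (M : Matrix (Fin 2) (Fin 2) ℝ)) h
  simp only [Matrix.GeneralLinearGroup.coe_mul, ModularForm.val_heckeMatrix hl,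
    h30_coe_mapGL] at h'
  have h00 := congrFun (congrFun h' 0) 0
  have h01 := congrFun (congrFun h' 0) 1
  simp [Matrix.mul_apply, Fin.sum_univ_two] at h00 h01
  have h00' : (δ 0 0 : ℤ) = 1 := by exact_mod_cast h00.symm
  refine ⟨δ 0 1, ?_⟩
  have : ((a : ℤ) : ℝ) = ((δ 0 0 * b + δ 0 1 * l : ℤ) : ℝ) := by
    push_cast
    linarith
  have h2 : (a : ℤ) = δ 0 0 * b + δ 0 1 * l := by exact_mod_cast this
  rw [h2, h00']
  ring

theorem h30_heckeMatrix_ne_diag {l : ℕ} (hl : 2 ≤ l) (a : ℕ) (δ : SL(2, ℤ)) :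
    ModularForm.heckeMatrix l a ≠ mapGL ℝ δ * ModularForm.heckeDiagMatrix l := by
  have hl0 : l ≠ 0 := by omega
  intro h
  have h' := congrArg (fun M : GL (Fin 2) ℝ => (M : Matrix (Fin 2) (Fin 2) ℝ)) h
  simp only [Matrix.GeneralLinearGroup.coe_mul, ModularForm.val_heckeMatrix hl0,
    ModularForm.val_heckeDiagMatrix hl0, h30_coe_mapGL] at h'
  have h00 := congrFun (congrFun h' 0) 0
  simp [Matrix.mul_apply, Fin.sum_univ_two] at h00
  have h1 : (1 : ℤ) = δ 0 0 * l := by exact_mod_cast h00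
  have h2 : (l : ℤ) ∣ 1 := ⟨δ 0 0, by linarith⟩
  have h3 := Int.le_of_dvd one_pos h2
  omega

theorem h30_diag_ne_heckeMatrix {l : ℕ} (hl : 2 ≤ l) (b : ℕ) (δ : SL(2, ℤ)) :
    ModularForm.heckeDiagMatrix l ≠ mapGL ℝ δ * ModularForm.heckeMatrix l b := by
  have hl0 : l ≠ 0 := by omega
  intro h
  have h' := congrArg (fun M : GL (Fin 2) ℝ => (M : Matrix (Fin 2) (Fin 2) ℝ)) h
  simp only [Matrix.GeneralLinearGroup.coe_mul, ModularForm.val_heckeMatrix hl0,
    ModularForm.val_heckeDiagMatrix hl0, h30_coe_mapGL] at h'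
  have h00 := congrFun (congrFun h' 0) 0
  have h10 := congrFun (congrFun h' 1) 0
  simp [Matrix.mul_apply, Fin.sum_univ_two] at h00 h10
  have h1 : (δ 0 0 : ℤ) = l := by exact_mod_cast h00.symm
  have h2 : (δ 1 0 : ℤ) = 0 := by exact_mod_cast h10.symm
  have hdet := det_eq δ
  rw [h1, h2] at hdet
  have h3 : (l : ℤ) ∣ 1 := ⟨δ 1 1, by linarith⟩
  have h4 := Int.le_of_dvd one_pos h3
  omega

theorem h30_exists_val_add (l : ℕ) [NeZero l] (m : ℤ) :
    ∃ k : ℤ, m = ((m : ZMod l).val : ℤ) + k * l := by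
  have h : (l : ℤ) ∣ m - ((m : ZMod l).val : ℤ) := by
    rw [← ZMod.intCast_zmod_eq_zero_iff_dvd]
    push_cast
    rw [ZMod.natCast_zmod_val, sub_self]
  obtain ⟨k, hk⟩ := h
  exact ⟨k, by linarith⟩

/-- `E * [[1, a], [0, l]] * E = [[1, k], [0, 1]] * [[1, (-a mod l)], [0, l]]`. -/
theorem h30_E_heckeMatrix_E (N : ℕ) {l : ℕ} [NeZero l] (x : ZMod l) :
    ∃ t : Gamma0 N, h30_E * ModularForm.heckeMatrix l x.val * h30_E =
      mapGL ℝ (t : SL(2, ℤ)) * ModularForm.heckeMatrix l (-x).val := by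
  have hl : l ≠ 0 := NeZero.ne l
  obtain ⟨k, hk⟩ := h30_exists_val_add l (-(x.val : ℤ))
  have hcast : ((-(x.val : ℤ) : ℤ) : ZMod l) = -x := by
    push_cast
    rw [ZMod.natCast_zmod_val]
  rw [hcast] at hk
  refine ⟨h30_upper N k, ?_⟩
  have hk' : -(x.val : ℝ) = ((-x).val : ℝ) + k * l := by exact_mod_cast hk
  simp only [ZMod.natCast_val] at hk'
  ext i j
  fin_cases i <;> fin_cases j <;>
    simp [h30_upper, h30_E, hl, Matrix.mul_apply, Fin.sum_univ_two]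
  linarith

variable (N : ℕ)

/-! #### `U_q` -/

theorem h30_ex_U (q : ℕ) [NeZero q] (hqN : q ∣ N) :
    h30_Ex N (fun x : ZMod q => ModularForm.heckeMatrix q x.val) := by
  intro γ x
  have hcN : (N : ℤ) ∣ (γ : SL(2, ℤ)) 1 0 :=
    (ZMod.intCast_zmod_eq_zero_iff_dvd _ _).mp (Gamma0_mem.mp γ.2)
  have hc : (q : ℤ) ∣ (γ : SL(2, ℤ)) 1 0 := (Int.natCast_dvd_natCast.mpr hqN).trans hcN
  obtain ⟨g', hg', hmul⟩ := heckeMatrix_mul_of_dvd (γ : SL(2, ℤ)) hc x
  refine ⟨⟨g', ?_⟩, _, hmul⟩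
  rw [Gamma0_mem, hg']
  push_cast
  rw [Gamma0_mem.mp γ.2, mul_zero]

theorem h30_inj_U (q : ℕ) [NeZero q] :
    h30_Inj (fun x : ZMod q => ModularForm.heckeMatrix q x.val) := by
  rintro x y ⟨δ, h⟩
  have h1 := h30_heckeMatrix_eq (NeZero.ne q) h
  have h2 : (((x.val : ℤ) - y.val : ℤ) : ZMod q) = 0 :=
    (ZMod.intCast_zmod_eq_zero_iff_dvd _ _).mpr h1
  push_cast at h2
  rw [ZMod.natCast_zmod_val, ZMod.natCast_zmod_val] at h2
  exact sub_eq_zero.mp h2

theorem h30_sym_U (q : ℕ) [NeZero q] (x : ZMod q) :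
    ∃ (t : Gamma0 N) (x' : ZMod q), h30_E * ModularForm.heckeMatrix q x.val * h30_E =
      mapGL ℝ (t : SL(2, ℤ)) * ModularForm.heckeMatrix q x'.val := by
  obtain ⟨t, ht⟩ := h30_E_heckeMatrix_E N x
  exact ⟨t, -x, ht⟩

/-- The operator `U_q` (`q ∣ N`) on `Hom(Γ₀(N), A)`. -/
noncomputable def h30_heckeU (q : ℕ) [NeZero q] (hqN : q ∣ N) {A : Type*} [AddCommGroup A] :
    (Additive (Gamma0 N) →+ A) →+ (Additive (Gamma0 N) →+ A) :=
  h30_hecke (h30_ex_U N q hqN) (h30_inj_U q)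

/-! #### `T_ℓ` -/

theorem h30_ex_T (l : ℕ) [Fact l.Prime] (hlN : ¬ l ∣ N) : h30_Ex N (heckeRep l) := by
  intro γ x
  have hcN : (N : ℤ) ∣ (γ : SL(2, ℤ)) 1 0 :=
    (ZMod.intCast_zmod_eq_zero_iff_dvd _ _).mp (Gamma0_mem.mp γ.2)
  obtain ⟨g', hg', hmul⟩ := heckeRep_mul hlN (γ : SL(2, ℤ)) hcN x
  exact ⟨⟨g', Gamma0_mem.mpr ((ZMod.intCast_zmod_eq_zero_iff_dvd _ _).mpr hg')⟩, _, hmul⟩

theorem h30_inj_T (l : ℕ) [Fact l.Prime] : h30_Inj (heckeRep l) := by
  have hl2 : 2 ≤ l := (Fact.out : l.Prime).two_le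
  rintro x y ⟨δ, h⟩
  induction x using OnePoint.rec with
  | infty =>
    induction y using OnePoint.rec with
    | infty => rfl
    | coe b => exact absurd h (h30_diag_ne_heckeMatrix hl2 _ δ)
  | coe a =>
    induction y using OnePoint.rec with
    | infty => exact absurd h (h30_heckeMatrix_ne_diag hl2 _ δ)
    | coe b =>
      have h1 := h30_heckeMatrix_eq (by omega : l ≠ 0) h
      have h2 : (((a.val : ℤ) - b.val : ℤ) : ZMod l) = 0 :=
        (ZMod.intCast_zmod_eq_zero_iff_dvd _ _).mpr h1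
      push_cast at h2
      rw [ZMod.natCast_zmod_val, ZMod.natCast_zmod_val] at h2
      rw [sub_eq_zero.mp h2]

theorem h30_sym_T (l : ℕ) [Fact l.Prime] (x : OnePoint (ZMod l)) :
    ∃ (t : Gamma0 N) (x' : OnePoint (ZMod l)), h30_E * heckeRep l x * h30_E =
      mapGL ℝ (t : SL(2, ℤ)) * heckeRep l x' := by
  have hl : l ≠ 0 := (Fact.out : l.Prime).ne_zero
  induction x using OnePoint.rec with
  | infty =>
    refine ⟨1, OnePoint.infty, ?_⟩
    rw [OneMemClass.coe_one, map_one, one_mul]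
    ext i j
    fin_cases i <;> fin_cases j <;>
      simp [h30_E, hl, Matrix.mul_apply, Fin.sum_univ_two]
  | coe a =>
    obtain ⟨t, ht⟩ := h30_E_heckeMatrix_E N a
    exact ⟨t, ((-a : ZMod l) : OnePoint (ZMod l)), ht⟩

/-- The operator `T_ℓ` (`ℓ ∤ N`) on `Hom(Γ₀(N), A)`. -/
noncomputable def h30_heckeT (l : ℕ) [Fact l.Prime] (hlN : ¬ l ∣ N) {A : Type*}
    [AddCommGroup A] : (Additive (Gamma0 N) →+ A) →+ (Additive (Gamma0 N) →+ A) :=
  h30_hecke (h30_ex_T N l hlN) (h30_inj_T l)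

/-! #### User-facing forms -/

variable {N} {A : Type*} [AddCommGroup A]

theorem h30_heckeT_apply_of (l : ℕ) [Fact l.Prime] (hlN : ¬ l ∣ N)
    (ψ : Additive (Gamma0 N) →+ A) (γ : Gamma0 N) (γ' : OnePoint (ZMod l) → Gamma0 N)
    (y : OnePoint (ZMod l) → OnePoint (ZMod l))
    (h : ∀ x, heckeRep l x * mapGL ℝ (γ : SL(2, ℤ)) =
      mapGL ℝ (γ' x : SL(2, ℤ)) * heckeRep l (y x)) :
    h30_heckeT N l hlN ψ (Additive.ofMul γ) = ∑ x, ψ (Additive.ofMul (γ' x)) :=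
  h30_hecke_apply_of _ _ ψ γ γ' y h

/-- A decomposition always exists; the index map is a permutation. -/
theorem h30_heckeT_exists (l : ℕ) [Fact l.Prime] (hlN : ¬ l ∣ N) (γ : Gamma0 N) :
    ∃ (γ' : OnePoint (ZMod l) → Gamma0 N) (y : Equiv.Perm (OnePoint (ZMod l))),
      (∀ x, heckeRep l x * mapGL ℝ (γ : SL(2, ℤ)) =
        mapGL ℝ (γ' x : SL(2, ℤ)) * heckeRep l (y x)) ∧
      ∀ (B : Type*) [AddCommGroup B] (ψ : Additive (Gamma0 N) →+ B),
        h30_heckeT N l hlN ψ (Additive.ofMul γ) = ∑ x, ψ (Additive.ofMul (γ' x)) :=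
  ⟨h30_step (h30_ex_T N l hlN) γ, h30_idxEquiv (h30_ex_T N l hlN) (h30_inj_T l) γ,
    fun x => h30_step_spec (h30_ex_T N l hlN) γ x, fun _ _ _ => rfl⟩

theorem h30_heckeT_comp {B : Type*} [AddCommGroup B] (l : ℕ) [Fact l.Prime] (hlN : ¬ l ∣ N)
    (g : A →+ B) (ψ : Additive (Gamma0 N) →+ A) :
    h30_heckeT N l hlN (g.comp ψ) = g.comp (h30_heckeT N l hlN ψ) :=
  h30_hecke_comp _ _ g ψ

theorem h30_heckeT_charInvolution (R : Type*) [Semiring R] [Module R A] (l : ℕ) [Fact l.Prime]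
    (hlN : ¬ l ∣ N) (ψ : Additive (Gamma0 N) →+ A) :
    h30_heckeT N l hlN (charInvolution N R A ψ) =
      charInvolution N R A (h30_heckeT N l hlN ψ) :=
  h30_hecke_charInvolution R _ _ (h30_sym_T N l) ψ

theorem h30_heckeU_apply_of (q : ℕ) [NeZero q] (hqN : q ∣ N)
    (ψ : Additive (Gamma0 N) →+ A) (γ : Gamma0 N) (γ' : ZMod q → Gamma0 N)
    (y : ZMod q → ZMod q)
    (h : ∀ x : ZMod q, ModularForm.heckeMatrix q x.val * mapGL ℝ (γ : SL(2, ℤ)) =
      mapGL ℝ (γ' x : SL(2, ℤ)) * ModularForm.heckeMatrix q (y x).val) :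
    h30_heckeU N q hqN ψ (Additive.ofMul γ) = ∑ x, ψ (Additive.ofMul (γ' x)) :=
  h30_hecke_apply_of _ _ ψ γ γ' y h

/-- A decomposition always exists; the index map is a permutation. -/
theorem h30_heckeU_exists (q : ℕ) [NeZero q] (hqN : q ∣ N) (γ : Gamma0 N) :
    ∃ (γ' : ZMod q → Gamma0 N) (y : Equiv.Perm (ZMod q)),
      (∀ x : ZMod q, ModularForm.heckeMatrix q x.val * mapGL ℝ (γ : SL(2, ℤ)) =
        mapGL ℝ (γ' x : SL(2, ℤ)) * ModularForm.heckeMatrix q (y x).val) ∧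
      ∀ (B : Type*) [AddCommGroup B] (ψ : Additive (Gamma0 N) →+ B),
        h30_heckeU N q hqN ψ (Additive.ofMul γ) = ∑ x, ψ (Additive.ofMul (γ' x)) :=
  ⟨h30_step (h30_ex_U N q hqN) γ, h30_idxEquiv (h30_ex_U N q hqN) (h30_inj_U q) γ,
    fun x => h30_step_spec (h30_ex_U N q hqN) γ x, fun _ _ _ => rfl⟩

theorem h30_heckeU_comp {B : Type*} [AddCommGroup B] (q : ℕ) [NeZero q] (hqN : q ∣ N)
    (g : A →+ B) (ψ : Additive (Gamma0 N) →+ A) :
    h30_heckeU N q hqN (g.comp ψ) = g.comp (h30_heckeU N q hqN ψ) :=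
  h30_hecke_comp _ _ g ψ

theorem h30_heckeU_charInvolution (R : Type*) [Semiring R] [Module R A] (q : ℕ) [NeZero q]
    (hqN : q ∣ N) (ψ : Additive (Gamma0 N) →+ A) :
    h30_heckeU N q hqN (charInvolution N R A ψ) =
      charInvolution N R A (h30_heckeU N q hqN ψ) :=
  h30_hecke_charInvolution R _ _ (h30_sym_U N q) ψ

end Concrete

end Fermat.Agent.S16
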