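import Mathlib
import Fermat.Prelude.Def_ModularCurve_PeriodHomPair
import Fermat.Prelude.Def_CuspForm_HeckeAlgebra
import Fermat.Agent.S22.Eichler
import Fermat.Agent.S22.EichlerHecke
import Fermat.Agent.S22.SmallWeight
import Fermat.Agent.S21.h58_Prim
import Fermat.Agent.S21.h58_Parabolic
import Fermat.Agent.S16.h30_HeckeHom

/-!
# S16, block PER-HECKE (2): the period map is Hecke-equivariant

`periodMap N (T_ℓ f) = h30_heckeT N ℓ (periodMap N f)` and the same for `U_q`, for the prelude
period map of weight-2 cusp forms on `Γ₀(N)` and the algebraic Hecke operators of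
`h30_HeckeHom`.
-/

set_option autoImplicit false

namespace Fermat.Agent.S16

open UpperHalfPlane Derivative CongruenceSubgroup Matrix.SpecialLinearGroup ModularCurve.Period
open scoped MatrixGroups ModularForm Manifold Real
open Fermat.Agent.S22 Fermat.Agent.S21
open P2MW.S_ModularForm_heckeT_slash_eq_self_of_mem_Gamma0.ModularForm.HeckeSlashInvariance

variable {N : ℕ} [NeZero N]

/-- The canonical primitive is the normalised Eichler integral of weight `2`. -/
theorem h30_F_eq_eichler (f : CuspForm (Gamma0 N) 2) :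
    h58_F f = (2 * π * Complex.I)⁻¹ • eichler 0 ⇑f := by
  have hf := isCuspPer_of_cuspForm f
  have hE := eichler_isCuspPer 0 hf
  refine eq_of_iterate_D_eq 1 (h58_F_isCuspPer f) (hE.smul _) ?_
  rw [iterate_D_smul 1 _ hE.mdiff, iterate_D_eichler 0 hf]
  exact h58_F_D f

/-- The primitive of `T_ℓ f`. -/
theorem h30_F_heckeT (l : ℕ) [Fact l.Prime] (hlN : ¬ l ∣ N) (f : CuspForm (Gamma0 N) 2)
    (z : ℍ) :
    h58_F (CuspForm.heckeTLin 2 (Fact.out : l.Prime) hlN f) z =
      ∑ x : OnePoint (ZMod l), h58_F f (heckeRep l x • z) := by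
  have hl : l.Prime := Fact.out
  have hl0 : l ≠ 0 := hl.ne_zero
  have hlC : (l : ℂ) ≠ 0 := Nat.cast_ne_zero.mpr hl0
  have hf := isCuspPer_of_cuspForm f
  have hTf : IsCuspPer 1 (ModularForm.heckeT (((0 : ℕ) : ℤ) + 2) l ⇑f) := by
    have h := isCuspPer_of_cuspForm (CuspForm.heckeTLin 2 hl hlN f)
    rw [CuspForm.coe_heckeTLin_apply] at h
    simpa using h
  have key := eichler_heckeT 0 hl0 hf hTf
  simp only [Nat.cast_zero, zero_add, neg_zero, pow_one] at key
  rw [h30_F_eq_eichler, h30_F_eq_eichler, CuspForm.coe_heckeTLin_apply, key,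
    heckeT_eq_sum_onePoint]
  simp only [Pi.smul_apply, Finset.sum_apply, smul_eq_mul, Finset.mul_sum]
  refine Finset.sum_congr rfl fun x _ => ?_
  induction x using OnePoint.rec with
  | infty =>
    rw [heckeRep_infty, ModularForm.slash_heckeDiagMatrix_apply 0 hl0]
    have : (l : ℂ) ^ ((0 : ℤ) - 1) = (l : ℂ)⁻¹ := by
      rw [zero_sub, zpow_neg_one]
    rw [this]
    field_simp
  | coe j =>
    rw [heckeRep_coe, ModularForm.slash_heckeMatrix_apply 0 hl0]
    field_simp

/-- The primitive of `U_q f`. -/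
theorem h30_F_heckeU {q : ℕ} [NeZero q] (hqN : q ∣ N) (f : CuspForm (Gamma0 N) 2) (z : ℍ) :
    h58_F (CuspForm.heckeULin 2 hqN f) z =
      ∑ x : ZMod q, h58_F f (ModularForm.heckeMatrix q x.val • z) := by
  have hq0 : q ≠ 0 := NeZero.ne q
  have hqC : (q : ℂ) ≠ 0 := Nat.cast_ne_zero.mpr hq0
  have hf := isCuspPer_of_cuspForm f
  have hUf : IsCuspPer 1 (ModularForm.heckeU (((0 : ℕ) : ℤ) + 2) q ⇑f) := by
    have h := isCuspPer_of_cuspForm (CuspForm.heckeULin 2 hqN f)
    rw [CuspForm.coe_heckeULin_apply] at h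
    simpa using h
  have key := eichler_heckeU 0 hq0 hf hUf
  simp only [Nat.cast_zero, zero_add, neg_zero, pow_one] at key
  rw [h30_F_eq_eichler, h30_F_eq_eichler, CuspForm.coe_heckeULin_apply, key,
    heckeU_eq_sum_zmod]
  simp only [Pi.smul_apply, Finset.sum_apply, smul_eq_mul, Finset.mul_sum]
  refine Finset.sum_congr rfl fun x _ => ?_
  rw [ModularForm.slash_heckeMatrix_apply 0 hq0]
  field_simp

theorem h30_sl_smul (γ : SL(2, ℤ)) (z : ℍ) : γ • z = mapGL ℝ γ • z := rfl

/-- Equivariance of the period map for a general family of representatives. -/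
theorem h30_periodMap_hecke {ι : Type*} [Fintype ι] {α : ι → GL (Fin 2) ℝ}
    (hex : h30_Ex N α) (hinj : h30_Inj α) (f f' : CuspForm (Gamma0 N) 2)
    (hF : ∀ z : ℍ, h58_F f' z = ∑ x, h58_F f (α x • z)) :
    ModularCurve.periodMap N f' = h30_hecke hex hinj (ModularCurve.periodMap N f) := by
  refine AddMonoidHom.ext fun γa => ?_
  obtain ⟨γ, rfl⟩ : ∃ γ : Gamma0 N, Additive.ofMul γ = γa := ⟨Additive.toMul γa, rfl⟩
  rw [h58_periodMap_apply f' γ UpperHalfPlane.I, hF, hF, h30_hecke_apply,
    ← Equiv.sum_comp (h30_idxEquiv hex hinj γ) (fun x => h58_F f (α x • UpperHalfPlane.I)),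
    ← Finset.sum_sub_distrib]
  refine Finset.sum_congr rfl fun x _ => ?_
  rw [h58_periodMap_apply f (h30_step hex γ x) (α (h30_idx hex γ x) • UpperHalfPlane.I),
    h30_idxEquiv_apply]
  congr 2
  rw [h30_sl_smul, h30_sl_smul, ← mul_smul, ← mul_smul, h30_step_spec hex γ x]

/-- **Hecke equivariance of the period map, `T_ℓ`.** -/
theorem h30_periodMap_heckeT (l : ℕ) [Fact l.Prime] (hlN : ¬ l ∣ N)
    (f : CuspForm (Gamma0 N) 2) :
    ModularCurve.periodMap N (CuspForm.heckeTLin 2 (Fact.out : l.Prime) hlN f) =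
      h30_heckeT N l hlN (ModularCurve.periodMap N f) :=
  h30_periodMap_hecke _ _ f _ (h30_F_heckeT l hlN f)

/-- **Hecke equivariance of the period map, `U_q`.** -/
theorem h30_periodMap_heckeU (q : ℕ) [NeZero q] (hqN : q ∣ N) (f : CuspForm (Gamma0 N) 2) :
    ModularCurve.periodMap N (CuspForm.heckeULin 2 hqN f) =
      h30_heckeU N q hqN (ModularCurve.periodMap N f) :=
  h30_periodMap_hecke _ _ f _ (h30_F_heckeU hqN f)

/-- Hecke equivariance of the period pairing, `T_ℓ`. -/
theorem h30_periodHomPair_heckeT (l : ℕ) [Fact l.Prime] (hlN : ¬ l ∣ N)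
    (f g : CuspForm (Gamma0 N) 2) :
    ModularCurve.periodHomPair N (CuspForm.heckeTLin 2 (Fact.out : l.Prime) hlN f,
        CuspForm.heckeTLin 2 (Fact.out : l.Prime) hlN g) =
      h30_heckeT N l hlN (ModularCurve.periodHomPair N (f, g)) := by
  rw [h58_periodHomPair_apply, h58_periodHomPair_apply, h30_periodMap_heckeT,
    h30_periodMap_heckeT, map_add, map_add, map_sub, h30_heckeT_charInvolution,
    h30_heckeT_charInvolution]

/-- Hecke equivariance of the period pairing, `U_q`. -/
theorem h30_periodHomPair_heckeU (q : ℕ) [NeZero q] (hqN : q ∣ N)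
    (f g : CuspForm (Gamma0 N) 2) :
    ModularCurve.periodHomPair N (CuspForm.heckeULin 2 hqN f, CuspForm.heckeULin 2 hqN g) =
      h30_heckeU N q hqN (ModularCurve.periodHomPair N (f, g)) := by
  rw [h58_periodHomPair_apply, h58_periodHomPair_apply, h30_periodMap_heckeU,
    h30_periodMap_heckeU, map_add, map_add, map_sub, h30_heckeU_charInvolution,
    h30_heckeU_charInvolution]

end Fermat.Agent.S16
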