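import Mathlib
import Fermat.Prelude.Def_CuspForm_HeckeLocal
import Fermat.Prelude.Def_CuspForm_HeckeEvalForms
import Fermat.Prelude.Def_HeckeGalois_EichlerShimura
import Fermat.Prelude.Def_ModularCurve_ModularUnit
import Fermat.Agent.S49.Coeff

set_option autoImplicit false
set_option linter.unusedSectionVars false

/-!
# S16: algebraic reduction of the Eisenstein-ideal index to two q-expansion statements

`T/I·T` (level `p`, weight 2) is `ℤ/m` where `m` is the largest modulus for which the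
Eisenstein series `δ = ∑ σ'(n) qⁿ` is congruent to an integral cusp form.  This file reduces
the frozen statement S16 to

* `hU`: an integral cusp form congruent to `δ` modulo `m` forces `m ∣ n`,
* `hL`: there is an integral cusp form congruent to `δ` modulo `n`,

where `n = eisensteinNumerator p`.
-/

namespace Fermat.Agent.S16

open ModularCurve CuspForm CongruenceSubgroup ModularFormClass Fermat.Agent.S49

noncomputable section

/-- `σ'(n)`: the sum of the divisors of `n` prime to `p`. -/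
def h60_sp (p n : ℕ) : ℕ := ∑ d ∈ n.divisors.filter (fun d => ¬ p ∣ d), d

/-- `f` is an integral cusp form congruent to the Eisenstein series `δ` modulo `m`. -/
def h60_Cong (p m : ℕ) (f : CuspForm (Gamma0 p) 2) : Prop :=
  f ∈ CuspForm.intLattice p 2 ∧
    ∀ n : ℕ, 0 < n → ∃ c : ℤ, qCoeff f n = (h60_sp p n : ℂ) + (m : ℂ) * (c : ℂ)

theorem h60_sp_one (p : ℕ) (hp : p.Prime) : h60_sp p 1 = 1 := by
  unfold h60_sp
  rw [Nat.divisors_one, Finset.filter_singleton, if_pos (by simpa using hp.one_lt.ne'),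
    Finset.sum_singleton]

theorem h60_sp_mul_self (p : ℕ) (hp : p.Prime) (n : ℕ) : h60_sp p (n * p) = h60_sp p n := by
  unfold h60_sp
  congr 1
  ext d
  simp only [Finset.mem_filter, Nat.mem_divisors]
  constructor
  · rintro ⟨⟨hd, hne⟩, hpd⟩
    have hn : n ≠ 0 := by
      rintro rfl
      simp at hne
    refine ⟨⟨?_, hn⟩, hpd⟩
    exact Nat.Coprime.dvd_of_dvd_mul_right ((Nat.Prime.coprime_iff_not_dvd hp).mpr hpd).symm hd
  · rintro ⟨⟨hd, hne⟩, hpd⟩
    exact ⟨⟨hd.mul_right p, mul_ne_zero hne hp.ne_zero⟩, hpd⟩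

theorem h60_sp_mul_prime (p : ℕ) (hp : p.Prime) (ℓ : ℕ) (hℓ : ℓ.Prime) (hℓp : ℓ ≠ p) (n : ℕ)
    (hn : 0 < n) :
    h60_sp p (n * ℓ) + (if ℓ ∣ n then ℓ * h60_sp p (n / ℓ) else 0) = (1 + ℓ) * h60_sp p n := by
  classical
  have hpℓ : ∀ d : ℕ, ¬ p ∣ d → ¬ p ∣ ℓ * d := by
    intro d hd h
    rcases hp.dvd_mul.mp h with h | h
    · exact hℓp ((Nat.prime_dvd_prime_iff_eq hp hℓ).mp h).symm
    · exact hd h
  set A := n.divisors.filter (fun d => ¬ p ∣ d) with hA
  set B := A.image (fun d => ℓ * d) with hB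
  have hinj : Function.Injective (fun d : ℕ => ℓ * d) :=
    fun a b h => Nat.eq_of_mul_eq_mul_left hℓ.pos h
  have h1 : A ∪ B = (n * ℓ).divisors.filter (fun d => ¬ p ∣ d) := by
    ext e
    simp only [hA, hB, Finset.mem_union, Finset.mem_filter, Nat.mem_divisors, Finset.mem_image]
    constructor
    · rintro (⟨⟨he, hne⟩, hpe⟩ | ⟨d, ⟨⟨hd, hne⟩, hpd⟩, rfl⟩)
      · exact ⟨⟨he.mul_right ℓ, mul_ne_zero hne hℓ.ne_zero⟩, hpe⟩
      · exact ⟨⟨by rw [mul_comm n ℓ]; exact Nat.mul_dvd_mul_left ℓ hd,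
          mul_ne_zero hne hℓ.ne_zero⟩, hpℓ d hpd⟩
    · rintro ⟨⟨he, hne⟩, hpe⟩
      by_cases hen : e ∣ n
      · exact Or.inl ⟨⟨hen, hn.ne'⟩, hpe⟩
      · right
        have hℓe : ℓ ∣ e := by
          by_contra hℓe
          exact hen (Nat.Coprime.dvd_of_dvd_mul_right
            ((Nat.Prime.coprime_iff_not_dvd hℓ).mpr hℓe).symm he)
        obtain ⟨d, rfl⟩ := hℓe
        refine ⟨d, ⟨⟨?_, hn.ne'⟩, fun h => hpe (h.mul_left ℓ)⟩, rfl⟩
        rw [mul_comm n ℓ] at he
        exact (Nat.mul_dvd_mul_iff_left hℓ.pos).mp he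
  have h2 : A ∩ B = if ℓ ∣ n then ((n / ℓ).divisors.filter (fun d => ¬ p ∣ d)).image
      (fun d => ℓ * d) else ∅ := by
    ext e
    simp only [hA, hB, Finset.mem_inter, Finset.mem_filter, Nat.mem_divisors, Finset.mem_image]
    constructor
    · rintro ⟨⟨⟨he, _⟩, hpe⟩, ⟨d, ⟨⟨hd, _⟩, hpd⟩, rfl⟩⟩
      have hℓn : ℓ ∣ n := (Dvd.intro d rfl).trans he
      rw [if_pos hℓn]
      simp only [Finset.mem_image, Finset.mem_filter, Nat.mem_divisors]
      refine ⟨d, ⟨⟨Nat.dvd_div_of_mul_dvd he, ?_⟩, hpd⟩, rfl⟩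
      exact (Nat.div_pos (Nat.le_of_dvd hn hℓn) hℓ.pos).ne'
    · intro he
      by_cases hℓn : ℓ ∣ n
      · rw [if_pos hℓn] at he
        simp only [Finset.mem_image, Finset.mem_filter, Nat.mem_divisors] at he
        obtain ⟨d, ⟨⟨hd, _⟩, hpd⟩, rfl⟩ := he
        have hd' : ℓ * d ∣ n := Nat.mul_dvd_of_dvd_div hℓn hd
        exact ⟨⟨⟨hd', hn.ne'⟩, hpℓ d hpd⟩,
          ⟨d, ⟨⟨(Dvd.intro_left ℓ rfl).trans hd', hn.ne'⟩, hpd⟩, rfl⟩⟩
      · rw [if_neg hℓn] at he
        simp at he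
  have h3 : ∑ d ∈ B, d = ℓ * ∑ d ∈ A, d := by
    rw [hB, Finset.sum_image (fun a _ b _ h => hinj h), Finset.mul_sum]
  have h4 : ∑ d ∈ A ∩ B, d = if ℓ ∣ n then ℓ * h60_sp p (n / ℓ) else 0 := by
    rw [h2]
    split_ifs with h
    · rw [Finset.sum_image (fun a _ b _ h => hinj h), ← Finset.mul_sum]
      rfl
    · simp
  have h5 := Finset.sum_union_inter (s₁ := A) (s₂ := B) (f := fun d : ℕ => d)
  rw [h1, h3, h4] at h5
  have h6 : h60_sp p (n * ℓ) + (if ℓ ∣ n then ℓ * h60_sp p (n / ℓ) else 0)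
      = ∑ x ∈ A, x + ℓ * ∑ d ∈ A, d := h5
  rw [h6]
  show ∑ x ∈ A, x + ℓ * ∑ d ∈ A, d = (1 + ℓ) * ∑ d ∈ A, d
  ring

variable (p : ℕ) [Fact p.Prime]

/-- The Eisenstein evaluation `X_ℓ ↦ 1 + ℓ` (`ℓ ≠ p`), `X_p ↦ 1`. -/
def h60_ev : HeckeAlg →ₐ[ℤ] ℤ := MvPolynomial.aeval (eisensteinSystem p)

theorem h60_eisensteinIdeal_eq : eisensteinIdeal p = RingHom.ker (h60_ev p).toRingHom := rfl

theorem h60_mem_eisensteinIdeal (t : HeckeAlg) : t ∈ eisensteinIdeal p ↔ h60_ev p t = 0 :=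
  Iff.rfl

/-- action of the abstract Hecke algebra on weight 2 cusp forms of level `p` -/
def h60_act (t : HeckeAlg) : Module.End ℂ (CuspForm (Gamma0 p) 2) :=
  ((heckeEvalForms p 2 t : heckeAlgebra p 2 ∅) : Module.End ℂ (CuspForm (Gamma0 p) 2))

theorem h60_act_mul (t t' : HeckeAlg) (g : CuspForm (Gamma0 p) 2) :
    h60_act p (t * t') g = h60_act p t (h60_act p t' g) := by
  unfold h60_act
  rw [map_mul]
  rfl

theorem h60_act_add (t t' : HeckeAlg) (g : CuspForm (Gamma0 p) 2) :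
    h60_act p (t + t') g = h60_act p t g + h60_act p t' g := by
  unfold h60_act
  rw [map_add]
  rfl

theorem h60_act_C (a : ℤ) (g : CuspForm (Gamma0 p) 2) :
    h60_act p (MvPolynomial.C a) g = (a : ℂ) • g := by
  unfold h60_act
  rw [heckeEvalForms_C, Subalgebra.coe_algebraMap, Module.algebraMap_end_apply,
    Int.cast_smul_eq_zsmul]

theorem h60_act_one (g : CuspForm (Gamma0 p) 2) : h60_act p 1 g = g := by
  unfold h60_act
  rw [map_one]
  rfl

theorem h60_qc_act_X (ℓ : Nat.Primes) (g : CuspForm (Gamma0 p) 2) (n : ℕ) :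
    qCoeff (h60_act p (MvPolynomial.X ℓ) g) n =
      qCoeff g (n * ℓ) + (if (ℓ : ℕ) ∣ p then 0 else
        if (ℓ : ℕ) ∣ n then (ℓ : ℂ) * qCoeff g (n / ℓ) else 0) := by
  by_cases h : (ℓ : ℕ) ∣ p
  · rw [if_pos h, add_zero]
    unfold h60_act
    rw [show (MvPolynomial.X ℓ : HeckeAlg) = heckeGen ℓ from rfl,
      heckeEvalForms_heckeGen_of_dvd h, heckeAlgebra.coe_U]
    exact qc_heckeU ℓ.2 h g n
  · rw [if_neg h]
    unfold h60_act
    rw [show (MvPolynomial.X ℓ : HeckeAlg) = heckeGen ℓ from rfl,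
      heckeEvalForms_heckeGen_of_not_dvd h, heckeAlgebra.coe_T]
    exact qc_heckeT ℓ.2 h g n

theorem h60_ev_X (ℓ : Nat.Primes) :
    h60_ev p (MvPolynomial.X ℓ) = if (ℓ : ℕ) ∣ p then 1 else 1 + (ℓ : ℤ) := by
  unfold h60_ev
  rw [MvPolynomial.aeval_X]
  rfl

/-- The key `σ'`-identity in the shape matching `h60_qc_act_X` and `h60_ev_X`. -/
theorem h60_sp_rec (ℓ : Nat.Primes) (n : ℕ) (hn : 0 < n) :
    ((h60_sp p (n * ℓ) : ℤ) + (if (ℓ : ℕ) ∣ p then 0 else
        if (ℓ : ℕ) ∣ n then (ℓ : ℤ) * (h60_sp p (n / ℓ) : ℤ) else 0))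
      = (if (ℓ : ℕ) ∣ p then 1 else 1 + (ℓ : ℤ)) * (h60_sp p n : ℤ) := by
  have hp : p.Prime := Fact.out
  by_cases h : (ℓ : ℕ) ∣ p
  · have hℓp : (ℓ : ℕ) = p := (Nat.prime_dvd_prime_iff_eq ℓ.2 hp).mp h
    rw [if_pos h, if_pos h, add_zero, one_mul, hℓp, h60_sp_mul_self p hp]
  · have hℓp : (ℓ : ℕ) ≠ p := fun e => h (e ▸ dvd_rfl)
    rw [if_neg h, if_neg h]
    have := h60_sp_mul_prime p hp ℓ ℓ.2 hℓp n hn
    have h2 : ((h60_sp p (n * ℓ) + (if (ℓ : ℕ) ∣ n then (ℓ : ℕ) * h60_sp p (n / ℓ) else 0) : ℕ) : ℤ)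
        = (((1 + (ℓ : ℕ)) * h60_sp p n : ℕ) : ℤ) := by rw [this]
    rw [← (by push_cast; ring : (((1 + (ℓ : ℕ)) * h60_sp p n : ℕ) : ℤ)
      = (1 + (ℓ : ℤ)) * (h60_sp p n : ℤ)), ← h2]
    push_cast
    split_ifs <;> simp

theorem h60_act_sub (t t' : HeckeAlg) (g : CuspForm (Gamma0 p) 2) :
    h60_act p (t - t') g = h60_act p t g - h60_act p t' g := by
  unfold h60_act
  rw [map_sub]
  rfl

theorem h60_ev_C (a : ℤ) : h60_ev p (MvPolynomial.C a) = a := by
  unfold h60_ev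
  rw [MvPolynomial.aeval_C]
  rfl

/-- `g ≡ c·δ mod m` on the positive coefficients. -/
def h60_IsEis (m : ℕ) (c : ℤ) (g : CuspForm (Gamma0 p) 2) : Prop :=
  ∀ n : ℕ, 0 < n → ∃ z : ℤ, qCoeff g n = (c : ℂ) * (h60_sp p n : ℂ) + (m : ℂ) * (z : ℂ)

theorem h60_isEis_act_X (m : ℕ) (ℓ : Nat.Primes) (c : ℤ) (g : CuspForm (Gamma0 p) 2)
    (hg : h60_IsEis p m c g) :
    h60_IsEis p m (c * h60_ev p (MvPolynomial.X ℓ)) (h60_act p (MvPolynomial.X ℓ) g) := by
  intro n hn
  rw [h60_qc_act_X, h60_ev_X]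
  obtain ⟨z₁, hz₁⟩ := hg (n * ℓ) (Nat.mul_pos hn ℓ.2.pos)
  have key := h60_sp_rec p ℓ n hn
  by_cases h : (ℓ : ℕ) ∣ p
  · rw [if_pos h, if_pos h, add_zero, one_mul] at key
    rw [if_pos h, if_pos h, add_zero, mul_one]
    refine ⟨z₁, ?_⟩
    have keyC : ((h60_sp p (n * ℓ) : ℕ) : ℂ) = ((h60_sp p n : ℕ) : ℂ) := by exact_mod_cast key
    rw [hz₁, keyC]
  · by_cases h' : (ℓ : ℕ) ∣ n
    · rw [if_neg h, if_neg h, if_pos h'] at key
      rw [if_neg h, if_neg h, if_pos h']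
      obtain ⟨z₂, hz₂⟩ := hg (n / ℓ) (Nat.div_pos (Nat.le_of_dvd hn h') ℓ.2.pos)
      refine ⟨z₁ + ℓ * z₂, ?_⟩
      have keyC : ((h60_sp p (n * ℓ) : ℕ) : ℂ) + (ℓ : ℂ) * ((h60_sp p (n / ℓ) : ℕ) : ℂ)
          = (1 + (ℓ : ℂ)) * ((h60_sp p n : ℕ) : ℂ) := by exact_mod_cast key
      rw [hz₁, hz₂]
      push_cast
      linear_combination (c : ℂ) * keyC
    · rw [if_neg h, if_neg h, if_neg h', add_zero] at key
      rw [if_neg h, if_neg h, if_neg h', add_zero]
      refine ⟨z₁, ?_⟩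
      have keyC : ((h60_sp p (n * ℓ) : ℕ) : ℂ) = (1 + (ℓ : ℂ)) * ((h60_sp p n : ℕ) : ℂ) := by
        exact_mod_cast key
      rw [hz₁]
      push_cast
      linear_combination (c : ℂ) * keyC

/-- an Eisenstein eigenvector modulo `m` is one for the whole abstract Hecke algebra -/
theorem h60_isEis_act (m : ℕ) (t : HeckeAlg) :
    ∀ (c : ℤ) (g : CuspForm (Gamma0 p) 2), h60_IsEis p m c g →
      h60_IsEis p m (c * h60_ev p t) (h60_act p t g) := by
  induction t using MvPolynomial.induction_on with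
  | C a =>
    intro c g hg n hn
    obtain ⟨z, hz⟩ := hg n hn
    refine ⟨a * z, ?_⟩
    rw [h60_act_C, qc_smul, hz, h60_ev_C]
    push_cast
    ring
  | add t t' ht ht' =>
    intro c g hg n hn
    obtain ⟨z, hz⟩ := ht c g hg n hn
    obtain ⟨z', hz'⟩ := ht' c g hg n hn
    refine ⟨z + z', ?_⟩
    rw [h60_act_add, qc_add, hz, hz', map_add]
    push_cast
    ring
  | mul_X t ℓ ht =>
    intro c g hg
    have h1 := ht _ _ (h60_isEis_act_X p m ℓ c g hg)
    rw [h60_act_mul, map_mul]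
    have e : c * (h60_ev p t * h60_ev p (MvPolynomial.X ℓ))
        = c * h60_ev p (MvPolynomial.X ℓ) * h60_ev p t := by ring
    rw [e]
    exact h1

/-- the Hecke operators `T_k`: elements with `a₁(T_k g) = a_k(g)` and Eisenstein value `σ'(k)` -/
theorem h60_exists_Tn (k : ℕ) (hk : 0 < k) :
    ∃ t : HeckeAlg, h60_ev p t = (h60_sp p k : ℤ) ∧
      ∀ g : CuspForm (Gamma0 p) 2, qCoeff (h60_act p t g) 1 = qCoeff g k := by
  induction k using Nat.strong_induction_on with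
  | _ k ih =>
    have hp : p.Prime := Fact.out
    by_cases hk1 : k = 1
    · subst hk1
      refine ⟨1, ?_, fun g => by rw [h60_act_one]⟩
      rw [map_one, h60_sp_one p hp]
      rfl
    · have hℓprime : (k.minFac).Prime := Nat.minFac_prime hk1
      obtain ⟨k', hk'⟩ : ∃ k', k = k' * k.minFac :=
        ⟨k / k.minFac, (Nat.div_mul_cancel (Nat.minFac_dvd k)).symm⟩
      have hk'pos : 0 < k' := by
        rcases Nat.eq_zero_or_pos k' with h | h
        · rw [h, zero_mul] at hk'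
          omega
        · exact h
      have hk'lt : k' < k := by
        calc k' = k' * 1 := (mul_one k').symm
          _ < k' * k.minFac := Nat.mul_lt_mul_of_pos_left hℓprime.one_lt hk'pos
          _ = k := hk'.symm
      obtain ⟨t', het', hact'⟩ := ih k' hk'lt hk'pos
      obtain ⟨L, hL⟩ : ∃ L : Nat.Primes, (L : ℕ) = k.minFac := ⟨⟨k.minFac, hℓprime⟩, rfl⟩
      rw [← hL] at hk'
      have key := h60_sp_rec p L k' hk'pos
      by_cases h : (L : ℕ) ∣ p
      · refine ⟨t' * MvPolynomial.X L, ?_, fun g => ?_⟩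
        · rw [map_mul, het', h60_ev_X, if_pos h, mul_one]
          rw [if_pos h, if_pos h, add_zero, one_mul] at key
          rw [hk']
          exact key.symm
        · rw [h60_act_mul, hact', h60_qc_act_X, if_pos h, add_zero, hk']
      · by_cases h' : (L : ℕ) ∣ k'
        · have hk''lt : k' / L < k := lt_of_le_of_lt (Nat.div_le_self _ _) hk'lt
          have hk''pos : 0 < k' / L := Nat.div_pos (Nat.le_of_dvd hk'pos h') L.2.pos
          obtain ⟨t'', het'', hact''⟩ := ih (k' / L) hk''lt hk''pos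
          refine ⟨t' * MvPolynomial.X L - MvPolynomial.C ((L : ℕ) : ℤ) * t'', ?_, fun g => ?_⟩
          · rw [map_sub, map_mul, map_mul, het', het'', h60_ev_X, if_neg h, h60_ev_C]
            rw [if_neg h, if_neg h, if_pos h'] at key
            rw [hk']
            linear_combination -key
          · rw [h60_act_sub, qc_sub, h60_act_mul, hact', h60_act_mul, h60_act_C, qc_smul, hact'',
              h60_qc_act_X, if_neg h, if_pos h', hk']
            push_cast
            ring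
        · refine ⟨t' * MvPolynomial.X L, ?_, fun g => ?_⟩
          · rw [map_mul, het', h60_ev_X, if_neg h]
            rw [if_neg h, if_neg h, if_neg h', add_zero] at key
            rw [hk']
            linear_combination -key
          · rw [h60_act_mul, hact', h60_qc_act_X, if_neg h, if_neg h', add_zero, hk']

/-! ### The abstract Hecke algebra acting on the integral lattice -/

/-- the surjection of the abstract Hecke algebra onto the lattice Hecke algebra -/
def h60_pi : HeckeAlg →+* ↥(heckeLatticeAlgebra p ∅) :=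
  (latticeRestrictHom p ∅).toRingHom.comp (heckeEvalForms p 2)

theorem h60_pi_apply_coe (t : HeckeAlg) (f : ↥(CuspForm.intLattice p 2)) :
    ((((h60_pi p t : ↥(heckeLatticeAlgebra p ∅)) : Module.End ℤ ↥(CuspForm.intLattice p 2)) f :
      ↥(CuspForm.intLattice p 2)) : CuspForm (Gamma0 p) 2)
      = h60_act p t (f : CuspForm (Gamma0 p) 2) := rfl

theorem h60_heckeEvalForms_surjective : Function.Surjective (heckeEvalForms p 2) := by
  rintro ⟨x, hx⟩
  suffices h : ∃ t : HeckeAlg,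
      ((heckeEvalForms p 2 t : heckeAlgebra p 2 ∅) : Module.End ℂ (CuspForm (Gamma0 p) 2)) = x by
    obtain ⟨t, ht⟩ := h
    exact ⟨t, Subtype.ext ht⟩
  unfold heckeAlgebra at hx
  induction hx using Algebra.adjoin_induction with
  | mem x hx =>
    rcases hx with ⟨ℓ, hℓ, hℓN, -, rfl⟩ | ⟨q, hqN, hq, -, rfl⟩
    · refine ⟨heckeGen ⟨ℓ, hℓ⟩, ?_⟩
      rw [heckeEvalForms_heckeGen_of_not_dvd (ℓ := (⟨ℓ, hℓ⟩ : Nat.Primes)) hℓN]
      rfl
    · refine ⟨heckeGen ⟨q, hq⟩, ?_⟩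
      rw [heckeEvalForms_heckeGen_of_dvd (q := (⟨q, hq⟩ : Nat.Primes)) hqN]
      rfl
  | algebraMap r =>
    refine ⟨MvPolynomial.C r, ?_⟩
    rw [heckeEvalForms_C]
    rfl
  | add x y _ _ hx hy =>
    obtain ⟨t, rfl⟩ := hx
    obtain ⟨t', rfl⟩ := hy
    exact ⟨t + t', by rw [map_add]; rfl⟩
  | mul x y _ _ hx hy =>
    obtain ⟨t, rfl⟩ := hx
    obtain ⟨t', rfl⟩ := hy
    exact ⟨t * t', by rw [map_mul]; rfl⟩

theorem h60_pi_surjective : Function.Surjective (h60_pi p) := by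
  intro T
  obtain ⟨x, rfl⟩ := latticeRestrictHom_surjective p ∅ T
  obtain ⟨t, rfl⟩ := h60_heckeEvalForms_surjective p x
  exact ⟨t, rfl⟩

/-- the integer `n`-th `q`-coefficient of a lattice element -/
def h60_ic (f : ↥(CuspForm.intLattice p 2)) (n : ℕ) : ℤ :=
  Classical.choose ((mem_intLattice_iff (f : CuspForm (Gamma0 p) 2)).mp f.2 n)

theorem h60_ic_spec (f : ↥(CuspForm.intLattice p 2)) (n : ℕ) :
    qCoeff (f : CuspForm (Gamma0 p) 2) n = (h60_ic p f n : ℂ) :=
  Classical.choose_spec ((mem_intLattice_iff (f : CuspForm (Gamma0 p) 2)).mp f.2 n)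

theorem h60_ic_add (f g : ↥(CuspForm.intLattice p 2)) (n : ℕ) :
    h60_ic p (f + g) n = h60_ic p f n + h60_ic p g n := by
  have h : ((h60_ic p (f + g) n : ℤ) : ℂ) = ((h60_ic p f n + h60_ic p g n : ℤ) : ℂ) := by
    rw [← h60_ic_spec, Submodule.coe_add, qc_add, h60_ic_spec, h60_ic_spec]
    push_cast
    rfl
  exact_mod_cast h

theorem h60_ic_smul (a : ℤ) (f : ↥(CuspForm.intLattice p 2)) (n : ℕ) :
    h60_ic p (a • f) n = a * h60_ic p f n := by
  have h : ((h60_ic p (a • f) n : ℤ) : ℂ) = ((a * h60_ic p f n : ℤ) : ℂ) := by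
    rw [← h60_ic_spec, Submodule.coe_smul, ← Int.cast_smul_eq_zsmul ℂ a, qc_smul, h60_ic_spec]
    push_cast
    rfl
  exact_mod_cast h

theorem h60_ic_zero_coeff (f : ↥(CuspForm.intLattice p 2)) : h60_ic p f 0 = 0 := by
  have h : ((h60_ic p f 0 : ℤ) : ℂ) = ((0 : ℤ) : ℂ) := by
    rw [← h60_ic_spec, qc_coeff_zero]
    simp
  exact_mod_cast h

theorem h60_eq_zero_of_ic (f : ↥(CuspForm.intLattice p 2)) (h : ∀ n, 0 < n → h60_ic p f n = 0) :
    f = 0 := by
  apply Subtype.ext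
  apply qc_eq_zero
  intro n
  rw [h60_ic_spec]
  rcases Nat.eq_zero_or_pos n with rfl | hn
  · rw [h60_ic_zero_coeff]
    simp
  · rw [h n hn]
    simp

/-- the pairing `(f, T) ↦ a₁(T f)` -/
def h60_pair : ↥(CuspForm.intLattice p 2) →ₗ[ℤ] (↥(heckeLatticeAlgebra p ∅) →ₗ[ℤ] ℤ) :=
  LinearMap.mk₂ ℤ
    (fun f T => h60_ic p ((T : Module.End ℤ ↥(CuspForm.intLattice p 2)) f) 1)
    (fun f f' T => by rw [map_add, h60_ic_add])
    (fun a f T => by rw [map_smul, h60_ic_smul]; rfl)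
    (fun f T T' => by rw [Subalgebra.coe_add, LinearMap.add_apply, h60_ic_add])
    (fun a f T => by rw [Subalgebra.coe_smul, LinearMap.smul_apply, h60_ic_smul]; rfl)

theorem h60_pair_apply (f : ↥(CuspForm.intLattice p 2)) (T : ↥(heckeLatticeAlgebra p ∅)) :
    h60_pair p f T = h60_ic p ((T : Module.End ℤ ↥(CuspForm.intLattice p 2)) f) 1 := rfl

theorem h60_pair_pi_cast (f : ↥(CuspForm.intLattice p 2)) (t : HeckeAlg) :
    ((h60_pair p f (h60_pi p t) : ℤ) : ℂ) = qCoeff (h60_act p t (f : CuspForm (Gamma0 p) 2)) 1 := by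
  rw [h60_pair_apply, ← h60_ic_spec, h60_pi_apply_coe]

/-- `a_k(f) = ⟨f, T_k⟩` -/
theorem h60_exists_Tn_pair (k : ℕ) (hk : 0 < k) :
    ∃ t : HeckeAlg, h60_ev p t = (h60_sp p k : ℤ) ∧
      ∀ f : ↥(CuspForm.intLattice p 2), h60_pair p f (h60_pi p t) = h60_ic p f k := by
  obtain ⟨t, ht, hact⟩ := h60_exists_Tn p k hk
  refine ⟨t, ht, fun f => ?_⟩
  have h : ((h60_pair p f (h60_pi p t) : ℤ) : ℂ) = ((h60_ic p f k : ℤ) : ℂ) := by
    rw [h60_pair_pi_cast, hact, h60_ic_spec]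
  exact_mod_cast h

theorem h60_pair_injective : Function.Injective (h60_pair p) := by
  rw [injective_iff_map_eq_zero]
  intro f hf
  apply h60_eq_zero_of_ic
  intro k hk
  obtain ⟨t, -, ht⟩ := h60_exists_Tn_pair p k hk
  rw [← ht f, hf]
  rfl

theorem h60_pair_flip_injective : Function.Injective (h60_pair p).flip := by
  rw [injective_iff_map_eq_zero]
  intro T hT
  apply Subtype.ext
  apply LinearMap.ext
  intro f
  rw [ZeroMemClass.coe_zero, LinearMap.zero_apply]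
  apply h60_eq_zero_of_ic
  intro k hk
  obtain ⟨t, -, ht⟩ := h60_exists_Tn_pair p k hk
  rw [← ht, h60_pair_apply]
  have hcomm : h60_pi p t * T = T * h60_pi p t := mul_comm _ _
  have h2 : ((h60_pi p t : ↥(heckeLatticeAlgebra p ∅)) : Module.End ℤ ↥(CuspForm.intLattice p 2))
      ((T : Module.End ℤ ↥(CuspForm.intLattice p 2)) f)
      = (T : Module.End ℤ ↥(CuspForm.intLattice p 2))
        (((h60_pi p t : ↥(heckeLatticeAlgebra p ∅)) : Module.End ℤ ↥(CuspForm.intLattice p 2)) f) := by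
    have := congrArg (fun S : ↥(heckeLatticeAlgebra p ∅) =>
      (S : Module.End ℤ ↥(CuspForm.intLattice p 2)) f) hcomm
    simpa using this
  rw [h2, ← h60_pair_apply]
  have := LinearMap.congr_fun hT
    (((h60_pi p t : ↥(heckeLatticeAlgebra p ∅)) : Module.End ℤ ↥(CuspForm.intLattice p 2)) f)
  simpa using this

/-- **Duality**: every `ℤ`-linear functional on the lattice Hecke algebra is `T ↦ a₁(T f)`. -/
theorem h60_duality (φ : ↥(heckeLatticeAlgebra p ∅) →ₗ[ℤ] ℤ) :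
    ∃ f : ↥(CuspForm.intLattice p 2), h60_pair p f = φ := by
  have := intLattice.moduleFinite p
  have := intLattice.moduleFree p
  -- equality of ranks
  have r1 : Module.finrank ℤ ↥(CuspForm.intLattice p 2) ≤ Module.finrank ℤ ↥(heckeLatticeAlgebra p ∅) := by
    have := LinearMap.finrank_le_finrank_of_injective (h60_pair_injective p)
    rwa [Module.finrank_linearMap, Module.finrank_self, mul_one] at this
  have r2 : Module.finrank ℤ ↥(heckeLatticeAlgebra p ∅) ≤ Module.finrank ℤ ↥(CuspForm.intLattice p 2) := by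
    have := LinearMap.finrank_le_finrank_of_injective (h60_pair_flip_injective p)
    rwa [Module.finrank_linearMap, Module.finrank_self, mul_one] at this
  have r3 : Module.finrank ℤ ↥(LinearMap.range (h60_pair p))
      = Module.finrank ℤ (↥(heckeLatticeAlgebra p ∅) →ₗ[ℤ] ℤ) := by
    rw [LinearMap.finrank_range_of_inj (h60_pair_injective p), Module.finrank_linearMap,
      Module.finrank_self, mul_one]
    exact le_antisymm r1 r2
  have : Finite ((↥(heckeLatticeAlgebra p ∅) →ₗ[ℤ] ℤ) ⧸ LinearMap.range (h60_pair p)) :=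
    Submodule.finiteQuotientOfFreeOfRankEq _ r3
  set d := Nat.card ((↥(heckeLatticeAlgebra p ∅) →ₗ[ℤ] ℤ) ⧸ LinearMap.range (h60_pair p)) with hd
  have hdpos : 0 < d := Nat.card_pos
  have hmem : d • φ ∈ LinearMap.range (h60_pair p) := by
    rw [← Submodule.Quotient.mk_eq_zero, Submodule.Quotient.mk_smul]
    exact card_nsmul_eq_zero'
  obtain ⟨f₀, hf₀⟩ := hmem
  -- all coefficients of `f₀` are divisible by `d`
  have hcoeff : ∀ n : ℕ, ∃ c : ℤ, h60_ic p f₀ n = (d : ℤ) * c := by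
    intro n
    rcases Nat.eq_zero_or_pos n with rfl | hn
    · exact ⟨0, by rw [h60_ic_zero_coeff, mul_zero]⟩
    · obtain ⟨t, -, ht⟩ := h60_exists_Tn_pair p n hn
      refine ⟨φ (h60_pi p t), ?_⟩
      rw [← ht f₀, hf₀]
      simp
  have hdC : (d : ℂ) ≠ 0 := Nat.cast_ne_zero.mpr hdpos.ne'
  have hmemL : ((d : ℂ)⁻¹ • (f₀ : CuspForm (Gamma0 p) 2)) ∈ CuspForm.intLattice p 2 := by
    rw [mem_intLattice_iff]
    intro n
    obtain ⟨c, hc⟩ := hcoeff n
    refine ⟨c, ?_⟩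
    rw [qc_smul, h60_ic_spec, hc]
    push_cast
    field_simp
  refine ⟨⟨_, hmemL⟩, ?_⟩
  have hsm : (d : ℤ) • (⟨_, hmemL⟩ : ↥(CuspForm.intLattice p 2)) = f₀ := by
    apply Subtype.ext
    rw [Submodule.coe_smul, ← Int.cast_smul_eq_zsmul ℂ, smul_smul]
    push_cast
    rw [mul_inv_cancel₀ hdC, one_smul]
  apply LinearMap.ext
  intro T
  have h1 : (d : ℤ) * h60_pair p ⟨_, hmemL⟩ T = (d : ℤ) * φ T := by
    have := congrArg (fun ψ : ↥(heckeLatticeAlgebra p ∅) →ₗ[ℤ] ℤ => ψ T) hf₀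
    rw [← hsm, map_smul] at this
    simpa using this
  exact mul_left_cancel₀ (Int.natCast_ne_zero.mpr hdpos.ne') h1

/-! ### The reduction -/

/-- (i) an integral cusp form congruent to `δ` modulo `n` forces `n ∣ ev t` for every `t`
acting as zero. -/
theorem h60_dvd_ev_of_cong (n : ℕ) (f : CuspForm (Gamma0 p) 2) (hf : h60_Cong p n f)
    (t : HeckeAlg) (ht : h60_pi p t = 0) : (n : ℤ) ∣ h60_ev p t := by
  have hE : h60_IsEis p n 1 f := by
    intro k hk
    obtain ⟨c, hc⟩ := hf.2 k hk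
    exact ⟨c, by rw [hc]; push_cast; ring⟩
  have h0 : h60_act p t f = 0 := by
    have h := h60_pi_apply_coe p t ⟨f, hf.1⟩
    rw [ht] at h
    rw [← h]
    rfl
  obtain ⟨z, hz⟩ := h60_isEis_act p n t 1 f hE 1 one_pos
  rw [h0, qc_zero, h60_sp_one p Fact.out] at hz
  refine ⟨-z, ?_⟩
  have h : ((h60_ev p t : ℤ) : ℂ) = (((n : ℤ) * -z : ℤ) : ℂ) := by
    push_cast
    push_cast at hz
    linear_combination -hz
  exact_mod_cast h

/-- (ii) there is an element acting as zero with Eisenstein value exactly `n`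
(lower bound in the weak form `hL'`). -/
theorem h60_exists_ker_ev'
    (hU : ∀ (m : ℕ) (f : CuspForm (Gamma0 p) 2), h60_Cong p m f → m ∣ eisensteinNumerator p)
    (hL' : ∀ t : HeckeAlg, h60_pi p t = 0 → ((eisensteinNumerator p : ℕ) : ℤ) ∣ h60_ev p t) :
    ∃ t₀ : HeckeAlg, h60_pi p t₀ = 0 ∧ h60_ev p t₀ = (eisensteinNumerator p : ℤ) := by
  have hevsurj : Function.Surjective (h60_ev p).toRingHom :=
    fun a => ⟨MvPolynomial.C a, h60_ev_C p a⟩
  obtain ⟨m, hE⟩ : ∃ m : ℕ, Ideal.map (h60_ev p).toRingHom (RingHom.ker (h60_pi p))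
      = Ideal.span {(m : ℤ)} := by
    obtain ⟨a, ha⟩ : ∃ a : ℤ, Ideal.map (h60_ev p).toRingHom (RingHom.ker (h60_pi p))
        = Ideal.span {a} := (IsPrincipalIdealRing.principal _).principal
    exact ⟨a.natAbs, by rw [ha, Int.span_natAbs]⟩
  have hEmem : ∀ t, h60_pi p t = 0 → (m : ℤ) ∣ h60_ev p t := by
    intro t ht
    have h : (h60_ev p).toRingHom t ∈ Ideal.map (h60_ev p).toRingHom (RingHom.ker (h60_pi p)) :=
      Ideal.mem_map_of_mem _ (RingHom.mem_ker.mpr ht)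
    rw [hE, Ideal.mem_span_singleton] at h
    exact h
  have hker : RingHom.ker (h60_pi p)
      ≤ RingHom.ker ((Int.castRingHom (ZMod m)).comp (h60_ev p).toRingHom) := by
    intro t ht
    rw [RingHom.mem_ker] at ht ⊢
    exact (ZMod.intCast_zmod_eq_zero_iff_dvd _ _).mpr (hEmem t ht)
  have hψ : ∀ t, (RingHom.liftOfSurjective (h60_pi p) (h60_pi_surjective p)
      ⟨(Int.castRingHom (ZMod m)).comp (h60_ev p).toRingHom, hker⟩) (h60_pi p t)
        = ((h60_ev p t : ℤ) : ZMod m) :=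
    fun t => RingHom.liftOfSurjective_comp_apply (h60_pi p) (h60_pi_surjective p) _ t
  obtain ⟨φ, hφ⟩ := Module.projective_lifting_property
    (Int.castAddHom (ZMod m)).toIntLinearMap
    (RingHom.liftOfSurjective (h60_pi p) (h60_pi_surjective p)
      ⟨(Int.castRingHom (ZMod m)).comp (h60_ev p).toRingHom, hker⟩).toAddMonoidHom.toIntLinearMap
    ZMod.intCast_surjective
  obtain ⟨f, hf⟩ := h60_duality p φ
  have hcong : h60_Cong p m (f : CuspForm (Gamma0 p) 2) := by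
    refine ⟨f.2, fun k hk => ?_⟩
    obtain ⟨t, ht, hpair⟩ := h60_exists_Tn_pair p k hk
    have h1 : ((h60_sp p k : ℤ) : ZMod m) = ((h60_ic p f k : ℤ) : ZMod m) := by
      rw [← hpair f, hf, ← ht, ← hψ t]
      exact (LinearMap.congr_fun hφ (h60_pi p t)).symm
    obtain ⟨c, hc⟩ := (ZMod.intCast_eq_intCast_iff_dvd_sub _ _ _).mp h1
    refine ⟨c, ?_⟩
    have h2 : h60_ic p f k = (h60_sp p k : ℤ) + (m : ℤ) * c := by linarith
    rw [h60_ic_spec, h2]
    push_cast
    ring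
  have hmn : m ∣ eisensteinNumerator p := hU _ _ hcong
  have hnm : eisensteinNumerator p ∣ m := by
    have hmE : (m : ℤ) ∈ Ideal.map (h60_ev p).toRingHom (RingHom.ker (h60_pi p)) := by
      rw [hE]
      exact Ideal.mem_span_singleton_self _
    obtain ⟨t, ht, hte⟩ := (Ideal.mem_map_iff_of_surjective _ hevsurj).mp hmE
    have h := hL' t (RingHom.mem_ker.mp ht)
    have hte' : h60_ev p t = (m : ℤ) := hte
    rw [hte'] at h
    exact Int.natCast_dvd_natCast.mp h
  have hmeq : m = eisensteinNumerator p := Nat.dvd_antisymm hmn hnm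
  have hnE : ((eisensteinNumerator p : ℕ) : ℤ)
      ∈ Ideal.map (h60_ev p).toRingHom (RingHom.ker (h60_pi p)) := by
    rw [hE, hmeq]
    exact Ideal.mem_span_singleton_self _
  obtain ⟨t₀, ht₀, hte⟩ := (Ideal.mem_map_iff_of_surjective _ hevsurj).mp hnE
  exact ⟨t₀, RingHom.mem_ker.mp ht₀, hte⟩

/-- (ii) with the lower bound given by a congruent cusp form. -/
theorem h60_exists_ker_ev
    (hU : ∀ (m : ℕ) (f : CuspForm (Gamma0 p) 2), h60_Cong p m f → m ∣ eisensteinNumerator p)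
    (hL : ∃ f : CuspForm (Gamma0 p) 2, h60_Cong p (eisensteinNumerator p) f) :
    ∃ t₀ : HeckeAlg, h60_pi p t₀ = 0 ∧ h60_ev p t₀ = (eisensteinNumerator p : ℤ) := by
  obtain ⟨fL, hfL⟩ := hL
  exact h60_exists_ker_ev' p hU (fun t ht => h60_dvd_ev_of_cong p _ fL hfL t ht)

/-- **Reduction of the frozen S16**, lower bound in the weak (Hecke-algebra) form:
`hL'` says that every element of the abstract Hecke algebra acting as zero on the lattice has
Eisenstein value divisible by `n`. -/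
theorem h60_S16_of_bounds'
    (hU : ∀ (m : ℕ) (f : CuspForm (Gamma0 p) 2), h60_Cong p m f →
      m ∣ ModularCurve.eisensteinNumerator p)
    (hL' : ∀ t : HeckeAlg, h60_pi p t = 0 →
      ((ModularCurve.eisensteinNumerator p : ℕ) : ℤ) ∣ h60_ev p t) :
    Nat.card (↥(heckeLatticeAlgebra p ∅) ⧸
        Ideal.map ((latticeRestrictHom p ∅).toRingHom.comp (heckeEvalForms p 2))
          (eisensteinIdeal p)) =
      eisensteinNumerator p := by
  obtain ⟨t₀, ht₀, hev₀⟩ := h60_exists_ker_ev' p hU hL'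
  have hker : RingHom.ker (h60_pi p)
      ≤ RingHom.ker ((Int.castRingHom (ZMod (eisensteinNumerator p))).comp
        (h60_ev p).toRingHom) := by
    intro t ht
    rw [RingHom.mem_ker] at ht ⊢
    exact (ZMod.intCast_zmod_eq_zero_iff_dvd _ _).mpr (hL' t ht)
  have hΨ : ∀ t, (RingHom.liftOfSurjective (h60_pi p) (h60_pi_surjective p)
      ⟨(Int.castRingHom (ZMod (eisensteinNumerator p))).comp (h60_ev p).toRingHom, hker⟩)
        (h60_pi p t) = ((h60_ev p t : ℤ) : ZMod (eisensteinNumerator p)) :=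
    fun t => RingHom.liftOfSurjective_comp_apply (h60_pi p) (h60_pi_surjective p) _ t
  have hΨsurj : Function.Surjective (RingHom.liftOfSurjective (h60_pi p) (h60_pi_surjective p)
      ⟨(Int.castRingHom (ZMod (eisensteinNumerator p))).comp (h60_ev p).toRingHom, hker⟩) := by
    intro x
    obtain ⟨b, rfl⟩ := ZMod.intCast_surjective x
    exact ⟨h60_pi p (MvPolynomial.C b), by rw [hΨ, h60_ev_C]⟩
  have hkerΨ : Ideal.map (h60_pi p) (eisensteinIdeal p)
      = RingHom.ker (RingHom.liftOfSurjective (h60_pi p) (h60_pi_surjective p)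
      ⟨(Int.castRingHom (ZMod (eisensteinNumerator p))).comp (h60_ev p).toRingHom, hker⟩) := by
    apply le_antisymm
    · rw [Ideal.map_le_iff_le_comap]
      intro t ht
      rw [Ideal.mem_comap, RingHom.mem_ker, hΨ]
      rw [h60_mem_eisensteinIdeal] at ht
      rw [ht]
      simp
    · intro T hT
      obtain ⟨t, rfl⟩ := h60_pi_surjective p T
      rw [RingHom.mem_ker, hΨ, ZMod.intCast_zmod_eq_zero_iff_dvd] at hT
      obtain ⟨c, hc⟩ := hT
      have hs : t - MvPolynomial.C c * t₀ ∈ eisensteinIdeal p := by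
        rw [h60_mem_eisensteinIdeal, map_sub, map_mul, h60_ev_C, hev₀, hc]
        ring
      have h := Ideal.mem_map_of_mem (h60_pi p) hs
      rwa [map_sub, map_mul, ht₀, mul_zero, sub_zero] at h
  have hcard : Nat.card (↥(heckeLatticeAlgebra p ∅) ⧸ Ideal.map (h60_pi p) (eisensteinIdeal p))
      = eisensteinNumerator p := by
    rw [Nat.card_congr (Ideal.quotEquivOfEq hkerΨ).toEquiv,
      Nat.card_congr (RingHom.quotientKerEquivOfSurjective hΨsurj).toEquiv, Nat.card_zmod]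
  exact hcard

/-- **Reduction of the frozen S16** to the upper bound `hU` and the lower bound `hL`. -/
theorem h60_S16_of_bounds
    (hU : ∀ (m : ℕ) (f : CuspForm (Gamma0 p) 2), h60_Cong p m f →
      m ∣ ModularCurve.eisensteinNumerator p)
    (hL : ∃ f : CuspForm (Gamma0 p) 2, h60_Cong p (ModularCurve.eisensteinNumerator p) f) :
    Nat.card (↥(heckeLatticeAlgebra p ∅) ⧸
        Ideal.map ((latticeRestrictHom p ∅).toRingHom.comp (heckeEvalForms p 2))
          (eisensteinIdeal p)) =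
      eisensteinNumerator p := by
  obtain ⟨fL, hfL⟩ := hL
  exact h60_S16_of_bounds' p hU (fun t ht => h60_dvd_ev_of_cong p _ fL hfL t ht)

end

end Fermat.Agent.S16
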