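import Mathlib
import Fermat.Agent.S21
import Fermat.Agent.S23
import Fermat.Agent.S16.h60_Red
import Fermat.Agent.S16.h30_PerHecke

/-!
# S16, block PER-HECKE (3): an integral parabolic Eisenstein class modulo `n` gives `n ∣ ev t`

If `Ψ : Γ₀(p) → ℤ` is a parabolic homomorphism which modulo `n` is an eigenvector of the
algebraic Hecke operators with the Eisenstein eigenvalues (`1 + ℓ` for `T_ℓ`, `1` for `U_p`) and
takes a value prime to `n`, then every element `t` of the abstract Hecke algebra acting as zero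
on the integral lattice has Eisenstein value divisible by `n`.  This is the lower bound of S16
in the form `hL'` of `h60_S16_of_bounds'`.
-/

set_option autoImplicit false

namespace Fermat.Agent.S16

open CongruenceSubgroup ModularCurve ModularCurve.Period CuspForm
open scoped MatrixGroups

section Cong

variable {N : ℕ} {ι : Type*} [Fintype ι] {α : ι → GL (Fin 2) ℝ}

/-- Integrality and congruence to a multiple of an integral class are preserved by a Hecke
operator. -/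
theorem h30_hecke_cong (hex : h30_Ex N α) (hinj : h30_Inj α) (φ : Additive (Gamma0 N) →+ ℂ)
    (Ψ : Additive (Gamma0 N) →+ ℤ) (c n : ℤ)
    (h : ∀ γ, ∃ m : ℤ, φ γ = (m : ℂ) ∧ n ∣ m - c * Ψ γ) :
    ∀ γ, ∃ m : ℤ, h30_hecke hex hinj φ γ = (m : ℂ) ∧ n ∣ m - c * h30_hecke hex hinj Ψ γ := by
  intro γa
  obtain ⟨γ, rfl⟩ : ∃ γ : Gamma0 N, Additive.ofMul γ = γa := ⟨Additive.toMul γa, rfl⟩
  choose m hm hdvd using fun x => h (Additive.ofMul (h30_step hex γ x))
  refine ⟨∑ x, m x, ?_, ?_⟩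
  · rw [h30_hecke_apply]
    push_cast
    exact Finset.sum_congr rfl fun x _ => hm x
  · rw [h30_hecke_apply, Finset.mul_sum, ← Finset.sum_sub_distrib]
    exact Finset.dvd_sum fun x _ => hdvd x

end Cong

variable (p : ℕ) [Fact p.Prime]

theorem h30_act_X_of_dvd (l : Nat.Primes) (h : (l : ℕ) ∣ p) (f : CuspForm (Gamma0 p) 2) :
    h60_act p (MvPolynomial.X l) f = CuspForm.heckeULin 2 h f := by
  unfold h60_act
  rw [show (MvPolynomial.X l : HeckeAlg) = heckeGen l from rfl,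
    heckeEvalForms_heckeGen_of_dvd h, heckeAlgebra.coe_U]

theorem h30_act_X_of_not_dvd (l : Nat.Primes) (h : ¬ (l : ℕ) ∣ p)
    (f : CuspForm (Gamma0 p) 2) :
    h60_act p (MvPolynomial.X l) f = CuspForm.heckeTLin 2 l.2 h f := by
  unfold h60_act
  rw [show (MvPolynomial.X l : HeckeAlg) = heckeGen l from rfl,
    heckeEvalForms_heckeGen_of_not_dvd h, heckeAlgebra.coe_T]

/-- The inductive claim: integrality and the Eisenstein congruence propagate along the action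
of the abstract Hecke algebra. -/
theorem h30_claim (n : ℕ) (Ψ : Additive (Gamma0 p) →+ ℤ)
    (hT : ∀ (l : ℕ) [Fact l.Prime] (hlp : ¬ l ∣ p) (γ : Additive (Gamma0 p)),
      (n : ℤ) ∣ h30_heckeT p l hlp Ψ γ - (1 + (l : ℤ)) * Ψ γ)
    (hU : ∀ γ : Additive (Gamma0 p), (n : ℤ) ∣ h30_heckeU p p dvd_rfl Ψ γ - Ψ γ)
    (t : HeckeAlg) :
    ∀ (f g : CuspForm (Gamma0 p) 2) (c : ℤ),
      (∀ γ, ∃ m : ℤ, periodHomPair p (f, g) γ = (m : ℂ) ∧ (n : ℤ) ∣ m - c * Ψ γ) →
      ∀ γ, ∃ m : ℤ, periodHomPair p (h60_act p t f, h60_act p t g) γ = (m : ℂ) ∧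
        (n : ℤ) ∣ m - h60_ev p t * c * Ψ γ := by
  have hU' : ∀ (q : ℕ) [NeZero q] (hq : q ∣ p), q = p → ∀ γ : Additive (Gamma0 p),
      (n : ℤ) ∣ h30_heckeU p q hq Ψ γ - Ψ γ := by
    intro q _ hq hqp γ
    subst hqp
    exact hU γ
  induction t using MvPolynomial.induction_on with
  | C a =>
    intro f g c h γ
    obtain ⟨m, hm, hd⟩ := h γ
    refine ⟨a * m, ?_, ?_⟩
    · rw [h60_act_C, h60_act_C, ← Prod.smul_mk, map_smul, AddMonoidHom.smul_apply, hm]
      push_cast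
      rfl
    · rw [h60_ev_C]
      have : a * m - a * c * Ψ γ = a * (m - c * Ψ γ) := by ring
      rw [this]
      exact Dvd.dvd.mul_left hd a
  | add s s' ihs ihs' =>
    intro f g c h γ
    obtain ⟨m, hm, hd⟩ := ihs f g c h γ
    obtain ⟨m', hm', hd'⟩ := ihs' f g c h γ
    refine ⟨m + m', ?_, ?_⟩
    · rw [h60_act_add, h60_act_add, ← Prod.mk_add_mk, map_add, AddMonoidHom.add_apply, hm, hm']
      push_cast
      rfl
    · rw [map_add]
      have : m + m' - (h60_ev p s + h60_ev p s') * c * Ψ γ =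
          (m - h60_ev p s * c * Ψ γ) + (m' - h60_ev p s' * c * Ψ γ) := by ring
      rw [this]
      exact dvd_add hd hd'
  | mul_X s l ihs =>
    intro f g c h γ
    have key : ∀ γ, ∃ m : ℤ, periodHomPair p (h60_act p (MvPolynomial.X l) f,
        h60_act p (MvPolynomial.X l) g) γ = (m : ℂ) ∧
        (n : ℤ) ∣ m - (h60_ev p (MvPolynomial.X l) * c) * Ψ γ := by
      intro γ
      by_cases hl : (l : ℕ) ∣ p
      · have : NeZero (l : ℕ) := ⟨l.2.ne_zero⟩
        have hlp : (l : ℕ) = p := (Nat.prime_dvd_prime_iff_eq l.2 Fact.out).mp hl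
        rw [h30_act_X_of_dvd p l hl, h30_act_X_of_dvd p l hl, h30_periodHomPair_heckeU,
          h60_ev_X, if_pos hl]
        obtain ⟨m, hm, hd⟩ := h30_hecke_cong (h30_ex_U p l hl) (h30_inj_U l)
          (periodHomPair p (f, g)) Ψ c n h γ
        refine ⟨m, hm, ?_⟩
        have h2 := hU' l hl hlp γ
        have : m - 1 * c * Ψ γ = (m - c * h30_heckeU p l hl Ψ γ) +
            c * (h30_heckeU p l hl Ψ γ - Ψ γ) := by ring
        rw [this]
        exact dvd_add hd (Dvd.dvd.mul_left h2 c)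
      · have : Fact (l : ℕ).Prime := ⟨l.2⟩
        rw [h30_act_X_of_not_dvd p l hl, h30_act_X_of_not_dvd p l hl,
          h30_periodHomPair_heckeT (l : ℕ) hl, h60_ev_X, if_neg hl]
        obtain ⟨m, hm, hd⟩ := h30_hecke_cong (h30_ex_T p l hl) (h30_inj_T l)
          (periodHomPair p (f, g)) Ψ c n h γ
        refine ⟨m, hm, ?_⟩
        have h2 := hT l hl γ
        have : m - (1 + (l : ℤ)) * c * Ψ γ = (m - c * h30_heckeT p l hl Ψ γ) +
            c * (h30_heckeT p l hl Ψ γ - (1 + (l : ℤ)) * Ψ γ) := by ring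
        rw [this]
        exact dvd_add hd (Dvd.dvd.mul_left h2 c)
    obtain ⟨m, hm, hd⟩ := ihs _ _ _ key γ
    refine ⟨m, ?_, ?_⟩
    · rw [h60_act_mul, h60_act_mul]
      exact hm
    · rw [map_mul]
      have : h60_ev p s * h60_ev p (MvPolynomial.X l) * c * Ψ γ =
          h60_ev p s * (h60_ev p (MvPolynomial.X l) * c) * Ψ γ := by ring
      rw [this]
      exact hd

/-- **Lower bound of S16 from an integral Eisenstein class.** -/
theorem h30_eis_dvd (n : ℕ) (Ψ : Additive (Gamma0 p) →+ ℤ)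
    (hpar : Ψ ∈ parabolicHoms ℤ (Gamma0 p) ℤ)
    (hT : ∀ (l : ℕ) [Fact l.Prime] (hlp : ¬ l ∣ p) (γ : Additive (Gamma0 p)),
      (n : ℤ) ∣ h30_heckeT p l hlp Ψ γ - (1 + (l : ℤ)) * Ψ γ)
    (hU : ∀ γ : Additive (Gamma0 p), (n : ℤ) ∣ h30_heckeU p p dvd_rfl Ψ γ - Ψ γ)
    (hunit : ∃ γ : Additive (Gamma0 p), IsCoprime (Ψ γ) (n : ℤ))
    (t : HeckeAlg) (ht : h60_pi p t = 0) : (n : ℤ) ∣ h60_ev p t := by
  have hint : HasIntegralStructure p 2 := Fermat.Agent.S23.result p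
  have hact0 : h60_act p t = 0 := by
    refine LinearMap.ext_on hint fun f hf => ?_
    have h := h60_pi_apply_coe p t ⟨f, hf⟩
    rw [ht] at h
    rw [← h]
    rfl
  have hact : ∀ f, h60_act p t f = 0 := fun f => by rw [hact0]; rfl
  have hΨC : (Int.castAddHom ℂ).comp Ψ ∈ parabolicHoms ℂ (Gamma0 p) ℂ := by
    intro γ hγ
    show ((Ψ (Additive.ofMul γ) : ℤ) : ℂ) = 0
    rw [hpar γ hγ, Int.cast_zero]
  rw [← (Fermat.Agent.S21.result p).2] at hΨC
  obtain ⟨⟨f, g⟩, hfg⟩ := hΨC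
  have base : ∀ γ, ∃ m : ℤ, periodHomPair p (f, g) γ = (m : ℂ) ∧ (n : ℤ) ∣ m - 1 * Ψ γ :=
    fun γ => ⟨Ψ γ, by rw [hfg]; rfl, by simp⟩
  obtain ⟨γ₀, hγ₀⟩ := hunit
  obtain ⟨m, hm, hd⟩ := h30_claim p n Ψ hT hU t f g 1 base γ₀
  rw [hact, hact, Prod.mk_zero_zero, map_zero, AddMonoidHom.zero_apply] at hm
  have hm0 : m = 0 := by exact_mod_cast hm.symm
  rw [hm0, zero_sub, mul_one, dvd_neg] at hd
  exact hγ₀.symm.dvd_of_dvd_mul_right hd

/-- The lower bound of S16 in the exact shape `hL'` of `h60_S16_of_bounds'`. -/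
theorem h30_lower_of_class (Ψ : Additive (Gamma0 p) →+ ℤ)
    (hpar : Ψ ∈ parabolicHoms ℤ (Gamma0 p) ℤ)
    (hT : ∀ (l : ℕ) [Fact l.Prime] (hlp : ¬ l ∣ p) (γ : Additive (Gamma0 p)),
      ((eisensteinNumerator p : ℕ) : ℤ) ∣ h30_heckeT p l hlp Ψ γ - (1 + (l : ℤ)) * Ψ γ)
    (hU : ∀ γ : Additive (Gamma0 p),
      ((eisensteinNumerator p : ℕ) : ℤ) ∣ h30_heckeU p p dvd_rfl Ψ γ - Ψ γ)
    (hunit : ∃ γ : Additive (Gamma0 p), IsCoprime (Ψ γ) ((eisensteinNumerator p : ℕ) : ℤ)) :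
    ∀ t : HeckeAlg, h60_pi p t = 0 → ((eisensteinNumerator p : ℕ) : ℤ) ∣ h60_ev p t :=
  fun t ht => h30_eis_dvd p _ Ψ hpar hT hU hunit t ht

end Fermat.Agent.S16
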