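import Mathlib
import Fermat.Prelude.Sol.S_ModularForm_heckeT_slash_eq_self_of_mem_Gamma0
import Fermat.Prelude.Def_ModularCurve_PeriodHomPair

/-!
# Algebraic Hecke operators on `Hom(Γ₀(N), A)`

For a prime `ℓ ∤ N` and the prelude coset representatives `heckeRep ℓ x`
(`x ∈ ℙ¹(𝔽_ℓ) = OnePoint (ZMod ℓ)`), every `γ ∈ Γ₀(N)` satisfies
`heckeRep ℓ x * γ = κ(γ, x) * heckeRep ℓ (σ_γ x)` with `κ(γ, x) ∈ Γ₀(N)`; the Hecke operator on
additive characters is `(T φ)(γ) = ∑ₓ φ(κ(γ, x))`.  Similarly for `U_p`, `p ∣ N`.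
-/

set_option autoImplicit false

namespace Fermat.Agent.S16

open scoped MatrixGroups
open CongruenceSubgroup
open P2MW.S_ModularForm_heckeT_slash_eq_self_of_mem_Gamma0.ModularForm.HeckeSlashInvariance

noncomputable section

variable {N : ℕ}

theorem h52_dvd_of_mem (γ : Gamma0 N) : (N : ℤ) ∣ (γ : SL(2, ℤ)) 1 0 :=
  (ZMod.intCast_zmod_eq_zero_iff_dvd _ _).mp (Gamma0_mem.mp γ.2)

theorem h52_mem_of_dvd {g : SL(2, ℤ)} (h : (N : ℤ) ∣ g 1 0) : g ∈ Gamma0 N :=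
  Gamma0_mem.mpr ((ZMod.intCast_zmod_eq_zero_iff_dvd _ _).mpr h)

section TOp

variable {ℓ : ℕ} [Fact ℓ.Prime]

/-- `redMatrix` is anti-multiplicative. -/
theorem h52_redMatrix_mul (g h : SL(2, ℤ)) :
    redMatrix ℓ (g * h) = redMatrix ℓ h * redMatrix ℓ g := by
  apply Matrix.GeneralLinearGroup.ext
  intro i j
  fin_cases i <;> fin_cases j <;>
    simp [redMatrix, Matrix.mul_apply, Fin.sum_univ_two] <;> ring

/-- The element `γ'` of `Γ₀(N)` with `heckeRep ℓ x * γ = γ' * heckeRep ℓ (redMatrix ℓ γ • x)`. -/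
def h52_kapT (hℓN : ¬ ℓ ∣ N) (γ : Gamma0 N) (x : OnePoint (ZMod ℓ)) : Gamma0 N :=
  ⟨Classical.choose (heckeRep_mul hℓN (γ : SL(2, ℤ)) (h52_dvd_of_mem γ) x),
    h52_mem_of_dvd
      (Classical.choose_spec (heckeRep_mul hℓN (γ : SL(2, ℤ)) (h52_dvd_of_mem γ) x)).1⟩

theorem h52_kapT_spec (hℓN : ¬ ℓ ∣ N) (γ : Gamma0 N) (x : OnePoint (ZMod ℓ)) :
    heckeRep ℓ x * Matrix.SpecialLinearGroup.mapGL ℝ (γ : SL(2, ℤ)) =
      Matrix.SpecialLinearGroup.mapGL ℝ ((h52_kapT hℓN γ x : Gamma0 N) : SL(2, ℤ)) *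
        heckeRep ℓ (redMatrix ℓ (γ : SL(2, ℤ)) • x) :=
  (Classical.choose_spec (heckeRep_mul hℓN (γ : SL(2, ℤ)) (h52_dvd_of_mem γ) x)).2

/-- Uniqueness of `κ` for a given target coset. -/
theorem h52_kapT_unique (hℓN : ¬ ℓ ∣ N) (γ : Gamma0 N) (x : OnePoint (ZMod ℓ)) (g' : SL(2, ℤ))
    (h : heckeRep ℓ x * Matrix.SpecialLinearGroup.mapGL ℝ (γ : SL(2, ℤ)) =
      Matrix.SpecialLinearGroup.mapGL ℝ g' * heckeRep ℓ (redMatrix ℓ (γ : SL(2, ℤ)) • x)) :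
    ((h52_kapT hℓN γ x : Gamma0 N) : SL(2, ℤ)) = g' := by
  have h1 := h52_kapT_spec hℓN γ x
  rw [h] at h1
  exact (Matrix.SpecialLinearGroup.mapGL_injective (mul_right_cancel h1)).symm

theorem h52_kapT_mul (hℓN : ¬ ℓ ∣ N) (γ δ : Gamma0 N) (x : OnePoint (ZMod ℓ)) :
    h52_kapT hℓN (γ * δ) x =
      h52_kapT hℓN γ x * h52_kapT hℓN δ (redMatrix ℓ (γ : SL(2, ℤ)) • x) := by
  apply Subtype.ext
  apply h52_kapT_unique
  have h1 := h52_kapT_spec hℓN γ x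
  have h2 := h52_kapT_spec hℓN δ (redMatrix ℓ (γ : SL(2, ℤ)) • x)
  rw [Subgroup.coe_mul, map_mul, ← mul_assoc, h1, mul_assoc, h2, ← mul_assoc,
    h52_redMatrix_mul, mul_smul, Subgroup.coe_mul, map_mul]

/-- The algebraic Hecke operator `T_ℓ` (`ℓ ∤ N`) on additive characters of `Γ₀(N)`. -/
def h52_heckeT (hℓN : ¬ ℓ ∣ N) {A : Type*} [AddCommGroup A] (φ : Additive (Gamma0 N) →+ A) :
    Additive (Gamma0 N) →+ A :=
  AddMonoidHom.mk'
    (fun γ => ∑ x : OnePoint (ZMod ℓ), φ (Additive.ofMul (h52_kapT hℓN (Additive.toMul γ) x)))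
    (by
      intro γ δ
      show ∑ x : OnePoint (ZMod ℓ),
          φ (Additive.ofMul (h52_kapT hℓN (Additive.toMul γ * Additive.toMul δ) x)) = _
      simp only [h52_kapT_mul, ofMul_mul, map_add, Finset.sum_add_distrib]
      congr 1
      exact Equiv.sum_comp (MulAction.toPerm (redMatrix ℓ ((Additive.toMul γ : Gamma0 N) : SL(2, ℤ))))
        (fun y => φ (Additive.ofMul (h52_kapT hℓN (Additive.toMul δ) y))))

theorem h52_heckeT_apply (hℓN : ¬ ℓ ∣ N) {A : Type*} [AddCommGroup A]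
    (φ : Additive (Gamma0 N) →+ A) (γ : Gamma0 N) :
    h52_heckeT hℓN φ (Additive.ofMul γ) =
      ∑ x : OnePoint (ZMod ℓ), φ (Additive.ofMul (h52_kapT hℓN γ x)) := rfl

/-- Naturality in the coefficient group. -/
theorem h52_heckeT_comp (hℓN : ¬ ℓ ∣ N) {A B : Type*} [AddCommGroup A] [AddCommGroup B]
    (f : A →+ B) (φ : Additive (Gamma0 N) →+ A) :
    h52_heckeT hℓN (f.comp φ) = f.comp (h52_heckeT hℓN φ) := by
  refine AddMonoidHom.ext fun γ => ?_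
  show ∑ x : OnePoint (ZMod ℓ), f (φ _) = f (∑ x : OnePoint (ZMod ℓ), φ _)
  rw [map_sum]

theorem h52_heckeT_add (hℓN : ¬ ℓ ∣ N) {A : Type*} [AddCommGroup A]
    (φ ψ : Additive (Gamma0 N) →+ A) :
    h52_heckeT hℓN (φ + ψ) = h52_heckeT hℓN φ + h52_heckeT hℓN ψ := by
  refine AddMonoidHom.ext fun γ => ?_
  show ∑ x : OnePoint (ZMod ℓ), (φ _ + ψ _) = _
  rw [Finset.sum_add_distrib]
  rfl

theorem h52_heckeT_zsmul (hℓN : ¬ ℓ ∣ N) {A : Type*} [AddCommGroup A] (c : ℤ)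
    (φ : Additive (Gamma0 N) →+ A) :
    h52_heckeT hℓN (c • φ) = c • h52_heckeT hℓN φ := by
  refine AddMonoidHom.ext fun γ => ?_
  show ∑ x : OnePoint (ZMod ℓ), (c • φ _) = c • ∑ x : OnePoint (ZMod ℓ), φ _
  rw [Finset.smul_sum]

end TOp

section UOp

variable {p : ℕ} [NeZero p]

omit [NeZero p] in
theorem h52_zmod_eq_zero (hpN : p ∣ N) (γ : Gamma0 N) :
    ((((γ : SL(2, ℤ)) 1 0 : ℤ)) : ZMod p) = 0 :=
  (ZMod.intCast_zmod_eq_zero_iff_dvd _ _).mpr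
    ((Int.natCast_dvd_natCast.mpr hpN).trans (h52_dvd_of_mem γ))

omit [NeZero p] in
theorem h52_p_dvd (hpN : p ∣ N) (γ : Gamma0 N) : (p : ℤ) ∣ (γ : SL(2, ℤ)) 1 0 :=
  (Int.natCast_dvd_natCast.mpr hpN).trans (h52_dvd_of_mem γ)

/-- The permutation of `ZMod p` attached to `γ ∈ Γ₀(N)`, `p ∣ N`. -/
def h52_sigU (hpN : p ∣ N) (γ : Gamma0 N) : Equiv.Perm (ZMod p) :=
  affinePerm (γ : SL(2, ℤ)) (h52_zmod_eq_zero hpN γ)

theorem h52_sigU_apply (hpN : p ∣ N) (γ : Gamma0 N) (j : ZMod p) :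
    h52_sigU hpN γ j = ((((γ : SL(2, ℤ)) 1 1 : ℤ)) : ZMod p) *
      (((((γ : SL(2, ℤ)) 0 1 : ℤ)) : ZMod p) + ((((γ : SL(2, ℤ)) 1 1 : ℤ)) : ZMod p) * j) := rfl

theorem h52_sigU_aux (a b c d b' d' j : ZMod p) (hc : c = 0) (had : a * d = 1) :
    (c * b' + d * d') * ((a * b' + b * d') + (c * b' + d * d') * j)
      = d' * (b' + d' * (d * (b + d * j))) := by
  linear_combination (b' * (a * b' + b * d' + (c * b' + d * d') * j) + d * d' * b' * j) * hc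
    + (d' * b') * had

theorem h52_sigU_mul (hpN : p ∣ N) (γ δ : Gamma0 N) (j : ZMod p) :
    h52_sigU hpN (γ * δ) j = h52_sigU hpN δ (h52_sigU hpN γ j) := by
  have hγ := unit_of_apply_one_zero_eq_zero (p := p) (γ : SL(2, ℤ)) (h52_zmod_eq_zero hpN γ)
  have hcγ := h52_zmod_eq_zero hpN γ
  simp only [h52_sigU_apply, Subgroup.coe_mul, Matrix.SpecialLinearGroup.coe_mul,
    Matrix.mul_apply, Fin.sum_univ_two]
  push_cast
  exact h52_sigU_aux _ _ _ _ _ _ j hcγ hγ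

/-- The element `γ'` of `Γ₀(N)` with `heckeMatrix p j * γ = γ' * heckeMatrix p (σ_γ j)`. -/
def h52_kapU (hpN : p ∣ N) (γ : Gamma0 N) (x : ZMod p) : Gamma0 N :=
  ⟨Classical.choose (heckeMatrix_mul_of_dvd (γ : SL(2, ℤ)) (h52_p_dvd hpN γ) x),
    h52_mem_of_dvd (by
      rw [(Classical.choose_spec
        (heckeMatrix_mul_of_dvd (γ : SL(2, ℤ)) (h52_p_dvd hpN γ) x)).1]
      exact Dvd.dvd.mul_left (h52_dvd_of_mem γ) _)⟩

theorem h52_kapU_spec (hpN : p ∣ N) (γ : Gamma0 N) (x : ZMod p) :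
    ModularForm.heckeMatrix p x.val * Matrix.SpecialLinearGroup.mapGL ℝ (γ : SL(2, ℤ)) =
      Matrix.SpecialLinearGroup.mapGL ℝ ((h52_kapU hpN γ x : Gamma0 N) : SL(2, ℤ)) *
        ModularForm.heckeMatrix p (h52_sigU hpN γ x).val :=
  (Classical.choose_spec (heckeMatrix_mul_of_dvd (γ : SL(2, ℤ)) (h52_p_dvd hpN γ) x)).2

theorem h52_kapU_unique (hpN : p ∣ N) (γ : Gamma0 N) (x : ZMod p) (g' : SL(2, ℤ))
    (h : ModularForm.heckeMatrix p x.val * Matrix.SpecialLinearGroup.mapGL ℝ (γ : SL(2, ℤ)) =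
      Matrix.SpecialLinearGroup.mapGL ℝ g' * ModularForm.heckeMatrix p (h52_sigU hpN γ x).val) :
    ((h52_kapU hpN γ x : Gamma0 N) : SL(2, ℤ)) = g' := by
  have h1 := h52_kapU_spec hpN γ x
  rw [h] at h1
  exact (Matrix.SpecialLinearGroup.mapGL_injective (mul_right_cancel h1)).symm

theorem h52_kapU_mul (hpN : p ∣ N) (γ δ : Gamma0 N) (x : ZMod p) :
    h52_kapU hpN (γ * δ) x = h52_kapU hpN γ x * h52_kapU hpN δ (h52_sigU hpN γ x) := by
  apply Subtype.ext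
  apply h52_kapU_unique
  have h1 := h52_kapU_spec hpN γ x
  have h2 := h52_kapU_spec hpN δ (h52_sigU hpN γ x)
  rw [Subgroup.coe_mul, map_mul, ← mul_assoc, h1, mul_assoc, h2, ← mul_assoc,
    h52_sigU_mul, Subgroup.coe_mul, map_mul]

/-- The algebraic Hecke operator `U_p` (`p ∣ N`) on additive characters of `Γ₀(N)`. -/
def h52_heckeU (hpN : p ∣ N) {A : Type*} [AddCommGroup A] (φ : Additive (Gamma0 N) →+ A) :
    Additive (Gamma0 N) →+ A :=
  AddMonoidHom.mk'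
    (fun γ => ∑ x : ZMod p, φ (Additive.ofMul (h52_kapU hpN (Additive.toMul γ) x)))
    (by
      intro γ δ
      show ∑ x : ZMod p,
          φ (Additive.ofMul (h52_kapU hpN (Additive.toMul γ * Additive.toMul δ) x)) = _
      simp only [h52_kapU_mul, ofMul_mul, map_add, Finset.sum_add_distrib]
      congr 1
      exact Equiv.sum_comp (h52_sigU hpN (Additive.toMul γ))
        (fun y => φ (Additive.ofMul (h52_kapU hpN (Additive.toMul δ) y))))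

theorem h52_heckeU_apply (hpN : p ∣ N) {A : Type*} [AddCommGroup A]
    (φ : Additive (Gamma0 N) →+ A) (γ : Gamma0 N) :
    h52_heckeU hpN φ (Additive.ofMul γ) =
      ∑ x : ZMod p, φ (Additive.ofMul (h52_kapU hpN γ x)) := rfl

theorem h52_heckeU_comp (hpN : p ∣ N) {A B : Type*} [AddCommGroup A] [AddCommGroup B]
    (f : A →+ B) (φ : Additive (Gamma0 N) →+ A) :
    h52_heckeU hpN (f.comp φ) = f.comp (h52_heckeU hpN φ) := by
  refine AddMonoidHom.ext fun γ => ?_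
  show ∑ x : ZMod p, f (φ _) = f (∑ x : ZMod p, φ _)
  rw [map_sum]

theorem h52_heckeU_add (hpN : p ∣ N) {A : Type*} [AddCommGroup A]
    (φ ψ : Additive (Gamma0 N) →+ A) :
    h52_heckeU hpN (φ + ψ) = h52_heckeU hpN φ + h52_heckeU hpN ψ := by
  refine AddMonoidHom.ext fun γ => ?_
  show ∑ x : ZMod p, (φ _ + ψ _) = _
  rw [Finset.sum_add_distrib]
  rfl

theorem h52_heckeU_zsmul (hpN : p ∣ N) {A : Type*} [AddCommGroup A] (c : ℤ)
    (φ : Additive (Gamma0 N) →+ A) :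
    h52_heckeU hpN (c • φ) = c • h52_heckeU hpN φ := by
  refine AddMonoidHom.ext fun γ => ?_
  show ∑ x : ZMod p, (c • φ _) = c • ∑ x : ZMod p, φ _
  rw [Finset.smul_sum]

end UOp

end

end Fermat.Agent.S16
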