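import Mathlib
import Fermat.Prelude.Def_ModularCurve_ModularUnit
import Fermat.Agent.S16.h52_HeckeHom

/-!
# The Shimura class of `Γ₀(p)`

`ψ : Γ₀(p) → ℤ/n`, `n = (p-1)/gcd(p-1,12)`, is the character `γ ↦ Λ(d(γ) mod p)`, where
`Λ : (ℤ/p)ˣ → ℤ/n` is a surjective character killing the 12-torsion.  It vanishes on all
elements of trace `0, ±1, ±2`, and is an eigenvector of the algebraic Hecke operators with the
Eisenstein eigenvalues `1 + ℓ` (for `T_ℓ`, `ℓ ≠ p`) and `1` (for `U_p`).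
-/

set_option autoImplicit false

namespace Fermat.Agent.S16

open scoped MatrixGroups
open CongruenceSubgroup ModularCurve
open P2MW.S_ModularForm_heckeT_slash_eq_self_of_mem_Gamma0.ModularForm.HeckeSlashInvariance

noncomputable section

section Lam

variable (p : ℕ) [Fact p.Prime]

theorem h52_card_units : Nat.card (ZMod p)ˣ = p - 1 := by
  rw [Nat.card_units, Nat.card_zmod]

theorem h52_num_dvd_card : eisensteinNumerator p ∣ Nat.card (ZMod p)ˣ := by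
  rw [h52_card_units]; exact eisensteinNumerator_dvd p

/-- A surjective character `(ℤ/p)ˣ → ℤ/n` (written multiplicatively). -/
def h52_Lam : (ZMod p)ˣ →* Multiplicative (ZMod (eisensteinNumerator p)) :=
  (AddMonoidHom.toMultiplicative
      (ZMod.castHom (h52_num_dvd_card p) (ZMod (eisensteinNumerator p))).toAddMonoidHom).comp
    (zmodCyclicMulEquiv (inferInstance : IsCyclic (ZMod p)ˣ)).symm.toMonoidHom

theorem h52_Lam_surjective : Function.Surjective (h52_Lam p) := by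
  intro y
  obtain ⟨k, hk⟩ := ZMod.castHom_surjective (h52_num_dvd_card p) (Multiplicative.toAdd y)
  refine ⟨zmodCyclicMulEquiv (inferInstance : IsCyclic (ZMod p)ˣ) (Multiplicative.ofAdd k), ?_⟩
  show Multiplicative.ofAdd ((ZMod.castHom (h52_num_dvd_card p) (ZMod (eisensteinNumerator p)))
    (Multiplicative.toAdd ((zmodCyclicMulEquiv (inferInstance : IsCyclic (ZMod p)ˣ)).symm
      (zmodCyclicMulEquiv (inferInstance : IsCyclic (ZMod p)ˣ) (Multiplicative.ofAdd k))))) = y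
  rw [MulEquiv.symm_apply_apply, toAdd_ofAdd, hk, ofAdd_toAdd]

theorem h52_Lam_eq_one_of_pow (u : (ZMod p)ˣ) (hu : u ^ 12 = 1) : h52_Lam p u = 1 := by
  set m := Nat.card (ZMod p)ˣ with hm
  have hmpos : 0 < m := Nat.card_pos
  haveI : NeZero m := ⟨hmpos.ne'⟩
  set k : ZMod m := Multiplicative.toAdd
    ((zmodCyclicMulEquiv (inferInstance : IsCyclic (ZMod p)ˣ)).symm u) with hk
  have h12 : (12 : ℕ) • k = 0 := by
    have h1 : ((zmodCyclicMulEquiv (inferInstance : IsCyclic (ZMod p)ˣ)).symm u) ^ 12 = 1 := by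
      rw [← map_pow, hu, map_one]
    have h2 := congrArg Multiplicative.toAdd h1
    rwa [toAdd_pow, toAdd_one] at h2
  -- pass to natural numbers
  have hkv : (k.val : ZMod m) = k := ZMod.natCast_zmod_val k
  have hdvd : m ∣ 12 * k.val := by
    rw [← ZMod.natCast_eq_zero_iff]
    push_cast
    rw [hkv]
    simpa [nsmul_eq_mul] using h12
  have hm' : m = p - 1 := h52_card_units p
  set g := Nat.gcd (p - 1) 12 with hg
  have hgpos : 0 < g := Nat.gcd_pos_of_pos_right _ (by norm_num)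
  have hn : eisensteinNumerator p = (p - 1) / g := rfl
  have hg1 : g ∣ p - 1 := Nat.gcd_dvd_left _ _
  have hg2 : g ∣ 12 := Nat.gcd_dvd_right _ _
  have hcop : Nat.Coprime ((p - 1) / g) (12 / g) := Nat.coprime_div_gcd_div_gcd hgpos
  have hndvd : eisensteinNumerator p ∣ k.val := by
    rw [hn]
    apply hcop.dvd_of_dvd_mul_left
    -- (p-1)/g ∣ (12/g) * k.val
    have h3 : (p - 1) / g * g ∣ 12 / g * k.val * g := by
      rw [Nat.div_mul_cancel hg1, ← hm']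
      have : 12 / g * k.val * g = 12 * k.val := by
        rw [mul_comm (12 / g) k.val, mul_assoc, Nat.div_mul_cancel hg2, mul_comm]
      rw [this]; exact hdvd
    exact Nat.dvd_of_mul_dvd_mul_right hgpos h3
  show Multiplicative.ofAdd ((ZMod.castHom (h52_num_dvd_card p) (ZMod (eisensteinNumerator p)))
    k) = 1
  rw [← hkv, map_natCast, (ZMod.natCast_eq_zero_iff _ _).mpr hndvd]
  rfl

end Lam

section Psi

variable (p : ℕ) [Fact p.Prime]

/-- The lower right entry as a unit of `ZMod p`. -/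
def h52_dUnit : Gamma0 p →* (ZMod p)ˣ := (Gamma0Map p).toHomUnits

theorem h52_dUnit_coe (γ : Gamma0 p) :
    ((h52_dUnit p γ : (ZMod p)ˣ) : ZMod p) = (((γ : SL(2, ℤ)) 1 1 : ℤ) : ZMod p) := rfl

/-- The **Shimura class**: an additive character `Γ₀(p) → ℤ/n`. -/
def h52_psi : Additive (Gamma0 p) →+ ZMod (eisensteinNumerator p) :=
  AddMonoidHom.mk'
    (fun γ => Multiplicative.toAdd (h52_Lam p (h52_dUnit p (Additive.toMul γ))))
    (by intro γ δ; simp only [toMul_add, map_mul, toAdd_mul])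

theorem h52_psi_apply (γ : Gamma0 p) :
    h52_psi p (Additive.ofMul γ) = Multiplicative.toAdd (h52_Lam p (h52_dUnit p γ)) := rfl

theorem h52_psi_eq_zero_of_pow (γ : Gamma0 p)
    (h : ((((γ : SL(2, ℤ)) 1 1 : ℤ) : ZMod p)) ^ 12 = 1) : h52_psi p (Additive.ofMul γ) = 0 := by
  have hu : h52_dUnit p γ ^ 12 = 1 := by
    apply Units.ext
    rw [Units.val_pow_eq_pow_val, h52_dUnit_coe, Units.val_one]
    exact h
  rw [h52_psi_apply, h52_Lam_eq_one_of_pow p _ hu]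
  rfl

theorem h52_ad (γ : Gamma0 p) :
    ((((γ : SL(2, ℤ)) 0 0 : ℤ)) : ZMod p) * ((((γ : SL(2, ℤ)) 1 1 : ℤ)) : ZMod p) = 1 :=
  unit_of_apply_one_zero_eq_zero (γ : SL(2, ℤ)) (Gamma0_mem.mp γ.2)

/-- `ψ` kills every element whose trace is `0`, `±1` or `±2`. -/
theorem h52_psi_eq_zero_of_trace (γ : Gamma0 p) (t : ℤ)
    (ht : ((γ : SL(2, ℤ)) : Matrix (Fin 2) (Fin 2) ℤ).trace = t)
    (ht' : t = 0 ∨ t ^ 2 = 1 ∨ t ^ 2 = 4) : h52_psi p (Additive.ofMul γ) = 0 := by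
  apply h52_psi_eq_zero_of_pow
  have had := h52_ad p γ
  rw [Matrix.trace_fin_two] at ht
  have ht2 : ((((γ : SL(2, ℤ)) 0 0 : ℤ)) : ZMod p) + ((((γ : SL(2, ℤ)) 1 1 : ℤ)) : ZMod p)
      = (t : ZMod p) := by
    rw [← ht]; push_cast; rfl
  set a : ZMod p := ((((γ : SL(2, ℤ)) 0 0 : ℤ)) : ZMod p) with ha
  set d : ZMod p := ((((γ : SL(2, ℤ)) 1 1 : ℤ)) : ZMod p) with hd
  -- d^2 - t d + 1 = 0
  have hq : d ^ 2 - (t : ZMod p) * d + 1 = 0 := by
    rw [← ht2]; linear_combination -had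
  rcases ht' with h0 | h1 | h4
  · -- t = 0: d^2 = -1
    have h0' : (t : ZMod p) = 0 := by rw [h0]; simp
    rw [h0'] at hq
    have : d ^ 2 = -1 := by linear_combination hq
    calc d ^ 12 = (d ^ 2) ^ 6 := by ring
      _ = 1 := by rw [this]; ring
  · -- t^2 = 1: d^3 = -t, d^6 = 1
    have h1' : (t : ZMod p) ^ 2 = 1 := by
      have := congrArg (Int.cast : ℤ → ZMod p) h1
      simpa using this
    have h3 : d ^ 3 = -(t : ZMod p) := by
      linear_combination (d + (t : ZMod p)) * hq + d * h1'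
    calc d ^ 12 = (d ^ 3) ^ 4 := by ring
      _ = ((t : ZMod p) ^ 2) ^ 2 := by rw [h3]; ring
      _ = 1 := by rw [h1']; ring
  · -- t^2 = 4: (2d - t)^2 = 0
    have h4' : (t : ZMod p) ^ 2 = 4 := by
      have := congrArg (Int.cast : ℤ → ZMod p) h4
      simpa using this
    have hsq : (2 * d - (t : ZMod p)) ^ 2 = 0 := by
      linear_combination 4 * hq + h4'
    have h2d : 2 * d = (t : ZMod p) := by
      have := pow_eq_zero_iff (two_ne_zero) |>.mp hsq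
      linear_combination this
    -- (2d)^2 = 4 so 4 d^2 = 4; combined with hq: t d = 2 ... use d^2 - t d + 1 = 0, t = 2d: 1 = d^2
    have hd2 : d ^ 2 = 1 := by
      linear_combination -hq + d * h2d
    calc d ^ 12 = (d ^ 2) ^ 6 := by ring
      _ = 1 := by rw [hd2]; ring

/-- `ψ` is a parabolic character. -/
theorem h52_psi_parabolic :
    ModularCurve.Period.IsParabolicHom (Gamma0 p) (h52_psi p) := by
  intro γ hγ
  exact h52_psi_eq_zero_of_trace p γ _ rfl (Or.inr (Or.inr hγ))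

theorem h52_dUnit_surjective : Function.Surjective (h52_dUnit p) := by
  intro u
  have hp : (p : ℕ).Prime := Fact.out
  have hu : IsCoprime ((u : ZMod p).val : ℤ) (p : ℤ) := by
    have h1 : Nat.Coprime (u : ZMod p).val p := by
      apply Nat.Coprime.symm
      rw [Nat.Prime.coprime_iff_not_dvd hp]
      intro hdvd
      have : ((u : ZMod p).val : ZMod p) = 0 := (ZMod.natCast_eq_zero_iff _ _).mpr hdvd
      rw [ZMod.natCast_zmod_val] at this
      exact u.ne_zero this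
    exact Nat.isCoprime_iff_coprime.mpr h1
  obtain ⟨x, y, hxy⟩ := hu
  -- x * d + y * p = 1 ; matrix [x, -y; p, d]
  let g : SL(2, ℤ) := ⟨!![x, -y; (p : ℤ), ((u : ZMod p).val : ℤ)], by
    rw [Matrix.det_fin_two_of]; linear_combination hxy⟩
  have hg : g ∈ Gamma0 p := by
    rw [Gamma0_mem]
    show (((p : ℤ)) : ZMod p) = 0
    simp
  refine ⟨⟨g, hg⟩, Units.ext ?_⟩
  rw [h52_dUnit_coe]
  show ((((u : ZMod p).val : ℤ)) : ZMod p) = (u : ZMod p)
  simp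

theorem h52_psi_surjective : Function.Surjective (h52_psi p) := by
  intro y
  obtain ⟨u, hu⟩ := h52_Lam_surjective p (Multiplicative.ofAdd y)
  obtain ⟨γ, hγ⟩ := h52_dUnit_surjective p u
  refine ⟨Additive.ofMul γ, ?_⟩
  rw [h52_psi_apply, hγ, hu, toAdd_ofAdd]

/-- `ψ` kills every element with `trace² ≤ 4` (the elements `±1`, elliptic and parabolic). -/
theorem h52_psi_trace_le (γ : Gamma0 p)
    (h : ((γ : SL(2, ℤ)) : Matrix (Fin 2) (Fin 2) ℤ).trace ^ 2 ≤ 4) :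
    h52_psi p (Additive.ofMul γ) = 0 := by
  apply h52_psi_eq_zero_of_trace p γ _ rfl
  set t : ℤ := ((γ : SL(2, ℤ)) : Matrix (Fin 2) (Fin 2) ℤ).trace with ht
  have h1 : -2 ≤ t := by nlinarith
  have h2 : t ≤ 2 := by nlinarith
  interval_cases t <;> simp

end Psi

section Eigen

variable (p : ℕ) [Fact p.Prime]

/-- Comparing lower right entries in `α * γ = γ' * β`. -/
theorem h52_entry11 (α β : GL (Fin 2) ℝ) (d₁ b₂ d₂ : ℤ)
    (hα10 : (α : Matrix (Fin 2) (Fin 2) ℝ) 1 0 = 0)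
    (hα11 : (α : Matrix (Fin 2) (Fin 2) ℝ) 1 1 = d₁)
    (hβ01 : (β : Matrix (Fin 2) (Fin 2) ℝ) 0 1 = b₂)
    (hβ11 : (β : Matrix (Fin 2) (Fin 2) ℝ) 1 1 = d₂)
    (g g' : SL(2, ℤ))
    (h : α * Matrix.SpecialLinearGroup.mapGL ℝ g = Matrix.SpecialLinearGroup.mapGL ℝ g' * β) :
    d₁ * g 1 1 = g' 1 0 * b₂ + g' 1 1 * d₂ := by
  have h1 := congrArg (fun M : GL (Fin 2) ℝ => (M : Matrix (Fin 2) (Fin 2) ℝ) 1 1) h
  simp only [Matrix.GeneralLinearGroup.coe_mul, Matrix.mul_apply, Fin.sum_univ_two,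
    hα10, hα11, hβ01, hβ11, Matrix.SpecialLinearGroup.mapGL_coe_matrix,
    Matrix.SpecialLinearGroup.map_apply_coe, RingHom.mapMatrix_apply, Matrix.map_apply,
    algebraMap_int_eq, Int.coe_castRingHom] at h1
  have h2 : ((d₁ * g 1 1 : ℤ) : ℝ) = ((g' 1 0 * b₂ + g' 1 1 * d₂ : ℤ) : ℝ) := by
    push_cast; linear_combination h1
  exact_mod_cast h2

/-- Comparing upper left entries in `α * γ = γ' * β`. -/
theorem h52_entry00 (α β : GL (Fin 2) ℝ) (a₁ b₁ a₂ : ℤ)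
    (hα00 : (α : Matrix (Fin 2) (Fin 2) ℝ) 0 0 = a₁)
    (hα01 : (α : Matrix (Fin 2) (Fin 2) ℝ) 0 1 = b₁)
    (hβ00 : (β : Matrix (Fin 2) (Fin 2) ℝ) 0 0 = a₂)
    (hβ10 : (β : Matrix (Fin 2) (Fin 2) ℝ) 1 0 = 0)
    (g g' : SL(2, ℤ))
    (h : α * Matrix.SpecialLinearGroup.mapGL ℝ g = Matrix.SpecialLinearGroup.mapGL ℝ g' * β) :
    a₁ * g 0 0 + b₁ * g 1 0 = g' 0 0 * a₂ := by
  have h1 := congrArg (fun M : GL (Fin 2) ℝ => (M : Matrix (Fin 2) (Fin 2) ℝ) 0 0) h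
  simp only [Matrix.GeneralLinearGroup.coe_mul, Matrix.mul_apply, Fin.sum_univ_two,
    hα00, hα01, hβ00, hβ10, Matrix.SpecialLinearGroup.mapGL_coe_matrix,
    Matrix.SpecialLinearGroup.map_apply_coe, RingHom.mapMatrix_apply, Matrix.map_apply,
    algebraMap_int_eq, Int.coe_castRingHom] at h1
  have h2 : ((a₁ * g 0 0 + b₁ * g 1 0 : ℤ) : ℝ) = ((g' 0 0 * a₂ : ℤ) : ℝ) := by
    push_cast; linear_combination h1
  exact_mod_cast h2

theorem h52_c_zero (γ : Gamma0 p) : ((((γ : SL(2, ℤ)) 1 0 : ℤ)) : ZMod p) = 0 :=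
  Gamma0_mem.mp γ.2

/-- The lower right entry of `heckeRep ℓ x`. -/
def h52_eps (ℓ : ℕ) (x : OnePoint (ZMod ℓ)) : ℕ := x.elim 1 (fun _ => ℓ)

theorem h52_heckeRep_10 (ℓ : ℕ) [NeZero ℓ] (x : OnePoint (ZMod ℓ)) :
    (heckeRep ℓ x : Matrix (Fin 2) (Fin 2) ℝ) 1 0 = 0 := by
  induction x using OnePoint.rec with
  | infty => simp [ModularForm.val_heckeDiagMatrix (NeZero.ne ℓ)]
  | coe j => simp [ModularForm.val_heckeMatrix (NeZero.ne ℓ)]

theorem h52_heckeRep_11 (ℓ : ℕ) [NeZero ℓ] (x : OnePoint (ZMod ℓ)) :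
    (heckeRep ℓ x : Matrix (Fin 2) (Fin 2) ℝ) 1 1 = ((h52_eps ℓ x : ℤ) : ℝ) := by
  induction x using OnePoint.rec with
  | infty => simp [ModularForm.val_heckeDiagMatrix (NeZero.ne ℓ), h52_eps]
  | coe j => simp [ModularForm.val_heckeMatrix (NeZero.ne ℓ), h52_eps]

theorem h52_heckeRep_01 (ℓ : ℕ) [NeZero ℓ] (x : OnePoint (ZMod ℓ)) :
    ∃ b : ℤ, (heckeRep ℓ x : Matrix (Fin 2) (Fin 2) ℝ) 0 1 = (b : ℝ) := by
  induction x using OnePoint.rec with
  | infty => exact ⟨0, by simp [ModularForm.val_heckeDiagMatrix (NeZero.ne ℓ)]⟩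
  | coe j => exact ⟨(j.val : ℤ), by simp [ModularForm.val_heckeMatrix (NeZero.ne ℓ)]⟩

/-- The congruence `ε(x) d(γ) = d(γ') ε(y)` from `heckeRep ℓ x * γ = γ' * heckeRep ℓ y`. -/
theorem h52_d_congr (ℓ : ℕ) [NeZero ℓ] (γ γ' : Gamma0 p) (x y : OnePoint (ZMod ℓ))
    (h : heckeRep ℓ x * Matrix.SpecialLinearGroup.mapGL ℝ (γ : SL(2, ℤ)) =
      Matrix.SpecialLinearGroup.mapGL ℝ (γ' : SL(2, ℤ)) * heckeRep ℓ y) :
    ((h52_eps ℓ x : ℕ) : ZMod p) * ((((γ : SL(2, ℤ)) 1 1 : ℤ)) : ZMod p) =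
      ((((γ' : SL(2, ℤ)) 1 1 : ℤ)) : ZMod p) * ((h52_eps ℓ y : ℕ) : ZMod p) := by
  obtain ⟨b, hb⟩ := h52_heckeRep_01 ℓ y
  have h1 := h52_entry11 (heckeRep ℓ x) (heckeRep ℓ y) (h52_eps ℓ x) b (h52_eps ℓ y)
    (h52_heckeRep_10 ℓ x) (h52_heckeRep_11 ℓ x) hb (h52_heckeRep_11 ℓ y) _ _ h
  have h2 := congrArg (Int.cast : ℤ → ZMod p) h1
  push_cast at h2
  rw [h52_c_zero p γ'] at h2
  linear_combination h2

theorem h52_eps_ne_zero {ℓ : ℕ} [Fact ℓ.Prime] (hℓp : ℓ ≠ p) (x : OnePoint (ZMod ℓ)) :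
    ((h52_eps ℓ x : ℕ) : ZMod p) ≠ 0 := by
  induction x using OnePoint.rec with
  | infty => simp [h52_eps]
  | coe j =>
    show ((ℓ : ℕ) : ZMod p) ≠ 0
    intro h0
    rw [ZMod.natCast_eq_zero_iff] at h0
    exact hℓp ((Nat.prime_dvd_prime_iff_eq (Fact.out : p.Prime) (Fact.out : ℓ.Prime)).mp h0).symm

/-- `ε` as a unit of `ZMod p`. -/
def h52_epsUnit {ℓ : ℕ} [Fact ℓ.Prime] (hℓp : ℓ ≠ p) (x : OnePoint (ZMod ℓ)) : (ZMod p)ˣ :=
  Units.mk0 _ (h52_eps_ne_zero p hℓp x)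

/-- **Eisenstein eigen-relation at `ℓ ≠ p`, raw coset form**: for ANY decomposition
`heckeRep ℓ x * γ = g x * heckeRep ℓ (π x)` one has `∑ₓ ψ(g x) = (ℓ + 1) ψ(γ)`. -/
theorem h52_psi_heckeT_raw {ℓ : ℕ} [Fact ℓ.Prime] (hℓp : ℓ ≠ p) (γ : Gamma0 p)
    (π : Equiv.Perm (OnePoint (ZMod ℓ))) (g : OnePoint (ZMod ℓ) → Gamma0 p)
    (h : ∀ x, heckeRep ℓ x * Matrix.SpecialLinearGroup.mapGL ℝ (γ : SL(2, ℤ)) =
      Matrix.SpecialLinearGroup.mapGL ℝ ((g x : Gamma0 p) : SL(2, ℤ)) * heckeRep ℓ (π x)) :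
    ∑ x : OnePoint (ZMod ℓ), h52_psi p (Additive.ofMul (g x)) =
      (ℓ + 1) • h52_psi p (Additive.ofMul γ) := by
  haveI : NeZero ℓ := ⟨(Fact.out : ℓ.Prime).ne_zero⟩
  set E : OnePoint (ZMod ℓ) → ZMod (eisensteinNumerator p) :=
    fun x => Multiplicative.toAdd (h52_Lam p (h52_epsUnit p hℓp x)) with hE
  have key : ∀ x, h52_psi p (Additive.ofMul (g x)) + E (π x) =
      E x + h52_psi p (Additive.ofMul γ) := by
    intro x
    have hu : h52_dUnit p (g x) * h52_epsUnit p hℓp (π x) =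
        h52_epsUnit p hℓp x * h52_dUnit p γ := by
      apply Units.ext
      rw [Units.val_mul, Units.val_mul, h52_dUnit_coe, h52_dUnit_coe]
      exact (h52_d_congr p ℓ γ (g x) x (π x) (h x)).symm
    have h2 := congrArg (fun u => Multiplicative.toAdd (h52_Lam p u)) hu
    simp only [map_mul, toAdd_mul] at h2
    exact h2
  have hsum : ∑ x : OnePoint (ZMod ℓ), (h52_psi p (Additive.ofMul (g x)) + E (π x)) =
      ∑ x : OnePoint (ZMod ℓ), (E x + h52_psi p (Additive.ofMul γ)) :=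
    Finset.sum_congr rfl fun x _ => key x
  rw [Finset.sum_add_distrib, Finset.sum_add_distrib, Equiv.sum_comp π E, add_comm] at hsum
  have h3 := add_left_cancel hsum
  rw [h3, Finset.sum_const, Finset.card_univ]
  congr 1
  show Fintype.card (Option (ZMod ℓ)) = ℓ + 1
  rw [Fintype.card_option, ZMod.card]

theorem h52_heckeMatrix_entries (j : ℕ) :
    (ModularForm.heckeMatrix p j : Matrix (Fin 2) (Fin 2) ℝ) 0 0 = ((1 : ℤ) : ℝ) ∧
    (ModularForm.heckeMatrix p j : Matrix (Fin 2) (Fin 2) ℝ) 0 1 = ((j : ℤ) : ℝ) ∧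
    (ModularForm.heckeMatrix p j : Matrix (Fin 2) (Fin 2) ℝ) 1 0 = 0 := by
  have hp : p ≠ 0 := (Fact.out : p.Prime).ne_zero
  simp [ModularForm.val_heckeMatrix hp]

theorem h52_p_eq_one : ((p : ℕ) : ZMod (eisensteinNumerator p)) = 1 := by
  have hp : 1 ≤ p := (Fact.out : p.Prime).one_lt.le
  have h1 : ((p - 1 : ℕ) : ZMod (eisensteinNumerator p)) = 0 :=
    (ZMod.natCast_eq_zero_iff _ _).mpr (eisensteinNumerator_dvd p)
  rw [Nat.cast_sub hp, Nat.cast_one, sub_eq_zero] at h1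
  exact h1

/-- **Eisenstein eigen-relation at `p`, raw coset form**: for ANY family `g j ∈ Γ₀(p)` with
`heckeMatrix p j * γ = g j * heckeMatrix p j'` one has `∑ⱼ ψ(g j) = ψ(γ)`. -/
theorem h52_psi_heckeU_raw (γ : Gamma0 p) (j' : ZMod p → ℕ) (g : ZMod p → Gamma0 p)
    (h : ∀ x : ZMod p, ModularForm.heckeMatrix p x.val *
        Matrix.SpecialLinearGroup.mapGL ℝ (γ : SL(2, ℤ)) =
      Matrix.SpecialLinearGroup.mapGL ℝ ((g x : Gamma0 p) : SL(2, ℤ)) *
        ModularForm.heckeMatrix p (j' x)) :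
    ∑ x : ZMod p, h52_psi p (Additive.ofMul (g x)) = h52_psi p (Additive.ofMul γ) := by
  have key : ∀ x, h52_psi p (Additive.ofMul (g x)) = h52_psi p (Additive.ofMul γ) := by
    intro x
    obtain ⟨e00, e01, e10⟩ := h52_heckeMatrix_entries p x.val
    obtain ⟨f00, -, f10⟩ := h52_heckeMatrix_entries p (j' x)
    have h1 := h52_entry00 _ _ 1 (x.val : ℤ) 1 e00 e01 f00 f10 _ _ (h x)
    have h2 := congrArg (Int.cast : ℤ → ZMod p) h1
    push_cast at h2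
    rw [h52_c_zero p γ] at h2
    have ha : ((((γ : SL(2, ℤ)) 0 0 : ℤ)) : ZMod p) = ((((g x : Gamma0 p) : SL(2, ℤ)) 0 0 : ℤ)) := by
      linear_combination h2
    have hd : ((((g x : Gamma0 p) : SL(2, ℤ)) 1 1 : ℤ) : ZMod p) =
        ((((γ : SL(2, ℤ)) 1 1 : ℤ)) : ZMod p) := by
      have e1 := h52_ad p γ
      have e2 := h52_ad p (g x)
      rw [← ha] at e2
      calc ((((g x : Gamma0 p) : SL(2, ℤ)) 1 1 : ℤ) : ZMod p)
          = (((((γ : SL(2, ℤ)) 0 0 : ℤ)) : ZMod p) * ((((γ : SL(2, ℤ)) 1 1 : ℤ)) : ZMod p)) *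
              ((((g x : Gamma0 p) : SL(2, ℤ)) 1 1 : ℤ) : ZMod p) := by rw [e1, one_mul]
        _ = ((((γ : SL(2, ℤ)) 1 1 : ℤ)) : ZMod p) *
              (((((γ : SL(2, ℤ)) 0 0 : ℤ)) : ZMod p) *
                ((((g x : Gamma0 p) : SL(2, ℤ)) 1 1 : ℤ) : ZMod p)) := by ring
        _ = ((((γ : SL(2, ℤ)) 1 1 : ℤ)) : ZMod p) := by rw [e2, mul_one]
    have hu : h52_dUnit p (g x) = h52_dUnit p γ := Units.ext hd
    rw [h52_psi_apply, h52_psi_apply, hu]
  rw [Finset.sum_congr rfl fun x _ => key x, Finset.sum_const, Finset.card_univ, ZMod.card,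
    nsmul_eq_mul, h52_p_eq_one, one_mul]

/-- `T_ℓ ψ = (ℓ + 1) ψ` for the operator `h52_heckeT`. -/
theorem h52_heckeT_psi {ℓ : ℕ} [Fact ℓ.Prime] (hℓp : ℓ ≠ p) (hℓ : ¬ ℓ ∣ p) :
    h52_heckeT hℓ (h52_psi p) = (ℓ + 1) • h52_psi p := by
  refine AddMonoidHom.ext fun γ => ?_
  exact h52_psi_heckeT_raw p hℓp (Additive.toMul γ)
    (MulAction.toPerm (redMatrix ℓ ((Additive.toMul γ : Gamma0 p) : SL(2, ℤ))))
    (fun x => h52_kapT hℓ (Additive.toMul γ) x) (fun x => h52_kapT_spec hℓ (Additive.toMul γ) x)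

/-- `U_p ψ = ψ` for the operator `h52_heckeU`. -/
theorem h52_heckeU_psi :
    haveI : NeZero p := ⟨(Fact.out : p.Prime).ne_zero⟩
    h52_heckeU (dvd_refl p) (h52_psi p) = h52_psi p := by
  haveI : NeZero p := ⟨(Fact.out : p.Prime).ne_zero⟩
  refine AddMonoidHom.ext fun γ => ?_
  exact h52_psi_heckeU_raw p (Additive.toMul γ)
    (fun x => (h52_sigU (dvd_refl p) (Additive.toMul γ) x).val)
    (fun x => h52_kapU (dvd_refl p) (Additive.toMul γ) x)
    (fun x => h52_kapU_spec (dvd_refl p) (Additive.toMul γ) x)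

end Eigen

end

end Fermat.Agent.S16
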