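import Mathlib
import Fermat.Agent.S16.h52_Shimura
import Fermat.Agent.S16.h30_EisDvd

/-!
# S16, LOWER bound from an integral lift of the Shimura class

Wiring of `h30_lower_of_class` with the Shimura class `h52_psi` and its raw Eisenstein
eigen-relations: any parabolic integral lift `Ψ` of `h52_psi p` gives the lower bound `hL'`.
-/

set_option autoImplicit false

namespace Fermat.Agent.S16

open CongruenceSubgroup ModularCurve ModularCurve.Period CuspForm
open scoped MatrixGroups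

variable (p : ℕ) [Fact p.Prime]

/-- **Lower bound of S16 from a parabolic integral lift of the Shimura class.** -/
theorem h30_lower_of_lift (Ψ : Additive (Gamma0 p) →+ ℤ)
    (hpar : IsParabolicHom (Gamma0 p) Ψ)
    (hΨ : ∀ γ : Additive (Gamma0 p),
      ((Ψ γ : ℤ) : ZMod (eisensteinNumerator p)) = h52_psi p γ) :
    ∀ t : HeckeAlg, h60_pi p t = 0 → ((eisensteinNumerator p : ℕ) : ℤ) ∣ h60_ev p t := by
  refine h30_lower_of_class p Ψ hpar ?_ ?_ ?_
  · intro l _ hlp γa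
    obtain ⟨γ, rfl⟩ : ∃ γ : Gamma0 p, Additive.ofMul γ = γa := ⟨Additive.toMul γa, rfl⟩
    have hlp' : l ≠ p := fun h => hlp (h ▸ dvd_rfl)
    obtain ⟨γ', y, hdec, hsum⟩ := h30_heckeT_exists (N := p) l hlp γ
    rw [hsum ℤ Ψ, ← ZMod.intCast_zmod_eq_zero_iff_dvd]
    push_cast
    simp only [hΨ]
    rw [h52_psi_heckeT_raw p hlp' γ y γ' hdec]
    simp only [nsmul_eq_mul]
    push_cast
    ring
  · intro γa
    obtain ⟨γ, rfl⟩ : ∃ γ : Gamma0 p, Additive.ofMul γ = γa := ⟨Additive.toMul γa, rfl⟩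
    obtain ⟨γ', y, hdec, hsum⟩ := h30_heckeU_exists (N := p) p dvd_rfl γ
    rw [hsum ℤ Ψ, ← ZMod.intCast_zmod_eq_zero_iff_dvd]
    push_cast
    simp only [hΨ]
    rw [h52_psi_heckeU_raw p γ (fun x => (y x).val) γ' hdec, sub_self]
  · obtain ⟨γ, hγ⟩ := h52_psi_surjective p 1
    refine ⟨γ, ?_⟩
    have h1 : ((Ψ γ - 1 : ℤ) : ZMod (eisensteinNumerator p)) = 0 := by
      push_cast
      rw [hΨ, hγ, sub_self]
    obtain ⟨k, hk⟩ := (ZMod.intCast_zmod_eq_zero_iff_dvd _ _).mp h1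
    exact ⟨1, -k, by linarith⟩

end Fermat.Agent.S16
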