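import Mathlib

/-!
# An almost invariant subset of `SL(2, ℤ)` and the homomorphisms it produces

`h36_N k = 2 Re(k • ρ) |cρ + d|²` for `ρ = e^{iπ/3}`; `h36_tau k = [h36_N k > 0]`.
The set `{k | h36_tau k = 1}` is right-invariant under `T * S` and almost invariant under `S`.
For `w : SL(2, ℤ) → ℤ` we put `h36_B w g s = ∑ k, w (g k⁻¹) (tau (k s) - tau k)` (finite sum).
-/

set_option autoImplicit false
set_option linter.unusedSimpArgs false

open Matrix ModularGroup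
open scoped MatrixGroups

namespace Fermat.Agent.S16

/-- `2 Re(k • ρ) |cρ + d|²`. -/
def h36_N (k : SL(2, ℤ)) : ℤ :=
  2 * (k.1 0 0 * k.1 1 0 + k.1 0 1 * k.1 1 1) + (k.1 0 0 * k.1 1 1 + k.1 0 1 * k.1 1 0)

/-- indicator of the half space `Re(k • ρ) > 0`. -/
def h36_tau (k : SL(2, ℤ)) : ℤ := if 0 < h36_N k then 1 else 0

theorem h36_det (k : SL(2, ℤ)) : k.1 0 0 * k.1 1 1 - k.1 0 1 * k.1 1 0 = 1 := by
  have h := k.det_coe
  rw [Matrix.det_fin_two] at h
  exact h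

theorem h36_mulS (k : SL(2, ℤ)) :
    (k * S).1 0 0 = k.1 0 1 ∧ (k * S).1 0 1 = -k.1 0 0 ∧
      (k * S).1 1 0 = k.1 1 1 ∧ (k * S).1 1 1 = -k.1 1 0 := by
  refine ⟨?_, ?_, ?_, ?_⟩ <;>
  · rw [Matrix.SpecialLinearGroup.coe_mul, Matrix.mul_apply, Fin.sum_univ_two, ModularGroup.coe_S]
    simp

theorem h36_mulT (k : SL(2, ℤ)) :
    (k * T).1 0 0 = k.1 0 0 ∧ (k * T).1 0 1 = k.1 0 0 + k.1 0 1 ∧
      (k * T).1 1 0 = k.1 1 0 ∧ (k * T).1 1 1 = k.1 1 0 + k.1 1 1 := by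
  refine ⟨?_, ?_, ?_, ?_⟩ <;>
  · rw [Matrix.SpecialLinearGroup.coe_mul, Matrix.mul_apply, Fin.sum_univ_two, ModularGroup.coe_T]
    simp

theorem h36_N_mulS (k : SL(2, ℤ)) :
    h36_N (k * S) =
      2 * (k.1 0 0 * k.1 1 0 + k.1 0 1 * k.1 1 1) - (k.1 0 0 * k.1 1 1 + k.1 0 1 * k.1 1 0) := by
  obtain ⟨h1, h2, h3, h4⟩ := h36_mulS k
  unfold h36_N
  rw [h1, h2, h3, h4]; ring

theorem h36_N_mulTS (k : SL(2, ℤ)) : h36_N (k * (T * S)) = h36_N k := by
  rw [← mul_assoc]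
  obtain ⟨h1, h2, h3, h4⟩ := h36_mulS (k * T)
  obtain ⟨t1, t2, t3, t4⟩ := h36_mulT k
  unfold h36_N
  rw [h1, h2, h3, h4, t1, t2, t3, t4]; ring

theorem h36_N_neg (k : SL(2, ℤ)) : h36_N (-k) = h36_N k := by
  unfold h36_N
  simp

theorem h36_tau_mulTS (k : SL(2, ℤ)) : h36_tau (k * (T * S)) = h36_tau k := by
  unfold h36_tau; rw [h36_N_mulTS]

theorem h36_tau_neg (k : SL(2, ℤ)) : h36_tau (-k) = h36_tau k := by
  unfold h36_tau; rw [h36_N_neg]


theorem h36_ext {k k' : SL(2, ℤ)} (h00 : k.1 0 0 = k'.1 0 0) (h01 : k.1 0 1 = k'.1 0 1)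
    (h10 : k.1 1 0 = k'.1 1 0) (h11 : k.1 1 1 = k'.1 1 1) : k = k' := by
  apply Subtype.ext
  ext i j
  fin_cases i <;> fin_cases j <;> assumption

theorem h36_N_ne_zero (k : SL(2, ℤ)) : h36_N k ≠ 0 := by
  have hd := h36_det k
  unfold h36_N
  intro h
  have : (2 * (k.1 0 0 * k.1 1 0 + k.1 0 1 * k.1 1 1 + k.1 0 1 * k.1 1 0) + 1) % 2 = 0 := by
    have : 2 * (k.1 0 0 * k.1 1 0 + k.1 0 1 * k.1 1 1 + k.1 0 1 * k.1 1 0) + 1 = 0 := by
      linear_combination h - hd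
    rw [this]; rfl
  omega

/-- the four exceptional elements `±1, ±S`. -/
theorem h36_exceptional {k : SL(2, ℤ)} (hP : k.1 0 0 * k.1 1 0 = 0) (hQ : k.1 0 1 * k.1 1 1 = 0) :
    k = 1 ∨ k = -1 ∨ k = S ∨ k = -S := by
  have hd := h36_det k
  rcases mul_eq_zero.mp hP with ha | hc
  · -- a = 0, so b c = -1 and d = 0
    have hbc : k.1 0 1 * k.1 1 0 = -1 := by rw [ha] at hd; linarith
    have hb : k.1 0 1 ≠ 0 := by intro h; rw [h] at hbc; simp at hbc
    have hd0 : k.1 1 1 = 0 := by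
      rcases mul_eq_zero.mp hQ with h | h
      · exact absurd h hb
      · exact h
    rcases Int.mul_eq_neg_one_iff_eq_one_or_neg_one.mp hbc with ⟨h1, h2⟩ | ⟨h1, h2⟩
    · right; right; right
      apply h36_ext <;> simp [Matrix.SpecialLinearGroup.coe_neg, ModularGroup.coe_S, ha, h1, h2, hd0]
    · right; right; left
      apply h36_ext <;> simp [Matrix.SpecialLinearGroup.coe_neg, ModularGroup.coe_S, ha, h1, h2, hd0]
  · -- c = 0, so a d = 1 and b = 0
    have had : k.1 0 0 * k.1 1 1 = 1 := by rw [hc] at hd; linarith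
    have hdne : k.1 1 1 ≠ 0 := by intro h; rw [h] at had; simp at had
    have hb : k.1 0 1 = 0 := by
      rcases mul_eq_zero.mp hQ with h | h
      · exact h
      · exact absurd h hdne
    rcases Int.mul_eq_one_iff_eq_one_or_neg_one.mp had with ⟨h1, h2⟩ | ⟨h1, h2⟩
    · left
      apply h36_ext <;> simp [Matrix.SpecialLinearGroup.coe_neg, hc, h1, h2, hb]
    · right; left
      apply h36_ext <;> simp [Matrix.SpecialLinearGroup.coe_neg, hc, h1, h2, hb]

theorem h36_tau_mulS_of_not_exceptional {k : SL(2, ℤ)}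
    (h : ¬ (k = 1 ∨ k = -1 ∨ k = S ∨ k = -S)) : h36_tau (k * S) = h36_tau k := by
  have hd := h36_det k
  have hprod : 0 < h36_N k * h36_N (k * S) := by
    rw [h36_N_mulS]
    unfold h36_N
    set P := k.1 0 0 * k.1 1 0 with hPdef
    set Q := k.1 0 1 * k.1 1 1 with hQdef
    have hPQ : ¬ (P = 0 ∧ Q = 0) := fun hh => h (h36_exceptional hh.1 hh.2)
    have hpos : 1 ≤ P ^ 2 + P * Q + Q ^ 2 := by
      by_contra hlt
      push Not at hlt
      have h0 : P ^ 2 + P * Q + Q ^ 2 ≤ 0 := by omega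
      have hP0 : P = 0 := by nlinarith [sq_nonneg (P + Q), sq_nonneg P, sq_nonneg Q, sq_nonneg (2 * P + Q), sq_nonneg (P + 2 * Q)]
      have hQ0 : Q = 0 := by nlinarith [sq_nonneg (P + Q), sq_nonneg P, sq_nonneg Q]
      exact hPQ ⟨hP0, hQ0⟩
    have key : (2 * (P + Q) + (k.1 0 0 * k.1 1 1 + k.1 0 1 * k.1 1 0)) *
        (2 * (P + Q) - (k.1 0 0 * k.1 1 1 + k.1 0 1 * k.1 1 0)) = 4 * (P ^ 2 + P * Q + Q ^ 2) - 1 := by
      have h4 : (k.1 0 0 * k.1 1 1 + k.1 0 1 * k.1 1 0) ^ 2 = 1 + 4 * (P * Q) := by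
        rw [hPdef, hQdef]
        linear_combination (k.1 0 0 * k.1 1 1 - k.1 0 1 * k.1 1 0 + 1) * hd
      linear_combination -h4
    rw [key]; linarith
  unfold h36_tau
  rcases (mul_pos_iff.mp hprod) with ⟨h1, h2⟩ | ⟨h1, h2⟩
  · rw [if_pos h1, if_pos h2]
  · rw [if_neg (not_lt.mpr h1.le), if_neg (not_lt.mpr h2.le)]

theorem h36_tau_one : h36_tau 1 = 1 := by simp [h36_tau, h36_N]
theorem h36_tau_neg_one : h36_tau (-1) = 1 := by rw [h36_tau_neg, h36_tau_one]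
theorem h36_tau_S : h36_tau S = 0 := by simp [h36_tau, h36_N, ModularGroup.coe_S]
theorem h36_tau_neg_S : h36_tau (-S) = 0 := by rw [h36_tau_neg, h36_tau_S]


/-- the almost invariance: for every `s`, `tau (k s) = tau k` for all but finitely many `k`. -/
theorem h36_finite_support (s : SL(2, ℤ)) :
    {k : SL(2, ℤ) | h36_tau (k * s) ≠ h36_tau k}.Finite := by
  have hs : s ∈ Subgroup.closure ({S, T} : Set SL(2, ℤ)) := by
    rw [SpecialLinearGroup.SL2Z_generators]; exact Subgroup.mem_top s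
  have hE : ({1, -1, S, -S} : Set SL(2, ℤ)).Finite := Set.toFinite _
  induction hs using Subgroup.closure_induction with
  | mem x hx =>
    rcases hx with rfl | rfl
    · refine hE.subset fun k hk => ?_
      by_contra h
      exact hk (h36_tau_mulS_of_not_exceptional h)
    · have hfin : ((fun k : SL(2, ℤ) => k * T) ⁻¹' ({1, -1, S, -S} : Set SL(2, ℤ))).Finite :=
        hE.preimage (fun a _ b _ hab => mul_right_cancel hab)
      refine hfin.subset fun k hk => ?_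
      by_contra h
      apply hk
      have h1 : h36_tau (k * T * S) = h36_tau (k * T) := h36_tau_mulS_of_not_exceptional h
      rw [← h1, mul_assoc, h36_tau_mulTS]
  | one => simp
  | mul x y _ _ hx hy =>
    have hfin : ((fun k : SL(2, ℤ) => k * x) ⁻¹' {k : SL(2, ℤ) | h36_tau (k * y) ≠ h36_tau k}).Finite :=
      hy.preimage (fun a _ b _ hab => mul_right_cancel hab)
    refine (hx.union hfin).subset fun k hk => ?_
    by_contra h
    rw [Set.mem_union, not_or] at h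
    apply hk
    have h1 : h36_tau (k * x) = h36_tau k := by
      by_contra h'; exact h.1 h'
    have h2 : h36_tau (k * x * y) = h36_tau (k * x) := by
      by_contra h'; exact h.2 h'
    rw [← mul_assoc, h2, h1]
  | inv x _ hx =>
    have hfin : ((fun k : SL(2, ℤ) => k * x⁻¹) ⁻¹' {k : SL(2, ℤ) | h36_tau (k * x) ≠ h36_tau k}).Finite :=
      hx.preimage (fun a _ b _ hab => mul_right_cancel hab)
    refine hfin.subset fun k hk => ?_
    by_contra h
    apply hk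
    have h1 : h36_tau (k * x⁻¹ * x) = h36_tau (k * x⁻¹) := by
      by_contra h'; exact h h'
    rw [← h1, inv_mul_cancel_right]

/-- `B w g s = ∑ k, w (g k⁻¹) (tau (k s) - tau k)`. -/
noncomputable def h36_B (w : SL(2, ℤ) → ℤ) (g s : SL(2, ℤ)) : ℤ :=
  ∑ᶠ k : SL(2, ℤ), w (g * k⁻¹) * (h36_tau (k * s) - h36_tau k)

theorem h36_B_support (w : SL(2, ℤ) → ℤ) (g s : SL(2, ℤ)) :
    (Function.support fun k : SL(2, ℤ) => w (g * k⁻¹) * (h36_tau (k * s) - h36_tau k)).Finite := by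
  refine (h36_finite_support s).subset fun k hk => ?_
  intro h
  apply hk
  show w (g * k⁻¹) * (h36_tau (k * s) - h36_tau k) = 0
  rw [h, sub_self, mul_zero]

theorem h36_B_one (w : SL(2, ℤ) → ℤ) (g : SL(2, ℤ)) : h36_B w g 1 = 0 := by
  unfold h36_B
  apply finsum_eq_zero_of_forall_eq_zero
  intro k
  rw [mul_one, sub_self, mul_zero]

theorem h36_B_mul (w : SL(2, ℤ) → ℤ) (g s t : SL(2, ℤ)) :
    h36_B w g (s * t) = h36_B w g s + h36_B w (g * s) t := by
  have h2 : h36_B w (g * s) t =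
      ∑ᶠ k : SL(2, ℤ), w (g * k⁻¹) * (h36_tau (k * s * t) - h36_tau (k * s)) := by
    unfold h36_B
    rw [← finsum_comp_equiv (Equiv.mulRight s)]
    apply finsum_congr
    intro k
    simp only [Equiv.coe_mulRight]
    rw [show g * s * (k * s)⁻¹ = g * k⁻¹ by group]
  have hfin2 : (Function.support fun k : SL(2, ℤ) =>
      w (g * k⁻¹) * (h36_tau (k * s * t) - h36_tau (k * s))).Finite := by
    have hfin : ((fun k : SL(2, ℤ) => k * s) ⁻¹'
        {k : SL(2, ℤ) | h36_tau (k * t) ≠ h36_tau k}).Finite :=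
      (h36_finite_support t).preimage (fun a _ b _ hab => mul_right_cancel hab)
    refine hfin.subset fun k hk => ?_
    intro h
    apply hk
    show w (g * k⁻¹) * (h36_tau (k * s * t) - h36_tau (k * s)) = 0
    rw [h, sub_self, mul_zero]
  rw [h2]
  unfold h36_B
  rw [← finsum_add_distrib (h36_B_support w g s) hfin2]
  apply finsum_congr
  intro k
  rw [mul_assoc]; ring

theorem h36_B_TS (w : SL(2, ℤ) → ℤ) (g : SL(2, ℤ)) : h36_B w g (T * S) = 0 := by
  unfold h36_B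
  apply finsum_eq_zero_of_forall_eq_zero
  intro k
  rw [h36_tau_mulTS, sub_self, mul_zero]

/-- the `S`-step. -/
theorem h36_B_S (w : SL(2, ℤ) → ℤ) (hw : ∀ h, w (-h) = w h) (g : SL(2, ℤ)) :
    h36_B w g S = 2 * (w (g * S) - w g) := by
  unfold h36_B
  have hsub : (Function.support fun k : SL(2, ℤ) =>
      w (g * k⁻¹) * (h36_tau (k * S) - h36_tau k)) ⊆
      ↑({1, -1, S, -S} : Finset SL(2, ℤ)) := by
    intro k hk
    by_contra h
    apply hk
    have h' : ¬ (k = 1 ∨ k = -1 ∨ k = S ∨ k = -S) := by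
      simpa using h
    show w (g * k⁻¹) * (h36_tau (k * S) - h36_tau k) = 0
    rw [h36_tau_mulS_of_not_exceptional h', sub_self, mul_zero]
  rw [finsum_eq_sum_of_support_subset _ hsub]
  have e1 : (1 : SL(2, ℤ)) ∉ ({-1, S, -S} : Finset SL(2, ℤ)) := by decide
  have e2 : (-1 : SL(2, ℤ)) ∉ ({S, -S} : Finset SL(2, ℤ)) := by decide
  have e3 : (S : SL(2, ℤ)) ∉ ({-S} : Finset SL(2, ℤ)) := by decide
  rw [Finset.sum_insert e1, Finset.sum_insert e2, Finset.sum_insert e3, Finset.sum_singleton]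
  have i1 : (-1 : SL(2, ℤ))⁻¹ = -1 := by decide
  have i2 : (S : SL(2, ℤ))⁻¹ = -S := by decide
  have i3 : (-S : SL(2, ℤ))⁻¹ = S := by decide
  have m1 : (-1 : SL(2, ℤ)) * S = -S := by decide
  have m2 : (S : SL(2, ℤ)) * S = -1 := by decide
  have m3 : (-S : SL(2, ℤ)) * S = 1 := by decide
  rw [inv_one, i1, i2, i3, one_mul, m1, m2, m3, h36_tau_one, h36_tau_neg_one, h36_tau_S,
    h36_tau_neg_S, mul_one, mul_neg, mul_neg, mul_one, hw, hw]
  ring

theorem h36_B_T (w : SL(2, ℤ) → ℤ) (hw : ∀ h, w (-h) = w h) (g : SL(2, ℤ)) :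
    h36_B w g T = 2 * (w (g * T) - w (g * T * S)) := by
  have h := h36_B_mul w g T S
  rw [h36_B_TS, h36_B_S w hw] at h
  linarith

theorem h36_B_Sinv (w : SL(2, ℤ) → ℤ) (hw : ∀ h, w (-h) = w h) (g : SL(2, ℤ)) :
    h36_B w g S⁻¹ = 2 * (w (g * S⁻¹) - w g) := by
  have h := h36_B_mul w g S⁻¹ S
  rw [inv_mul_cancel, h36_B_one, h36_B_S w hw, inv_mul_cancel_right] at h
  linarith

theorem h36_B_Tinv (w : SL(2, ℤ) → ℤ) (hw : ∀ h, w (-h) = w h) (g : SL(2, ℤ)) :
    h36_B w g T⁻¹ = 2 * (w (g * S) - w g) := by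
  have h := h36_B_mul w g T⁻¹ T
  rw [inv_mul_cancel, h36_B_one, h36_B_T w hw, inv_mul_cancel_right] at h
  linarith


/-- right induction on `SL(2, ℤ)` along the generators `S`, `T`. -/
@[elab_as_elim]
theorem h36_induction {P : SL(2, ℤ) → Prop} (h1 : P 1)
    (hS : ∀ x, P x → P (x * S)) (hT : ∀ x, P x → P (x * T))
    (hS' : ∀ x, P x → P (x * S⁻¹)) (hT' : ∀ x, P x → P (x * T⁻¹)) (s : SL(2, ℤ)) : P s := by
  have hs : s ∈ Subgroup.closure ({S, T} : Set SL(2, ℤ)) := by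
    rw [SpecialLinearGroup.SL2Z_generators]; exact Subgroup.mem_top s
  induction hs using Subgroup.closure_induction_right with
  | one => exact h1
  | mul_right x _ y hy ih =>
    rcases hy with rfl | rfl
    · exact hS x ih
    · exact hT x ih
  | mul_inv_cancel x _ y hy ih =>
    rcases hy with rfl | rfl
    · exact hS' x ih
    · exact hT' x ih

/-- comparison of `B w` with a pair of potentials modulo `n`. -/
theorem h36_B_compare {n : ℕ} (w : SL(2, ℤ) → ℤ) (hw : ∀ h, w (-h) = w h)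
    (fU fS : SL(2, ℤ) → ZMod n) (hU : ∀ h, fU (h * (T * S)) = fU h)
    (hS : ∀ h, fS (h * S) = fS h) (hwf : ∀ h, ((w h : ℤ) : ZMod n) = fU h - fS h)
    (s : SL(2, ℤ)) :
    ∀ g : SL(2, ℤ), ∃ m : ℤ, h36_B w g s = 2 * m ∧ ((m : ℤ) : ZMod n) = fU (g * s) - fU g := by
  induction s using h36_induction with
  | h1 =>
    intro g
    exact ⟨0, by rw [h36_B_one]; ring, by simp⟩
  | hS x ih =>
    intro g
    obtain ⟨m, hm, hmc⟩ := ih g
    refine ⟨m + (w (g * x * S) - w (g * x)), ?_, ?_⟩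
    · rw [h36_B_mul, hm, h36_B_S w hw]; ring
    · push_cast
      rw [hmc, hwf, hwf, hS, ← mul_assoc]; ring
  | hT x ih =>
    intro g
    obtain ⟨m, hm, hmc⟩ := ih g
    refine ⟨m + (w (g * x * T) - w (g * x * T * S)), ?_, ?_⟩
    · rw [h36_B_mul, hm, h36_B_T w hw]; ring
    · push_cast
      have h1 : fU (g * x * T * S) = fU (g * x) := by rw [mul_assoc (g * x) T S, hU]
      rw [hmc, hwf, hwf, hS, h1, ← mul_assoc]; ring
  | hS' x ih =>
    intro g
    obtain ⟨m, hm, hmc⟩ := ih g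
    refine ⟨m + (w (g * x * S⁻¹) - w (g * x)), ?_, ?_⟩
    · rw [h36_B_mul, hm, h36_B_Sinv w hw]; ring
    · push_cast
      have h1 : fS (g * x) = fS (g * x * S⁻¹) := by
        conv_lhs => rw [← inv_mul_cancel_right (g * x) S]
        rw [hS]
      rw [hmc, hwf, hwf, h1, ← mul_assoc]; ring
  | hT' x ih =>
    intro g
    obtain ⟨m, hm, hmc⟩ := ih g
    refine ⟨m + (w (g * x * S) - w (g * x)), ?_, ?_⟩
    · rw [h36_B_mul, hm, h36_B_Tinv w hw]; ring
    · push_cast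
      have h1 : fU (g * x * S) = fU (g * x * T⁻¹) := by
        have := hU (g * x * T⁻¹)
        rw [← this]
        congr 1
        group
      rw [hmc, hwf, hwf, hS, h1, ← mul_assoc]; ring

theorem h36_B_left (Γ : Subgroup SL(2, ℤ)) (w : SL(2, ℤ) → ℤ)
    (hΓ : ∀ γ ∈ Γ, ∀ h, w (γ * h) = w h) {γ : SL(2, ℤ)} (hγ : γ ∈ Γ) (g s : SL(2, ℤ)) :
    h36_B w (γ * g) s = h36_B w g s := by
  unfold h36_B
  apply finsum_congr
  intro k
  rw [mul_assoc, hΓ γ hγ]

/-- The potential `Ψ = B w 1 · / 2` attached to a left-`Γ`-invariant even `w` which is a lift of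
the difference of two potentials `fU`, `fS`. -/
theorem h36_exists_Psi {n : ℕ} (Γ : Subgroup SL(2, ℤ)) (w : SL(2, ℤ) → ℤ)
    (hw : ∀ h, w (-h) = w h) (hΓ : ∀ γ ∈ Γ, ∀ h, w (γ * h) = w h)
    (fU fS : SL(2, ℤ) → ZMod n) (hU : ∀ h, fU (h * (T * S)) = fU h)
    (hS : ∀ h, fS (h * S) = fS h) (hwf : ∀ h, ((w h : ℤ) : ZMod n) = fU h - fS h) :
    ∃ Ψ : SL(2, ℤ) → ℤ,
      Ψ 1 = 0 ∧
      (∀ γ ∈ Γ, ∀ h, Ψ (γ * h) = Ψ γ + Ψ h) ∧
      (∀ h, Ψ (h * T) = Ψ h + (w (h * T) - w (h * T * S))) ∧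
      (∀ h, Ψ (h * S) = Ψ h + (w (h * S) - w h)) ∧
      (∀ g, ((Ψ g : ℤ) : ZMod n) = fU g - fU 1) := by
  have hex := fun s => h36_B_compare w hw fU fS hU hS hwf s 1
  choose Ψ hΨ hΨc using hex
  refine ⟨Ψ, ?_, ?_, ?_, ?_, ?_⟩
  · have := hΨ 1
    rw [h36_B_one] at this
    omega
  · intro γ hγ h
    have h1 := h36_B_mul w 1 γ h
    rw [one_mul] at h1
    have h2 := h36_B_left Γ w hΓ hγ 1 h
    rw [mul_one] at h2
    rw [h2, hΨ, hΨ, hΨ] at h1
    omega
  · intro h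
    have h1 := h36_B_mul w 1 h T
    rw [one_mul, hΨ, hΨ, h36_B_T w hw] at h1
    omega
  · intro h
    have h1 := h36_B_mul w 1 h S
    rw [one_mul, hΨ, hΨ, h36_B_S w hw] at h1
    omega
  · intro g
    have := hΨc g
    rw [one_mul] at this
    exact this

end Fermat.Agent.S16
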