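import Mathlib
import Fermat.Prelude.Def_ModularCurve_PeriodMap
import Fermat.Agent.S16.h36_AIS

/-!
# Integral parabolic lifts of homomorphisms `Γ₀(p) → ℤ/n` killing elliptic and parabolic elements

Independent backup of the block "INTEGRAL LIFT" of the S16 lower bound, via the almost invariant
set of `h36_AIS`.
-/

set_option autoImplicit false
set_option linter.unusedSimpArgs false

open Matrix ModularGroup CongruenceSubgroup
open scoped MatrixGroups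

namespace Fermat.Agent.S16

/-- potentials for an additive character of a group action which kills all stabilisers. -/
theorem h36_exists_potential {H Y A : Type*} [Group H] [AddCommGroup A] (act : H → Y → Y)
    (hone : ∀ y, act 1 y = y) (hmul : ∀ a b y, act (a * b) y = act a (act b y))
    (c : H → A) (hc : ∀ a b, c (a * b) = c a + c b) (hstab : ∀ a y, act a y = y → c a = 0) :
    ∃ f : Y → A, ∀ a y, f (act a y) = c a + f y := by
  classical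
  have hc1 : c 1 = 0 := by
    have := hc 1 1
    rw [mul_one] at this
    simpa using this
  have hcinv : ∀ a, c a⁻¹ = - c a := by
    intro a
    have := hc a⁻¹ a
    rw [inv_mul_cancel, hc1] at this
    exact eq_neg_of_add_eq_zero_left this.symm
  let r : Setoid Y :=
    { r := fun y y' => ∃ a, act a y = y'
      iseqv := ⟨fun y => ⟨1, hone y⟩,
        fun {y y'} ⟨a, ha⟩ => ⟨a⁻¹, by rw [← ha, ← hmul, inv_mul_cancel, hone]⟩,
        fun {y y' y''} ⟨a, ha⟩ ⟨b, hb⟩ => ⟨b * a, by rw [hmul, ha, hb]⟩⟩ }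
  have hrep : ∀ y : Y, ∃ a, act a (Quotient.out (Quotient.mk r y)) = y := fun y =>
    Quotient.exact (Quotient.out_eq (Quotient.mk r y))
  choose h hh using hrep
  refine ⟨fun y => c (h y), fun a y => ?_⟩
  have hq : Quotient.mk r (act a y) = Quotient.mk r y :=
    Quotient.sound ⟨a⁻¹, by rw [← hmul, inv_mul_cancel, hone]⟩
  have h1 := hh (act a y)
  rw [hq] at h1
  have h2 := hh y
  have e : act a y = act (a * h y) (Quotient.out (Quotient.mk r y)) := by rw [hmul, h2]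
  have h3 : act ((a * h y)⁻¹ * h (act a y)) (Quotient.out (Quotient.mk r y))
      = Quotient.out (Quotient.mk r y) := by
    rw [hmul, h1, e, ← hmul, inv_mul_cancel, hone]
  have h4 := hstab _ _ h3
  rw [hc, hcinv, hc] at h4
  show c (h (act a y)) = c a + c (h y)
  have : c (h (act a y)) = c a + c (h y) := by
    have h5 : c (h (act a y)) - (c a + c (h y)) = 0 := by rw [← h4]; abel
    exact sub_eq_zero.mp h5
  exact this

theorem h36_trace_conj (y z : SL(2, ℤ)) :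
    ((y * z * y⁻¹ : SL(2, ℤ)) : Matrix (Fin 2) (Fin 2) ℤ).trace
      = (z : Matrix (Fin 2) (Fin 2) ℤ).trace := by
  rw [Matrix.SpecialLinearGroup.coe_mul, Matrix.trace_mul_comm, ← Matrix.SpecialLinearGroup.coe_mul,
    inv_mul_cancel_left]

theorem h36_trace_zpow_S (j : ℤ) :
    ((S ^ j : SL(2, ℤ)) : Matrix (Fin 2) (Fin 2) ℤ).trace ^ 2 ≤ 4 := by
  have h4 : (S : SL(2, ℤ)) ^ 4 = 1 := by decide
  rw [zpow_eq_zpow_emod' j h4]
  have h0 : 0 ≤ j % ((4 : ℕ) : ℤ) := Int.emod_nonneg _ (by norm_num)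
  have h1 : j % ((4 : ℕ) : ℤ) < 4 := Int.emod_lt_of_pos _ (by norm_num)
  obtain ⟨r, hr⟩ := Int.eq_ofNat_of_zero_le h0
  rw [hr, zpow_natCast]
  rw [hr] at h1
  have hr4 : r < 4 := by exact_mod_cast h1
  interval_cases r <;> decide

theorem h36_trace_zpow_TS (j : ℤ) :
    (((T * S) ^ j : SL(2, ℤ)) : Matrix (Fin 2) (Fin 2) ℤ).trace ^ 2 ≤ 4 := by
  have h6 : (T * S : SL(2, ℤ)) ^ 6 = 1 := by decide
  rw [zpow_eq_zpow_emod' j h6]
  have h0 : 0 ≤ j % ((6 : ℕ) : ℤ) := Int.emod_nonneg _ (by norm_num)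
  have h1 : j % ((6 : ℕ) : ℤ) < 6 := Int.emod_lt_of_pos _ (by norm_num)
  obtain ⟨r, hr⟩ := Int.eq_ofNat_of_zero_le h0
  rw [hr, zpow_natCast]
  rw [hr] at h1
  have hr6 : r < 6 := by exact_mod_cast h1
  interval_cases r <;> decide

/-- a potential which is right invariant under `u`. -/
theorem h36_exists_pot {N n : ℕ} (ψ : Additive (Gamma0 N) →+ ZMod n)
    (hψ : ∀ γ : Gamma0 N, ((γ : SL(2, ℤ)) : Matrix (Fin 2) (Fin 2) ℤ).trace ^ 2 ≤ 4 →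
      ψ (Additive.ofMul γ) = 0)
    (u : SL(2, ℤ)) (hu : ∀ j : ℤ, ((u ^ j : SL(2, ℤ)) : Matrix (Fin 2) (Fin 2) ℤ).trace ^ 2 ≤ 4) :
    ∃ f : SL(2, ℤ) → ZMod n,
      (∀ (γ : Gamma0 N) (h : SL(2, ℤ)), f ((γ : SL(2, ℤ)) * h) = ψ (Additive.ofMul γ) + f h) ∧
      ∀ h, f (h * u) = f h := by
  obtain ⟨f, hf⟩ := h36_exists_potential (H := Gamma0 N × Subgroup.zpowers u) (Y := SL(2, ℤ))
    (A := ZMod n) (fun a y => (a.1 : SL(2, ℤ)) * y * ((a.2 : SL(2, ℤ)))⁻¹)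
    (by intro y; simp)
    (by
      intro a b y
      simp only [Prod.fst_mul, Prod.snd_mul, Subgroup.coe_mul]
      group)
    (fun a => ψ (Additive.ofMul a.1))
    (by
      intro a b
      simp only [Prod.fst_mul, ofMul_mul, map_add])
    (by
      intro a y hy
      apply hψ
      obtain ⟨j, hj⟩ := Subgroup.mem_zpowers_iff.mp a.2.2
      have e1 : (a.1 : SL(2, ℤ)) * y = y * (a.2 : SL(2, ℤ)) := mul_inv_eq_iff_eq_mul.mp hy
      have e2 : (a.1 : SL(2, ℤ)) = y * (a.2 : SL(2, ℤ)) * y⁻¹ := eq_mul_inv_of_mul_eq e1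
      rw [e2, h36_trace_conj, ← hj]
      exact hu j)
  refine ⟨f, fun γ h => ?_, fun h => ?_⟩
  · have := hf (γ, 1) h
    simpa using this
  · have := hf (1, ⟨u⁻¹, Subgroup.inv_mem _ (Subgroup.mem_zpowers u)⟩) h
    simpa using this


/-! ### `Γ₀(N)`-cosets via bottom rows -/

theorem h36_mem_Gamma0_of_row {N : ℕ} (h h' : SL(2, ℤ))
    (hrow : (((h'.1 1 0 * h.1 1 1 - h'.1 1 1 * h.1 1 0 : ℤ)) : ZMod N) = 0) :
    h' * h⁻¹ ∈ Gamma0 N := by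
  rw [Gamma0_mem]
  have e : (h' * h⁻¹).1 1 0 = h'.1 1 0 * h.1 1 1 - h'.1 1 1 * h.1 1 0 := by
    rw [Matrix.SpecialLinearGroup.coe_mul, Matrix.SpecialLinearGroup.coe_inv,
      Matrix.adjugate_fin_two, Matrix.mul_apply, Fin.sum_univ_two]
    simp
    ring
  rw [e]; exact hrow

theorem h36_row_ST (i : ℤ) : (S * T ^ i).1 1 0 = 1 ∧ (S * T ^ i).1 1 1 = i := by
  constructor <;>
  · rw [Matrix.SpecialLinearGroup.coe_mul, ModularGroup.coe_S, ModularGroup.coe_T_zpow,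
      Matrix.mul_apply, Fin.sum_univ_two]
    simp

theorem h36_row_STS (i : ℤ) : (S * T ^ i * S).1 1 0 = i ∧ (S * T ^ i * S).1 1 1 = -1 := by
  obtain ⟨_, _, h3, h4⟩ := h36_mulS (S * T ^ i)
  obtain ⟨r1, r2⟩ := h36_row_ST i
  rw [h3, h4, r1, r2]
  exact ⟨rfl, rfl⟩

theorem h36_row_S : (S : SL(2, ℤ)).1 1 0 = 1 ∧ (S : SL(2, ℤ)).1 1 1 = 0 := by
  constructor <;> simp [ModularGroup.coe_S]

theorem h36_row_one : (1 : SL(2, ℤ)).1 1 0 = 0 ∧ (1 : SL(2, ℤ)).1 1 1 = 1 := by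
  constructor <;> simp

section Gamma0p

variable {p : ℕ} (w : SL(2, ℤ) → ℤ) (Ψ : SL(2, ℤ) → ℤ)

theorem h36_w_eq_of_row (hΓ : ∀ γ ∈ Gamma0 p, ∀ h, w (γ * h) = w h) (h h' : SL(2, ℤ))
    (hrow : (((h'.1 1 0 * h.1 1 1 - h'.1 1 1 * h.1 1 0 : ℤ)) : ZMod p) = 0) : w h' = w h := by
  have := hΓ _ (h36_mem_Gamma0_of_row h h' hrow) h
  rwa [inv_mul_cancel_right] at this

theorem h36_T_mem : (T : SL(2, ℤ)) ∈ Gamma0 p := by
  rw [Gamma0_mem, ModularGroup.coe_T]; simp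

theorem h36_Psi_T (hΓ : ∀ γ ∈ Gamma0 p, ∀ h, w (γ * h) = w h) (hΨ1 : Ψ 1 = 0)
    (hΨT : ∀ h, Ψ (h * T) = Ψ h + (w (h * T) - w (h * T * S))) (hw1S : w 1 = w S) :
    Ψ T = 0 := by
  have h := hΨT 1
  rw [one_mul, hΨ1, zero_add] at h
  have e1 : w T = w 1 := by
    have := hΓ T h36_T_mem 1
    rwa [mul_one] at this
  have e2 : w (T * S) = w S := hΓ T h36_T_mem S
  rw [h, e1, e2, hw1S, sub_self]

theorem h36_Psi_ST (hΨT : ∀ h, Ψ (h * T) = Ψ h + (w (h * T) - w (h * T * S))) (m : ℕ) :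
    Ψ (S * T ^ (m : ℤ)) = Ψ S +
      ∑ j ∈ Finset.Ico 1 (m + 1), (w (S * T ^ (j : ℤ)) - w (S * T ^ (j : ℤ) * S)) := by
  induction m with
  | zero => simp
  | succ m ih =>
    rw [Finset.sum_Ico_succ_top (by omega : 1 ≤ m + 1), ← add_assoc, ← ih]
    have h := hΨT (S * T ^ (m : ℤ))
    have e : S * T ^ (m : ℤ) * T = S * T ^ ((m + 1 : ℕ) : ℤ) := by
      rw [mul_assoc, ← _root_.zpow_add_one]; push_cast; rfl
    rw [e] at h
    exact h

theorem h36_sum_perm [Fact p.Prime] (hΓ : ∀ γ ∈ Gamma0 p, ∀ h, w (γ * h) = w h) :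
    ∑ j ∈ Finset.Ico 1 p, w (S * T ^ (j : ℤ) * S) = ∑ j ∈ Finset.Ico 1 p, w (S * T ^ (j : ℤ)) := by
  have hp := (Fact.out : p.Prime)
  have : NeZero p := ⟨hp.ne_zero⟩
  set σ : ℕ → ℕ := fun j => (-((j : ZMod p))⁻¹).val with hσ
  have hne : ∀ j ∈ Finset.Ico 1 p, (j : ZMod p) ≠ 0 := by
    intro j hj
    rw [Finset.mem_Ico] at hj
    rw [Ne, ZMod.natCast_eq_zero_iff]
    exact Nat.not_dvd_of_pos_of_lt (by omega) hj.2
  have hσcast : ∀ j, ((σ j : ℕ) : ZMod p) = -((j : ZMod p))⁻¹ := fun j => ZMod.natCast_zmod_val _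
  have hσmem : ∀ j ∈ Finset.Ico 1 p, σ j ∈ Finset.Ico 1 p := by
    intro j hj
    rw [Finset.mem_Ico]
    refine ⟨?_, ZMod.val_lt _⟩
    have : σ j ≠ 0 := by
      rw [hσ]
      simp only [ne_eq, ZMod.val_eq_zero, neg_eq_zero, inv_eq_zero]
      exact hne j hj
    omega
  have hσσ : ∀ j ∈ Finset.Ico 1 p, σ (σ j) = j := by
    intro j hj
    show (-((σ j : ℕ) : ZMod p)⁻¹).val = j
    rw [hσcast, inv_neg, inv_inv, neg_neg]
    exact ZMod.val_natCast_of_lt (Finset.mem_Ico.mp hj).2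
  have hterm : ∀ j ∈ Finset.Ico 1 p,
      w (S * T ^ (j : ℤ) * S) = w (S * T ^ ((σ j : ℕ) : ℤ)) := by
    intro j hj
    apply h36_w_eq_of_row w hΓ
    obtain ⟨r1, r2⟩ := h36_row_STS (j : ℤ)
    obtain ⟨r3, r4⟩ := h36_row_ST ((σ j : ℕ) : ℤ)
    rw [r1, r2, r3, r4]
    push_cast
    rw [hσcast]
    have := hne j hj
    field_simp
    ring
  rw [Finset.sum_congr rfl hterm]
  exact Finset.sum_nbij' σ σ hσmem hσmem hσσ hσσ (fun _ _ => rfl)

theorem h36_gamma0_mem : S * T ^ (p : ℤ) * S⁻¹ ∈ Gamma0 p := by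
  apply h36_mem_Gamma0_of_row
  obtain ⟨r1, r2⟩ := h36_row_ST (p : ℤ)
  obtain ⟨r3, r4⟩ := h36_row_S
  rw [r1, r2, r3, r4]
  simp

theorem h36_Psi_gamma0 [Fact p.Prime] (hΓ : ∀ γ ∈ Gamma0 p, ∀ h, w (γ * h) = w h)
    (hΨadd : ∀ γ ∈ Gamma0 p, ∀ h, Ψ (γ * h) = Ψ γ + Ψ h)
    (hΨT : ∀ h, Ψ (h * T) = Ψ h + (w (h * T) - w (h * T * S))) (hw1S : w 1 = w S) :
    Ψ (S * T ^ (p : ℤ) * S⁻¹) = 0 := by
  have hp := (Fact.out : p.Prime)
  have h1 := h36_Psi_ST w Ψ hΨT p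
  rw [Finset.sum_Ico_succ_top hp.one_le, Finset.sum_sub_distrib, h36_sum_perm w hΓ, sub_self,
    zero_add] at h1
  have e1 : w (S * T ^ (p : ℤ)) = w S := by
    apply h36_w_eq_of_row w hΓ
    obtain ⟨r1, r2⟩ := h36_row_ST (p : ℤ)
    obtain ⟨r3, r4⟩ := h36_row_S
    rw [r1, r2, r3, r4]
    simp
  have e2 : w (S * T ^ (p : ℤ) * S) = w 1 := by
    apply h36_w_eq_of_row w hΓ
    obtain ⟨r1, r2⟩ := h36_row_STS (p : ℤ)
    obtain ⟨r3, r4⟩ := h36_row_one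
    rw [r1, r2, r3, r4]
    simp
  have h2 := hΨadd _ (h36_gamma0_mem (p := p)) S
  rw [inv_mul_cancel_right] at h2
  rw [e1, e2, hw1S, sub_self, add_zero] at h1
  linarith

end Gamma0p

/-! ### Parabolic elements of `SL(2, ℤ)` -/

theorem h36_upper (δ : SL(2, ℤ)) (hc : δ.1 1 0 = 0) : ∃ k : ℤ, δ = T ^ k ∨ δ = -T ^ k := by
  have hd := h36_det δ
  rw [hc, mul_zero, sub_zero] at hd
  rcases Int.mul_eq_one_iff_eq_one_or_neg_one.mp hd with ⟨h1, h2⟩ | ⟨h1, h2⟩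
  · refine ⟨δ.1 0 1, Or.inl ?_⟩
    apply h36_ext <;> rw [ModularGroup.coe_T_zpow] <;> simp [h1, h2, hc]
  · refine ⟨-δ.1 0 1, Or.inr ?_⟩
    apply h36_ext <;> rw [Matrix.SpecialLinearGroup.coe_neg, ModularGroup.coe_T_zpow] <;>
      simp [h1, h2, hc]

theorem h36_parabolic_conj (γ : SL(2, ℤ))
    (htr : (γ : Matrix (Fin 2) (Fin 2) ℤ).trace ^ 2 = 4) :
    ∃ (g : SL(2, ℤ)) (k : ℤ), γ = g * T ^ k * g⁻¹ ∨ γ = -(g * T ^ k * g⁻¹) := by
  have hdet := h36_det γ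
  rw [Matrix.trace_fin_two] at htr
  by_cases hc : γ.1 1 0 = 0
  · obtain ⟨k, hk | hk⟩ := h36_upper γ hc
    · exact ⟨1, k, Or.inl (by simpa using hk)⟩
    · exact ⟨1, k, Or.inr (by simpa using hk)⟩
  · -- an eigenvector
    have hε : γ.1 0 0 + γ.1 1 1 = 2 ∨ γ.1 0 0 + γ.1 1 1 = -2 := by
      have h4 : (γ.1 0 0 + γ.1 1 1 - 2) * (γ.1 0 0 + γ.1 1 1 + 2) = 0 := by linear_combination htr
      rcases mul_eq_zero.mp h4 with h | h
      · left; linarith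
      · right; linarith
    obtain ⟨ε, hε1, hε2⟩ : ∃ ε : ℤ, ε ^ 2 = 1 ∧ γ.1 0 0 + γ.1 1 1 = 2 * ε := by
      rcases hε with h | h
      · exact ⟨1, by norm_num, by linarith⟩
      · exact ⟨-1, by norm_num, by linarith⟩
    have hpos : 0 < Int.gcd (γ.1 0 0 - ε) (γ.1 1 0) := Int.gcd_pos_of_ne_zero_right _ hc
    obtain ⟨x, y, hxy, hu, hcy⟩ := Int.exists_gcd_one hpos
    set e : ℤ := (Int.gcd (γ.1 0 0 - ε) (γ.1 1 0) : ℤ) with he
    have he0 : e ≠ 0 := by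
      rw [he]; exact_mod_cast hpos.ne'
    obtain ⟨r, s, hrs⟩ : ∃ r s : ℤ, r * x + s * y = 1 :=
      (Int.isCoprime_iff_gcd_eq_one.mpr hxy)
    let g : SL(2, ℤ) := ⟨!![x, -s; y, r], by rw [Matrix.det_fin_two_of]; linarith⟩
    have hg : (g : Matrix (Fin 2) (Fin 2) ℤ) = !![x, -s; y, r] := rfl
    have ha : γ.1 0 0 = x * e + ε := by linarith
    have hd' : γ.1 1 1 = ε - x * e := by linarith
    have hkey : x ^ 2 * e + γ.1 0 1 * y = 0 := by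
      have h1 : e * (x ^ 2 * e + γ.1 0 1 * y) = 0 := by
        rw [ha, hd', hcy] at hdet
        linear_combination -hdet + hε1
      exact (mul_eq_zero.mp h1).resolve_left he0
    have hδ : (g⁻¹ * γ * g).1 1 0 = 0 := by
      rw [Matrix.SpecialLinearGroup.coe_mul, Matrix.SpecialLinearGroup.coe_mul,
        Matrix.SpecialLinearGroup.coe_inv, Matrix.adjugate_fin_two, hg]
      simp only [Matrix.mul_apply, Fin.sum_univ_two, Matrix.of_apply, Matrix.cons_val_zero,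
        Matrix.cons_val_one, Matrix.cons_val', Matrix.cons_val_fin_one]
      rw [ha, hd', hcy]
      linear_combination (-y) * hkey
    obtain ⟨k, hk | hk⟩ := h36_upper _ hδ
    · refine ⟨g, k, Or.inl ?_⟩
      rw [← hk]; group
    · refine ⟨g, k, Or.inr ?_⟩
      have : g * T ^ k * g⁻¹ = -(g * (g⁻¹ * γ * g) * g⁻¹) := by
        rw [hk]; simp
      rw [this, neg_neg]; group

section Gamma0p2

variable {p : ℕ} (w : SL(2, ℤ) → ℤ) (Ψ : SL(2, ℤ) → ℤ)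

theorem h36_Psi_zpow (hΨ1 : Ψ 1 = 0) (hΨadd : ∀ γ ∈ Gamma0 p, ∀ h, Ψ (γ * h) = Ψ γ + Ψ h)
    (δ : SL(2, ℤ)) (hδ : δ ∈ Gamma0 p) (h0 : Ψ δ = 0) (m : ℤ) : Ψ (δ ^ m) = 0 := by
  have hinv : Ψ δ⁻¹ = 0 := by
    have := hΨadd _ (inv_mem hδ) δ
    rw [inv_mul_cancel, hΨ1, h0, add_zero] at this
    exact this.symm
  induction m using Int.induction_on with
  | zero => rw [zpow_zero]; exact hΨ1
  | succ i ih => rw [_root_.zpow_add_one, hΨadd _ (zpow_mem hδ _), ih, h0, add_zero]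
  | pred i ih => rw [_root_.zpow_sub_one, hΨadd _ (zpow_mem hδ _), ih, hinv, add_zero]

theorem h36_neg_one_mem : (-1 : SL(2, ℤ)) ∈ Gamma0 p := by
  rw [Gamma0_mem, Matrix.SpecialLinearGroup.coe_neg]; simp

theorem h36_Psi_neg (hΨ1 : Ψ 1 = 0) (hΨadd : ∀ γ ∈ Gamma0 p, ∀ h, Ψ (γ * h) = Ψ γ + Ψ h)
    (h : SL(2, ℤ)) : Ψ (-h) = Ψ h := by
  have h1 := hΨadd _ (h36_neg_one_mem (p := p)) (-1)
  rw [neg_mul_neg, one_mul, hΨ1] at h1
  have h2 := hΨadd _ (h36_neg_one_mem (p := p)) h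
  rw [neg_one_mul] at h2
  rw [h2]; omega

/-- `Ψ` vanishes on all parabolic elements of `Γ₀(p)`. -/
theorem h36_Psi_parabolic [Fact p.Prime] (hΓ : ∀ γ ∈ Gamma0 p, ∀ h, w (γ * h) = w h)
    (hΨ1 : Ψ 1 = 0) (hΨadd : ∀ γ ∈ Gamma0 p, ∀ h, Ψ (γ * h) = Ψ γ + Ψ h)
    (hΨT : ∀ h, Ψ (h * T) = Ψ h + (w (h * T) - w (h * T * S))) (hw1S : w 1 = w S)
    (γ : SL(2, ℤ)) (hγ : γ ∈ Gamma0 p)
    (htr : (γ : Matrix (Fin 2) (Fin 2) ℤ).trace ^ 2 = 4) : Ψ γ = 0 := by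
  have hp := (Fact.out : p.Prime)
  have : NeZero p := ⟨hp.ne_zero⟩
  obtain ⟨g, k, hgk⟩ := h36_parabolic_conj γ htr
  -- `γ' = g T^k g⁻¹ ∈ Γ₀(p)` and `Ψ (γ g) = Ψ (g T^k)`
  have hγ' : g * T ^ k * g⁻¹ ∈ Gamma0 p := by
    rcases hgk with h | h
    · rw [← h]; exact hγ
    · have : g * T ^ k * g⁻¹ = -1 * γ := by rw [h]; simp
      rw [this]; exact mul_mem h36_neg_one_mem hγ
  have h1 : Ψ (γ * g) = Ψ (g * T ^ k) := by
    rcases hgk with h | h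
    · rw [h]; congr 1; group
    · rw [h, neg_mul, h36_Psi_neg Ψ hΨ1 hΨadd]; congr 1; group
  have h2 := hΨadd γ hγ g
  suffices hs : Ψ (g * T ^ k) = Ψ g by rw [h1, hs] at h2; omega
  by_cases hc : ((g.1 1 0 : ℤ) : ZMod p) = 0
  · -- `g ∈ Γ₀(p)`
    have hg : g ∈ Gamma0 p := Gamma0_mem.mpr hc
    rw [hΨadd g hg, h36_Psi_zpow Ψ hΨ1 hΨadd T h36_T_mem (h36_Psi_T w Ψ hΓ hΨ1 hΨT hw1S) k,
      add_zero]
  · -- `g ∈ Γ₀(p) S T^i`
    set i : ℤ := (((((g.1 1 1 : ℤ) : ZMod p) * ((g.1 1 0 : ℤ) : ZMod p)⁻¹).val : ℕ) : ℤ) with hi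
    have hγ1 : g * (S * T ^ i)⁻¹ ∈ Gamma0 p := by
      apply h36_mem_Gamma0_of_row
      obtain ⟨r1, r2⟩ := h36_row_ST i
      rw [r1, r2, hi]
      push_cast
      rw [ZMod.natCast_zmod_val]
      field_simp
      ring
    set γ1 : SL(2, ℤ) := g * (S * T ^ i)⁻¹ with hγ1def
    have hgeq : g = γ1 * (S * T ^ i) := by rw [hγ1def]; group
    set δ : SL(2, ℤ) := S * T ^ k * S⁻¹ with hδdef
    have hδmem : δ ∈ Gamma0 p := by
      have : δ = γ1⁻¹ * (g * T ^ k * g⁻¹) * γ1 := by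
        rw [hδdef, hγ1def]; group
      rw [this]
      exact mul_mem (mul_mem (inv_mem hγ1) hγ') hγ1
    -- `p ∣ k`
    have hpk : (p : ℤ) ∣ k := by
      have h3 : ((δ.1 1 0 : ℤ) : ZMod p) = 0 := Gamma0_mem.mp hδmem
      have h4 : δ.1 1 0 = -k := by
        rw [hδdef, Matrix.SpecialLinearGroup.coe_mul, Matrix.SpecialLinearGroup.coe_inv,
          Matrix.adjugate_fin_two, Matrix.mul_apply, Fin.sum_univ_two]
        obtain ⟨r1, r2⟩ := h36_row_ST k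
        rw [r1, r2]
        simp [ModularGroup.coe_S]
      rw [h4] at h3
      have := (ZMod.intCast_zmod_eq_zero_iff_dvd (-k) p).mp h3
      exact (dvd_neg).mp this
    obtain ⟨m, hm⟩ := hpk
    have hδpow : δ = (S * T ^ (p : ℤ) * S⁻¹) ^ m := by
      rw [conj_zpow, ← _root_.zpow_mul, ← hm]
    have hΨδ : Ψ δ = 0 := by
      rw [hδpow]
      exact h36_Psi_zpow Ψ hΨ1 hΨadd _ h36_gamma0_mem
        (h36_Psi_gamma0 w Ψ hΓ hΨadd hΨT hw1S) m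
    have e1 : g * T ^ k = γ1 * (δ * (S * T ^ i)) := by
      rw [hgeq, hδdef]
      have hcomm : T ^ i * T ^ k = T ^ k * T ^ i := by
        rw [← _root_.zpow_add, ← _root_.zpow_add, add_comm]
      calc γ1 * (S * T ^ i) * T ^ k = γ1 * (S * (T ^ i * T ^ k)) := by group
        _ = γ1 * (S * (T ^ k * T ^ i)) := by rw [hcomm]
        _ = γ1 * (S * T ^ k * S⁻¹ * (S * T ^ i)) := by group
    rw [e1, hΨadd γ1 hγ1, hΨadd δ hδmem, hΨδ, zero_add]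
    conv_rhs => rw [hgeq]
    rw [hΨadd γ1 hγ1]

end Gamma0p2

/-- **Integral parabolic lift** (prime level): a homomorphism `Γ₀(p) → ℤ/n` which kills every
element of trace `0, ±1, ±2` is the reduction mod `n` of a parabolic homomorphism `Γ₀(p) → ℤ`. -/
theorem h36_exists_integral_lift (p : ℕ) [Fact p.Prime] (n : ℕ)
    (ψ : Additive (CongruenceSubgroup.Gamma0 p) →+ ZMod n)
    (hψ : ∀ γ : CongruenceSubgroup.Gamma0 p,
      ((γ : SL(2, ℤ)) : Matrix (Fin 2) (Fin 2) ℤ).trace ^ 2 ≤ 4 → ψ (Additive.ofMul γ) = 0) :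
    ∃ Ψ : Additive (CongruenceSubgroup.Gamma0 p) →+ ℤ,
      ModularCurve.Period.IsParabolicHom (CongruenceSubgroup.Gamma0 p) Ψ ∧
        ∀ γ, ((Ψ γ : ℤ) : ZMod n) = ψ γ := by
  obtain ⟨fU, hfU, hfU'⟩ := h36_exists_pot ψ hψ (T * S) h36_trace_zpow_TS
  obtain ⟨fS, hfS, hfS'⟩ := h36_exists_pot ψ hψ S h36_trace_zpow_S
  set w : SL(2, ℤ) → ℤ := fun h => ((fU h - fS h : ZMod n)).cast with hwdef
  have hΓ : ∀ γ ∈ Gamma0 p, ∀ h, w (γ * h) = w h := by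
    intro γ hγ h
    simp only [hwdef]
    have e1 := hfU ⟨γ, hγ⟩ h
    have e2 := hfS ⟨γ, hγ⟩ h
    simp only at e1 e2
    rw [e1, e2]
    congr 1
    ring
  have hw : ∀ h, w (-h) = w h := by
    intro h
    rw [← neg_one_mul]
    exact hΓ _ h36_neg_one_mem h
  have hwf : ∀ h, ((w h : ℤ) : ZMod n) = fU h - fS h := fun h => ZMod.intCast_zmod_cast _
  obtain ⟨Ψ, hΨ1, hΨadd, hΨT, hΨS, hΨc⟩ :=
    h36_exists_Psi (Gamma0 p) w hw hΓ fU fS hfU' hfS' hwf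
  -- `w 1 = w S`
  have hw1S : w 1 = w S := by
    simp only [hwdef]
    congr 1
    have e1 : fS S = fS 1 := by
      have := hfS' 1
      rwa [one_mul] at this
    have e2 : fU (T * S) = fU 1 := by
      have := hfU' 1
      rwa [one_mul] at this
    have e3 : fU (T * S) = fU S := by
      have := hfU ⟨T, h36_T_mem⟩ S
      simp only at this
      rw [this, hψ ⟨T, h36_T_mem⟩ (by
        show ((T : SL(2, ℤ)) : Matrix (Fin 2) (Fin 2) ℤ).trace ^ 2 ≤ 4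
        rw [ModularGroup.coe_T, Matrix.trace_fin_two_of]; norm_num), zero_add]
    rw [e1, ← e2, e3]
  refine ⟨AddMonoidHom.mk' (fun γ => Ψ ((Additive.toMul γ : Gamma0 p) : SL(2, ℤ)))
    (fun a b => hΨadd _ (Additive.toMul a).2 _), ?_, ?_⟩
  · intro γ hγ
    show Ψ (γ : SL(2, ℤ)) = 0
    exact h36_Psi_parabolic w Ψ hΓ hΨ1 hΨadd hΨT hw1S γ γ.2 hγ
  · intro γ
    show ((Ψ ((Additive.toMul γ : Gamma0 p) : SL(2, ℤ)) : ℤ) : ZMod n) = ψ γ
    rw [hΨc]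
    have := hfU (Additive.toMul γ) 1
    rw [mul_one] at this
    rw [this]
    simp

end Fermat.Agent.S16
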