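import Mathlib
import Fermat.Agent.S16.h30_LowerOfLift
import Fermat.Agent.S16.h36_Lift

/-!
# S16: the lower bound `n ∣ ev t`

Every element `t` of the abstract Hecke algebra acting as zero on the integral lattice of
`S₂(Γ₀(p))` has Eisenstein value divisible by `n = (p - 1) / gcd(p - 1, 12)`.

Proof: the Shimura class `ψ : Γ₀(p) → ℤ/n` (`h52_psi`) has a parabolic integral lift `Ψ`
(`h36_exists_integral_lift`), which is an Eisenstein eigenclass modulo `n`; by Eichler–Shimura
`Ψ` is a period of a pair of cusp forms, so `t` kills `Ψ`, whence `n ∣ ev t`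
(`h30_lower_of_lift`).
-/

set_option autoImplicit false

namespace Fermat.Agent.S16

open CongruenceSubgroup ModularCurve

/-- **Lower bound of S16** (the hypothesis `hL'` of `h60_S16_of_bounds'`). -/
theorem h52_lower (p : ℕ) [Fact p.Prime] :
    ∀ t : ModularCurve.HeckeAlg, h60_pi p t = 0 →
      ((ModularCurve.eisensteinNumerator p : ℕ) : ℤ) ∣ h60_ev p t := by
  obtain ⟨Ψ, hpar, hΨ⟩ := h36_exists_integral_lift p (ModularCurve.eisensteinNumerator p)
    (h52_psi p) (fun γ h => h52_psi_trace_le p γ h)
  exact h30_lower_of_lift p Ψ hpar hΨ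

end Fermat.Agent.S16
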