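import Mathlib
import Fermat.Agent.S16.h60_Red
import Fermat.Agent.S24.h29_Index
import Fermat.Prelude.Thm_ModularForm_sturm_bound_Gamma0

set_option autoImplicit false
set_option linter.unusedSectionVars false

/-!
# S16: the upper bound `hU` from five prime-power statements

`h60_One p M G` says that the weight-2 modular form `G` of level `Γ₀(p)` has q-expansion in
`1 + M·ℤ[[q]]`.  For a prime `p ≥ 5` the upper bound `hU` of `h60_Red.lean` follows from

* (U5) no `G ∈ 1 + ℓ ℤ[[q]]` for a prime `ℓ ≥ 5`,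
* (U3) `G ∈ 1 + 3 ℤ[[q]]` forces `3 ∣ p + 1`,   (U9) no `G ∈ 1 + 9 ℤ[[q]]`,
* (U4) `G ∈ 1 + 4 ℤ[[q]]` forces `4 ∣ p + 1`,   (U8) no `G ∈ 1 + 8 ℤ[[q]]`,

given the Eisenstein series `E = (p-1)/24 + ∑ σ'(k) q^k` as a modular form.  For `p = 2, 3`
the upper bound holds because there are no cusp forms.
-/

namespace Fermat.Agent.S16

open ModularCurve CuspForm CongruenceSubgroup ModularFormClass Fermat.Agent.S49

noncomputable section

/-- `G ∈ 1 + M·ℤ[[q]]`: all q-coefficients are integers, the constant one is `≡ 1` and the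
others are `≡ 0` modulo `M`. -/
def h60_One (p M : ℕ) (G : ModularForm (Gamma0 p) 2) : Prop :=
  ∀ k : ℕ, ∃ c : ℤ, qCoeff G k = (if k = 0 then 1 else 0) + (M : ℂ) * (c : ℂ)

theorem h60_One_of_dvd {p M M' : ℕ} (h : M' ∣ M) {G : ModularForm (Gamma0 p) 2}
    (hG : h60_One p M G) : h60_One p M' G := by
  obtain ⟨d, rfl⟩ := h
  intro k
  obtain ⟨c, hc⟩ := hG k
  exact ⟨d * c, by rw [hc]; push_cast; ring⟩

/-! ### q-coefficients of modular forms -/

theorem h60_mqc_add {N : ℕ} {k : ℤ} (f g : ModularForm (Gamma0 N) k) (n : ℕ) :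
    qCoeff ⇑(f + g) n = qCoeff ⇑f n + qCoeff ⇑g n := by
  simp only [qCoeff, FunLike.coe_add]
  rw [ModularForm.qExpansion_add one_pos (hΓ N) f g, map_add]

theorem h60_mqc_smul {N : ℕ} {k : ℤ} (c : ℂ) (f : ModularForm (Gamma0 N) k) (n : ℕ) :
    qCoeff ⇑(c • f) n = c * qCoeff ⇑f n := by
  have h1 : ⇑(c • f) = c • ⇑f := by
    ext z
    simp
  simp only [qCoeff, h1]
  rw [ModularForm.qExpansion_smul one_pos (hΓ N) c f]
  simp

theorem h60_mqc_sub {N : ℕ} {k : ℤ} (f g : ModularForm (Gamma0 N) k) (n : ℕ) :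
    qCoeff ⇑(f - g) n = qCoeff ⇑f n - qCoeff ⇑g n := by
  have h : f - g = f + (-1 : ℂ) • g := by
    rw [neg_one_smul, sub_eq_add_neg]
  rw [h, h60_mqc_add, h60_mqc_smul]
  ring

theorem h60_mqc_cusp {N : ℕ} {k : ℤ} (f : CuspForm (Gamma0 N) k) (n : ℕ) :
    qCoeff ⇑(CuspForm.toModularFormₗ f) n = qCoeff ⇑f n := rfl

/-! ### Arithmetic -/

theorem h60_arith_num (p : ℕ) (hp : p.Prime) (hp5 : 5 ≤ p) :
    (p - 1) * Nat.gcd 12 (p + 1) = 24 * eisensteinNumerator p := by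
  have h2 : ¬ 2 ∣ p := fun h => by
    have := (Nat.prime_dvd_prime_iff_eq Nat.prime_two hp).mp h
    omega
  have h3 : ¬ 3 ∣ p := fun h => by
    have := (Nat.prime_dvd_prime_iff_eq Nat.prime_three hp).mp h
    omega
  have hr : p % 12 = 1 ∨ p % 12 = 5 ∨ p % 12 = 7 ∨ p % 12 = 11 := by omega
  unfold eisensteinNumerator
  have e1 : Nat.gcd (p - 1) 12 = Nat.gcd ((p - 1) % 12) 12 := by
    rw [Nat.gcd_comm, Nat.gcd_rec]
  have e2 : Nat.gcd 12 (p + 1) = Nat.gcd ((p + 1) % 12) 12 := by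
    rw [Nat.gcd_rec]
  rw [e1, e2]
  rcases hr with h | h | h | h
  · have a1 : (p - 1) % 12 = 0 := by omega
    have a2 : (p + 1) % 12 = 2 := by omega
    rw [a1, a2, show Nat.gcd 0 12 = 12 from by decide, show Nat.gcd 2 12 = 2 from by decide]
    omega
  · have a1 : (p - 1) % 12 = 4 := by omega
    have a2 : (p + 1) % 12 = 6 := by omega
    rw [a1, a2, show Nat.gcd 4 12 = 4 from by decide, show Nat.gcd 6 12 = 6 from by decide]
    omega
  · have a1 : (p - 1) % 12 = 6 := by omega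
    have a2 : (p + 1) % 12 = 8 := by omega
    rw [a1, a2, show Nat.gcd 6 12 = 6 from by decide, show Nat.gcd 8 12 = 4 from by decide]
    omega
  · have a1 : (p - 1) % 12 = 10 := by omega
    have a2 : (p + 1) % 12 = 0 := by omega
    rw [a1, a2, show Nat.gcd 10 12 = 2 from by decide, show Nat.gcd 0 12 = 12 from by decide]
    omega

variable (p : ℕ) [Fact p.Prime]

/-- The five prime-power cases give: `G ∈ 1 + ℓ^b ℤ[[q]]` forces `ℓ^b ∣ gcd(12, p+1)`. -/
theorem h60_core_of_cases (hp5 : 5 ≤ p)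
    (U5 : ∀ l : ℕ, l.Prime → 5 ≤ l → ∀ G : ModularForm (Gamma0 p) 2, ¬ h60_One p l G)
    (U3 : ∀ G : ModularForm (Gamma0 p) 2, h60_One p 3 G → 3 ∣ p + 1)
    (U9 : ∀ G : ModularForm (Gamma0 p) 2, ¬ h60_One p 9 G)
    (U4 : ∀ G : ModularForm (Gamma0 p) 2, h60_One p 4 G → 4 ∣ p + 1)
    (U8 : ∀ G : ModularForm (Gamma0 p) 2, ¬ h60_One p 8 G)
    (l b : ℕ) (hl : l.Prime) (G : ModularForm (Gamma0 p) 2) (hG : h60_One p (l ^ b) G) :
    l ^ b ∣ Nat.gcd 12 (p + 1) := by
  have hp : p.Prime := Fact.out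
  rcases Nat.eq_zero_or_pos b with rfl | hb
  · simp
  have hGl : h60_One p l G := h60_One_of_dvd (dvd_pow_self l hb.ne') hG
  by_cases hl5 : 5 ≤ l
  · exact absurd hGl (U5 l hl hl5 G)
  have hl23 : l = 2 ∨ l = 3 := by
    have h2 := hl.two_le
    have : l ≠ 4 := by
      rintro rfl
      exact absurd hl (by decide)
    omega
  have hodd : 2 ∣ p + 1 := by
    have h2 : ¬ 2 ∣ p := fun h => by
      have := (Nat.prime_dvd_prime_iff_eq Nat.prime_two hp).mp h
      omega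
    omega
  rcases hl23 with rfl | rfl
  · -- l = 2
    by_cases hb3 : 3 ≤ b
    · have : h60_One p 8 G := h60_One_of_dvd (by
        have : (8 : ℕ) = 2 ^ 3 := by norm_num
        rw [this]
        exact pow_dvd_pow 2 hb3) hG
      exact absurd this (U8 G)
    have hb12 : b = 1 ∨ b = 2 := by omega
    rcases hb12 with rfl | rfl
    · rw [pow_one]
      exact Nat.dvd_gcd (by norm_num) hodd
    · have h4 : 4 ∣ p + 1 := U4 G (by simpa using hG)
      have : (2 : ℕ) ^ 2 = 4 := by norm_num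
      rw [this]
      exact Nat.dvd_gcd (by norm_num) h4
  · -- l = 3
    by_cases hb2 : 2 ≤ b
    · have : h60_One p 9 G := h60_One_of_dvd (by
        have : (9 : ℕ) = 3 ^ 2 := by norm_num
        rw [this]
        exact pow_dvd_pow 3 hb2) hG
      exact absurd this (U9 G)
    have hb1 : b = 1 := by omega
    subst hb1
    rw [pow_one]
    exact Nat.dvd_gcd (by norm_num) (U3 G hGl)

/-- **Upper bound from the five cases** (`p ≥ 5`). -/
theorem h60_hU_of_cases (hp5 : 5 ≤ p)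
    (E : ModularForm (Gamma0 p) 2)
    (hE0 : qCoeff E 0 = ((p : ℂ) - 1) / 24)
    (hE : ∀ k : ℕ, 0 < k → qCoeff E k = (h60_sp p k : ℂ))
    (U5 : ∀ l : ℕ, l.Prime → 5 ≤ l → ∀ G : ModularForm (Gamma0 p) 2, ¬ h60_One p l G)
    (U3 : ∀ G : ModularForm (Gamma0 p) 2, h60_One p 3 G → 3 ∣ p + 1)
    (U9 : ∀ G : ModularForm (Gamma0 p) 2, ¬ h60_One p 9 G)
    (U4 : ∀ G : ModularForm (Gamma0 p) 2, h60_One p 4 G → 4 ∣ p + 1)
    (U8 : ∀ G : ModularForm (Gamma0 p) 2, ¬ h60_One p 8 G) :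
    ∀ (m : ℕ) (f : CuspForm (Gamma0 p) 2), h60_Cong p m f → m ∣ eisensteinNumerator p := by
  have hp : p.Prime := Fact.out
  intro m f hf
  -- the gcd
  set g : ℕ := Nat.gcd (p - 1) (24 * m) with hg
  have hp1 : 0 < p - 1 := by omega
  have hgpos : 0 < g := Nat.gcd_pos_of_pos_left _ hp1
  set c₀ : ℕ := (p - 1) / g with hc₀
  set M' : ℕ := 24 * m / g with hM'
  have hgc : g * c₀ = p - 1 := Nat.mul_div_cancel' (Nat.gcd_dvd_left _ _)
  have hgM : g * M' = 24 * m := Nat.mul_div_cancel' (Nat.gcd_dvd_right _ _)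
  have hcop : Nat.Coprime c₀ M' := Nat.coprime_div_gcd_div_gcd hgpos
  -- inverse of c₀ modulo M'
  obtain ⟨u, v, huv⟩ : ∃ u v : ℤ, u * (c₀ : ℤ) + v * (M' : ℤ) = 1 := by
    have := (Nat.isCoprime_iff_coprime (m := c₀) (n := M')).mpr hcop
    obtain ⟨u, v, h⟩ := this
    exact ⟨u, v, h⟩
  -- the form
  set G : ModularForm (Gamma0 p) 2 :=
    ((24 : ℂ) * (u : ℂ) / (g : ℂ)) • (E - CuspForm.toModularFormₗ f) with hGdef
  have hgC : (g : ℂ) ≠ 0 := by exact_mod_cast hgpos.ne'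
  have hgcC : (g : ℂ) * (c₀ : ℂ) = (p : ℂ) - 1 := by
    have := congrArg (fun x : ℕ => (x : ℂ)) hgc
    simp only [Nat.cast_mul] at this
    rw [this, Nat.cast_sub (by omega : 1 ≤ p), Nat.cast_one]
  have hgMC : (g : ℂ) * (M' : ℂ) = 24 * (m : ℂ) := by
    have := congrArg (fun x : ℕ => (x : ℂ)) hgM
    simpa only [Nat.cast_mul, Nat.cast_ofNat] using this
  have huvC : (u : ℂ) * (c₀ : ℂ) + (v : ℂ) * (M' : ℂ) = 1 := by
    have := congrArg (fun x : ℤ => (x : ℂ)) huv
    simpa only [Int.cast_add, Int.cast_mul, Int.cast_natCast, Int.cast_one] using this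
  have hOne : h60_One p M' G := by
    intro k
    rcases Nat.eq_zero_or_pos k with rfl | hk
    · refine ⟨-v, ?_⟩
      rw [hGdef, h60_mqc_smul, h60_mqc_sub, h60_mqc_cusp, qc_coeff_zero, hE0, if_pos rfl]
      have hc'' : (c₀ : ℂ) = ((p : ℂ) - 1) / (g : ℂ) := by
        rw [← hgcC]
        field_simp
      have h1 : (24 : ℂ) * (u : ℂ) / (g : ℂ) * (((p : ℂ) - 1) / 24 - 0) = (u : ℂ) * (c₀ : ℂ) := by
        rw [hc'']
        ring
      rw [h1]
      push_cast
      linear_combination huvC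
    · obtain ⟨c, hc⟩ := hf.2 k hk
      refine ⟨-(u * c), ?_⟩
      rw [hGdef, h60_mqc_smul, h60_mqc_sub, h60_mqc_cusp, hE k hk, hc, if_neg hk.ne']
      have hM'' : (M' : ℂ) = 24 * (m : ℂ) / (g : ℂ) := by
        rw [← hgMC]
        field_simp
      rw [hM'']
      push_cast
      ring
  -- M' divides gcd(12, p+1)
  have hM'D : M' ∣ Nat.gcd 12 (p + 1) := by
    rw [Nat.dvd_iff_prime_pow_dvd_dvd]
    intro l b hl hlb
    exact h60_core_of_cases p hp5 U5 U3 U9 U4 U8 l b hl G (h60_One_of_dvd hlb hOne)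
  -- conclusion
  have h1 : 24 * m ∣ (p - 1) * Nat.gcd 12 (p + 1) := by
    rw [← hgM]
    exact Nat.mul_dvd_mul (Nat.gcd_dvd_left _ _) hM'D
  rw [h60_arith_num p hp hp5] at h1
  exact (Nat.mul_dvd_mul_iff_left (by norm_num : 0 < 24)).mp h1

/-! ### Small primes -/

theorem h60_index_prime : (Gamma0 p).index = p + 1 := by
  have hp : p.Prime := Fact.out
  rw [Fermat.Agent.S24.h29_index_Gamma0 p hp.pos]
  have := Fermat.Agent.S24.h29_psi_mul_of_not_dvd p 1 hp one_pos (by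
    intro h
    exact hp.one_lt.ne' (Nat.dvd_one.mp h))
  rw [mul_one, ModularCurve.dedekindPsi_one, mul_one] at this
  exact this

/-- No cusp forms of weight 2 and level `p < 5`. -/
theorem h60_cusp_eq_zero_small (hp : p < 5) (f : CuspForm (Gamma0 p) 2) : f = 0 := by
  have hp' : p.Prime := Fact.out
  have : NeZero p := ⟨hp'.ne_zero⟩
  have hF : (CuspForm.toModularFormₗ f : ModularForm (Gamma0 p) 2) = 0 := by
    apply ModularForm.sturm_bound_Gamma0 p
    intro n hn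
    have hidx := h60_index_prime p
    have hn0 : n = 0 := by
      have : ((2 : ℤ) * ((Gamma0 p).index : ℤ)).toNat / 12 = 0 := by
        rw [hidx]
        omega
      omega
    subst hn0
    exact CuspFormClass.qExpansion_coeff_zero f one_pos (hΓ p)
  exact CuspForm.toModularFormₗ_injective (hF.trans (map_zero _).symm)

/-- **Upper bound for `p = 2, 3`.** -/
theorem h60_hU_small (hp : p < 5) :
    ∀ (m : ℕ) (f : CuspForm (Gamma0 p) 2), h60_Cong p m f → m ∣ eisensteinNumerator p := by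
  have hp' : p.Prime := Fact.out
  intro m f hf
  have hf0 : f = 0 := h60_cusp_eq_zero_small p hp f
  obtain ⟨c, hc⟩ := hf.2 1 one_pos
  rw [hf0, qc_zero, h60_sp_one p hp'] at hc
  have hc' : (m : ℤ) * c = -1 := by
    have : ((m : ℤ) * c : ℂ) = ((-1 : ℤ) : ℂ) := by
      push_cast
      linear_combination -hc
    exact_mod_cast this
  have hm1 : m = 1 := by
    have : (m : ℤ) ∣ 1 := ⟨-c, by linarith⟩
    have := Int.natAbs_dvd_natAbs.mpr this
    simpa using this
  rw [hm1]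
  exact one_dvd _

end

end Fermat.Agent.S16
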