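import Mathlib
import Fermat.Agent.S23.h62_LevelOne

/-!
# S16 block STURM1: the level-one Sturm bound modulo an additive subgroup

Main export: `h6_sturm_levelOne`.  If the `q`-expansion coefficients `a_n` of a level one modular
form of weight `k` lie in an additive subgroup `J ⊆ ℂ` for all `n` with `12 n ≤ k`, then all
coefficients lie in `J`.  Also `h6_delta_int`: the `q`-expansion of `Δ` is integral.
-/

set_option autoImplicit false

namespace Fermat.Agent.S16

open UpperHalfPlane ModularForm ModularFormClass EisensteinSeries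
open scoped MatrixGroups
open Fermat.Agent.S23

/-- `12 ∣ 5 d³ + 7 d⁵`. -/
theorem h6_twelve_dvd (d : ℕ) : 12 ∣ 5 * d ^ 3 + 7 * d ^ 5 := by
  rw [Nat.dvd_iff_mod_eq_zero]
  have h : (5 * d ^ 3 + 7 * d ^ 5) % 12 = (5 * (d % 12) ^ 3 + 7 * (d % 12) ^ 5) % 12 := by
    simp [Nat.add_mod, Nat.mul_mod, Nat.pow_mod]
  rw [h]
  have h12 : d % 12 < 12 := Nat.mod_lt _ (by norm_num)
  interval_cases (d % 12) <;> rfl

/-- `12 ∣ 5 σ₃(n) + 7 σ₅(n)`. -/
theorem h6_twelve_dvd_sigma (n : ℕ) :
    12 ∣ 5 * ArithmeticFunction.sigma 3 n + 7 * ArithmeticFunction.sigma 5 n := by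
  rw [ArithmeticFunction.sigma_apply, ArithmeticFunction.sigma_apply, Finset.mul_sum,
    Finset.mul_sum, ← Finset.sum_add_distrib]
  exact Finset.dvd_sum fun d _ => h6_twelve_dvd d

/-- The power series `∑_{n ≥ 1} σ_k(n) qⁿ`. -/
noncomputable def h6_S (k : ℕ) : PowerSeries ℂ :=
  PowerSeries.mk fun n => if n = 0 then 0 else (ArithmeticFunction.sigma k n : ℂ)

theorem h6_S_coeff (k n : ℕ) :
    (h6_S k).coeff n = if n = 0 then 0 else (ArithmeticFunction.sigma k n : ℂ) := by
  simp [h6_S]

theorem h6_S_int (k : ℕ) : h62_IsIntPS (h6_S k) := by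
  intro n
  rw [h6_S_coeff]
  split_ifs
  · exact ⟨0, by simp⟩
  · exact ⟨(ArithmeticFunction.sigma k n : ℤ), by simp⟩

/-- `(5 σ₃(n) + 7 σ₅(n))/12`. -/
def h6_u (n : ℕ) : ℕ :=
  (5 * ArithmeticFunction.sigma 3 n + 7 * ArithmeticFunction.sigma 5 n) / 12

theorem h6_u_spec (n : ℕ) :
    5 * ArithmeticFunction.sigma 3 n + 7 * ArithmeticFunction.sigma 5 n = 12 * h6_u n := by
  obtain ⟨q, hq⟩ := h6_twelve_dvd_sigma n
  rw [h6_u, hq, Nat.mul_div_cancel_left q (by norm_num)]

/-- The power series `∑_{n ≥ 1} (5 σ₃(n) + 7 σ₅(n))/12 qⁿ`. -/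
noncomputable def h6_U : PowerSeries ℂ :=
  PowerSeries.mk fun n => if n = 0 then 0 else (h6_u n : ℂ)

theorem h6_U_coeff (n : ℕ) :
    h6_U.coeff n = if n = 0 then 0 else (h6_u n : ℂ) := by
  simp [h6_U]

theorem h6_U_int : h62_IsIntPS h6_U := by
  intro n
  rw [h6_U_coeff]
  split_ifs
  · exact ⟨0, by simp⟩
  · exact ⟨(h6_u n : ℤ), by simp⟩

theorem h6_ofNat_mul_coeff (c : ℕ) (P : PowerSeries ℂ) (n : ℕ) :
    ((c : PowerSeries ℂ) * P).coeff n = (c : ℂ) * P.coeff n := by
  have : (c : PowerSeries ℂ) = PowerSeries.C (c : ℂ) := by simp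
  rw [this, PowerSeries.coeff_C_mul]

theorem h6_qExp_E4 : qExpansion 1 E₄ = 1 + ((240 : ℕ) : PowerSeries ℂ) * h6_S 3 := by
  ext n
  rw [E_qExpansion_coeff (by norm_num) ⟨2, rfl⟩, map_add, h6_ofNat_mul_coeff, h6_S_coeff,
    PowerSeries.coeff_one]
  by_cases hn : n = 0
  · simp [hn]
  · rw [if_neg hn, if_neg hn, if_neg hn, show bernoulli 4 = -1 / 30 by decide +kernel]
    push_cast
    ring

theorem h6_qExp_E6 : qExpansion 1 E₆ = 1 - ((504 : ℕ) : PowerSeries ℂ) * h6_S 5 := by
  ext n
  rw [E_qExpansion_coeff (by norm_num) ⟨3, rfl⟩, map_sub, h6_ofNat_mul_coeff, h6_S_coeff,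
    PowerSeries.coeff_one]
  by_cases hn : n = 0
  · simp [hn]
  · rw [if_neg hn, if_neg hn, if_neg hn, show bernoulli 6 = 1 / 42 by decide +kernel]
    push_cast
    ring

theorem h6_lin_eq :
    ((720 : ℕ) : PowerSeries ℂ) * h6_S 3 + ((1008 : ℕ) : PowerSeries ℂ) * h6_S 5 =
      ((1728 : ℕ) : PowerSeries ℂ) * h6_U := by
  ext n
  rw [map_add, h6_ofNat_mul_coeff, h6_ofNat_mul_coeff, h6_ofNat_mul_coeff, h6_S_coeff, h6_S_coeff,
    h6_U_coeff]
  by_cases hn : n = 0
  · simp [hn]
  · rw [if_neg hn, if_neg hn, if_neg hn]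
    have h2 : (5 * (ArithmeticFunction.sigma 3 n : ℂ) + 7 * (ArithmeticFunction.sigma 5 n : ℂ)) =
        12 * (h6_u n : ℂ) := by exact_mod_cast h6_u_spec n
    push_cast
    linear_combination 144 * h2

/-- The `q`-expansion of `Δ`, explicitly. -/
theorem h6_qExp_delta :
    qExpansion 1 (⇑CuspForm.discriminant) =
      h6_U + 100 * h6_S 3 ^ 2 + 8000 * h6_S 3 ^ 3 - 147 * h6_S 5 ^ 2 := by
  have h := h62_qExpansion_discriminant
  rw [h6_qExp_E4, h6_qExp_E6] at h
  have h1728 : ((1728 : ℕ) : PowerSeries ℂ) ≠ 0 := by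
    intro h0
    have := congrArg (PowerSeries.coeff 0) h0
    rw [show ((1728 : ℕ) : PowerSeries ℂ) = ((1728 : ℕ) : PowerSeries ℂ) * 1 by ring,
      h6_ofNat_mul_coeff] at this
    simp at this
  apply mul_left_cancel₀ h1728
  have hsm : ((1728 : ℕ) : PowerSeries ℂ) * qExpansion 1 (⇑CuspForm.discriminant) =
      (1728 : ℂ) • qExpansion 1 (⇑CuspForm.discriminant) := by
    ext n
    rw [h6_ofNat_mul_coeff, PowerSeries.coeff_smul]
    push_cast
    rfl
  rw [hsm, h]
  have hl := h6_lin_eq
  push_cast at hl ⊢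
  linear_combination hl

theorem h6_isIntPS_natCast_mul (c : ℕ) {P : PowerSeries ℂ} (hP : h62_IsIntPS P) :
    h62_IsIntPS ((c : PowerSeries ℂ) * P) := by
  intro n
  obtain ⟨m, hm⟩ := hP n
  exact ⟨c * m, by rw [h6_ofNat_mul_coeff, hm]; push_cast; rfl⟩

/-- `τ(n) ∈ ℤ`: the `q`-expansion of `Δ` has integer coefficients. -/
theorem h6_delta_isIntPS : h62_IsIntPS (qExpansion 1 (⇑CuspForm.discriminant)) := by
  rw [h6_qExp_delta]
  have h100 : h62_IsIntPS (100 * h6_S 3 ^ 2) := by
    have := h6_isIntPS_natCast_mul 100 ((h6_S_int 3).pow 2)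
    simpa using this
  have h8000 : h62_IsIntPS (8000 * h6_S 3 ^ 3) := by
    have := h6_isIntPS_natCast_mul 8000 ((h6_S_int 3).pow 3)
    simpa using this
  have h147 : h62_IsIntPS (147 * h6_S 5 ^ 2) := by
    have := h6_isIntPS_natCast_mul 147 ((h6_S_int 5).pow 2)
    simpa using this
  exact ((h6_U_int.add h100).add h8000).sub h147

/-- `τ(n) ∈ ℤ`, stated for `ModularForm.discriminant`. -/
theorem h6_delta_int (n : ℕ) :
    ∃ m : ℤ, (qExpansion 1 ModularForm.discriminant).coeff n = (m : ℂ) := by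
  have := h6_delta_isIntPS n
  rwa [CuspForm.coe_discriminant] at this

theorem h6_delta_coeff_zero : (qExpansion 1 ModularForm.discriminant).coeff 0 = 0 := by
  have h := ModularForm.discriminant_qExpansion_order
  exact PowerSeries.coeff_of_lt_order 0 (by rw [h]; exact zero_lt_one)

/-- A product of an integral power series with a power series whose coefficients up to `n` lie in
an additive subgroup `J` has `n`-th coefficient in `J`. -/
theorem h6_coeff_mul_mem (J : AddSubgroup ℂ) {A B : PowerSeries ℂ} (hA : h62_IsIntPS A) (n : ℕ)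
    (hB : ∀ j ≤ n, B.coeff j ∈ J) : (A * B).coeff n ∈ J := by
  rw [PowerSeries.coeff_mul]
  refine J.sum_mem fun p hp => ?_
  obtain ⟨m, hm⟩ := hA p.1
  rw [hm, ← zsmul_eq_mul]
  have : p.2 ≤ n := by
    have := Finset.HasAntidiagonal.mem_antidiagonal.mp hp
    omega
  exact J.zsmul_mem (hB _ this) m

/-- For every even `n ≥ 4` there is a level one form of weight `n` with integral `q`-expansion and
constant term `1` (a monomial `E₄^a E₆^b`). -/
theorem h6_exists_intForm (n : ℕ) (h4 : 4 ≤ n) (hev : Even n) :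
    ∃ F : ModularForm 𝒮ℒ (n : ℤ), h62_IsIntPS (qExpansion 1 F) ∧ (qExpansion 1 F).coeff 0 = 1 := by
  obtain ⟨a, b, hab⟩ : ∃ a b : ℕ, a * 4 + b * 6 = n := by
    obtain ⟨m, hm⟩ := hev
    rcases Nat.even_or_odd m with ⟨c, hc⟩ | ⟨c, hc⟩
    · exact ⟨c, 0, by omega⟩
    · exact ⟨c - 1, 1, by omega⟩
  have hw : ((a : ℤ) * 4 + (b : ℤ) * 6) = (n : ℤ) := by exact_mod_cast hab
  refine ⟨ModularForm.mcast hw ((E₄.pow a).mul (E₆.pow b)), ?_, ?_⟩
  · rw [ModularForm.qExpansion_mcast, ModularForm.qExpansion_mul one_pos one_mem_strictPeriods_SL,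
      ModularForm.qExpansion_pow one_pos one_mem_strictPeriods_SL,
      ModularForm.qExpansion_pow one_pos one_mem_strictPeriods_SL]
    exact (((h62_mem_intForms_iff _).1 h62_E4_mem).pow a).mul
      (((h62_mem_intForms_iff _).1 h62_E6_mem).pow b)
  · rw [ModularForm.qExpansion_mcast, ModularForm.qExpansion_mul one_pos one_mem_strictPeriods_SL,
      ModularForm.qExpansion_pow one_pos one_mem_strictPeriods_SL,
      ModularForm.qExpansion_pow one_pos one_mem_strictPeriods_SL]
    have h4' : (qExpansion 1 E₄).coeff 0 = 1 := by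
      rw [E_qExpansion_coeff (by norm_num) ⟨2, rfl⟩]; simp
    have h6' : (qExpansion 1 E₆).coeff 0 = 1 := by
      rw [E_qExpansion_coeff (by norm_num) ⟨3, rfl⟩]; simp
    simp only [PowerSeries.coeff_zero_eq_constantCoeff, map_mul, map_pow] at h4' h6' ⊢
    rw [h4', h6']
    simp

theorem h6_delta_isIntPS' : h62_IsIntPS (qExpansion 1 ModularForm.discriminant) := by
  have := h6_delta_isIntPS
  rwa [CuspForm.coe_discriminant] at this

/-- `Δ = q · (unit of ℤ⟦q⟧)`: there is an integral power series `V` with `V · Δ = q`. -/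
theorem h6_exists_inv_delta : ∃ V : PowerSeries ℂ, h62_IsIntPS V ∧
    V * qExpansion 1 ModularForm.discriminant = PowerSeries.X := by
  obtain ⟨D', hD'⟩ := (h62_isIntPS_iff _).1 h6_delta_isIntPS'
  have h0 : D'.coeff 0 = 0 := by
    have h := congrArg (PowerSeries.coeff 0) hD'
    rw [h6_delta_coeff_zero] at h
    simpa using h
  have h1 : D'.coeff 1 = 1 := by
    have h := congrArg (PowerSeries.coeff 1) hD'
    rw [ModularForm.discriminant_qExpansion_coeff_one] at h
    have h' : ((D'.coeff 1 : ℤ) : ℂ) = ((1 : ℤ) : ℂ) := by simpa using h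
    exact_mod_cast h'
  set u' : PowerSeries ℤ := PowerSeries.mk fun n => D'.coeff (n + 1) with hu'
  have hD'u : D' = PowerSeries.X * u' := by
    ext n
    rcases n with _ | n
    · simp [h0]
    · rw [PowerSeries.coeff_succ_X_mul, hu', PowerSeries.coeff_mk]
  have hu : IsUnit u' := by
    rw [PowerSeries.isUnit_iff_constantCoeff]
    have : PowerSeries.constantCoeff u' = 1 := by
      rw [← PowerSeries.coeff_zero_eq_constantCoeff_apply, hu', PowerSeries.coeff_mk]
      exact h1
    rw [this]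
    exact isUnit_one
  obtain ⟨v', hv'⟩ := hu.exists_left_inv
  refine ⟨PowerSeries.map (Int.castRingHom ℂ) v', (h62_isIntPS_iff _).2 ⟨v', rfl⟩, ?_⟩
  have hD'' : qExpansion 1 ModularForm.discriminant =
      PowerSeries.map (Int.castRingHom ℂ) (PowerSeries.X * u') := by
    rw [← hD'u]; exact hD'.symm
  rw [hD'', ← map_mul, ← mul_assoc, mul_comm v' PowerSeries.X, mul_assoc, hv', mul_one,
    PowerSeries.map_X]

theorem h6_sturm_aux (J : AddSubgroup ℂ) (N : ℕ) :
    ∀ k : ℤ, k < N → ∀ f : ModularForm 𝒮ℒ k,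
      (∀ n : ℕ, 12 * (n : ℤ) ≤ k → (qExpansion 1 f).coeff n ∈ J) →
      ∀ n : ℕ, (qExpansion 1 f).coeff n ∈ J := by
  induction N with
  | zero =>
    intro k hk f _ n
    have hf : f = 0 :=
      rank_zero_iff_forall_zero.mp (levelOne_neg_weight_rank_zero (by simpa using hk)) f
    rw [hf, FunLike.coe_zero, qExpansion_zero]
    simp
  | succ N ih =>
    intro k hk f hf n
    by_cases hkN : k < N
    · exact ih k hkN f hf n
    · have hk' : k = (N : ℤ) := by push_cast at hk; omega
      rcases Nat.even_or_odd N with hev | hodd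
      · rcases Nat.lt_or_ge N 4 with h4 | h4
        · have h02 : N = 0 ∨ N = 2 := by
            obtain ⟨m, hm⟩ := hev
            omega
          rcases h02 with rfl | rfl
          · obtain rfl : k = 0 := by simpa using hk'
            obtain ⟨c, hc⟩ := levelOne_weight_zero_const f
            have hfc : f = c • (1 : ModularForm 𝒮ℒ 0) := by
              ext z
              simp [hc]
            have hq : qExpansion 1 f = c • (1 : PowerSeries ℂ) := by
              rw [hfc, FunLike.coe_smul,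
                ModularForm.qExpansion_smul one_pos one_mem_strictPeriods_SL,
                ModularForm.qExpansion_one]
            have h0 := hf 0 (by simp)
            rw [hq] at h0 ⊢
            rcases n with _ | n
            · exact h0
            · simp [PowerSeries.coeff_one]
          · obtain rfl : k = 2 := by simpa using hk'
            have hf0 : f = 0 := rank_zero_iff_forall_zero.mp levelOne_weight_two_rank_zero f
            rw [hf0, FunLike.coe_zero, qExpansion_zero]
            simp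
        · subst hk'
          obtain ⟨F, hFint, hF0⟩ := h6_exists_intForm N h4 hev
          set a0 := (qExpansion 1 f).coeff 0 with ha0
          have ha0J : a0 ∈ J := hf 0 (by positivity)
          set g : ModularForm 𝒮ℒ (N : ℤ) := f - a0 • F with hg
          have hgq : qExpansion 1 g = qExpansion 1 f - a0 • qExpansion 1 F := by
            rw [hg, FunLike.coe_sub, ModularForm.qExpansion_sub one_pos one_mem_strictPeriods_SL,
              FunLike.coe_smul, ModularForm.qExpansion_smul one_pos one_mem_strictPeriods_SL]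
          have hg0 : (qExpansion 1 g).coeff 0 = 0 := by
            rw [hgq, map_sub, PowerSeries.coeff_smul, hF0]
            simp [ha0]
          have haF : ∀ n, (a0 • qExpansion 1 F).coeff n ∈ J := by
            intro n
            obtain ⟨m, hm⟩ := hFint n
            rw [PowerSeries.coeff_smul, hm, smul_eq_mul, mul_comm, ← zsmul_eq_mul]
            exact J.zsmul_mem ha0J m
          have hgJ : ∀ n : ℕ, 12 * (n : ℤ) ≤ N → (qExpansion 1 g).coeff n ∈ J := by
            intro n hn
            rw [hgq, map_sub]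
            exact J.sub_mem (hf n hn) (haF n)
          have hfac := ModularForm.qExpansion_eq_qExpansion_discriminant_mul g hg0
          set H := CuspForm.discriminantEquiv (ModularForm.toCuspForm g hg0) with hH
          obtain ⟨V, hVint, hV⟩ := h6_exists_inv_delta
          have hXH : PowerSeries.X * qExpansion 1 H = V * qExpansion 1 g := by
            rw [hfac, ← mul_assoc, hV]
          have hHJ0 : ∀ n : ℕ, 12 * (n : ℤ) ≤ (N : ℤ) - 12 → (qExpansion 1 H).coeff n ∈ J := by
            intro n hn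
            have hc : (qExpansion 1 H).coeff n = (V * qExpansion 1 g).coeff (n + 1) := by
              rw [← hXH, PowerSeries.coeff_succ_X_mul]
            rw [hc]
            refine h6_coeff_mul_mem J hVint (n + 1) fun j hj => hgJ j ?_
            have : (j : ℤ) ≤ n + 1 := by exact_mod_cast hj
            omega
          have hHJ : ∀ n, (qExpansion 1 H).coeff n ∈ J :=
            ih ((N : ℤ) - 12) (by omega) H hHJ0
          have hgall : ∀ n, (qExpansion 1 g).coeff n ∈ J := by
            intro n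
            rw [hfac]
            exact h6_coeff_mul_mem J h6_delta_isIntPS' n fun j _ => hHJ j
          have hfq : qExpansion 1 f = qExpansion 1 g + a0 • qExpansion 1 F := by
            rw [hgq]; ring
          rw [hfq, map_add]
          exact J.add_mem (hgall n) (haF n)
      · have hf0 : f = 0 :=
          ModularForm.levelOne_odd_weight_eq_zero (by rw [hk']; exact_mod_cast hodd) f
        rw [hf0, FunLike.coe_zero, qExpansion_zero]
        simp

/-- **Level-one Sturm bound modulo an additive subgroup.**  Let `f` be a modular form of weight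
`k` for `SL(2, ℤ)` and `J ⊆ ℂ` any additive subgroup.  If the `q`-expansion coefficients `a_n(f)`
lie in `J` for all `n` with `12 n ≤ k`, then all coefficients of `f` lie in `J`. -/
theorem h6_sturm_levelOne (J : AddSubgroup ℂ) {k : ℤ} (f : ModularForm 𝒮ℒ k)
    (h : ∀ n : ℕ, 12 * (n : ℤ) ≤ k → (qExpansion 1 f).coeff n ∈ J) :
    ∀ n : ℕ, (qExpansion 1 f).coeff n ∈ J :=
  h6_sturm_aux J (k.toNat + 1) k (by omega) f h

/-- Integer form: if `f` has `a_n(f) ∈ M ℤ` for all `n ≤ k/12`, then `a_n(f) ∈ M ℤ` for all `n`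
(no integrality hypothesis on the other coefficients is needed). -/
theorem h6_sturm_levelOne_int {k : ℤ} (f : ModularForm 𝒮ℒ k) (M : ℤ)
    (h : ∀ n : ℕ, 12 * (n : ℤ) ≤ k → ∃ m : ℤ, (qExpansion 1 f).coeff n = (M : ℂ) * (m : ℂ)) :
    ∀ n : ℕ, ∃ m : ℤ, (qExpansion 1 f).coeff n = (M : ℂ) * (m : ℂ) := by
  let J : AddSubgroup ℂ := (AddSubgroup.zmultiples M).map (Int.castAddHom ℂ)
  have hJ : ∀ x : ℂ, x ∈ J ↔ ∃ m : ℤ, x = (M : ℂ) * (m : ℂ) := by
    intro x
    constructor
    · rintro ⟨y, hy, rfl⟩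
      obtain ⟨m, rfl⟩ := AddSubgroup.mem_zmultiples_iff.mp hy
      exact ⟨m, by simp [mul_comm]⟩
    · rintro ⟨m, rfl⟩
      exact ⟨M * m, AddSubgroup.mem_zmultiples_iff.mpr ⟨m, by simp [mul_comm]⟩, by simp⟩
  intro n
  exact (hJ _).1 (h6_sturm_levelOne J f (fun n hn => (hJ _).2 (h n hn)) n)

/-- "`q`-expansion principle" at level one: if the coefficients `a_n(f)`, `12 n ≤ k`, are
integers, then all coefficients are integers. -/
theorem h6_levelOne_integral {k : ℤ} (f : ModularForm 𝒮ℒ k)
    (h : ∀ n : ℕ, 12 * (n : ℤ) ≤ k → ∃ m : ℤ, (qExpansion 1 f).coeff n = (m : ℂ)) :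
    ∀ n : ℕ, ∃ m : ℤ, (qExpansion 1 f).coeff n = (m : ℂ) := by
  have h1 := h6_sturm_levelOne_int f 1 (fun n hn => by simpa using h n hn)
  intro n
  simpa using h1 n

end Fermat.Agent.S16
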