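import Mathlib
import Fermat.Prelude.Def_ModularForm_HeckeOperator
import Fermat.Prelude.Def_ModularForm_HeckeOperatorForms
import Fermat.Prelude.Def_FLTPrelim_Modularity
import Fermat.Prelude.Thm_ModularFormClass_qCoeff_heckeU
import Fermat.Prelude.Thm_CongruenceSubgroup_one_mem_strictPeriods_Gamma0
import Fermat.Agent.S23.h97_LevelRaise
import Fermat.Agent.S23.h97_Trace

set_option autoImplicit false

open UpperHalfPlane ModularForm Filter Topology CongruenceSubgroup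
open scoped MatrixGroups ModularForm Manifold Pointwise

namespace Fermat.Agent.S16

/-- The Fricke matrix `W_p = [0, -1; p, 0]`. -/
noncomputable def h70_W (p : ℕ) [NeZero p] : GL (Fin 2) ℝ :=
  Matrix.GeneralLinearGroup.mkOfDetNeZero !![0, -1; (p : ℝ), 0]
    (by
      rw [Matrix.det_fin_two_of]
      have : (p : ℝ) ≠ 0 := by exact_mod_cast NeZero.ne p
      simpa using this)

theorem h70_W_val (p : ℕ) [NeZero p] :
    ((h70_W p : GL (Fin 2) ℝ) : Matrix (Fin 2) (Fin 2) ℝ) = !![0, -1; (p : ℝ), 0] := rfl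

theorem h70_W_det (p : ℕ) [NeZero p] : ((h70_W p).det : ℝ) = p := by
  rw [Matrix.GeneralLinearGroup.val_det_apply, h70_W_val, Matrix.det_fin_two_of]
  ring

theorem h70_W_det_pos (p : ℕ) [NeZero p] : 0 < ((h70_W p).det : ℝ) := by
  rw [h70_W_det]
  exact_mod_cast Nat.pos_of_ne_zero (NeZero.ne p)

theorem h70_W_denom (p : ℕ) [NeZero p] (τ : ℍ) :
    UpperHalfPlane.denom (h70_W p) τ = (p : ℂ) * τ := by
  simp [UpperHalfPlane.denom, h70_W_val]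

theorem h70_W_coe_smul (p : ℕ) [NeZero p] (τ : ℍ) :
    ((h70_W p • τ : ℍ) : ℂ) = -1 / ((p : ℂ) * τ) := by
  rw [UpperHalfPlane.coe_smul_of_det_pos (h70_W_det_pos p)]
  simp [UpperHalfPlane.num, UpperHalfPlane.denom, h70_W_val]

theorem h70_W_σ (p : ℕ) [NeZero p] : UpperHalfPlane.σ (h70_W p) = .refl ℝ ℂ := by
  rw [UpperHalfPlane.σ, if_pos (h70_W_det_pos p)]

theorem h70_slash_W_apply (p : ℕ) [NeZero p] (k : ℤ) (f : ℍ → ℂ) (τ : ℍ) :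
    (f ∣[k] h70_W p) τ = (p : ℂ)⁻¹ * (τ : ℂ) ^ (-k) * f (h70_W p • τ) := by
  have hp : (p : ℂ) ≠ 0 := by exact_mod_cast NeZero.ne p
  rw [ModularForm.slash_apply, h70_W_σ, h70_W_det, h70_W_denom]
  simp only [ContinuousAlgEquiv.refl_apply, Nat.abs_cast, Complex.ofReal_natCast]
  have h1 : (p : ℂ) ^ (k - 1) * (p : ℂ) ^ (-k) = (p : ℂ)⁻¹ := by
    rw [← zpow_add₀ hp, show k - 1 + -k = -1 by ring, zpow_neg_one]
  rw [mul_zpow]
  linear_combination (f (h70_W p • τ) * (τ : ℂ) ^ (-k)) * h1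

/-- The conjugate `W γ W⁻¹ = [d, -c/p; -p b, a]` of `γ = [a, b; c, d] ∈ Γ₀(p)`. -/
def h70_conjSL (p : ℕ) (γ : SL(2, ℤ)) (h : (p : ℤ) ∣ γ 1 0) : SL(2, ℤ) :=
  ⟨!![γ 1 1, -(γ 1 0 / p); -(p * γ 0 1), γ 0 0], by
    obtain ⟨c, hc⟩ := h
    have hdet := γ.det_coe
    rw [Matrix.det_fin_two] at hdet
    rw [Matrix.det_fin_two_of, hc]
    rcases eq_or_ne (p : ℤ) 0 with hN | hN
    · rw [hN] at hc ⊢
      simp only [zero_mul] at hc
      rw [hc] at hdet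
      simp only [zero_mul, EuclideanDomain.div_zero, mul_zero, sub_zero, neg_zero] at hdet ⊢
      linarith
    · rw [Int.mul_ediv_cancel_left _ hN]
      rw [hc] at hdet
      linarith⟩

theorem h70_conjSL_mem (p : ℕ) (γ : SL(2, ℤ)) (h : (p : ℤ) ∣ γ 1 0) :
    h70_conjSL p γ h ∈ Gamma0 p := by
  rw [Gamma0_mem]
  simp [h70_conjSL]

theorem h70_conjSL_mul (p : ℕ) [NeZero p] (γ : SL(2, ℤ)) (h : (p : ℤ) ∣ γ 1 0) :
    Matrix.SpecialLinearGroup.mapGL ℝ (h70_conjSL p γ h) * h70_W p =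
      h70_W p * Matrix.SpecialLinearGroup.mapGL ℝ γ := by
  have hN : p ≠ 0 := NeZero.ne p
  have hNz : (p : ℤ) ≠ 0 := by exact_mod_cast hN
  have h10 : (γ 1 0 / p : ℤ) * p = γ 1 0 := Int.ediv_mul_cancel h
  have h10' : ((γ 1 0 / p : ℤ) : ℝ) * p = ((γ 1 0 : ℤ) : ℝ) := by exact_mod_cast h10
  apply Matrix.GeneralLinearGroup.ext
  intro i j
  rw [Matrix.GeneralLinearGroup.coe_mul, Matrix.GeneralLinearGroup.coe_mul,
    h70_W_val, Matrix.mul_apply, Matrix.mul_apply, Fin.sum_univ_two,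
    Fin.sum_univ_two]
  simp only [Fermat.Agent.S23.h97_mapGL_apply]
  fin_cases i <;> fin_cases j
  · simp [h70_conjSL]; linarith
  · simp [h70_conjSL]
  · simp [h70_conjSL]; ring
  · simp [h70_conjSL]

/-- `W_p` normalises `Γ₀(p)`. -/
theorem h70_Gamma0_le_conj (p : ℕ) [NeZero p] :
    ((Gamma0 p : Subgroup SL(2, ℤ)) : Subgroup (GL (Fin 2) ℝ)) ≤
      ConjAct.toConjAct (h70_W p)⁻¹ • ((Gamma0 p : Subgroup SL(2, ℤ)) : Subgroup (GL (Fin 2) ℝ)) := by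
  rintro _ ⟨γ, hγ, rfl⟩
  rw [Subgroup.mem_pointwise_smul_iff_inv_smul_mem, ← map_inv, inv_inv, ConjAct.smul_def,
    ConjAct.ofConjAct_toConjAct]
  have hdvd : (p : ℤ) ∣ γ 1 0 := by
    have := Gamma0_mem.mp hγ
    exact (ZMod.intCast_zmod_eq_zero_iff_dvd _ _).mp this
  refine ⟨h70_conjSL p γ hdvd, h70_conjSL_mem p γ hdvd, ?_⟩
  rw [eq_mul_inv_iff_mul_eq]
  exact h70_conjSL_mul p γ hdvd

theorem h70_sharpFun_slash (p : ℕ) [NeZero p] {k : ℤ} {F : Type*} [FunLike F ℍ ℂ]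
    [SlashInvariantFormClass F ((Gamma0 p : Subgroup SL(2, ℤ)) : Subgroup (GL (Fin 2) ℝ)) k]
    (f : F) (γ : GL (Fin 2) ℝ)
    (hγ : γ ∈ ((Gamma0 p : Subgroup SL(2, ℤ)) : Subgroup (GL (Fin 2) ℝ))) :
    ((p : ℂ) • (⇑f ∣[k] h70_W p)) ∣[k] γ = (p : ℂ) • (⇑f ∣[k] h70_W p) := by
  have h1 := (SlashInvariantForm.translate f (h70_W p)).slash_action_eq' γ
    (h70_Gamma0_le_conj p hγ)
  have h2 : (⇑f ∣[k] h70_W p) ∣[k] γ = ⇑f ∣[k] h70_W p := h1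
  obtain ⟨γ', -, rfl⟩ := hγ
  have h3 : ((p : ℂ) • (⇑f ∣[k] h70_W p)) ∣[k]
      (Matrix.SpecialLinearGroup.mapGL ℝ γ') = (p : ℂ) •
        ((⇑f ∣[k] h70_W p) ∣[k] (Matrix.SpecialLinearGroup.mapGL ℝ γ')) :=
    ModularForm.SL_smul_slash k γ' (⇑f ∣[k] h70_W p) (p : ℂ)
  rw [h3, h2]

/-- The Fricke transform `F#(z) = z^(-k) F(-1/(p z))` of a modular form on `Γ₀(p)`. -/
noncomputable def h70_sharp {p : ℕ} [NeZero p] {k : ℤ}
    (F : ModularForm ((Gamma0 p : Subgroup SL(2, ℤ)) : Subgroup (GL (Fin 2) ℝ)) k) :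
    ModularForm ((Gamma0 p : Subgroup SL(2, ℤ)) : Subgroup (GL (Fin 2) ℝ)) k where
  toFun := (p : ℂ) • (⇑F ∣[k] h70_W p)
  slash_action_eq' := h70_sharpFun_slash p F
  holo' := (F.holo'.slash k _).const_smul _
  bdd_at_cusps' := by
    intro c hc g hg
    have h1 := (ModularForm.translate F (h70_W p)).bdd_at_cusps'
      (hc.mono (h70_Gamma0_le_conj p)) g hg
    have h2 : IsBoundedAtImInfty ((⇑F ∣[k] h70_W p) ∣[k] g) := h1
    show IsBoundedAtImInfty (((p : ℂ) • (⇑F ∣[k] h70_W p)) ∣[k] g)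
    rw [ModularForm.smul_slash]
    exact h2.smul _

/-- The Fricke transform of a cusp form on `Γ₀(p)`. -/
noncomputable def h70_sharpCusp {p : ℕ} [NeZero p] {k : ℤ}
    (F : CuspForm ((Gamma0 p : Subgroup SL(2, ℤ)) : Subgroup (GL (Fin 2) ℝ)) k) :
    CuspForm ((Gamma0 p : Subgroup SL(2, ℤ)) : Subgroup (GL (Fin 2) ℝ)) k where
  toFun := (p : ℂ) • (⇑F ∣[k] h70_W p)
  slash_action_eq' := h70_sharpFun_slash p F
  holo' := (F.holo'.slash k _).const_smul _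
  zero_at_cusps' := by
    intro c hc g hg
    have h1 := (CuspForm.translate F (h70_W p)).zero_at_cusps'
      (hc.mono (h70_Gamma0_le_conj p)) g hg
    have h2 : IsZeroAtImInfty ((⇑F ∣[k] h70_W p) ∣[k] g) := h1
    show IsZeroAtImInfty (((p : ℂ) • (⇑F ∣[k] h70_W p)) ∣[k] g)
    rw [ModularForm.smul_slash]
    exact h2.smul _

theorem h70_sharp_coe {p : ℕ} [NeZero p] {k : ℤ}
    (F : ModularForm ((Gamma0 p : Subgroup SL(2, ℤ)) : Subgroup (GL (Fin 2) ℝ)) k) :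
    (⇑(h70_sharp F) : ℍ → ℂ) = (p : ℂ) • (⇑F ∣[k] h70_W p) := rfl

theorem h70_sharpCusp_coe {p : ℕ} [NeZero p] {k : ℤ}
    (F : CuspForm ((Gamma0 p : Subgroup SL(2, ℤ)) : Subgroup (GL (Fin 2) ℝ)) k) :
    (⇑(h70_sharpCusp F) : ℍ → ℂ) = (p : ℂ) • (⇑F ∣[k] h70_W p) := rfl

theorem h70_sharp_apply {p : ℕ} [NeZero p] {k : ℤ}
    (F : ModularForm ((Gamma0 p : Subgroup SL(2, ℤ)) : Subgroup (GL (Fin 2) ℝ)) k) (z : ℍ) :
    h70_sharp F z = (z : ℂ) ^ (-k) * F (h70_W p • z) := by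
  have hp : (p : ℂ) ≠ 0 := by exact_mod_cast NeZero.ne p
  show ((p : ℂ) • (⇑F ∣[k] h70_W p)) z = _
  rw [Pi.smul_apply, h70_slash_W_apply, smul_eq_mul]
  field_simp

theorem h70_sharpCusp_apply {p : ℕ} [NeZero p] {k : ℤ}
    (F : CuspForm ((Gamma0 p : Subgroup SL(2, ℤ)) : Subgroup (GL (Fin 2) ℝ)) k) (z : ℍ) :
    h70_sharpCusp F z = (z : ℂ) ^ (-k) * F (h70_W p • z) := by
  have hp : (p : ℂ) ≠ 0 := by exact_mod_cast NeZero.ne p
  show ((p : ℂ) • (⇑F ∣[k] h70_W p)) z = _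
  rw [Pi.smul_apply, h70_slash_W_apply, smul_eq_mul]
  field_simp

/-! ### Algebraic properties of the Fricke transform -/

theorem h70_W_smul_W_smul (p : ℕ) [NeZero p] (z : ℍ) : h70_W p • (h70_W p • z) = z := by
  have hp : (p : ℂ) ≠ 0 := by exact_mod_cast NeZero.ne p
  have hz : (z : ℂ) ≠ 0 := z.ne_zero
  apply UpperHalfPlane.ext
  rw [h70_W_coe_smul, h70_W_coe_smul]
  field_simp

theorem h70_diag_smul_W_smul (p : ℕ) [NeZero p] (z : ℍ) :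
    ((heckeDiagMatrix p • (h70_W p • z) : ℍ) : ℂ) = -1 / (z : ℂ) := by
  have hp : (p : ℂ) ≠ 0 := by exact_mod_cast NeZero.ne p
  have hz : (z : ℂ) ≠ 0 := z.ne_zero
  rw [coe_heckeDiagMatrix_smul (NeZero.ne p), h70_W_coe_smul]
  field_simp

theorem h70_W_smul_eq (p : ℕ) [NeZero p] (z : ℍ) :
    ((h70_W p • z : ℍ) : ℂ) = -1 / ((heckeDiagMatrix p • z : ℍ) : ℂ) := by
  rw [coe_heckeDiagMatrix_smul (NeZero.ne p), h70_W_coe_smul]

/-- The `S`-transformation law of a level one form: `A(w) = z^k A(z)` whenever `w = -1/z`. -/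
theorem h70_levelOne_S {k : ℤ} (A : ModularForm 𝒮ℒ k) (z w : ℍ) (hw : (w : ℂ) = -1 / (z : ℂ)) :
    A w = (z : ℂ) ^ k * A z := by
  have hz : (z : ℂ) ≠ 0 := z.ne_zero
  have h1 : (⇑A ∣[k] ModularGroup.S) = ⇑A :=
    SlashInvariantForm.slash_action_eqn A _ ⟨ModularGroup.S, rfl⟩
  have h2 := congr_fun h1 z
  rw [SlashInvariantForm.slash_S_apply] at h2
  have hw' : w = UpperHalfPlane.mk (-(z : ℂ))⁻¹ z.im_inv_neg_coe_pos := by
    apply UpperHalfPlane.ext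
    rw [hw]
    show -1 / (z : ℂ) = (-(z : ℂ))⁻¹
    field_simp
  rw [hw', ← h2, mul_comm, mul_assoc, ← zpow_add₀ hz]
  simp

theorem h70_sharp_add {p : ℕ} [NeZero p] {k : ℤ}
    (F G : ModularForm ((Gamma0 p : Subgroup SL(2, ℤ)) : Subgroup (GL (Fin 2) ℝ)) k) :
    h70_sharp (F + G) = h70_sharp F + h70_sharp G := by
  ext z
  have h1 : (h70_sharp F + h70_sharp G) z = h70_sharp F z + h70_sharp G z := rfl
  have h2 : (F + G) (h70_W p • z) = F (h70_W p • z) + G (h70_W p • z) := rfl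
  rw [h1, h70_sharp_apply, h70_sharp_apply, h70_sharp_apply, h2]
  ring

theorem h70_sharp_smul {p : ℕ} [NeZero p] {k : ℤ} (c : ℂ)
    (F : ModularForm ((Gamma0 p : Subgroup SL(2, ℤ)) : Subgroup (GL (Fin 2) ℝ)) k) :
    h70_sharp (c • F) = c • h70_sharp F := by
  ext z
  have h1 : (c • h70_sharp F) z = c * h70_sharp F z := rfl
  have h2 : (c • F) (h70_W p • z) = c * F (h70_W p • z) := rfl
  rw [h1, h70_sharp_apply, h70_sharp_apply, h2]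
  ring

theorem h70_sharp_mul {p : ℕ} [NeZero p] {k₁ k₂ : ℤ}
    (F : ModularForm ((Gamma0 p : Subgroup SL(2, ℤ)) : Subgroup (GL (Fin 2) ℝ)) k₁)
    (G : ModularForm ((Gamma0 p : Subgroup SL(2, ℤ)) : Subgroup (GL (Fin 2) ℝ)) k₂) :
    h70_sharp (F.mul G) = (h70_sharp F).mul (h70_sharp G) := by
  ext z
  have hz : (z : ℂ) ≠ 0 := z.ne_zero
  have h1 : ((h70_sharp F).mul (h70_sharp G)) z = h70_sharp F z * h70_sharp G z := rfl
  have h2 : (F.mul G) (h70_W p • z) = F (h70_W p • z) * G (h70_W p • z) := rfl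
  rw [h1, h70_sharp_apply, h70_sharp_apply, h70_sharp_apply, h2, neg_add, zpow_add₀ hz]
  ring

theorem h70_sharp_sharp {p : ℕ} [NeZero p] {k : ℤ} (hk : Even k)
    (F : ModularForm ((Gamma0 p : Subgroup SL(2, ℤ)) : Subgroup (GL (Fin 2) ℝ)) k) :
    h70_sharp (h70_sharp F) = ((p : ℂ) ^ k) • F := by
  ext z
  have hp : (p : ℂ) ≠ 0 := by exact_mod_cast NeZero.ne p
  have hz : (z : ℂ) ≠ 0 := z.ne_zero
  have h0 : (((p : ℂ) ^ k) • F) z = (p : ℂ) ^ k * F z := rfl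
  rw [h70_sharp_apply, h70_sharp_apply, h70_W_smul_W_smul, h70_W_coe_smul, h0]
  have h1 : (-1 / ((p : ℂ) * (z : ℂ))) ^ (-k) = (p : ℂ) ^ k * (z : ℂ) ^ k := by
    rw [zpow_neg, ← inv_zpow, ← mul_zpow]
    have : (-1 / ((p : ℂ) * (z : ℂ)))⁻¹ = -((p : ℂ) * (z : ℂ)) := by
      field_simp
    rw [this, hk.neg_zpow]
  rw [h1, ← mul_assoc, ← mul_assoc, mul_comm ((z : ℂ) ^ (-k)), mul_assoc ((p : ℂ) ^ k),
    ← zpow_add₀ hz]
  simp

/-- `(V_p A)# = A` for a level one form `A`. -/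
theorem h70_sharp_levelRaise {p : ℕ} [NeZero p] {k : ℤ} (A : ModularForm 𝒮ℒ k)
    (F : ModularForm ((Gamma0 p : Subgroup SL(2, ℤ)) : Subgroup (GL (Fin 2) ℝ)) k)
    (h : ∀ z : ℍ, F z = A (heckeDiagMatrix p • z)) (z : ℍ) :
    h70_sharp F z = A z := by
  have hz : (z : ℂ) ≠ 0 := z.ne_zero
  rw [h70_sharp_apply, h, h70_levelOne_S A z _ (h70_diag_smul_W_smul p z), ← mul_assoc,
    ← zpow_add₀ hz]
  simp

/-- `A# = p^k V_p A` for a level one form `A` (viewed on `Γ₀(p)`). -/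
theorem h70_sharp_levelOne {p : ℕ} [NeZero p] {k : ℤ} (A : ModularForm 𝒮ℒ k)
    (F : ModularForm ((Gamma0 p : Subgroup SL(2, ℤ)) : Subgroup (GL (Fin 2) ℝ)) k)
    (h : ∀ z : ℍ, F z = A z) (z : ℍ) :
    h70_sharp F z = (p : ℂ) ^ k * A (heckeDiagMatrix p • z) := by
  have hp : (p : ℂ) ≠ 0 := by exact_mod_cast NeZero.ne p
  have hz : (z : ℂ) ≠ 0 := z.ne_zero
  rw [h70_sharp_apply, h, h70_levelOne_S A (heckeDiagMatrix p • z) _ (h70_W_smul_eq p z),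
    coe_heckeDiagMatrix_smul (NeZero.ne p), mul_zpow, ← mul_assoc, mul_comm ((z : ℂ) ^ (-k)),
    mul_assoc ((p : ℂ) ^ k), mul_comm ((z : ℂ) ^ k), ← zpow_add₀ hz]
  simp

/-! ### Coset representatives of `Γ₀(p)` in `SL(2, ℤ)` -/

/-- The matrix `S T^j = [0, -1; 1, j]`. -/
def h70_ST (j : ℤ) : SL(2, ℤ) := ⟨!![0, -1; 1, j], by simp [Matrix.det_fin_two_of]⟩

theorem h70_ST_00 (j : ℤ) : (h70_ST j) 0 0 = 0 := rfl
theorem h70_ST_01 (j : ℤ) : (h70_ST j) 0 1 = -1 := rfl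
theorem h70_ST_10 (j : ℤ) : (h70_ST j) 1 0 = 1 := rfl
theorem h70_ST_11 (j : ℤ) : (h70_ST j) 1 1 = j := rfl

theorem h70_ST_coe_smul (j : ℤ) (τ : ℍ) :
    ((h70_ST j • τ : ℍ) : ℂ) = -1 / ((τ : ℂ) + j) := by
  rw [UpperHalfPlane.coe_specialLinearGroup_apply]
  simp [h70_ST_00, h70_ST_01, h70_ST_10, h70_ST_11]

theorem h70_ST_denom (j : ℤ) (τ : ℍ) :
    UpperHalfPlane.denom (Matrix.SpecialLinearGroup.toGL
      ((Matrix.SpecialLinearGroup.map (Int.castRingHom ℝ)) (h70_ST j))) τ = (τ : ℂ) + j := by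
  simp [UpperHalfPlane.denom, h70_ST_10, h70_ST_11]

theorem h70_ST_slash_apply (k : ℤ) (f : ℍ → ℂ) (j : ℤ) (τ : ℍ) :
    (f ∣[k] h70_ST j) τ = f (h70_ST j • τ) * ((τ : ℂ) + j) ^ (-k) := by
  rw [SL_slash_apply, h70_ST_denom]

theorem h70_ST_smul_eq (p : ℕ) [NeZero p] (j : ℕ) (τ : ℍ) :
    h70_ST (j : ℤ) • τ = h70_W p • (heckeMatrix p j • τ) := by
  have hp : (p : ℂ) ≠ 0 := by exact_mod_cast NeZero.ne p
  apply UpperHalfPlane.ext
  rw [h70_ST_coe_smul, h70_W_coe_smul, coe_heckeMatrix_smul (NeZero.ne p)]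
  have h1 : (p : ℂ) * (((τ : ℂ) + (j : ℂ)) / (p : ℂ)) = (τ : ℂ) + (j : ℂ) := by
    field_simp
  rw [h1]
  push_cast
  ring

/-- The conjugates at the other cusp: `F ∣ S T^j = p^(1-k) F# ∣ [1, j; 0, p]`. -/
theorem h70_slash_ST_eq {p : ℕ} [NeZero p] {k : ℤ}
    (F : ModularForm ((Gamma0 p : Subgroup SL(2, ℤ)) : Subgroup (GL (Fin 2) ℝ)) k) (j : ℕ) :
    (⇑F ∣[k] h70_ST (j : ℤ)) =
      ((p : ℂ) ^ (1 - k)) • (⇑(h70_sharp F) ∣[k] heckeMatrix p j) := by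
  have hp : (p : ℂ) ≠ 0 := by exact_mod_cast NeZero.ne p
  funext τ
  rw [h70_ST_slash_apply, Pi.smul_apply, slash_heckeMatrix_apply k (NeZero.ne p), h70_sharp_apply,
    h70_ST_smul_eq p j τ, coe_heckeMatrix_smul (NeZero.ne p), smul_eq_mul]
  have h1 : (((τ : ℂ) + (j : ℂ)) / (p : ℂ)) ^ (-k) = ((τ : ℂ) + (j : ℂ)) ^ (-k) * (p : ℂ) ^ k := by
    rw [div_zpow, zpow_neg (p : ℂ), div_inv_eq_mul]
  have h2 : (p : ℂ) ^ (1 - k) * ((p : ℂ)⁻¹ * (p : ℂ) ^ k) = 1 := by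
    rw [← zpow_neg_one, ← zpow_add₀ hp, ← zpow_add₀ hp]
    have : (1 - k + (-1 + k)) = 0 := by ring
    rw [this, zpow_zero]
  rw [h1]
  push_cast
  linear_combination (-(F (h70_W p • heckeMatrix p j • τ)) * ((τ : ℂ) + (j : ℂ)) ^ (-k)) * h2

/-- The conjugates at the other cusp, pointwise: `(F ∣ S T^j)(τ) = p^(-k) F#((τ + j)/p)`. -/
theorem h70_slash_ST_apply {p : ℕ} [NeZero p] {k : ℤ}
    (F : ModularForm ((Gamma0 p : Subgroup SL(2, ℤ)) : Subgroup (GL (Fin 2) ℝ)) k) (j : ℕ) (τ : ℍ) :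
    (⇑F ∣[k] h70_ST (j : ℤ)) τ = (p : ℂ) ^ (-k) * h70_sharp F (heckeMatrix p j • τ) := by
  have hp : (p : ℂ) ≠ 0 := by exact_mod_cast NeZero.ne p
  rw [h70_slash_ST_eq, Pi.smul_apply, slash_heckeMatrix_apply k (NeZero.ne p), smul_eq_mul,
    ← mul_assoc, ← zpow_neg_one, ← zpow_add₀ hp]
  congr 2
  ring

/-- The element of `𝒮ℒ` representing a coset of `Γ₀(p)`. -/
noncomputable def h70_rep (p : ℕ) : Option (Fin p) → 𝒮ℒ
  | none => 1
  | some j => ⟨(Matrix.SpecialLinearGroup.mapGL ℝ (h70_ST ((j : ℕ) : ℤ)))⁻¹,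
      inv_mem ⟨h70_ST ((j : ℕ) : ℤ), rfl⟩⟩

theorem h70_mapGL_mem_iff (p : ℕ) (g : SL(2, ℤ)) :
    Matrix.SpecialLinearGroup.mapGL ℝ g ∈
      ((Gamma0 p : Subgroup SL(2, ℤ)) : Subgroup (GL (Fin 2) ℝ)) ↔ g ∈ Gamma0 p := by
  constructor
  · rintro ⟨g', hg', h⟩
    have := Matrix.SpecialLinearGroup.mapGL_injective (R := ℤ) (S := ℝ) (n := Fin 2) h
    rw [← this]
    exact hg'
  · intro h
    exact ⟨g, h, rfl⟩

theorem h70_ST_mul_inv (i j : ℤ) :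
    ((h70_ST i * (h70_ST j)⁻¹ : SL(2, ℤ)) 1 0 : ℤ) = j - i := by
  rw [Matrix.SpecialLinearGroup.coe_mul, Matrix.SpecialLinearGroup.coe_inv,
    Matrix.adjugate_fin_two, Matrix.mul_apply, Fin.sum_univ_two]
  simp [h70_ST]
  ring

theorem h70_ST_mul (j : ℤ) (g : SL(2, ℤ)) :
    ((h70_ST j * g : SL(2, ℤ)) 1 0 : ℤ) = g 0 0 + j * g 1 0 := by
  rw [Matrix.SpecialLinearGroup.coe_mul, Matrix.mul_apply, Fin.sum_univ_two]
  simp [h70_ST]

theorem h70_rep_none (p : ℕ) : ((h70_rep p none : 𝒮ℒ) : GL (Fin 2) ℝ) = 1 := rfl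

theorem h70_rep_some (p : ℕ) (j : Fin p) : ((h70_rep p (some j) : 𝒮ℒ) : GL (Fin 2) ℝ) =
    (Matrix.SpecialLinearGroup.mapGL ℝ (h70_ST ((j : ℕ) : ℤ)))⁻¹ := rfl

theorem h70_ST_not_mem (p : ℕ) [Fact p.Prime] (j : ℤ) : h70_ST j ∉ Gamma0 p := by
  have hp : p.Prime := Fact.out
  rw [Gamma0_mem]
  have h1 : ((h70_ST j) 1 0 : ℤ) = 1 := by simp [h70_ST]
  rw [h1]
  intro h
  have h2 : ((p : ℕ) : ℤ) ∣ 1 := (ZMod.intCast_zmod_eq_zero_iff_dvd _ _).mp h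
  have h3 : p ∣ 1 := by exact_mod_cast h2
  exact hp.one_lt.ne' (Nat.dvd_one.mp h3)

theorem h70_rep_injective (p : ℕ) [Fact p.Prime] :
    Function.Injective (fun x : Option (Fin p) =>
      (QuotientGroup.mk (h70_rep p x) :
        𝒮ℒ ⧸ (((Gamma0 p : Subgroup SL(2, ℤ)) : Subgroup (GL (Fin 2) ℝ))).subgroupOf 𝒮ℒ)) := by
  have hp : p.Prime := Fact.out
  intro x y hxy
  simp only [QuotientGroup.eq, Subgroup.mem_subgroupOf, Subgroup.coe_mul, InvMemClass.coe_inv]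
    at hxy
  rcases x with _ | i <;> rcases y with _ | j
  · rfl
  · exfalso
    rw [h70_rep_none, h70_rep_some, inv_one, one_mul] at hxy
    have h1 := inv_mem hxy
    rw [inv_inv, h70_mapGL_mem_iff] at h1
    exact h70_ST_not_mem p _ h1
  · exfalso
    rw [h70_rep_none, h70_rep_some, inv_inv, mul_one, h70_mapGL_mem_iff] at hxy
    exact h70_ST_not_mem p _ hxy
  · rw [h70_rep_some, h70_rep_some, inv_inv, ← map_inv, ← map_mul, h70_mapGL_mem_iff, Gamma0_mem,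
      h70_ST_mul_inv] at hxy
    have h2 : ((p : ℕ) : ℤ) ∣ ((j : ℕ) : ℤ) - ((i : ℕ) : ℤ) :=
      (ZMod.intCast_zmod_eq_zero_iff_dvd _ _).mp hxy
    have h3 : ((i : ℕ) : ℤ) ≡ ((j : ℕ) : ℤ) [ZMOD (p : ℤ)] := (Int.modEq_iff_dvd).mpr h2
    have h4 : (i : ℕ) ≡ (j : ℕ) [MOD p] := Int.natCast_modEq_iff.mp h3
    have h5 : (i : ℕ) = (j : ℕ) := by
      rw [Nat.ModEq, Nat.mod_eq_of_lt i.2, Nat.mod_eq_of_lt j.2] at h4
      exact h4
    rw [Fin.ext h5]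

theorem h70_rep_surjective (p : ℕ) [Fact p.Prime] :
    Function.Surjective (fun x : Option (Fin p) =>
      (QuotientGroup.mk (h70_rep p x) :
        𝒮ℒ ⧸ (((Gamma0 p : Subgroup SL(2, ℤ)) : Subgroup (GL (Fin 2) ℝ))).subgroupOf 𝒮ℒ)) := by
  have hp : p.Prime := Fact.out
  intro q
  obtain ⟨⟨h, g, rfl⟩, rfl⟩ := QuotientGroup.mk_surjective q
  by_cases hc : ((g 1 0 : ℤ) : ZMod p) = 0
  · refine ⟨none, ?_⟩
    simp only [QuotientGroup.eq, Subgroup.mem_subgroupOf, Subgroup.coe_mul, InvMemClass.coe_inv]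
    rw [h70_rep_none, inv_one, one_mul]
    exact (h70_mapGL_mem_iff p g).mpr (Gamma0_mem.mpr hc)
  · -- choose `j` with `g 0 0 + j * g 1 0 ≡ 0`
    let j0 : ZMod p := -((g 0 0 : ℤ) : ZMod p) * (((g 1 0 : ℤ) : ZMod p))⁻¹
    have hj0 : ((g 0 0 : ℤ) : ZMod p) + j0 * ((g 1 0 : ℤ) : ZMod p) = 0 := by
      simp only [j0]
      rw [mul_assoc, inv_mul_cancel₀ hc]
      ring
    have hlt : j0.val < p := ZMod.val_lt j0
    refine ⟨some ⟨j0.val, hlt⟩, ?_⟩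
    simp only [QuotientGroup.eq, Subgroup.mem_subgroupOf, Subgroup.coe_mul, InvMemClass.coe_inv]
    rw [h70_rep_some, inv_inv, ← map_mul, h70_mapGL_mem_iff, Gamma0_mem, h70_ST_mul]
    push_cast
    rw [ZMod.natCast_val, ZMod.cast_id', id]
    exact hj0

/-- The cosets of `Γ₀(p)` in `SL(2, ℤ)` are represented by `1` and the `(S T^j)⁻¹`, `j < p`. -/
noncomputable def h70_cosetEquiv (p : ℕ) [Fact p.Prime] :
    Option (Fin p) ≃
      𝒮ℒ ⧸ (((Gamma0 p : Subgroup SL(2, ℤ)) : Subgroup (GL (Fin 2) ℝ))).subgroupOf 𝒮ℒ :=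
  Equiv.ofBijective _ ⟨h70_rep_injective p, h70_rep_surjective p⟩

theorem h70_cosetEquiv_apply (p : ℕ) [Fact p.Prime] (x : Option (Fin p)) :
    h70_cosetEquiv p x = QuotientGroup.mk (h70_rep p x) := rfl

/-! ### The trace to level one -/

/-- Function-level form of `h70_slash_ST_eq`. -/
theorem h70_slash_ST_fun (p : ℕ) [NeZero p] (k : ℤ) (f : ℍ → ℂ) (j : ℕ) :
    (f ∣[k] h70_ST (j : ℤ)) =
      ((p : ℂ) ^ (1 - k)) • (((p : ℂ) • (f ∣[k] h70_W p)) ∣[k] heckeMatrix p j) := by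
  have hp : (p : ℂ) ≠ 0 := by exact_mod_cast NeZero.ne p
  funext τ
  rw [h70_ST_slash_apply, Pi.smul_apply, slash_heckeMatrix_apply k (NeZero.ne p), Pi.smul_apply,
    h70_slash_W_apply, h70_ST_smul_eq p j τ, coe_heckeMatrix_smul (NeZero.ne p), smul_eq_mul,
    smul_eq_mul]
  have h1 : (((τ : ℂ) + (j : ℂ)) / (p : ℂ)) ^ (-k) = ((τ : ℂ) + (j : ℂ)) ^ (-k) * (p : ℂ) ^ k := by
    rw [div_zpow, zpow_neg (p : ℂ), div_inv_eq_mul]
  have h2 : (p : ℂ) ^ (1 - k) * ((p : ℂ)⁻¹ * (p : ℂ) ^ k) = 1 := by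
    rw [← zpow_neg_one, ← zpow_add₀ hp, ← zpow_add₀ hp]
    have : (1 - k + (-1 + k)) = 0 := by ring
    rw [this, zpow_zero]
  have h3 : (p : ℂ) * (p : ℂ)⁻¹ = 1 := mul_inv_cancel₀ hp
  rw [h1]
  push_cast
  linear_combination (-(f (h70_W p • heckeMatrix p j • τ)) * ((τ : ℂ) + (j : ℂ)) ^ (-k)) * h2
    - ((p : ℂ) ^ (1 - k) * (p : ℂ)⁻¹ * (((τ : ℂ) + (j : ℂ)) ^ (-k) * (p : ℂ) ^ k) *
        f (h70_W p • heckeMatrix p j • τ)) * h3

/-- The Mathlib trace from `Γ₀(p)` to level one, evaluated with the explicit cosets. -/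
theorem h70_trace_fun {p : ℕ} [Fact p.Prime] {k : ℤ} {F' : Type*} [FunLike F' ℍ ℂ]
    [ModularFormClass F' ((Gamma0 p : Subgroup SL(2, ℤ)) : Subgroup (GL (Fin 2) ℝ)) k]
    (f : F') (τ : ℍ) :
    ModularForm.trace 𝒮ℒ f τ =
      f τ + (p : ℂ) ^ (1 - k) * heckeU k p ((p : ℂ) • (⇑f ∣[k] h70_W p)) τ := by
  classical
  let _ : Fintype (𝒮ℒ ⧸ (((Gamma0 p : Subgroup SL(2, ℤ)) : Subgroup (GL (Fin 2) ℝ))).subgroupOf 𝒮ℒ) :=
    Fintype.ofEquiv _ (h70_cosetEquiv p)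
  have h0 : ModularForm.trace 𝒮ℒ f τ =
      ∑ q : 𝒮ℒ ⧸ (((Gamma0 p : Subgroup SL(2, ℤ)) : Subgroup (GL (Fin 2) ℝ))).subgroupOf 𝒮ℒ,
        SlashInvariantForm.quotientFunc f q τ := by
    rw [ModularForm.coe_trace]
    simp only [Finset.sum_apply]
    convert rfl
  rw [h0, ← Equiv.sum_comp (h70_cosetEquiv p), Fintype.sum_option]
  congr 1
  · rw [h70_cosetEquiv_apply]
    show (⇑f ∣[k] ((h70_rep p none : 𝒮ℒ) : GL (Fin 2) ℝ)⁻¹) τ = f τ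
    rw [h70_rep_none, inv_one, SlashAction.slash_one]
  · rw [heckeU, Finset.sum_apply, Finset.mul_sum,
      ← Fin.sum_univ_eq_sum_range (fun j => (p : ℂ) ^ (1 - k) *
        (((p : ℂ) • (⇑f ∣[k] h70_W p)) ∣[k] heckeMatrix p j) τ) p]
    refine Finset.sum_congr rfl fun j _ => ?_
    rw [h70_cosetEquiv_apply]
    show (⇑f ∣[k] ((h70_rep p (some j) : 𝒮ℒ) : GL (Fin 2) ℝ)⁻¹) τ = _
    rw [h70_rep_some, inv_inv]
    have h1 := congr_fun (h70_slash_ST_fun p k ⇑f (j : ℕ)) τ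
    rw [Pi.smul_apply, smul_eq_mul] at h1
    exact h1

theorem h70_hΓ (p : ℕ) :
    (1 : ℝ) ∈ (((Gamma0 p : Subgroup SL(2, ℤ)) : Subgroup (GL (Fin 2) ℝ))).strictPeriods :=
  CongruenceSubgroup.one_mem_strictPeriods_Gamma0 p

/-- **Trace formula.** For `F ∈ M_k(Γ₀(p))` there is a level one form `T = Tr(F)` with
`a_n(T) = a_n(F) + p^(1-k) a_{np}(F#)`. -/
theorem h70_trace {p : ℕ} [Fact p.Prime] {k : ℤ}
    (F : ModularForm ((Gamma0 p : Subgroup SL(2, ℤ)) : Subgroup (GL (Fin 2) ℝ)) k) :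
    ∃ T : ModularForm 𝒮ℒ k, ∀ n : ℕ, ModularFormClass.qCoeff T n =
      ModularFormClass.qCoeff F n +
        (p : ℂ) ^ (1 - k) * ModularFormClass.qCoeff (h70_sharp F) (n * p) := by
  have hp : p.Prime := Fact.out
  refine ⟨ModularForm.trace 𝒮ℒ F, fun n => ?_⟩
  let U : ModularForm ((Gamma0 p : Subgroup SL(2, ℤ)) : Subgroup (GL (Fin 2) ℝ)) k :=
    ModularForm.heckeULin k (dvd_refl p) (h70_sharp F)
  have hfun : (⇑(ModularForm.trace 𝒮ℒ F) : ℍ → ℂ) = ⇑F + ⇑(((p : ℂ) ^ (1 - k)) • U) := by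
    funext τ
    rw [h70_trace_fun F τ]
    rfl
  have hU : ∀ m : ℕ, ModularFormClass.qCoeff U m =
      ModularFormClass.qCoeff (h70_sharp F) (m * p) := by
    intro m
    have := ModularFormClass.qCoeff_heckeU (h70_sharp F) (h70_hΓ p) hp.ne_zero m
    rw [ModularForm.coeffHeckeU_apply] at this
    exact this
  have hsm : (⇑(((p : ℂ) ^ (1 - k)) • U) : ℍ → ℂ) = ((p : ℂ) ^ (1 - k)) • ⇑U := rfl
  simp only [ModularFormClass.qCoeff] at hU ⊢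
  rw [hfun, ModularForm.qExpansion_add one_pos (h70_hΓ p) F (((p : ℂ) ^ (1 - k)) • U), hsm,
    ModularForm.qExpansion_smul one_pos (h70_hΓ p) ((p : ℂ) ^ (1 - k)) U, map_add,
    PowerSeries.coeff_smul, hU n, smul_eq_mul]

/-- **Trace formula for cusp forms.** -/
theorem h70_trace_cusp {p : ℕ} [Fact p.Prime] {k : ℤ}
    (F : CuspForm ((Gamma0 p : Subgroup SL(2, ℤ)) : Subgroup (GL (Fin 2) ℝ)) k) :
    ∃ T : CuspForm 𝒮ℒ k, ∀ n : ℕ, ModularFormClass.qCoeff T n =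
      ModularFormClass.qCoeff F n +
        (p : ℂ) ^ (1 - k) * ModularFormClass.qCoeff (h70_sharpCusp F) (n * p) := by
  have hp : p.Prime := Fact.out
  refine ⟨CuspForm.trace 𝒮ℒ F, fun n => ?_⟩
  let U : CuspForm ((Gamma0 p : Subgroup SL(2, ℤ)) : Subgroup (GL (Fin 2) ℝ)) k :=
    CuspForm.heckeULin k (dvd_refl p) (h70_sharpCusp F)
  have hfun : (⇑(CuspForm.trace 𝒮ℒ F) : ℍ → ℂ) = ⇑F + ⇑(((p : ℂ) ^ (1 - k)) • U) := by
    funext τ
    have h1 : (CuspForm.trace 𝒮ℒ F) τ = (ModularForm.trace 𝒮ℒ F) τ := rfl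
    rw [h1, h70_trace_fun F τ]
    rfl
  have hU : ∀ m : ℕ, ModularFormClass.qCoeff U m =
      ModularFormClass.qCoeff (h70_sharpCusp F) (m * p) := by
    intro m
    have := ModularFormClass.qCoeff_heckeU (h70_sharpCusp F) (h70_hΓ p) hp.ne_zero m
    rw [ModularForm.coeffHeckeU_apply] at this
    exact this
  have hsm : (⇑(((p : ℂ) ^ (1 - k)) • U) : ℍ → ℂ) = ((p : ℂ) ^ (1 - k)) • ⇑U := rfl
  simp only [ModularFormClass.qCoeff] at hU ⊢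
  rw [hfun, ModularForm.qExpansion_add one_pos (h70_hΓ p) F (((p : ℂ) ^ (1 - k)) • U), hsm,
    ModularForm.qExpansion_smul one_pos (h70_hΓ p) ((p : ℂ) ^ (1 - k)) U, map_add,
    PowerSeries.coeff_smul, hU n, smul_eq_mul]

/-! ### Weight two: `G# = -p U_p G` -/

theorem h70_qc_smul {p : ℕ} {k : ℤ} (c : ℂ)
    (F : ModularForm ((Gamma0 p : Subgroup SL(2, ℤ)) : Subgroup (GL (Fin 2) ℝ)) k) (n : ℕ) :
    ModularFormClass.qCoeff ⇑(c • F) n = c * ModularFormClass.qCoeff ⇑F n := by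
  have hsm : (⇑(c • F) : ℍ → ℂ) = c • ⇑F := rfl
  simp only [ModularFormClass.qCoeff]
  rw [hsm, ModularForm.qExpansion_smul one_pos (h70_hΓ p) c F, PowerSeries.coeff_smul, smul_eq_mul]

theorem h70_qc_add {p : ℕ} {k : ℤ}
    (F G : ModularForm ((Gamma0 p : Subgroup SL(2, ℤ)) : Subgroup (GL (Fin 2) ℝ)) k) (n : ℕ) :
    ModularFormClass.qCoeff ⇑(F + G) n =
      ModularFormClass.qCoeff ⇑F n + ModularFormClass.qCoeff ⇑G n := by
  have hsm : (⇑(F + G) : ℍ → ℂ) = ⇑F + ⇑G := rfl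
  simp only [ModularFormClass.qCoeff]
  rw [hsm, ModularForm.qExpansion_add one_pos (h70_hΓ p) F G, map_add]

theorem h70_levelOne_two_qc (T : ModularForm 𝒮ℒ 2) (n : ℕ) : ModularFormClass.qCoeff T n = 0 := by
  have h0 : T = 0 := (rank_zero_iff_forall_zero.mp ModularForm.levelOne_weight_two_rank_zero) T
  rw [h0]
  simp only [ModularFormClass.qCoeff]
  have : (⇑(0 : ModularForm 𝒮ℒ 2) : ℍ → ℂ) = 0 := rfl
  rw [this, UpperHalfPlane.qExpansion_zero, map_zero]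

/-- In weight two, `a_n(G#) = -p a_{np}(G)`: the Fricke transform is `-p U_p`. -/
theorem h70_sharp_qc_two {p : ℕ} [Fact p.Prime]
    (G : ModularForm ((Gamma0 p : Subgroup SL(2, ℤ)) : Subgroup (GL (Fin 2) ℝ)) 2) (n : ℕ) :
    ModularFormClass.qCoeff (h70_sharp G) n = -(p : ℂ) * ModularFormClass.qCoeff G (n * p) := by
  have hp : (p : ℂ) ≠ 0 := by exact_mod_cast (Fact.out : p.Prime).ne_zero
  obtain ⟨T, hT⟩ := h70_trace (h70_sharp G)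
  have h1 := hT n
  rw [h70_levelOne_two_qc, h70_sharp_sharp (by decide : Even (2 : ℤ)) G, h70_qc_smul] at h1
  have h2 : (p : ℂ) ^ (1 - 2 : ℤ) * ((p : ℂ) ^ (2 : ℤ) * ModularFormClass.qCoeff G (n * p)) =
      (p : ℂ) * ModularFormClass.qCoeff G (n * p) := by
    rw [← mul_assoc, ← zpow_add₀ hp]
    norm_num
  rw [h2] at h1
  linear_combination -h1

/-- In weight two, `a_n(G) = -p⁻¹ a_{np}(G#)`. -/
theorem h70_qc_two_sharp {p : ℕ} [Fact p.Prime]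
    (G : ModularForm ((Gamma0 p : Subgroup SL(2, ℤ)) : Subgroup (GL (Fin 2) ℝ)) 2) (n : ℕ) :
    ModularFormClass.qCoeff G n = -(p : ℂ)⁻¹ * ModularFormClass.qCoeff (h70_sharp G) (n * p) := by
  have hp : (p : ℂ) ≠ 0 := by exact_mod_cast (Fact.out : p.Prime).ne_zero
  obtain ⟨T, hT⟩ := h70_trace G
  have h1 := hT n
  rw [h70_levelOne_two_qc] at h1
  have h2 : (p : ℂ) ^ (1 - 2 : ℤ) = (p : ℂ)⁻¹ := by
    norm_num
  rw [h2] at h1
  linear_combination -h1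

/-! ### q-coefficient forms and the norm -/

theorem h70_qc_mul {p : ℕ} {k₁ k₂ : ℤ}
    (F : ModularForm ((Gamma0 p : Subgroup SL(2, ℤ)) : Subgroup (GL (Fin 2) ℝ)) k₁)
    (G : ModularForm ((Gamma0 p : Subgroup SL(2, ℤ)) : Subgroup (GL (Fin 2) ℝ)) k₂) (n : ℕ) :
    ModularFormClass.qCoeff ⇑(F.mul G) n =
      ∑ ij ∈ Finset.HasAntidiagonal.antidiagonal n,
        ModularFormClass.qCoeff ⇑F ij.1 * ModularFormClass.qCoeff ⇑G ij.2 := by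
  simp only [ModularFormClass.qCoeff]
  rw [ModularForm.qExpansion_mul one_pos (h70_hΓ p) F G, PowerSeries.coeff_mul]

/-- `(V_p A)# = A` on q-coefficients (`V_p A` = S23 `h97_levelRaise p A`). -/
theorem h70_sharp_levelRaise_qc {p : ℕ} [NeZero p] {k : ℤ} (A : ModularForm 𝒮ℒ k) (n : ℕ) :
    ModularFormClass.qCoeff ⇑(h70_sharp (Fermat.Agent.S23.h97_levelRaise p A)) n =
      ModularFormClass.qCoeff ⇑A n := by
  have h : (⇑(h70_sharp (Fermat.Agent.S23.h97_levelRaise p A)) : ℍ → ℂ) = ⇑A := by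
    funext z
    exact h70_sharp_levelRaise A _ (fun z => rfl) z
  rw [h]

/-- Restriction of a level one form to `Γ₀(p)`. -/
noncomputable def h70_restrict (p : ℕ) {k : ℤ} (A : ModularForm 𝒮ℒ k) :
    ModularForm ((Gamma0 p : Subgroup SL(2, ℤ)) : Subgroup (GL (Fin 2) ℝ)) k where
  toFun := A
  slash_action_eq' γ hγ := A.slash_action_eq' γ (Subgroup.map_le_range _ _ hγ)
  holo' := A.holo'
  bdd_at_cusps' hc := A.bdd_at_cusps' (hc.mono (Subgroup.map_le_range _ _))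

theorem h70_restrict_coe (p : ℕ) {k : ℤ} (A : ModularForm 𝒮ℒ k) :
    (⇑(h70_restrict p A) : ℍ → ℂ) = ⇑A := rfl

/-- `A# = p^k V_p A` on q-coefficients (`A` restricted to `Γ₀(p)`). -/
theorem h70_sharp_restrict_qc {p : ℕ} [NeZero p] {k : ℤ} (A : ModularForm 𝒮ℒ k) (n : ℕ) :
    ModularFormClass.qCoeff ⇑(h70_sharp (h70_restrict p A)) n =
      (p : ℂ) ^ k * (if p ∣ n then ModularFormClass.qCoeff ⇑A (n / p) else 0) := by
  have h : (⇑(h70_sharp (h70_restrict p A)) : ℍ → ℂ) =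
      ⇑(((p : ℂ) ^ k) • Fermat.Agent.S23.h97_levelRaise p A) := by
    funext z
    exact h70_sharp_levelOne A _ (fun z => rfl) z
  rw [h, h70_qc_smul]
  simp only [ModularFormClass.qCoeff]
  rw [Fermat.Agent.S23.h97_qExpansion_levelRaise]

theorem h70_card_coset (p : ℕ) [Fact p.Prime] :
    Nat.card (𝒮ℒ ⧸ (((Gamma0 p : Subgroup SL(2, ℤ)) : Subgroup (GL (Fin 2) ℝ))).subgroupOf 𝒮ℒ)
      = p + 1 := by
  rw [← Nat.card_congr (h70_cosetEquiv p)]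
  simp

/-- The Mathlib norm from `Γ₀(p)` to level one, evaluated with the explicit cosets. -/
theorem h70_norm_fun {p : ℕ} [Fact p.Prime] {k : ℤ} {F' : Type*} [FunLike F' ℍ ℂ]
    [ModularFormClass F' ((Gamma0 p : Subgroup SL(2, ℤ)) : Subgroup (GL (Fin 2) ℝ)) k]
    (f : F') (τ : ℍ) :
    ModularForm.norm 𝒮ℒ f τ =
      f τ * ∏ j ∈ Finset.range p, (⇑f ∣[k] h70_ST (j : ℤ)) τ := by
  classical
  let _ : Fintype (𝒮ℒ ⧸ (((Gamma0 p : Subgroup SL(2, ℤ)) : Subgroup (GL (Fin 2) ℝ))).subgroupOf 𝒮ℒ) :=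
    Fintype.ofEquiv _ (h70_cosetEquiv p)
  have h0 : ModularForm.norm 𝒮ℒ f τ =
      ∏ q : 𝒮ℒ ⧸ (((Gamma0 p : Subgroup SL(2, ℤ)) : Subgroup (GL (Fin 2) ℝ))).subgroupOf 𝒮ℒ,
        SlashInvariantForm.quotientFunc f q τ := by
    rw [ModularForm.coe_norm]
    simp only [Finset.prod_apply]
    convert rfl
  rw [h0, ← Equiv.prod_comp (h70_cosetEquiv p), Fintype.prod_option]
  congr 1
  · rw [h70_cosetEquiv_apply]
    show (⇑f ∣[k] ((h70_rep p none : 𝒮ℒ) : GL (Fin 2) ℝ)⁻¹) τ = f τ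
    rw [h70_rep_none, inv_one, SlashAction.slash_one]
  · rw [← Fin.prod_univ_eq_prod_range (fun j => (⇑f ∣[k] h70_ST (j : ℤ)) τ) p]
    refine Finset.prod_congr rfl fun j _ => ?_
    rw [h70_cosetEquiv_apply]
    show (⇑f ∣[k] ((h70_rep p (some j) : 𝒮ℒ) : GL (Fin 2) ℝ)⁻¹) τ = _
    rw [h70_rep_some, inv_inv]
    rfl

/-- The norm of `F ∈ M_k(Γ₀(p))` in terms of `F#`:
`N(F)(τ) = F(τ) ∏_{j<p} p^(-k) F#((τ + j)/p)`. -/
theorem h70_norm_apply {p : ℕ} [Fact p.Prime] {k : ℤ}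
    (F : ModularForm ((Gamma0 p : Subgroup SL(2, ℤ)) : Subgroup (GL (Fin 2) ℝ)) k) (τ : ℍ) :
    ModularForm.norm 𝒮ℒ F τ =
      F τ * ∏ j ∈ Finset.range p, ((p : ℂ) ^ (-k) * h70_sharp F (heckeMatrix p j • τ)) := by
  rw [h70_norm_fun]
  congr 1
  exact Finset.prod_congr rfl fun j _ => h70_slash_ST_apply F j τ

end Fermat.Agent.S16
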