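import Mathlib
import Fermat.Agent.S16.h60_UB
import Fermat.Agent.S16.h6_Sturm
import Fermat.Agent.S16.h70_Fricke
import Fermat.Prelude.Def_FLTPrelim_Modularity
import Fermat.Prelude.Def_ModularForm_HeckeOperator
import Fermat.Prelude.Def_ModularForm_HeckeOperatorForms
import Fermat.Prelude.Thm_ModularFormClass_qCoeff_heckeT

set_option autoImplicit false

/-!
# S16, upper bound: the two trace cases (helper24)

For a prime `p` and `G ∈ M₂(Γ₀(p))` with q-expansion in `1 + M ℤ[[q]]` (`h60_One p M G`):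

* (B1) `h24_one_dvd_succ`: if `gcd(M, p) = 1` then `M ∣ p + 1`;
* (B2) `h24_not_one_self`: `M = p` is impossible for `p ≥ 5`.

Both follow from the trace to level one of `G · V_p A` for a level one form `A` of weight `k`
(helper70's Fricke/trace toolkit):
`a_n(Tr) = ∑_{i+j=n} g_i [p ∣ j] a_{j/p} - p^(-k) ∑_{i+j=np} g_{ip} a_j`.

* `A = Δ`: the trace has weight 14 and no constant term, hence vanishes; the coefficients of
  `q¹` and `q^p` give `τ(p) ≡ 0` and `τ(p²) ≡ p¹²` mod `M`; `τ(p²) = τ(p)² - p¹¹` gives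
  `M ∣ p¹¹ (p + 1)`.
* `A = E₄`: the trace is a multiple of `E₆`; modulo `p` one gets
  `240 σ₃(pn) ≡ -504 σ₅(n)` for all `n ≥ 1`; `n = 1, 2` give `p ∣ gcd(744, 18792) = 24`.
-/

namespace Fermat.Agent.S16

open UpperHalfPlane ModularForm ModularFormClass EisensteinSeries CongruenceSubgroup Finset
open scoped MatrixGroups

/-! ### Arithmetic cores -/

/-- Extracting the `i = 0` term:
`∑_{i+j=m} ([ip = 0] + M c(ip)) a(j) = a(m) + M ∑ c(ip) a(j)`. -/
theorem h24_sum_one_add (p m : ℕ) (hp : 0 < p) (M : ℤ) (c a : ℕ → ℤ) :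
    ∑ ij ∈ antidiagonal m, ((if ij.1 * p = 0 then (1 : ℤ) else 0) + M * c (ij.1 * p)) * a ij.2 =
      a m + M * ∑ ij ∈ antidiagonal m, c (ij.1 * p) * a ij.2 := by
  have h1 : ∑ ij ∈ antidiagonal m, (if ij.1 * p = 0 then (1 : ℤ) else 0) * a ij.2 = a m := by
    rw [Finset.sum_eq_single (0, m)]
    · simp
    · rintro ⟨i, j⟩ hij hne
      rw [Finset.HasAntidiagonal.mem_antidiagonal] at hij
      have hi : i ≠ 0 := by
        rintro rfl
        apply hne
        simp only [zero_add] at hij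
        rw [hij]
      have : i * p ≠ 0 := Nat.mul_ne_zero hi hp.ne'
      simp [this]
    · intro h
      exact absurd (by simp) h
  rw [Finset.mul_sum, ← h1, ← Finset.sum_add_distrib]
  refine Finset.sum_congr rfl fun ij _ => ?_
  ring

/-- **B1, arithmetic core.** -/
theorem h24_B1_core (p M : ℕ) (hp : p.Prime) (hM : Nat.Coprime M p) (c τ : ℕ → ℤ)
    (hτ0 : τ 0 = 0) (hτ1 : τ 1 = 1) (hτpp : τ (p * p) = τ p ^ 2 - (p : ℤ) ^ 11)
    (H : ∀ n : ℕ, (p : ℤ) ^ 12 * ∑ ij ∈ antidiagonal n,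
        ((if ij.1 = 0 then (1 : ℤ) else 0) + (M : ℤ) * c ij.1) *
          (if p ∣ ij.2 then τ (ij.2 / p) else 0) =
      ∑ ij ∈ antidiagonal (n * p),
        ((if ij.1 * p = 0 then (1 : ℤ) else 0) + (M : ℤ) * c (ij.1 * p)) * τ ij.2) :
    M ∣ p + 1 := by
  have hp0 : 0 < p := hp.pos
  -- `n = 1`
  have h1 := H 1
  rw [h24_sum_one_add p (1 * p) hp0 M c τ, one_mul] at h1
  have hL1 : ∑ ij ∈ antidiagonal 1,
      ((if ij.1 = 0 then (1 : ℤ) else 0) + (M : ℤ) * c ij.1) *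
        (if p ∣ ij.2 then τ (ij.2 / p) else 0) = 0 := by
    refine Finset.sum_eq_zero ?_
    rintro ⟨i, j⟩ hij
    rw [Finset.HasAntidiagonal.mem_antidiagonal] at hij
    have hj : j = 0 ∨ j = 1 := by omega
    rcases hj with rfl | rfl
    · simp [hτ0]
    · have : ¬ p ∣ 1 := by
        rw [Nat.dvd_one]; exact hp.one_lt.ne'
      simp [this]
  rw [hL1, mul_zero] at h1
  have hMτp : (M : ℤ) ∣ τ p := by
    refine ⟨-∑ ij ∈ antidiagonal p, c (ij.1 * p) * τ ij.2, ?_⟩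
    linarith
  -- `n = p`
  have h2 := H p
  rw [h24_sum_one_add p (p * p) hp0 M c τ] at h2
  have hL2 : ∑ ij ∈ antidiagonal p,
      ((if ij.1 = 0 then (1 : ℤ) else 0) + (M : ℤ) * c ij.1) *
        (if p ∣ ij.2 then τ (ij.2 / p) else 0) = 1 + (M : ℤ) * c 0 := by
    rw [Finset.sum_eq_single (0, p)]
    · simp [Nat.div_self hp0, hτ1]
    · rintro ⟨i, j⟩ hij hne
      rw [Finset.HasAntidiagonal.mem_antidiagonal] at hij
      by_cases hj : p ∣ j
      · have hj0 : j = 0 := by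
          by_contra hj0
          have hle : p ≤ j := Nat.le_of_dvd (Nat.pos_of_ne_zero hj0) hj
          have : i = 0 ∧ j = p := by omega
          exact hne (by rw [this.1, this.2])
        subst hj0
        simp [hτ0]
      · simp [hj]
    · intro h
      exact absurd (by simp) h
  rw [hL2] at h2
  have hMdiff : (M : ℤ) ∣ (p : ℤ) ^ 12 - τ (p * p) := by
    refine ⟨∑ ij ∈ antidiagonal (p * p), c (ij.1 * p) * τ ij.2 - (p : ℤ) ^ 12 * c 0, ?_⟩
    linarith
  have hMfinal : (M : ℤ) ∣ (p : ℤ) ^ 11 * ((p : ℤ) + 1) := by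
    have h3 : (p : ℤ) ^ 11 * ((p : ℤ) + 1) = ((p : ℤ) ^ 12 - τ (p * p)) + τ p * τ p := by
      rw [hτpp]; ring
    rw [h3]
    exact dvd_add hMdiff (Dvd.dvd.mul_right hMτp _)
  have hMnat : M ∣ p ^ 11 * (p + 1) := by
    exact_mod_cast hMfinal
  exact (Nat.Coprime.pow_right 11 hM).dvd_of_dvd_mul_left hMnat

theorem h24_sigma_prime (k p : ℕ) (hp : p.Prime) :
    ArithmeticFunction.sigma k p = p ^ k + 1 := by
  rw [ArithmeticFunction.sigma_apply, hp.sum_divisors, one_pow]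

/-- **B2, arithmetic core.** -/
theorem h24_B2_core (p : ℕ) (hp : p.Prime) (hp5 : 5 ≤ p) (c e4 e6 : ℕ → ℤ)
    (he4 : ∀ n, 0 < n → e4 n = 240 * (ArithmeticFunction.sigma 3 n : ℤ))
    (he6 : ∀ n, 0 < n → e6 n = -504 * (ArithmeticFunction.sigma 5 n : ℤ))
    (H : ∀ n : ℕ, (p : ℤ) ^ 4 * ∑ ij ∈ antidiagonal n,
        ((if ij.1 = 0 then (1 : ℤ) else 0) + (p : ℤ) * c ij.1) *
          (if p ∣ ij.2 then e4 (ij.2 / p) else 0) -
      ∑ ij ∈ antidiagonal (n * p),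
        ((if ij.1 * p = 0 then (1 : ℤ) else 0) + (p : ℤ) * c (ij.1 * p)) * e4 ij.2 =
      (1 + (p : ℤ) * c 0) * ((p : ℤ) ^ 4 - 1) * e6 n) : False := by
  have key : ∀ n : ℕ, (p : ℤ) ∣ e4 (n * p) - e6 n := by
    intro n
    have h := H n
    rw [h24_sum_one_add p (n * p) hp.pos p c e4] at h
    refine ⟨(p : ℤ) ^ 3 * ∑ ij ∈ antidiagonal n,
        ((if ij.1 = 0 then (1 : ℤ) else 0) + (p : ℤ) * c ij.1) *
          (if p ∣ ij.2 then e4 (ij.2 / p) else 0) -
        ∑ ij ∈ antidiagonal (n * p), c (ij.1 * p) * e4 ij.2 -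
        c 0 * ((p : ℤ) ^ 4 - 1) * e6 n - (p : ℤ) ^ 3 * e6 n, ?_⟩
    linear_combination (-1 : ℤ) * h
  have hs32 : ArithmeticFunction.sigma 3 2 = 9 := by
    rw [h24_sigma_prime 3 2 Nat.prime_two]; norm_num
  have hs52 : ArithmeticFunction.sigma 5 2 = 33 := by
    rw [h24_sigma_prime 5 2 Nat.prime_two]; norm_num
  have hs51 : ArithmeticFunction.sigma 5 1 = 1 := by
    simp [ArithmeticFunction.sigma_apply]
  have hcop : Nat.Coprime 2 p := (Nat.coprime_primes Nat.prime_two hp).mpr (by omega)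
  -- `n = 1`
  have h1 : (p : ℤ) ∣ 744 := by
    have h := key 1
    rw [one_mul, he4 p hp.pos, he6 1 one_pos, h24_sigma_prime 3 p hp, hs51] at h
    have h' : (744 : ℤ) = (240 * ((p ^ 3 + 1 : ℕ) : ℤ) - -504 * ((1 : ℕ) : ℤ)) -
        (p : ℤ) * (240 * (p : ℤ) ^ 2) := by
      push_cast; ring
    rw [h']
    exact dvd_sub h (dvd_mul_right _ _)
  -- `n = 2`
  have h2 : (p : ℤ) ∣ 18792 := by
    have h := key 2
    rw [he4 (2 * p) (Nat.mul_pos two_pos hp.pos), he6 2 two_pos,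
      ArithmeticFunction.isMultiplicative_sigma.map_mul_of_coprime hcop,
      h24_sigma_prime 3 p hp, hs32, hs52] at h
    have h' : (18792 : ℤ) = (240 * ((9 * (p ^ 3 + 1) : ℕ) : ℤ) - -504 * ((33 : ℕ) : ℤ)) -
        (p : ℤ) * (2160 * (p : ℤ) ^ 2) := by
      push_cast; ring
    rw [h']
    exact dvd_sub h (dvd_mul_right _ _)
  have h1' : p ∣ 744 := by exact_mod_cast h1
  have h2' : p ∣ 18792 := by exact_mod_cast h2
  have h24 : p ∣ 24 := by
    have := Nat.dvd_gcd h1' h2'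
    have hg : Nat.gcd 744 18792 = 24 := by decide
    rwa [hg] at this
  have hle : p ≤ 24 := Nat.le_of_dvd (by norm_num) h24
  interval_cases p <;> revert hp h24 <;> decide

/-! ### Level one -/

/-- `Γ₀(1)`, as a subgroup of `GL₂(ℝ)`, is `𝒮ℒ`. -/
theorem h24_gamma0_one :
    ((Gamma0 1 : Subgroup SL(2, ℤ)) : Subgroup (GL (Fin 2) ℝ)) = 𝒮ℒ := by
  have h : (Gamma0 1 : Subgroup SL(2, ℤ)) = ⊤ := by
    ext g
    simp [Gamma0_mem, Subsingleton.elim _ (0 : ZMod 1)]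
  rw [h]
  exact (MonoidHom.range_eq_map _).symm

/-- `T_p Δ` as a level-one cusp form of weight 12. -/
theorem h24_exists_heckeT_delta (p : ℕ) (hp : p.Prime) :
    ∃ f : CuspForm 𝒮ℒ 12, ⇑f = ModularForm.heckeT 12 p ⇑CuspForm.discriminant := by
  have hp1 : ¬ p ∣ 1 := by
    rw [Nat.dvd_one]; exact hp.one_lt.ne'
  have key : ∀ (Γ : Subgroup (GL (Fin 2) ℝ)) (_ : Γ = 𝒮ℒ) (g : CuspForm Γ 12),
      ∃ f : CuspForm 𝒮ℒ 12, ⇑f = ⇑g := by
    intro Γ hΓ g
    subst hΓ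
    exact ⟨g, rfl⟩
  have key' : ∀ (Γ : Subgroup (GL (Fin 2) ℝ)) (_ : Γ = 𝒮ℒ) (g : CuspForm 𝒮ℒ 12),
      ∃ f : CuspForm Γ 12, ⇑f = ⇑g := by
    intro Γ hΓ g
    subst hΓ
    exact ⟨g, rfl⟩
  obtain ⟨D1, hD1⟩ := key' _ h24_gamma0_one CuspForm.discriminant
  obtain ⟨f, hf⟩ := key _ h24_gamma0_one (CuspForm.heckeTLin (N := 1) 12 hp hp1 D1)
  refine ⟨f, ?_⟩
  rw [hf, ← hD1]
  rfl

/-- `Δ` is a `T_p`-eigenform: `τ(p²) = τ(p)² - p¹¹`. -/
theorem h24_tau_sq (p : ℕ) (hp : p.Prime) :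
    qCoeff ModularForm.discriminant (p * p) =
      qCoeff ModularForm.discriminant p ^ 2 - (p : ℂ) ^ 11 := by
  obtain ⟨f, hf⟩ := h24_exists_heckeT_delta p hp
  obtain ⟨c, hc⟩ := CuspForm.exists_smul_discriminant_of_weight_eq_twelve f
  have hq : ∀ n, qCoeff ⇑f n = c * qCoeff ModularForm.discriminant n := by
    intro n
    rw [← hc]
    have h1 : ⇑(c • CuspForm.discriminant) = c • ⇑CuspForm.discriminant := by
      ext z; simp
    rw [h1]
    unfold qCoeff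
    rw [ModularForm.qExpansion_smul one_pos one_mem_strictPeriods_SL c CuspForm.discriminant]
    simp [CuspForm.coe_discriminant]
  have hT : ∀ n, qCoeff ⇑f n =
      ModularForm.coeffHeckeT 12 p (qCoeff ModularForm.discriminant) n := by
    intro n
    rw [hf]
    exact ModularFormClass.qCoeff_heckeT CuspForm.discriminant one_mem_strictPeriods_SL
      hp.ne_zero n
  have h0 : qCoeff ModularForm.discriminant 0 = 0 := h6_delta_coeff_zero
  have h1 : qCoeff ModularForm.discriminant 1 = 1 := ModularForm.discriminant_qExpansion_coeff_one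
  have hp1 : ¬ p ∣ 1 := by
    rw [Nat.dvd_one]; exact hp.one_lt.ne'
  have e1 := (hT 1).symm.trans (hq 1)
  rw [ModularForm.coeffHeckeT_of_not_dvd 12 hp1, h1, mul_one, one_mul] at e1
  have e2 := (hT p).symm.trans (hq p)
  rw [ModularForm.coeffHeckeT_of_dvd 12 dvd_rfl, Nat.div_self hp.pos, h1, mul_one, ← e1] at e2
  have : (p : ℂ) ^ ((12 : ℤ) - 1) = (p : ℂ) ^ 11 := by
    norm_num
  rw [this] at e2
  rw [pow_two]
  linear_combination e2

/-- A level-one form of weight 14 with vanishing constant term is zero. -/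
theorem h24_w14 {w : ℤ} (hw : w = 14) (T : ModularForm 𝒮ℒ w) (h0 : qCoeff T 0 = 0) (n : ℕ) :
    qCoeff T n = 0 := by
  subst hw
  have hT : T = 0 := by
    suffices CuspForm.discriminantEquiv (toCuspForm T h0) = 0 by
      simpa [CuspForm.discriminantEquiv.map_eq_zero_iff, DFunLike.ext_iff]
    have h2 : ∀ (v : ℤ) (_ : v = 2) (g : ModularForm 𝒮ℒ v), g = 0 := by
      intro v hv g
      subst hv
      exact rank_zero_iff_forall_zero.mp levelOne_weight_two_rank_zero g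
    exact h2 _ (by norm_num) _
  rw [hT]
  unfold qCoeff
  rw [FunLike.coe_zero, qExpansion_zero]
  simp

/-- A level-one form of weight 6 is its constant term times `E₆`. -/
theorem h24_w6 {w : ℤ} (hw : w = 6) (T : ModularForm 𝒮ℒ w) (n : ℕ) :
    qCoeff T n = qCoeff T 0 * qCoeff E₆ n := by
  subst hw
  obtain ⟨c, hc⟩ : ∃ c : ℂ, c • E₆ = T :=
    (finrank_eq_one_iff_of_nonzero' E₆ (E_ne_zero _ ⟨3, rfl⟩)).mp
      (Module.rank_eq_one_iff_finrank_eq_one.mp levelOne_weight_six_rank_one) _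
  have hq : ∀ m, qCoeff T m = c * qCoeff E₆ m := by
    intro m
    rw [← hc]
    have h1 : ⇑(c • E₆) = c • ⇑E₆ := by
      ext z; simp
    rw [h1]
    unfold qCoeff
    rw [ModularForm.qExpansion_smul one_pos one_mem_strictPeriods_SL c E₆]
    simp
  have h0 : qCoeff E₆ 0 = 1 := E_qExpansion_coeff_zero _ ⟨3, rfl⟩
  rw [hq n, hq 0, h0, mul_one]

theorem h24_E4_coeff (n : ℕ) :
    qCoeff E₄ n = if n = 0 then 1 else 240 * (ArithmeticFunction.sigma 3 n : ℂ) := by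
  unfold qCoeff
  rw [h6_qExp_E4, map_add, h6_ofNat_mul_coeff, h6_S_coeff, PowerSeries.coeff_one]
  split_ifs <;> simp

theorem h24_E6_coeff (n : ℕ) :
    qCoeff E₆ n = if n = 0 then 1 else -504 * (ArithmeticFunction.sigma 5 n : ℂ) := by
  unfold qCoeff
  rw [h6_qExp_E6, map_sub, h6_ofNat_mul_coeff, h6_S_coeff, PowerSeries.coeff_one]
  split_ifs <;> simp

/-! ### The trace identity -/

/-- **Trace identity.** For `G ∈ M₂(Γ₀(p))` and a level one form `A` of weight `k`, the trace of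
`G · V_p A` is a level one form of weight `2 + k` with
`a_n = ∑_{i+j=n} g_i [p ∣ j] a_{j/p} - p^(-k) ∑_{i+j=np} g_{ip} a_j`. -/
theorem h24_TI (p : ℕ) [Fact p.Prime] (k : ℤ) (G : ModularForm (Gamma0 p) 2)
    (A : ModularForm 𝒮ℒ k) :
    ∃ T : ModularForm 𝒮ℒ (2 + k), ∀ n : ℕ, qCoeff T n =
      ∑ ij ∈ antidiagonal n, qCoeff G ij.1 * (if p ∣ ij.2 then qCoeff A (ij.2 / p) else 0)
      - (p : ℂ) ^ (-k) * ∑ ij ∈ antidiagonal (n * p), qCoeff G (ij.1 * p) * qCoeff A ij.2 := by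
  have hp : p.Prime := Fact.out
  have hpc : (p : ℂ) ≠ 0 := Nat.cast_ne_zero.mpr hp.ne_zero
  obtain ⟨T, hT⟩ := h70_trace (G.mul (Fermat.Agent.S23.h97_levelRaise p A))
  refine ⟨T, fun n => ?_⟩
  have h1 : ∀ j, qCoeff (Fermat.Agent.S23.h97_levelRaise p A) j =
      if p ∣ j then qCoeff A (j / p) else 0 :=
    fun j => Fermat.Agent.S23.h97_qExpansion_levelRaise p A j
  rw [hT n, h70_qc_mul, h70_sharp_mul, h70_qc_mul]
  simp only [h1, h70_sharp_qc_two, h70_sharp_levelRaise_qc]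
  have h2 : (p : ℂ) ^ (1 - (2 + k)) = (p : ℂ) ^ (-k) * (p : ℂ)⁻¹ := by
    rw [← zpow_neg_one, ← zpow_add₀ hpc]
    congr 1
    ring
  rw [h2, sub_eq_add_neg]
  congr 1
  rw [Finset.mul_sum, Finset.mul_sum, ← Finset.sum_neg_distrib]
  refine Finset.sum_congr rfl fun ij _ => ?_
  field_simp

/-- Passing from the complex trace identity to an identity of integers. -/
theorem h24_TI_cast (p M : ℕ) (hp : 0 < p) (k : ℕ) (gc ac t : ℕ → ℂ) (c a : ℕ → ℤ)
    (hg : ∀ n, gc n = (if n = 0 then 1 else 0) + (M : ℂ) * (c n : ℂ))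
    (ha : ∀ n, ac n = (a n : ℂ))
    (hT : ∀ n, t n = ∑ ij ∈ antidiagonal n, gc ij.1 * (if p ∣ ij.2 then ac (ij.2 / p) else 0)
       - ((p : ℂ) ^ k)⁻¹ * ∑ ij ∈ antidiagonal (n * p), gc (ij.1 * p) * ac ij.2) (n : ℕ) :
    (p : ℂ) ^ k * t n = (((p : ℤ) ^ k * ∑ ij ∈ antidiagonal n,
        ((if ij.1 = 0 then (1 : ℤ) else 0) + (M : ℤ) * c ij.1) *
          (if p ∣ ij.2 then a (ij.2 / p) else 0) -
      ∑ ij ∈ antidiagonal (n * p),
        ((if ij.1 * p = 0 then (1 : ℤ) else 0) + (M : ℤ) * c (ij.1 * p)) * a ij.2 : ℤ) : ℂ) := by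
  have hp0 : ((p : ℂ) ^ k) ≠ 0 := pow_ne_zero _ (Nat.cast_ne_zero.mpr hp.ne')
  rw [hT n, mul_sub, ← mul_assoc, mul_inv_cancel₀ hp0, one_mul]
  simp only [hg, ha]
  push_cast
  rfl

/-! ### The two trace cases -/

/-- **(B1)** If `G ∈ M₂(Γ₀(p))` has q-expansion in `1 + M ℤ[[q]]` and `gcd(M, p) = 1`, then
`M ∣ p + 1`. -/
theorem h24_one_dvd_succ (p : ℕ) [Fact p.Prime] (M : ℕ) (hM : Nat.Coprime M p)
    (G : ModularForm (Gamma0 p) 2) (hG : h60_One p M G) : M ∣ p + 1 := by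
  have hp : p.Prime := Fact.out
  choose c hc using hG
  choose τ hτ using h6_delta_int
  have hτ0 : τ 0 = 0 := by
    have h := h6_delta_coeff_zero
    rw [hτ 0] at h
    exact_mod_cast h
  have hτ1 : τ 1 = 1 := by
    have h := ModularForm.discriminant_qExpansion_coeff_one
    rw [hτ 1] at h
    exact_mod_cast h
  have hτpp : τ (p * p) = τ p ^ 2 - (p : ℤ) ^ 11 := by
    have h := h24_tau_sq p hp
    unfold qCoeff at h
    rw [hτ (p * p), hτ p] at h
    exact_mod_cast h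
  obtain ⟨T, hT⟩ := h24_TI p 12 G (CuspForm.toModularFormₗ CuspForm.discriminant)
  have hD : ∀ n, qCoeff (CuspForm.toModularFormₗ CuspForm.discriminant) n = (τ n : ℂ) :=
    fun n => hτ n
  have hT' : ∀ n, qCoeff T n = ∑ ij ∈ antidiagonal n, qCoeff G ij.1 *
      (if p ∣ ij.2 then qCoeff (CuspForm.toModularFormₗ CuspForm.discriminant) (ij.2 / p)
        else 0) - ((p : ℂ) ^ 12)⁻¹ * ∑ ij ∈ antidiagonal (n * p), qCoeff G (ij.1 * p) *
        qCoeff (CuspForm.toModularFormₗ CuspForm.discriminant) ij.2 := by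
    intro n
    rw [hT n]
    congr 2
  have hcast := h24_TI_cast p M hp.pos 12 (qCoeff G)
    (qCoeff (CuspForm.toModularFormₗ CuspForm.discriminant)) (fun n => qCoeff T n) c τ hc hD hT'
  have hT0 : qCoeff T 0 = 0 := by
    have h := hcast 0
    simp only [zero_mul, Finset.Nat.antidiagonal_zero, Finset.sum_singleton, Nat.zero_div,
      hτ0, dvd_zero, if_true, mul_zero, sub_zero, Int.cast_zero] at h
    have hp0 : ((p : ℂ) ^ 12) ≠ 0 := pow_ne_zero _ (Nat.cast_ne_zero.mpr hp.ne_zero)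
    exact (mul_eq_zero.mp h).resolve_left hp0
  have hTn := h24_w14 (by norm_num : (2 : ℤ) + 12 = 14) T hT0
  refine h24_B1_core p M hp hM c τ hτ0 hτ1 hτpp fun n => ?_
  have h := hcast n
  simp only [hTn n, mul_zero] at h
  have h' : (p : ℤ) ^ 12 * ∑ ij ∈ antidiagonal n,
        ((if ij.1 = 0 then (1 : ℤ) else 0) + (M : ℤ) * c ij.1) *
          (if p ∣ ij.2 then τ (ij.2 / p) else 0) -
      ∑ ij ∈ antidiagonal (n * p),
        ((if ij.1 * p = 0 then (1 : ℤ) else 0) + (M : ℤ) * c (ij.1 * p)) * τ ij.2 = 0 := by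
    exact_mod_cast h.symm
  linarith

/-- **(B2)** For a prime `p ≥ 5` no `G ∈ M₂(Γ₀(p))` has q-expansion in `1 + p ℤ[[q]]`. -/
theorem h24_not_one_self (p : ℕ) [Fact p.Prime] (hp5 : 5 ≤ p)
    (G : ModularForm (Gamma0 p) 2) : ¬ h60_One p p G := by
  intro hG
  have hp : p.Prime := Fact.out
  choose c hc using hG
  let e4 : ℕ → ℤ := fun n => if n = 0 then 1 else 240 * (ArithmeticFunction.sigma 3 n : ℤ)
  let e6 : ℕ → ℤ := fun n => if n = 0 then 1 else -504 * (ArithmeticFunction.sigma 5 n : ℤ)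
  have he4 : ∀ n, qCoeff E₄ n = (e4 n : ℂ) := by
    intro n
    rw [h24_E4_coeff]
    simp only [e4]
    split_ifs <;> push_cast <;> rfl
  have he6 : ∀ n, qCoeff E₆ n = (e6 n : ℂ) := by
    intro n
    rw [h24_E6_coeff]
    simp only [e6]
    split_ifs <;> push_cast <;> rfl
  obtain ⟨T, hT⟩ := h24_TI p 4 G E₄
  have hT' : ∀ n, qCoeff T n = ∑ ij ∈ antidiagonal n, qCoeff G ij.1 *
      (if p ∣ ij.2 then qCoeff E₄ (ij.2 / p) else 0) -
      ((p : ℂ) ^ 4)⁻¹ * ∑ ij ∈ antidiagonal (n * p), qCoeff G (ij.1 * p) * qCoeff E₄ ij.2 := by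
    intro n
    rw [hT n]
    congr 2
  have hcast := h24_TI_cast p p hp.pos 4 (qCoeff G) (qCoeff E₄) (fun n => qCoeff T n) c e4 hc
    he4 hT'
  have h6 := h24_w6 (by norm_num : (2 : ℤ) + 4 = 6) T
  have he40 : e4 0 = 1 := by simp [e4]
  refine h24_B2_core p hp hp5 c e4 e6 (fun n hn => by simp [e4, hn.ne'])
    (fun n hn => by simp [e6, hn.ne']) fun n => ?_
  have h0 := hcast 0
  simp only [zero_mul, Finset.Nat.antidiagonal_zero, Finset.sum_singleton, Nat.zero_div,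
    he40, dvd_zero, if_true, mul_one] at h0
  have hn := hcast n
  beta_reduce at hn h0
  rw [h6 n, ← mul_assoc, h0, he6 n] at hn
  have hn' : ((p : ℤ) ^ 4 * (1 + (p : ℤ) * c 0) - (1 + (p : ℤ) * c 0)) * e6 n =
      (p : ℤ) ^ 4 * ∑ ij ∈ antidiagonal n,
        ((if ij.1 = 0 then (1 : ℤ) else 0) + (p : ℤ) * c ij.1) *
          (if p ∣ ij.2 then e4 (ij.2 / p) else 0) -
      ∑ ij ∈ antidiagonal (n * p),
        ((if ij.1 * p = 0 then (1 : ℤ) else 0) + (p : ℤ) * c (ij.1 * p)) * e4 ij.2 := by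
    exact_mod_cast hn
  rw [← hn']
  ring

end Fermat.Agent.S16
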