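import Mathlib
import Fermat.Prelude.Def_ModularForm_HeckeOperator

/-!
# S16 (Eisenstein ideal index), UPPER bound: shared definitions

The blocks of the UPPER bound talk to each other through the objects defined here:

* `h79_ι` : integer power series as complex power series;
* `h79_V p`, `h79_U p` : the operators `q ↦ q^p` and `a_n ↦ a_{pn}` on power series;
* `h79_fr p`, `h79_sharp p k` : the Fricke point `-1/(pz)` and `F#(z) = z^(-k) F(-1/(pz))`;
* `h79_Pair p k a b` : `a`, `b` are the `q`-expansions of a form `F` of weight `k` on `Γ₀(p)` and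
  of its Fricke transform `F#`;
* `h79_S j`, `h79_E4s`, `h79_E6s`, `h79_Ds` : the integer series `∑ σ_j(n) q^n`, `E₄`, `E₆`, `Δ`.
-/

set_option autoImplicit false

open UpperHalfPlane ModularForm CongruenceSubgroup
open scoped MatrixGroups ModularForm Manifold

namespace Fermat.Agent.S16

/-- Integer power series as complex power series. -/
noncomputable abbrev h79_ι : PowerSeries ℤ →+* PowerSeries ℂ :=
  PowerSeries.map (Int.castRingHom ℂ)

/-- `V_p`: the substitution `q ↦ q^p` on power series. -/
noncomputable def h79_V {R : Type*} [Semiring R] (p : ℕ) (a : PowerSeries R) : PowerSeries R :=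
  PowerSeries.mk fun n => if p ∣ n then PowerSeries.coeff (n / p) a else 0

/-- `U_p`: the operator `a_n ↦ a_{pn}` on power series. -/
noncomputable def h79_U {R : Type*} [Semiring R] (p : ℕ) (a : PowerSeries R) : PowerSeries R :=
  PowerSeries.mk fun n => PowerSeries.coeff (p * n) a

/-- The Fricke point `-1/(pz)`. -/
noncomputable def h79_fr (p : ℕ) (z : ℍ) : ℍ :=
  ModularGroup.S • (heckeDiagMatrix p • z)

/-- The Fricke transform `F#(z) = z^(-k) F(-1/(pz))`. -/
noncomputable def h79_sharp (p : ℕ) (k : ℤ) (F : ℍ → ℂ) : ℍ → ℂ :=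
  fun z => (z : ℂ) ^ (-k) * F (h79_fr p z)

/-- `a` and `b` are the `q`-expansions of a modular form of weight `k` on `Γ₀(p)` and of its
Fricke transform. -/
def h79_Pair (p : ℕ) (k : ℤ) (a b : PowerSeries ℂ) : Prop :=
  ∃ F : ModularForm (Gamma0 p) k, qExpansion 1 F = a ∧ qExpansion 1 (h79_sharp p k F) = b

/-- The integer series `∑_{n ≥ 1} σ_j(n) q^n`. -/
noncomputable def h79_S (j : ℕ) : PowerSeries ℤ :=
  PowerSeries.mk fun n => (ArithmeticFunction.sigma j n : ℤ)

/-- `E₄ = 1 + 240 ∑ σ₃(n) q^n` as an integer series. -/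
noncomputable def h79_E4s : PowerSeries ℤ := 1 + 240 * h79_S 3

/-- `E₆ = 1 - 504 ∑ σ₅(n) q^n` as an integer series. -/
noncomputable def h79_E6s : PowerSeries ℤ := 1 - 504 * h79_S 5

/-- `Δ = (E₄³ - E₆²)/1728` as an integer series. -/
noncomputable def h79_Ds : PowerSeries ℤ :=
  PowerSeries.mk fun n => PowerSeries.coeff n (h79_E4s ^ 3 - h79_E6s ^ 2) / 1728

end Fermat.Agent.S16
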