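import Mathlib
import Fermat.Agent.S16.Defs
import Fermat.Agent.S16.h60_UB
import Fermat.Agent.S16.h6_Sturm

/-!
# S16, upper bound: the odd `B4` cases (core, toolkit-independent)

Let `p` be a prime and `G ∈ M₂(Γ₀(p))` with `q`-expansion in `1 + M ℤ[[q]]` (`h60_One p M G`).
If `M = ℓ` is a prime `≥ 5` different from `p` with `ℓ ∣ p + 1`, or `M = 9 ∣ p + 1`, we derive a
contradiction from the two-cusp Sturm bound (`VB`-lemma) applied to

* `F = G² - E₄`      (`ℓ ≥ 7`),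
* `F = G³ - E₆`      (`ℓ = 5`),
* `F = (G² - E₄)/3`  (`M = 9`).

This file contains the whole argument, with the Fricke toolkit (`F ↦ F#`) and the `VB`-lemma
taken as explicit hypotheses (`h34_core`, `h34_core_prime`, `h34_core_nine`), so that it does not
depend on the final form of those blocks.
-/

set_option autoImplicit false

open UpperHalfPlane ModularForm CongruenceSubgroup ModularFormClass EisensteinSeries
open scoped MatrixGroups ModularForm Manifold

namespace Fermat.Agent.S16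

/-- Abstract algebra behind the odd B4 cases: in a commutative ring, if `g ≡ g' ≡ e ≡ 1` modulo
`l * m`, then `g ^ a - (1 + m c' S)` and `g' ^ a - e (1 + m c' VS)` are `m` times
elements congruent to `- c' S` and `- c' VS` modulo `l`. -/
theorem h34_alg {R : Type*} [CommRing R] (l m c' e g g' S VS : R) (a : ℕ)
    (hg : l * m ∣ g - 1) (hg' : l * m ∣ g' - 1) (he : l * m ∣ e - 1) :
    ∃ f1 b1 : R, g ^ a - (1 + m * c' * S) = m * f1 ∧
      g' ^ a - e * (1 + m * c' * VS) = m * b1 ∧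
      l ∣ f1 + c' * S ∧ l ∣ b1 + c' * VS := by
  have h1 : l * m ∣ g ^ a - 1 := by
    have := sub_dvd_pow_sub_pow g 1 a
    rw [one_pow] at this
    exact hg.trans this
  have h2 : l * m ∣ g' ^ a - 1 := by
    have := sub_dvd_pow_sub_pow g' 1 a
    rw [one_pow] at this
    exact hg'.trans this
  obtain ⟨h, hh⟩ := h1
  obtain ⟨h', hh'⟩ := h2
  obtain ⟨t, ht⟩ := he
  refine ⟨l * h - c' * S, l * h' - l * t - e * c' * VS, ?_, ?_, ?_, ?_⟩
  · linear_combination hh
  · linear_combination hh' - ht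
  · exact ⟨h, by ring⟩
  · exact ⟨h' - t - m * t * c' * VS, by linear_combination (-(c' * VS)) * ht⟩

/-- Restriction of a level one form to `Γ₀(p)`. -/
noncomputable def h34_restrict (p : ℕ) {m : ℤ} (A : ModularForm 𝒮ℒ m) :
    ModularForm (Gamma0 p) m where
  toFun := A
  slash_action_eq' γ hγ := A.slash_action_eq' γ (Subgroup.map_le_range _ _ hγ)
  holo' := A.holo'
  bdd_at_cusps' hc := A.bdd_at_cusps' (hc.mono (Subgroup.map_le_range _ _))

theorem h34_coe_restrict (p : ℕ) {m : ℤ} (A : ModularForm 𝒮ℒ m) :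
    ⇑(h34_restrict p A) = ⇑A := rfl

/-- The integral `q`-expansion of a form in `1 + M ℤ[[q]]`. -/
theorem h34_exists_series {p M : ℕ} {G : ModularForm (Gamma0 p) 2} (hG : h60_One p M G) :
    ∃ g h : PowerSeries ℤ, qExpansion 1 G = h79_ι g ∧ g - 1 = PowerSeries.C (M : ℤ) * h := by
  choose c hc using hG
  refine ⟨PowerSeries.mk fun k => (if k = 0 then 1 else 0) + (M : ℤ) * c k, PowerSeries.mk c,
    ?_, ?_⟩
  · ext k
    rw [PowerSeries.coeff_map, PowerSeries.coeff_mk]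
    have := hc k
    rw [qCoeff] at this
    rw [this]
    split_ifs <;> simp
  · ext k
    simp only [map_sub, PowerSeries.coeff_mk, PowerSeries.coeff_one, PowerSeries.coeff_C_mul]
    ring

theorem h34_U_sub_one {p : ℕ} (hp : 0 < p) {M : ℤ} {g h : PowerSeries ℤ}
    (hg : g - 1 = PowerSeries.C M * h) :
    h79_U p g - 1 = PowerSeries.C M * h79_U p h := by
  ext n
  have := congrArg (PowerSeries.coeff (p * n)) hg
  simp only [map_sub, PowerSeries.coeff_one, PowerSeries.coeff_C_mul] at this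
  simp only [h79_U, map_sub, PowerSeries.coeff_mk, PowerSeries.coeff_one, PowerSeries.coeff_C_mul]
  rw [← this]
  have h0 : p * n = 0 ↔ n = 0 := by
    constructor
    · intro h0
      rcases Nat.mul_eq_zero.mp h0 with h1 | h1
      · omega
      · exact h1
    · rintro rfl; simp
  simp [h0]

theorem h34_V_one_add {p : ℕ} (hp : 0 < p) (c : ℤ) (S : PowerSeries ℤ) :
    h79_V p (1 + PowerSeries.C c * S) = 1 + PowerSeries.C c * h79_V p S := by
  ext n
  simp only [h79_V, PowerSeries.coeff_mk, map_add, PowerSeries.coeff_one, PowerSeries.coeff_C_mul]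
  by_cases h : p ∣ n
  · simp only [h, if_true]
    have h0 : n / p = 0 ↔ n = 0 := by
      constructor
      · intro h0
        obtain ⟨t, rfl⟩ := h
        rw [Nat.mul_div_cancel_left _ hp] at h0
        simp [h0]
      · rintro rfl; simp
    simp [h0]
  · have h0 : n ≠ 0 := by
      rintro rfl
      exact h (dvd_zero p)
    simp [h, h0]

/-- The `a`-th power of a weight 2 form, as a form of weight `w = 2a`. -/
noncomputable def h34_powForm (p : ℕ) (a : ℕ) {w : ℤ} (hw : (a : ℤ) * 2 = w)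
    (H : ModularForm (Gamma0 p) 2) : ModularForm (Gamma0 p) w :=
  ModularForm.mcast hw (H.pow a) rfl

theorem h34_coe_powForm (p : ℕ) (a : ℕ) {w : ℤ} (hw : (a : ℤ) * 2 = w)
    (H : ModularForm (Gamma0 p) 2) : ⇑(h34_powForm p a hw H) = ⇑H ^ a := by
  rw [h34_powForm, ModularForm.coe_mcast, ModularForm.coe_pow]

/-- `q`-expansion of `m⁻¹ (H^a - R)`. -/
theorem h34_qExp_comb (p : ℕ) (m : ℂ) (a : ℕ) {w : ℤ} (hw : (a : ℤ) * 2 = w)
    (H : ModularForm (Gamma0 p) 2) (R : ModularForm (Gamma0 p) w) :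
    qExpansion 1 ⇑(m⁻¹ • (h34_powForm p a hw H - R)) =
      m⁻¹ • (qExpansion 1 H ^ a - qExpansion 1 R) := by
  have hΓ1 := Fermat.Agent.S49.hΓ p
  have h1 : ⇑(m⁻¹ • (h34_powForm p a hw H - R)) = m⁻¹ • ⇑(h34_powForm p a hw H - R) := by
    ext z
    simp
  rw [h1, ModularForm.qExpansion_smul one_pos hΓ1]
  have h2 : ⇑(h34_powForm p a hw H - R) = ⇑(h34_powForm p a hw H) - ⇑R := by
    ext z
    simp
  rw [h2, ModularForm.qExpansion_sub one_pos hΓ1]
  congr 2
  rw [h34_powForm, ModularForm.qExpansion_mcast, ModularForm.qExpansion_pow one_pos hΓ1]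

/-- **Core of the odd B4 cases**, with the Fricke toolkit (`sharp`) and the `VB`-lemma (`h_vb`)
as hypotheses.  `E = 1 + m c' ∑ σ_s(n) qⁿ` is a level one form of weight `w = 2a < 12`,
`ℓ ∤ c'`, `(-p)^a ≡ 1 mod ℓ m`; then no `G ∈ M₂(Γ₀(p))` has `q`-expansion in `1 + ℓ m ℤ[[q]]`. -/
theorem h34_core (p : ℕ) [Fact p.Prime] (l : ℕ) (m : ℕ) (hm : 0 < m) (a : ℕ) (c' : ℤ)
    (hc' : ¬ (l : ℤ) ∣ c') (s : ℕ) (w : ℤ) (hw : (a : ℤ) * 2 = w) (hw12 : w < 12)
    (E : ModularForm 𝒮ℒ w)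
    (hE : qExpansion 1 E =
      h79_ι (1 + PowerSeries.C (m : ℤ) * PowerSeries.C c' * h79_S s))
    (he : ((l : ℤ) * m) ∣ (-(p : ℤ)) ^ a - 1)
    (sharp : ∀ {k : ℤ}, ModularForm (Gamma0 p) k → ModularForm (Gamma0 p) k)
    (W : ℍ → ℍ)
    (h_apply : ∀ {k : ℤ} (F : ModularForm (Gamma0 p) k) (z : ℍ),
      sharp F z = (z : ℂ) ^ (-k) * F (W z))
    (h_lvl : ∀ {k : ℤ} (A : ModularForm 𝒮ℒ k) (n : ℕ),
      qCoeff (sharp (h34_restrict p A)) n =
        (p : ℂ) ^ k * (if p ∣ n then qCoeff A (n / p) else 0))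
    (h_two : ∀ (G : ModularForm (Gamma0 p) 2) (n : ℕ),
      qCoeff (sharp G) n = -(p : ℂ) * qCoeff G (p * n))
    (h_vb : ∀ {w : ℤ} (F : ModularForm (Gamma0 p) w) (c₁ c₂ : ℂ) (f b A : PowerSeries ℤ),
      c₁ • qExpansion 1 F = h79_ι f → c₂ • qExpansion 1 (sharp F) = h79_ι b →
      (∀ i : ℕ, (l : ℤ) ∣ PowerSeries.coeff i b -
        (if p ∣ i then PowerSeries.coeff (i / p) A else 0)) →
      ∀ n n' : ℕ, (∀ i < n, (l : ℤ) ∣ PowerSeries.coeff i f) →
      ¬ (l : ℤ) ∣ PowerSeries.coeff n f →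
      (∀ i < n', (l : ℤ) ∣ PowerSeries.coeff i A) → ¬ (l : ℤ) ∣ PowerSeries.coeff n' A →
      12 * ((n : ℤ) + p * n') ≤ w * (p + 1))
    (G : ModularForm (Gamma0 p) 2) (hG : h60_One p (l * m) G) : False := by
  have hp : p.Prime := Fact.out
  have hp0 : 0 < p := hp.pos
  have hpC : (p : ℂ) ≠ 0 := by exact_mod_cast hp.ne_zero
  have hmC : (m : ℂ) ≠ 0 := by exact_mod_cast hm.ne'
  obtain ⟨g, h, hgq, hgh⟩ := h34_exists_series hG
  have hg'h := h34_U_sub_one hp0 hgh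
  obtain ⟨t, ht⟩ := he
  -- the algebra in `ℤ⟦X⟧`
  obtain ⟨f1, b1, hf1, hb1, hf1l, hb1l⟩ := h34_alg (R := PowerSeries ℤ)
    (PowerSeries.C (l : ℤ)) (PowerSeries.C (m : ℤ)) (PowerSeries.C c')
    (PowerSeries.C ((-(p : ℤ)) ^ a)) g (h79_U p g) (h79_S s) (h79_V p (h79_S s)) a
    ⟨h, by rw [hgh]; push_cast; rw [map_mul]⟩
    ⟨h79_U p h, by rw [hg'h]; push_cast; rw [map_mul]⟩
    ⟨PowerSeries.C t, by rw [← map_mul, ← map_mul, ← ht, map_sub, map_one]⟩
  -- the form `F = m⁻¹ (G^a - E)`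
  set F : ModularForm (Gamma0 p) w := (m : ℂ)⁻¹ • (h34_powForm p a hw G - h34_restrict p E)
    with hFdef
  set F' : ModularForm (Gamma0 p) w :=
    (m : ℂ)⁻¹ • (h34_powForm p a hw (sharp G) - sharp (h34_restrict p E)) with hF'def
  have hqF : qExpansion 1 F = h79_ι f1 := by
    rw [hFdef, h34_qExp_comb, h34_coe_restrict, hgq, hE, ← map_pow, ← map_sub, hf1, map_mul]
    ext n
    simp only [PowerSeries.coeff_smul, smul_eq_mul]
    rw [show (h79_ι (PowerSeries.C (m : ℤ)) : PowerSeries ℂ) = PowerSeries.C (m : ℂ) by simp,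
      PowerSeries.coeff_C_mul]
    field_simp
  -- the Fricke transform of `F`
  have hsharp : ⇑(sharp F) = ⇑F' := by
    funext z
    rw [h_apply, hFdef, hF'def]
    simp only [FunLike.coe_smul, FunLike.coe_sub, Pi.smul_apply, Pi.sub_apply,
      smul_eq_mul, h34_coe_powForm, Pi.pow_apply, h_apply]
    have hz : ((z : ℂ) ^ (-(2 : ℤ))) ^ a = (z : ℂ) ^ (-w) := by
      rw [← hw, ← zpow_natCast, ← zpow_mul]
      congr 1
      ring
    rw [mul_pow, hz]
    ring
  have hqsG : qExpansion 1 (sharp G) = (-(p : ℂ)) • h79_ι (h79_U p g) := by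
    ext n
    have := h_two G n
    rw [qCoeff, qCoeff, hgq] at this
    rw [this]
    simp [h79_U]
  have hqsE : qExpansion 1 (sharp (h34_restrict p E)) =
      ((p : ℂ) ^ w) • h79_ι (h79_V p (1 + PowerSeries.C (m : ℤ) * PowerSeries.C c' * h79_S s)) := by
    ext n
    have := h_lvl E n
    rw [qCoeff, qCoeff, hE] at this
    rw [this]
    simp only [PowerSeries.coeff_smul, smul_eq_mul, PowerSeries.coeff_map, h79_V,
      PowerSeries.coeff_mk]
    split_ifs <;> simp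
  have hV : h79_V p (1 + PowerSeries.C (m : ℤ) * PowerSeries.C c' * h79_S s) =
      1 + PowerSeries.C (m : ℤ) * PowerSeries.C c' * h79_V p (h79_S s) := by
    rw [← map_mul, h34_V_one_add hp0]
  have hpw : (p : ℂ) ^ w = ((-(p : ℂ)) ^ a) ^ 2 := by
    rw [← hw, zpow_mul, zpow_natCast, zpow_ofNat, ← pow_mul, ← pow_mul, mul_comm a 2, pow_mul,
      pow_mul, neg_sq]
  have heC : ((-(p : ℂ)) ^ a) ≠ 0 := pow_ne_zero _ (neg_ne_zero.mpr hpC)
  have hqsF : ((-(p : ℂ)) ^ a)⁻¹ • qExpansion 1 (sharp F) = h79_ι b1 := by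
    rw [hsharp, hF'def, h34_qExp_comb, hqsG, hqsE, hV, hpw]
    have hb1' := congrArg h79_ι hb1
    rw [map_sub, map_mul, map_pow, map_mul] at hb1'
    have e1 : (h79_ι (PowerSeries.C ((-(p : ℤ)) ^ a)) : PowerSeries ℂ) =
        PowerSeries.C ((-(p : ℂ)) ^ a) := by simp
    have e2 : (h79_ι (PowerSeries.C (m : ℤ)) : PowerSeries ℂ) = PowerSeries.C (m : ℂ) := by simp
    rw [e1, e2] at hb1'
    ext n
    have hb1n := congrArg (PowerSeries.coeff n) hb1'
    simp only [map_sub, PowerSeries.coeff_C_mul] at hb1n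
    simp only [PowerSeries.coeff_smul, smul_eq_mul, map_sub, smul_pow]
    generalize (-(p : ℂ)) ^ a = e at heC hb1n ⊢
    field_simp
    linear_combination hb1n
  -- apply the VB-lemma
  have hS0 : PowerSeries.coeff 0 (h79_S s) = 0 := by simp [h79_S]
  have hS1 : PowerSeries.coeff 1 (h79_S s) = 1 := by simp [h79_S]
  have key := h_vb F 1 (((-(p : ℂ)) ^ a)⁻¹) f1 b1 (-(PowerSeries.C c' * h79_S s))
    (by rw [one_smul, hqF]) hqsF
    (by
      intro i
      obtain ⟨y, hy⟩ := hb1l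
      have hyi := congrArg (PowerSeries.coeff i) hy
      simp only [map_add, PowerSeries.coeff_C_mul, h79_V, PowerSeries.coeff_mk] at hyi
      refine ⟨PowerSeries.coeff i y, ?_⟩
      rw [← hyi]
      simp only [map_neg, PowerSeries.coeff_C_mul]
      split_ifs <;> ring)
    1 1
    (by
      intro i hi
      obtain rfl : i = 0 := by omega
      obtain ⟨y, hy⟩ := hf1l
      have hyi := congrArg (PowerSeries.coeff 0) hy
      simp only [map_add, PowerSeries.coeff_C_mul, hS0, mul_zero, add_zero] at hyi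
      exact ⟨_, hyi⟩)
    (by
      intro hdvd
      obtain ⟨y, hy⟩ := hf1l
      have hyi := congrArg (PowerSeries.coeff 1) hy
      simp only [map_add, PowerSeries.coeff_C_mul, hS1, mul_one] at hyi
      apply hc'
      have h3 : (l : ℤ) ∣ PowerSeries.coeff 1 f1 + c' := ⟨_, hyi⟩
      exact (Int.dvd_add_right hdvd).mp h3)
    (by
      intro i hi
      obtain rfl : i = 0 := by omega
      rw [map_neg, PowerSeries.coeff_C_mul, hS0]
      simp)
    (by
      intro hdvd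
      apply hc'
      rw [map_neg, PowerSeries.coeff_C_mul, hS1, mul_one, dvd_neg] at hdvd
      exact hdvd)
  have hp1 : (0 : ℤ) < (p : ℤ) + 1 := by positivity
  push_cast at key
  nlinarith [mul_pos (show (0 : ℤ) < 12 - w by linarith) hp1]

/-- The toolkit consumed by the odd B4 cases at level `p` for the prime `ℓ`: a Fricke transform
`F ↦ F#` on `M_k(Γ₀(p))` with `F#(z) = z^(-k) F(W z)`, the formulas `A# = p^k V_p A` for level
one `A` and `G# = -p U_p G` in weight 2, and the two-cusp Sturm bound (`VB`-lemma) mod `ℓ`. -/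
def h34_HasToolkit (p l : ℕ) : Prop :=
  ∃ (sharp : ∀ {k : ℤ}, ModularForm (Gamma0 p) k → ModularForm (Gamma0 p) k) (W : ℍ → ℍ),
    (∀ {k : ℤ} (F : ModularForm (Gamma0 p) k) (z : ℍ),
      sharp F z = (z : ℂ) ^ (-k) * F (W z)) ∧
    (∀ {k : ℤ} (A : ModularForm 𝒮ℒ k) (n : ℕ),
      qCoeff (sharp (h34_restrict p A)) n =
        (p : ℂ) ^ k * (if p ∣ n then qCoeff A (n / p) else 0)) ∧
    (∀ (G : ModularForm (Gamma0 p) 2) (n : ℕ),
      qCoeff (sharp G) n = -(p : ℂ) * qCoeff G (p * n)) ∧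
    (∀ {w : ℤ} (F : ModularForm (Gamma0 p) w) (c₁ c₂ : ℂ) (f b A : PowerSeries ℤ),
      c₁ • qExpansion 1 F = h79_ι f → c₂ • qExpansion 1 (sharp F) = h79_ι b →
      (∀ i : ℕ, (l : ℤ) ∣ PowerSeries.coeff i b -
        (if p ∣ i then PowerSeries.coeff (i / p) A else 0)) →
      ∀ n n' : ℕ, (∀ i < n, (l : ℤ) ∣ PowerSeries.coeff i f) →
      ¬ (l : ℤ) ∣ PowerSeries.coeff n f →
      (∀ i < n', (l : ℤ) ∣ PowerSeries.coeff i A) → ¬ (l : ℤ) ∣ PowerSeries.coeff n' A →
      12 * ((n : ℤ) + p * n') ≤ w * (p + 1))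

theorem h34_core' (p : ℕ) [Fact p.Prime] (l : ℕ) (m : ℕ) (hm : 0 < m) (a : ℕ) (c' : ℤ)
    (hc' : ¬ (l : ℤ) ∣ c') (s : ℕ) (w : ℤ) (hw : (a : ℤ) * 2 = w) (hw12 : w < 12)
    (E : ModularForm 𝒮ℒ w)
    (hE : qExpansion 1 E =
      h79_ι (1 + PowerSeries.C (m : ℤ) * PowerSeries.C c' * h79_S s))
    (he : ((l : ℤ) * m) ∣ (-(p : ℤ)) ^ a - 1) (hT : h34_HasToolkit p l)
    (G : ModularForm (Gamma0 p) 2) (hG : h60_One p (l * m) G) : False := by
  obtain ⟨sharp, W, h1, h2, h3, h4⟩ := hT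
  exact h34_core p l m hm a c' hc' s w hw hw12 E hE he sharp W h1 h2 h3 h4 G hG

theorem h34_iota_S (s : ℕ) : h79_ι (h79_S s) = h6_S s := by
  ext n
  rw [PowerSeries.coeff_map, h6_S_coeff]
  by_cases hn : n = 0
  · simp [h79_S, hn]
  · simp [h79_S, hn]

theorem h34_iota_C (c : ℤ) : h79_ι (PowerSeries.C c) = PowerSeries.C (c : ℂ) := by
  rw [PowerSeries.map_C]
  rfl

theorem h34_qExp_E4 (m c' : ℤ) (h : m * c' = 240) :
    qExpansion 1 E₄ = h79_ι (1 + PowerSeries.C m * PowerSeries.C c' * h79_S 3) := by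
  rw [h6_qExp_E4, map_add, map_one, map_mul, h34_iota_S, ← map_mul, h, h34_iota_C]
  have : ((240 : ℕ) : PowerSeries ℂ) = PowerSeries.C (((240 : ℤ)) : ℂ) := by
    rw [Int.cast_ofNat, Nat.cast_ofNat]
    exact (map_ofNat (PowerSeries.C (R := ℂ)) 240).symm
  rw [this]

theorem h34_qExp_E6 :
    qExpansion 1 E₆ = h79_ι (1 + PowerSeries.C (1 : ℤ) * PowerSeries.C (-504) * h79_S 5) := by
  rw [h6_qExp_E6, map_add, map_one, map_mul, h34_iota_S, ← map_mul, h34_iota_C, sub_eq_add_neg,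
    ← neg_mul]
  have : -((504 : ℕ) : PowerSeries ℂ) = PowerSeries.C (((1 * -504 : ℤ)) : ℂ) := by
    rw [one_mul, Int.cast_neg, map_neg, Int.cast_ofNat, Nat.cast_ofNat]
    congr 1
  rw [this]

theorem h34_not_dvd_240 {l : ℕ} (hl : l.Prime) (hl7 : 7 ≤ l) : ¬ (l : ℤ) ∣ 240 := by
  intro h
  have h' : l ∣ 240 := by exact_mod_cast h
  have h240 : (240 : ℕ) = 2 ^ 4 * 3 * 5 := by norm_num
  rw [h240] at h'
  rcases (Nat.Prime.dvd_mul hl).mp h' with h1 | h1
  · rcases (Nat.Prime.dvd_mul hl).mp h1 with h2 | h2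
    · have := Nat.le_of_dvd (by norm_num) (hl.dvd_of_dvd_pow h2)
      omega
    · have := Nat.le_of_dvd (by norm_num) h2
      omega
  · have := Nat.le_of_dvd (by norm_num) h1
    omega

/-- `(U5)` for `ℓ ∣ p + 1`, modulo the toolkit. -/
theorem h34_core_prime (p : ℕ) [Fact p.Prime] (l : ℕ) (hl : l.Prime) (hl5 : 5 ≤ l)
    (hdvd : l ∣ p + 1) (hT : h34_HasToolkit p l) (G : ModularForm (Gamma0 p) 2) :
    ¬ h60_One p l G := by
  intro hG
  have hG' : h60_One p (l * 1) G := by rwa [mul_one]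
  have hdvd' : (l : ℤ) ∣ (p : ℤ) + 1 := by exact_mod_cast hdvd
  by_cases h5 : l = 5
  · subst h5
    refine h34_core' p 5 1 one_pos 3 (-504) (by norm_num) 5 6 (by norm_num) (by norm_num) E₆
      h34_qExp_E6 ?_ hT G hG'
    have : (-(p : ℤ)) ^ 3 - 1 = -(((p : ℤ) + 1) * ((p : ℤ) ^ 2 - p + 1)) := by ring
    rw [this]
    simp only [Nat.cast_one, mul_one, Nat.cast_ofNat]
    exact (dvd_mul_of_dvd_left hdvd' _).neg_right
  · have hl7 : 7 ≤ l := by
      by_contra hlt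
      have : l = 6 := by omega
      subst this
      exact absurd hl (by norm_num)
    refine h34_core' p l 1 one_pos 2 240 (h34_not_dvd_240 hl hl7) 3 4 (by norm_num) (by norm_num)
      E₄ (h34_qExp_E4 1 240 (by norm_num)) ?_ hT G hG'
    have : (-(p : ℤ)) ^ 2 - 1 = ((p : ℤ) + 1) * ((p : ℤ) - 1) := by ring
    rw [this]
    simp only [Nat.cast_one, mul_one]
    exact dvd_mul_of_dvd_left hdvd' _

/-- `(U9)` for `9 ∣ p + 1`, modulo the toolkit. -/
theorem h34_core_nine (p : ℕ) [Fact p.Prime] (hdvd : 9 ∣ p + 1) (hT : h34_HasToolkit p 3)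
    (G : ModularForm (Gamma0 p) 2) : ¬ h60_One p 9 G := by
  intro hG
  have hG' : h60_One p (3 * 3) G := hG
  have hdvd' : (9 : ℤ) ∣ (p : ℤ) + 1 := by exact_mod_cast hdvd
  refine h34_core' p 3 3 (by norm_num) 2 80 (by norm_num) 3 4 (by norm_num) (by norm_num)
    E₄ (h34_qExp_E4 3 80 (by norm_num)) ?_ hT G hG'
  have : (-(p : ℤ)) ^ 2 - 1 = ((p : ℤ) + 1) * ((p : ℤ) - 1) := by ring
  rw [this]
  have h9 : ((3 : ℕ) : ℤ) * ((3 : ℕ) : ℤ) = 9 := by norm_num
  rw [h9]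
  exact dvd_mul_of_dvd_left hdvd' _

end Fermat.Agent.S16
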