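import Mathlib

/-!
# The formal norm of a power series along `x ↦ x ^ p`

`R⟦x⟧` is free over `R⟦x ^ p⟧` with basis `1, x, …, x ^ (p-1)`; `h77_fnorm p b` is the determinant
of multiplication by `b` in this basis, a power series in `y = x ^ p`.  It is multiplicative,
commutes with base change, sends `A(x ^ p)` to `A ^ p`, and (over a domain containing a primitive
`p`-th root of unity `ζ`) satisfies `(h77_fnorm p b)(x ^ p) = ∏_{j < p} b(ζ ^ j x)`.
-/

set_option autoImplicit false

namespace Fermat.Agent.S16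

open PowerSeries

variable {R : Type*} [CommRing R]

/-- The `i`-th section along `x ↦ x ^ p`: `∑ₖ a_{k p + i} y ^ k`. -/
noncomputable def h77_sec (p i : ℕ) (f : R⟦X⟧) : R⟦X⟧ :=
  PowerSeries.mk fun k => coeff (k * p + i) f

@[simp] lemma h77_coeff_sec (p i k : ℕ) (f : R⟦X⟧) :
    coeff k (h77_sec p i f) = coeff (k * p + i) f := by
  simp [h77_sec]

lemma h77_sec_add (p i : ℕ) (f g : R⟦X⟧) :
    h77_sec p i (f + g) = h77_sec p i f + h77_sec p i g := by
  ext k; simp

lemma h77_sec_zero (p i : ℕ) : h77_sec p i (0 : R⟦X⟧) = 0 := by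
  ext k; simp

lemma h77_sec_sum {ι : Type*} (p i : ℕ) (s : Finset ι) (f : ι → R⟦X⟧) :
    h77_sec p i (∑ l ∈ s, f l) = ∑ l ∈ s, h77_sec p i (f l) := by
  classical
  induction s using Finset.induction_on with
  | empty => simp [h77_sec_zero]
  | insert a s ha ih => rw [Finset.sum_insert ha, Finset.sum_insert ha, h77_sec_add, ih]

lemma h77_sec_map {S : Type*} [CommRing S] (f : R →+* S) (p i : ℕ) (g : R⟦X⟧) :
    (h77_sec p i g).map f = h77_sec p i (g.map f) := by
  ext k; simp

/-- sections are linear over `R⟦x ^ p⟧`. -/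
lemma h77_sec_mul_expand (p : ℕ) (hp : p ≠ 0) (i : ℕ) (hi : i < p) (g h : R⟦X⟧) :
    h77_sec p i (g * expand p hp h) = h77_sec p i g * h := by
  ext k
  rw [h77_coeff_sec, coeff_mul, coeff_mul]
  symm
  refine Finset.sum_of_injOn (fun x : ℕ × ℕ => (x.1 * p + i, p * x.2)) ?_ ?_ ?_ ?_
  · rintro ⟨a, b⟩ _ ⟨a', b'⟩ _ hab
    simp only [Prod.mk.injEq] at hab
    obtain ⟨h1, h2⟩ := hab
    have hb : b = b' := Nat.eq_of_mul_eq_mul_left (Nat.pos_of_ne_zero hp) h2
    have ha : a = a' := by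
      have : a * p = a' * p := by omega
      exact Nat.eq_of_mul_eq_mul_right (Nat.pos_of_ne_zero hp) this
    rw [ha, hb]
  · rintro ⟨a, b⟩ hab
    have hab' : a + b = k := Finset.HasAntidiagonal.mem_antidiagonal.mp (Finset.mem_coe.mp hab)
    refine Finset.mem_coe.mpr (Finset.HasAntidiagonal.mem_antidiagonal.mpr ?_)
    show a * p + i + p * b = k * p + i
    rw [← hab']; ring
  · rintro ⟨a, b⟩ hab hnot
    have hab' : a + b = k * p + i := Finset.HasAntidiagonal.mem_antidiagonal.mp hab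
    by_cases hpb : p ∣ b
    · exfalso
      obtain ⟨m, rfl⟩ := hpb
      apply hnot
      have hmk : m ≤ k := by
        by_contra hlt
        have hlt' : k + 1 ≤ m := Nat.lt_of_not_le hlt
        have : (k + 1) * p ≤ m * p := Nat.mul_le_mul_right p hlt'
        have h3 : p * m = m * p := Nat.mul_comm _ _
        have h4 : (k + 1) * p = k * p + p := by ring
        omega
      refine ⟨(k - m, m), Finset.mem_coe.mpr (Finset.HasAntidiagonal.mem_antidiagonal.mpr ?_), ?_⟩
      · show k - m + m = k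
        omega
      · show ((k - m) * p + i, p * m) = (a, p * m)
        have h3 : p * m = m * p := Nat.mul_comm _ _
        have h5 : (k - m) * p = k * p - m * p := Nat.sub_mul k m p
        have h6 : m * p ≤ k * p := Nat.mul_le_mul_right p hmk
        have : (k - m) * p + i = a := by omega
        rw [this]
    · show coeff a g * coeff b (expand p hp h) = 0
      rw [coeff_expand_of_not_dvd p hp h hpb, mul_zero]
  · rintro ⟨a, b⟩ _
    show coeff a (h77_sec p i g) * coeff b h = coeff (a * p + i) g * coeff (p * b) (expand p hp h)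
    rw [h77_coeff_sec, coeff_expand_mul]

/-- decomposition of a power series along the basis `1, x, …, x ^ (p-1)` of `R⟦x⟧` over
`R⟦x ^ p⟧`. -/
lemma h77_sum_sec (p : ℕ) (hp : p ≠ 0) (f : R⟦X⟧) :
    f = ∑ i ∈ Finset.range p, X ^ i * expand p hp (h77_sec p i f) := by
  ext n
  rw [map_sum]
  have hpos : 0 < p := Nat.pos_of_ne_zero hp
  rw [Finset.sum_eq_single (n % p)]
  · rw [coeff_X_pow_mul', if_pos (Nat.mod_le n p), coeff_expand, if_pos (Nat.dvd_sub_mod n),
      h77_coeff_sec]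
    have h1 := Nat.div_add_mod n p
    have h2 : (n - n % p) / p = n / p := by
      have : n - n % p = p * (n / p) := by omega
      rw [this, Nat.mul_div_cancel_left _ hpos]
    have h3 : (n - n % p) / p * p + n % p = n := by
      rw [h2, Nat.mul_comm]; exact h1
    rw [h3]
  · intro i hi hne
    rw [coeff_X_pow_mul']
    split_ifs with hle
    · rw [coeff_expand, if_neg]
      intro hdvd
      apply hne
      have hi' : i < p := Finset.mem_range.mp hi
      obtain ⟨c, hc⟩ := hdvd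
      have : n = i + p * c := by omega
      rw [this, Nat.add_mul_mod_self_left, Nat.mod_eq_of_lt hi']
    · rfl
  · intro hn
    exact absurd (Finset.mem_range.mpr (Nat.mod_lt n hpos)) hn

/-- the matrix of multiplication by `b` on `R⟦x⟧ = ⊕_{i<p} x ^ i R⟦x ^ p⟧`. -/
noncomputable def h77_fnormMat (p : ℕ) (b : R⟦X⟧) : Matrix (Fin p) (Fin p) R⟦X⟧ :=
  fun i j => h77_sec p i (X ^ (j : ℕ) * b)

/-- the formal norm of `b` along `x ↦ x ^ p` (a power series in `y = x ^ p`). -/
noncomputable def h77_fnorm (p : ℕ) (b : R⟦X⟧) : R⟦X⟧ := (h77_fnormMat p b).det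

lemma h77_fnormMat_apply (p : ℕ) (b : R⟦X⟧) (i j : Fin p) :
    h77_fnormMat p b i j = h77_sec p i (X ^ (j : ℕ) * b) := rfl

lemma h77_sec_mul (p : ℕ) (hp : p ≠ 0) (i : Fin p) (b f : R⟦X⟧) :
    h77_sec p i (b * f) = ∑ l : Fin p, h77_sec p i (X ^ (l : ℕ) * b) * h77_sec p l f := by
  conv_lhs => rw [h77_sum_sec p hp f]
  rw [Finset.mul_sum, h77_sec_sum, ← Fin.sum_univ_eq_sum_range
    (fun l => h77_sec p i (b * (X ^ l * expand p hp (h77_sec p l f))))]
  refine Finset.sum_congr rfl fun l _ => ?_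
  rw [← h77_sec_mul_expand p hp i i.2, mul_left_comm, mul_assoc]

lemma h77_fnormMat_mul (p : ℕ) (b c : R⟦X⟧) :
    h77_fnormMat p (b * c) = h77_fnormMat p b * h77_fnormMat p c := by
  rcases Nat.eq_zero_or_pos p with rfl | hpos
  · ext i; exact i.elim0
  ext i j
  rw [Matrix.mul_apply, h77_fnormMat_apply]
  have : X ^ (j : ℕ) * (b * c) = b * (X ^ (j : ℕ) * c) := by ring
  rw [this, h77_sec_mul p hpos.ne' i b]
  rfl

lemma h77_sec_X_pow (p : ℕ) (i j : Fin p) :
    h77_sec p i ((X : R⟦X⟧) ^ (j : ℕ)) = if i = j then 1 else 0 := by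
  ext k
  rw [h77_coeff_sec, coeff_X_pow]
  have hi := i.2
  have hj := j.2
  split_ifs with h1 h2 h2
  · subst h2
    have hk : k = 0 := by
      by_contra hk
      have : p ≤ k * p := Nat.le_mul_of_pos_left p (Nat.pos_of_ne_zero hk)
      omega
    simp [hk]
  · exfalso
    have hk : k = 0 := by
      by_contra hk
      have : p ≤ k * p := Nat.le_mul_of_pos_left p (Nat.pos_of_ne_zero hk)
      omega
    subst hk
    apply h2; ext; omega
  · subst h2
    rcases Nat.eq_zero_or_pos k with rfl | hk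
    · simp at h1
    · rw [coeff_one, if_neg hk.ne']
  · simp

lemma h77_fnormMat_one (p : ℕ) : h77_fnormMat p (1 : R⟦X⟧) = 1 := by
  ext i j
  rw [h77_fnormMat_apply, mul_one, h77_sec_X_pow, Matrix.one_apply]

lemma h77_fnormMat_expand (p : ℕ) (hp : p ≠ 0) (A : R⟦X⟧) :
    h77_fnormMat p (expand p hp A) = A • (1 : Matrix (Fin p) (Fin p) R⟦X⟧) := by
  ext i j
  rw [h77_fnormMat_apply, h77_sec_mul_expand p hp i i.2, h77_sec_X_pow, Matrix.smul_apply,
    Matrix.one_apply, smul_eq_mul]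
  split_ifs <;> simp

theorem h77_fnorm_mul (p : ℕ) (b c : R⟦X⟧) :
    h77_fnorm p (b * c) = h77_fnorm p b * h77_fnorm p c := by
  rw [h77_fnorm, h77_fnormMat_mul, Matrix.det_mul]; rfl

theorem h77_fnorm_one (p : ℕ) : h77_fnorm p (1 : R⟦X⟧) = 1 := by
  rw [h77_fnorm, h77_fnormMat_one, Matrix.det_one]

theorem h77_fnorm_pow (p : ℕ) (b : R⟦X⟧) (n : ℕ) :
    h77_fnorm p (b ^ n) = h77_fnorm p b ^ n := by
  induction n with
  | zero => simp [h77_fnorm_one]
  | succ n ih => rw [pow_succ, h77_fnorm_mul, ih, pow_succ]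

theorem h77_fnorm_prod {ι : Type*} (p : ℕ) (s : Finset ι) (b : ι → R⟦X⟧) :
    h77_fnorm p (∏ i ∈ s, b i) = ∏ i ∈ s, h77_fnorm p (b i) := by
  classical
  induction s using Finset.induction_on with
  | empty => simp [h77_fnorm_one]
  | insert a s ha ih => rw [Finset.prod_insert ha, Finset.prod_insert ha, h77_fnorm_mul, ih]

/-- the norm of `A(x ^ p)` is `A ^ p`. -/
theorem h77_fnorm_expand (p : ℕ) (hp : p ≠ 0) (A : R⟦X⟧) :
    h77_fnorm p (expand p hp A) = A ^ p := by
  rw [h77_fnorm, h77_fnormMat_expand, Matrix.det_smul, Matrix.det_one, mul_one, Fintype.card_fin]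

theorem h77_fnorm_C (p : ℕ) (hp : p ≠ 0) (a : R) :
    h77_fnorm p (C a : R⟦X⟧) = C a ^ p := by
  have h := h77_fnorm_expand p hp (C a : R⟦X⟧)
  rwa [expand_C] at h

/-- the formal norm commutes with base change. -/
theorem h77_fnorm_map {S : Type*} [CommRing S] (f : R →+* S) (p : ℕ) (b : R⟦X⟧) :
    (h77_fnorm p b).map f = h77_fnorm p (b.map f) := by
  rw [h77_fnorm, h77_fnorm]
  rw [RingHom.map_det]
  congr 1
  ext i j
  rw [RingHom.mapMatrix_apply, Matrix.map_apply, h77_fnormMat_apply, h77_fnormMat_apply,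
    h77_sec_map, map_mul, map_pow, map_X]

/-- congruent series have congruent norms. -/
theorem h77_fnorm_congr (I : Ideal R) (p : ℕ) (b b' : R⟦X⟧)
    (h : ∀ n, coeff n b - coeff n b' ∈ I) (n : ℕ) :
    coeff n (h77_fnorm p b) - coeff n (h77_fnorm p b') ∈ I := by
  have hmap : b.map (Ideal.Quotient.mk I) = b'.map (Ideal.Quotient.mk I) := by
    ext k
    rw [coeff_map, coeff_map]
    exact Ideal.Quotient.eq.mpr (h k)
  have h2 := congrArg (coeff n) ((h77_fnorm_map (Ideal.Quotient.mk I) p b).trans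
    ((congrArg (h77_fnorm p) hmap).trans (h77_fnorm_map (Ideal.Quotient.mk I) p b').symm))
  rw [coeff_map, coeff_map] at h2
  exact Ideal.Quotient.eq.mp h2

/-- `b ≡ A(x ^ p)` implies `Nm b ≡ A ^ p`. -/
theorem h77_fnorm_of_congr_expand (I : Ideal R) (p : ℕ) (hp : p ≠ 0) (b A : R⟦X⟧)
    (h : ∀ n, coeff n b - coeff n (expand p hp A) ∈ I) (n : ℕ) :
    coeff n (h77_fnorm p b) - coeff n (A ^ p) ∈ I := by
  rw [← h77_fnorm_expand p hp A]
  exact h77_fnorm_congr I p b _ h n

lemma h77_rescale_expand (p : ℕ) (hp : p ≠ 0) (a : R) (ha : a ^ p = 1) (h : R⟦X⟧) :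
    rescale a (expand p hp h) = expand p hp h := by
  ext n
  rw [coeff_rescale, coeff_expand]
  split_ifs with hd
  · obtain ⟨m, rfl⟩ := hd
    rw [pow_mul, ha, one_pow, one_mul]
  · rw [mul_zero]

/-- the eigenvector identity behind the product formula: no hypothesis on `R`. -/
lemma h77_diag_mul_vandermonde (p : ℕ) (hp : p ≠ 0) (ζ : R) (hζ : ζ ^ p = 1) (b : R⟦X⟧) :
    Matrix.diagonal (fun j : Fin p => rescale (ζ ^ (j : ℕ)) b) *
        Matrix.vandermonde (fun j : Fin p => rescale (ζ ^ (j : ℕ)) (X : R⟦X⟧)) =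
      Matrix.vandermonde (fun j : Fin p => rescale (ζ ^ (j : ℕ)) (X : R⟦X⟧)) *
        (expand p hp : R⟦X⟧ →ₐ[R] R⟦X⟧).mapMatrix (h77_fnormMat p b) := by
  refine Matrix.ext fun j j' => ?_
  rw [Matrix.diagonal_mul, Matrix.mul_apply]
  have ha : (ζ ^ (j : ℕ)) ^ p = 1 := by rw [← pow_mul, mul_comm, pow_mul, hζ, one_pow]
  have h1 := congrArg (rescale (ζ ^ (j : ℕ))) (h77_sum_sec p hp (X ^ (j' : ℕ) * b))
  rw [map_sum (rescale (ζ ^ (j : ℕ))), map_mul (rescale (ζ ^ (j : ℕ))),
    map_pow (rescale (ζ ^ (j : ℕ)))] at h1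
  rw [Matrix.vandermonde_apply, mul_comm, h1,
    ← Fin.sum_univ_eq_sum_range (fun i => (rescale (ζ ^ (j : ℕ)))
      (X ^ i * (expand p hp) (h77_sec p i (X ^ (j' : ℕ) * b))))]
  refine Finset.sum_congr rfl fun i _ => ?_
  rw [map_mul, map_pow, h77_rescale_expand p hp _ ha, Matrix.vandermonde_apply]
  rfl

/-- **Product formula.** Over a domain with a primitive `p`-th root of unity `ζ`:
`(Nm b)(x ^ p) = ∏_{j < p} b(ζ ^ j x)`. -/
theorem h77_expand_fnorm [IsDomain R] (p : ℕ) (hp : p ≠ 0) (ζ : R) (hζ : IsPrimitiveRoot ζ p)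
    (b : R⟦X⟧) :
    expand p hp (h77_fnorm p b) = ∏ j ∈ Finset.range p, rescale (ζ ^ j) b := by
  have key := h77_diag_mul_vandermonde p hp ζ hζ.pow_eq_one b
  have hdet := congrArg Matrix.det key
  rw [Matrix.det_mul, Matrix.det_mul, Matrix.det_diagonal, ← AlgHom.map_det] at hdet
  have hinj : Function.Injective (fun j : Fin p => rescale (ζ ^ (j : ℕ)) (X : R⟦X⟧)) := by
    intro j j' hjj
    have h1 := congrArg (coeff 1) hjj
    simp only [rescale_X, coeff_C_mul, coeff_one_X, mul_one] at h1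
    exact Fin.ext (hζ.pow_inj j.2 j'.2 h1)
  have hV := Matrix.det_vandermonde_ne_zero_iff.mpr hinj
  rw [mul_comm] at hdet
  have h2 := mul_left_cancel₀ hV hdet
  rw [h77_fnorm, ← h2, Finset.prod_range]

theorem h77_fnorm_zero (p : ℕ) (hp : p ≠ 0) : h77_fnorm p (0 : R⟦X⟧) = 0 := by
  have hne : Nonempty (Fin p) := ⟨⟨0, Nat.pos_of_ne_zero hp⟩⟩
  have h0 : h77_fnormMat p (0 : R⟦X⟧) = 0 := by
    refine Matrix.ext fun i j => ?_
    rw [h77_fnormMat_apply, mul_zero, h77_sec_zero]; rfl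
  rw [h77_fnorm, h0, Matrix.det_zero]

/-- the constant coefficient of the norm. -/
theorem h77_constantCoeff_fnorm (p : ℕ) (b : R⟦X⟧) :
    constantCoeff (h77_fnorm p b) = constantCoeff b ^ p := by
  have hentry : ∀ i j : Fin p, constantCoeff (h77_fnormMat p b i j) =
      if (j : ℕ) ≤ i then coeff ((i : ℕ) - j) b else 0 := by
    intro i j
    rw [h77_fnormMat_apply, ← coeff_zero_eq_constantCoeff_apply, h77_coeff_sec, zero_mul,
      zero_add, coeff_X_pow_mul']
  rw [h77_fnorm, RingHom.map_det, Matrix.det_of_isLowerTriangular]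
  · have : ∀ i : Fin p, (constantCoeff : R⟦X⟧ →+* R).mapMatrix (h77_fnormMat p b) i i =
        constantCoeff b := by
      intro i
      rw [RingHom.mapMatrix_apply, Matrix.map_apply, hentry, if_pos le_rfl, Nat.sub_self,
        coeff_zero_eq_constantCoeff_apply]
    rw [Finset.prod_congr rfl (fun i _ => this i), Finset.prod_const, Finset.card_univ,
      Fintype.card_fin]
  · intro i j hij
    have hlt : i < j := hij
    rw [RingHom.mapMatrix_apply, Matrix.map_apply, hentry, if_neg]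
    exact Nat.not_le.mpr hlt

lemma h77_fnorm_X_pow_self (p : ℕ) (hp : p ≠ 0) : h77_fnorm p ((X : R⟦X⟧) ^ p) = X ^ p := by
  have h := h77_fnorm_expand p hp (X : R⟦X⟧)
  rwa [expand_X] at h

/-- over a domain the formal norm preserves the order. -/
theorem h77_order_fnorm [IsDomain R] (p : ℕ) (hp : p ≠ 0) (b : R⟦X⟧) :
    (h77_fnorm p b).order = b.order := by
  by_cases hb : b = 0
  · rw [hb, h77_fnorm_zero p hp]
  -- the order of `Nm X` is one
  have hX : (h77_fnorm p (X : R⟦X⟧)).order = 1 := by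
    have h1 : (h77_fnorm p (X : R⟦X⟧)) ^ p = X ^ p := by
      rw [← h77_fnorm_pow, h77_fnorm_X_pow_self p hp]
    have h2 := congrArg order h1
    rw [order_pow, order_X_pow] at h2
    have hne : (h77_fnorm p (X : R⟦X⟧)).order ≠ ⊤ := by
      intro htop
      rw [htop] at h2
      have : (p • (⊤ : ℕ∞)) = ⊤ := by
        rw [nsmul_eq_mul]; exact ENat.mul_top (by exact_mod_cast hp)
      rw [this] at h2
      exact ENat.top_ne_natCast p h2
    obtain ⟨n, hn⟩ := ENat.ne_top_iff_exists.mp hne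
    rw [← hn, nsmul_eq_mul] at h2
    have h3 : p * n = p := by exact_mod_cast h2
    have h4 : n = 1 := by
      have : p * n = p * 1 := by rw [h3, mul_one]
      exact Nat.eq_of_mul_eq_mul_left (Nat.pos_of_ne_zero hp) this
    rw [← hn, h4]; rfl
  have hu : (h77_fnorm p (divXPowOrder b)).order = 0 := by
    have hc : coeff 0 (h77_fnorm p (divXPowOrder b)) ≠ 0 := by
      rw [coeff_zero_eq_constantCoeff_apply, h77_constantCoeff_fnorm]
      refine pow_ne_zero _ ?_
      rw [Ne, constantCoeff_divXPowOrder_eq_zero_iff]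
      exact hb
    have := order_le 0 hc
    exact le_antisymm (by exact_mod_cast this) zero_le
  have hdec : b = X ^ b.order.toNat * divXPowOrder b := X_pow_order_mul_divXPowOrder.symm
  have hfin : b.order ≠ ⊤ := fun h => hb (order_eq_top.mp h)
  conv_lhs => rw [hdec]
  rw [h77_fnorm_mul, h77_fnorm_pow, order_mul, order_pow, hX, hu, add_zero, nsmul_eq_mul,
    mul_one, ENat.natCast_toNat hfin]

theorem h77_fnorm_ne_zero [IsDomain R] (p : ℕ) (hp : p ≠ 0) (b : R⟦X⟧) (hb : b ≠ 0) :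
    h77_fnorm p b ≠ 0 := by
  intro h
  have := h77_order_fnorm p hp b
  rw [h, order_zero] at this
  exact hb (order_eq_top.mp this.symm)

end Fermat.Agent.S16
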