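import Mathlib
import Fermat.Prelude.Thm_CongruenceSubgroup_one_mem_strictPeriods_Gamma0
import Fermat.Agent.S16.h77_FormalNorm
import Fermat.Agent.S24.h77_QBridge

/-!
# The analytic bridge for the formal norm (helper89)

If `G` has the `q`-expansion `b` (period one), then `z ↦ ∏_{j<p} G((z + j)/p)` has the
`q`-expansion `h77_fnorm p b`.  Consequently the `q`-expansion of the norm form of
`h89_Norm.lean` is `κ ^ p • (qExp F * h77_fnorm p (qExp G))` whenever
`(F ∣[k] S)(z) = κ * G(z / p)`.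
-/

set_option autoImplicit false

open UpperHalfPlane ModularForm Filter Topology CongruenceSubgroup
open scoped MatrixGroups Manifold ModularForm

namespace Fermat.Agent.S16

open Fermat.Agent.S24

local notation "𝕢" => Function.Periodic.qParam

/-- A finite product of convergent power series at a point. -/
theorem h89_hasSum_prod {ι : Type*} (s : Finset ι) (c : ι → PowerSeries ℂ) (q : ℂ) (a : ι → ℂ)
    (h : ∀ i ∈ s, HasSum (fun n : ℕ => (c i).coeff n * q ^ n) (a i)) :
    HasSum (fun n : ℕ => (∏ i ∈ s, c i).coeff n * q ^ n) (∏ i ∈ s, a i) := by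
  classical
  induction s using Finset.induction_on with
  | empty =>
    simp only [Finset.prod_empty]
    have e : (fun n : ℕ => (1 : PowerSeries ℂ).coeff n * q ^ n) =
        fun n => if n = 0 then (1 : ℂ) else 0 := by
      funext n
      rw [PowerSeries.coeff_one]
      split_ifs with h0
      · simp [h0]
      · simp
    rw [e]
    exact hasSum_ite_eq 0 1
  | insert a' s ha ih =>
    rw [Finset.prod_insert ha, Finset.prod_insert ha]
    exact h77_hasSum_mul (h a' (Finset.mem_insert_self a' s))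
      (ih fun i hi => h i (Finset.mem_insert_of_mem hi))

/-- A constant power series at a point. -/
theorem h89_hasSum_C (a q : ℂ) :
    HasSum (fun n : ℕ => (PowerSeries.C a : PowerSeries ℂ).coeff n * q ^ n) a := by
  have e : (fun n : ℕ => (PowerSeries.C a : PowerSeries ℂ).coeff n * q ^ n) =
      fun n => if n = 0 then a else 0 := by
    funext n
    rw [PowerSeries.coeff_C]
    split_ifs with h0
    · simp [h0]
    · simp
  rw [e]
  exact hasSum_ite_eq 0 a

/-- Rescaling the variable. -/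
theorem h89_hasSum_rescale (b : PowerSeries ℂ) (a x v : ℂ)
    (h : HasSum (fun n : ℕ => b.coeff n * (a * x) ^ n) v) :
    HasSum (fun n : ℕ => (PowerSeries.rescale a b).coeff n * x ^ n) v := by
  have e : (fun n : ℕ => (PowerSeries.rescale a b).coeff n * x ^ n) =
      fun n : ℕ => b.coeff n * (a * x) ^ n := by
    funext n
    rw [PowerSeries.coeff_rescale, mul_pow]
    ring
  rw [e]
  exact h

/-- Substituting `x ^ p`. -/
theorem h89_hasSum_expand (p : ℕ) (hp : p ≠ 0) (B : PowerSeries ℂ) (x v : ℂ)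
    (h : HasSum (fun n : ℕ => (PowerSeries.expand p hp B).coeff n * x ^ n) v) :
    HasSum (fun m : ℕ => B.coeff m * (x ^ p) ^ m) v := by
  have hinj : Function.Injective (fun m : ℕ => p * m) :=
    fun a b hab => Nat.eq_of_mul_eq_mul_left (Nat.pos_of_ne_zero hp) hab
  have h0 : ∀ n : ℕ, n ∉ Set.range (fun m : ℕ => p * m) →
      (PowerSeries.expand p hp B).coeff n * x ^ n = 0 := by
    intro n hn
    have hd : ¬ p ∣ n := fun ⟨m, hm⟩ => hn ⟨m, hm.symm⟩
    rw [PowerSeries.coeff_expand_of_not_dvd p hp B hd, zero_mul]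
  have h1 := (hinj.hasSum_iff h0).mpr h
  have e : (fun m : ℕ => B.coeff m * (x ^ p) ^ m) =
      (fun n : ℕ => (PowerSeries.expand p hp B).coeff n * x ^ n) ∘ fun m : ℕ => p * m := by
    funext m
    simp only [Function.comp_apply]
    rw [PowerSeries.coeff_expand_mul, pow_mul]
  rw [e]
  exact h1

/-- **The analytic bridge**, pointwise form: if `G(w) = ∑ b_n q(w)^n` for all `w`, then
`∏_{j<p} G((z + j)/p) = ∑ (Nm b)_m q(z)^m`. -/
theorem h89_hasSum_fnorm (p : ℕ) (hp : p ≠ 0) (b : PowerSeries ℂ) (G : ℍ → ℂ)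
    (hG : ∀ w : ℍ, HasSum (fun n : ℕ => b.coeff n * 𝕢 1 w ^ n) (G w)) (z : ℍ) :
    HasSum (fun m : ℕ => (h77_fnorm p b).coeff m * 𝕢 1 z ^ m)
      (∏ j ∈ Finset.range p, G (ofComplex (((z : ℂ) + j) / p))) := by
  have hp' : (p : ℂ) ≠ 0 := Nat.cast_ne_zero.mpr hp
  have hpR : (0 : ℝ) < p := Nat.cast_pos.mpr (Nat.pos_of_ne_zero hp)
  set ζ : ℂ := Complex.exp (2 * (Real.pi : ℂ) * Complex.I / p) with hζdef
  have hζ : IsPrimitiveRoot ζ p := Complex.isPrimitiveRoot_exp p hp
  set x : ℂ := Complex.exp (2 * (Real.pi : ℂ) * Complex.I * z / p) with hxdef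
  have hx : x ^ p = 𝕢 1 z := by
    rw [hxdef, ← Complex.exp_nat_mul, Function.Periodic.qParam]
    congr 1
    push_cast
    field_simp
  have him : ∀ j : ℕ, 0 < (((z : ℂ) + j) / p).im := by
    intro j
    have e : (((z : ℂ) + j) / p).im = z.im / p := by
      rw [Complex.div_natCast_im, Complex.add_im, Complex.natCast_im, add_zero]
      rfl
    rw [e]
    exact div_pos z.im_pos hpR
  have hq : ∀ j : ℕ, 𝕢 1 (ofComplex (((z : ℂ) + j) / p)) = ζ ^ j * x := by
    intro j
    rw [UpperHalfPlane.ofComplex_apply_of_im_pos (him j), UpperHalfPlane.coe_mk,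
      Function.Periodic.qParam, hζdef, hxdef, ← Complex.exp_nat_mul, ← Complex.exp_add]
    congr 1
    push_cast
    field_simp
    ring
  have h1 : ∀ j ∈ Finset.range p,
      HasSum (fun n : ℕ => (PowerSeries.rescale (ζ ^ j) b).coeff n * x ^ n)
        (G (ofComplex (((z : ℂ) + j) / p))) := by
    intro j _
    apply h89_hasSum_rescale
    rw [← hq j]
    exact hG _
  have h2 := h89_hasSum_prod (Finset.range p) (fun j => PowerSeries.rescale (ζ ^ j) b) x _ h1
  rw [← h77_expand_fnorm p hp ζ hζ b] at h2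
  have h3 := h89_hasSum_expand p hp _ x _ h2
  rwa [hx] at h3

/-- **The `q`-expansion of a norm form.**  If `N(z) = F(z) ∏_{j<p} (F ∣[k] S)(z + j)` is a level
one form and `(F ∣[k] S)(z) = κ G(z/p)` with `G` of level `Γ₀(p)`, then
`qExp N = κ ^ p • (qExp F * Nm (qExp G))`. -/
theorem h89_qExp_norm (p : ℕ) [Fact p.Prime] {k k' K : ℤ} (F : ModularForm (Gamma0 p) k)
    (G : ModularForm (Gamma0 p) k') (κ : ℂ)
    (hFG : ∀ z : ℍ, (⇑F ∣[k] ModularGroup.S) z = κ * G (ofComplex ((z : ℂ) / p)))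
    (N : ModularForm 𝒮ℒ K)
    (hN : ∀ z : ℍ, N z = F z * ∏ j ∈ Finset.range p, (⇑F ∣[k] ModularGroup.S) ((j : ℝ) +ᵥ z)) :
    qExpansion 1 N =
      PowerSeries.C (κ ^ p) * (qExpansion 1 F * h77_fnorm p (qExpansion 1 G)) := by
  have hp : p ≠ 0 := (Fact.out : p.Prime).ne_zero
  have hΓ := CongruenceSubgroup.one_mem_strictPeriods_Gamma0 p
  have hFsum : ∀ z : ℍ, HasSum (fun m : ℕ => (qExpansion 1 F).coeff m * 𝕢 1 z ^ m) (F z) :=
    fun z => ModularForm.hasSum_qExpansion F one_pos hΓ z
  have hGsum : ∀ z : ℍ, HasSum (fun m : ℕ => (qExpansion 1 G).coeff m * 𝕢 1 z ^ m) (G z) :=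
    fun z => ModularForm.hasSum_qExpansion G one_pos hΓ z
  have key : ∀ z : ℍ, HasSum (fun m : ℕ =>
      (PowerSeries.C (κ ^ p) * (qExpansion 1 F * h77_fnorm p (qExpansion 1 G))).coeff m
        * 𝕢 1 z ^ m) (N z) := by
    intro z
    have h1 := h89_hasSum_fnorm p hp (qExpansion 1 G) G hGsum z
    have h2 := h77_hasSum_mul (h89_hasSum_C (κ ^ p) (𝕢 1 z)) (h77_hasSum_mul (hFsum z) h1)
    have e : N z = κ ^ p * (F z * ∏ j ∈ Finset.range p, G (ofComplex (((z : ℂ) + j) / p))) := by
      rw [hN z]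
      have e1 : ∀ j ∈ Finset.range p, (⇑F ∣[k] ModularGroup.S) ((j : ℝ) +ᵥ z)
          = κ * G (ofComplex (((z : ℂ) + j) / p)) := by
        intro j _
        rw [hFG, UpperHalfPlane.coe_vadd]
        congr 3
        push_cast
        ring
      rw [Finset.prod_congr rfl e1, Finset.prod_mul_distrib, Finset.prod_const, Finset.card_range]
      ring
    rw [e]
    exact h2
  ext m
  have := ModularFormClass.qExpansion_coeff_unique (c := fun m =>
      (PowerSeries.C (κ ^ p) * (qExpansion 1 F * h77_fnorm p (qExpansion 1 G))).coeff m)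
    one_pos one_mem_strictPeriods_SL (f := N) (by simpa using key) m
  exact this.symm

end Fermat.Agent.S16
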