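import Mathlib
import Fermat.Agent.S20.h84_CuspTrace

/-!
# The norm of a modular form of level `Γ₀(p)` to level one (helper89)

For a prime `p` the cosets of `Γ₀(p)` in `SL(2, ℤ)` are represented by `1` and `(S T^j)⁻¹`,
`j < p`.  Hence Mathlib's `ModularForm.norm` of `F ∈ M_k(Γ₀(p))` is the level one form of weight
`k (p + 1)` with values `F(z) * ∏_{j<p} (F ∣[k] S)(z + j)`.
-/

set_option autoImplicit false

open UpperHalfPlane ModularForm SlashInvariantForm CongruenceSubgroup Matrix.SpecialLinearGroup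
open scoped MatrixGroups ModularForm Manifold

namespace Fermat.Agent.S16

open Fermat.Agent.S20

/-- The matrix `S T^j = [0, -1; 1, j]`. -/
def h89_ST (j : ℤ) : SL(2, ℤ) := ⟨!![0, -1; 1, j], by simp [Matrix.det_fin_two]⟩

theorem h89_ST_eq (j : ℤ) : h89_ST j = ModularGroup.S * ModularGroup.T ^ j := by
  ext i l
  rw [Matrix.SpecialLinearGroup.coe_mul, ModularGroup.coe_T_zpow, ModularGroup.coe_S]
  fin_cases i <;> fin_cases l <;> simp [h89_ST, Matrix.mul_apply, Fin.sum_univ_two]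

theorem h89_ST_inv_00 (j : ℤ) : (h89_ST j)⁻¹ 0 0 = j := by
  rw [Matrix.SpecialLinearGroup.SL2_inv_expl]
  simp [h89_ST]

theorem h89_ST_inv_10 (j : ℤ) : (h89_ST j)⁻¹ 1 0 = -1 := by
  rw [Matrix.SpecialLinearGroup.SL2_inv_expl]
  simp [h89_ST]

/-- Coset representatives of `Γ₀(p)` in `SL(2, ℤ)`. -/
def h89_rep (p : ℕ) : Option (Fin p) → SL(2, ℤ)
  | none => 1
  | some j => (h89_ST (j : ℕ))⁻¹

theorem h89_inv_mul_10 (g g' : SL(2, ℤ)) :
    (g⁻¹ * g') 1 0 = g 0 0 * g' 1 0 - g' 0 0 * g 1 0 := by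
  have h : ((g⁻¹ * g' : SL(2, ℤ)) : Matrix (Fin 2) (Fin 2) ℤ) =
      (g⁻¹ : SL(2, ℤ)).1 * g'.1 := rfl
  rw [h, SL2_inv_expl, Matrix.mul_apply, Fin.sum_univ_two]
  simp
  ring

theorem h89_coset_eq_iff (N : ℕ) (g g' : SL(2, ℤ)) :
    ((g : SL(2, ℤ) ⧸ Gamma0 N) = (g' : SL(2, ℤ) ⧸ Gamma0 N)) ↔
      (N : ℤ) ∣ g 0 0 * g' 1 0 - g' 0 0 * g 1 0 := by
  rw [QuotientGroup.eq, Gamma0_mem, h89_inv_mul_10, ZMod.intCast_zmod_eq_zero_iff_dvd]

theorem h89_rep_bijective (p : ℕ) [Fact p.Prime] :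
    Function.Bijective (fun o : Option (Fin p) => (h89_rep p o : SL(2, ℤ) ⧸ Gamma0 p)) := by
  have hp : p.Prime := Fact.out
  constructor
  · intro o o' h
    rw [h89_coset_eq_iff] at h
    cases o with
    | none =>
      cases o' with
      | none => rfl
      | some j' =>
        exfalso
        simp only [h89_rep, h89_ST_inv_00, h89_ST_inv_10] at h
        have h1 : ((1 : SL(2, ℤ)) 0 0 : ℤ) = 1 := rfl
        have h2 : ((1 : SL(2, ℤ)) 1 0 : ℤ) = 0 := rfl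
        rw [h1, h2] at h
        have h3 : (p : ℤ) ∣ 1 := by
          have := (dvd_neg (a := (p : ℤ)) (b := 1 * -1 - ((j' : ℕ) : ℤ) * 0)).mpr h
          simpa using this
        have h4 := Int.eq_one_of_dvd_one (by positivity) h3
        have h5 : p = 1 := by exact_mod_cast h4
        exact hp.one_lt.ne' h5
    | some j =>
      cases o' with
      | none =>
        exfalso
        simp only [h89_rep, h89_ST_inv_00, h89_ST_inv_10] at h
        have h1 : ((1 : SL(2, ℤ)) 0 0 : ℤ) = 1 := rfl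
        have h2 : ((1 : SL(2, ℤ)) 1 0 : ℤ) = 0 := rfl
        rw [h1, h2] at h
        have h3 : (p : ℤ) ∣ 1 := by simpa using h
        have h4 := Int.eq_one_of_dvd_one (by positivity) h3
        have h5 : p = 1 := by exact_mod_cast h4
        exact hp.one_lt.ne' h5
      | some j' =>
        simp only [h89_rep, h89_ST_inv_00, h89_ST_inv_10] at h
        have h3 : (p : ℤ) ∣ ((j' : ℕ) : ℤ) - ((j : ℕ) : ℤ) := by
          have e : ((j : ℕ) : ℤ) * -1 - ((j' : ℕ) : ℤ) * -1 = ((j' : ℕ) : ℤ) - ((j : ℕ) : ℤ) := by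
            ring
          rwa [e] at h
        have h4 : ((j' : ℕ) : ℤ) % p = ((j : ℕ) : ℤ) % p :=
          Int.emod_eq_emod_iff_emod_sub_eq_zero.mpr (Int.emod_eq_zero_of_dvd h3)
        have h5 : (j' : ℕ) % p = (j : ℕ) % p := by exact_mod_cast h4
        rw [Nat.mod_eq_of_lt j.2, Nat.mod_eq_of_lt j'.2] at h5
        congr 1
        exact Fin.ext h5.symm
  · intro x
    induction x using QuotientGroup.induction_on with
    | H g =>
      by_cases hc : (p : ℤ) ∣ g 1 0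
      · refine ⟨none, ?_⟩
        show ((h89_rep p none : SL(2, ℤ)) : SL(2, ℤ) ⧸ Gamma0 p) = g
        rw [h89_coset_eq_iff]
        have h1 : ((1 : SL(2, ℤ)) 0 0 : ℤ) = 1 := rfl
        have h2 : ((1 : SL(2, ℤ)) 1 0 : ℤ) = 0 := rfl
        simp only [h89_rep, h1, h2]
        simpa using hc
      · -- `g 1 0` is invertible mod `p`
        have hcop : IsCoprime (g 1 0) (p : ℤ) := by
          rw [Int.isCoprime_iff_gcd_eq_one]
          have := (Nat.Prime.coprime_iff_not_dvd hp).mpr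
            (fun h : p ∣ (g 1 0).natAbs => hc (Int.natCast_dvd.mpr h))
          rw [Int.gcd_comm]
          simpa [Int.gcd, Nat.coprime_iff_gcd_eq_one] using this
        obtain ⟨u, v, huv⟩ := hcop
        -- `u * g 1 0 ≡ 1 mod p`; take `j ≡ - u * g 0 0`
        set t : ℤ := (-(u * g 0 0)) % p with ht
        have ht0 : 0 ≤ t := Int.emod_nonneg _ (by exact_mod_cast hp.ne_zero)
        have htp : t < p := Int.emod_lt_of_pos _ (by exact_mod_cast hp.pos)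
        have htn : (t.toNat : ℤ) = t := Int.toNat_of_nonneg ht0
        have hlt : t.toNat < p := by
          have : (t.toNat : ℤ) < p := by rw [htn]; exact htp
          exact_mod_cast this
        refine ⟨some ⟨t.toNat, hlt⟩, ?_⟩
        show ((h89_rep p (some ⟨t.toNat, hlt⟩) : SL(2, ℤ)) : SL(2, ℤ) ⧸ Gamma0 p) = g
        rw [h89_coset_eq_iff]
        simp only [h89_rep, h89_ST_inv_00, h89_ST_inv_10, htn]
        have h6 : (p : ℤ) ∣ t - (-(u * g 0 0)) := by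
          rw [ht]
          exact (Int.mod_modEq _ _).symm.dvd
        -- `t * g 1 0 + g 0 0 = (t + u g00) g10 + g00 (1 - u g10) = (t + u g00) g10 + g00 v p`
        have e : t * g 1 0 - g 0 0 * -1 = (t - (-(u * g 0 0))) * g 1 0 + g 0 0 * v * p := by
          have : 1 - u * g 1 0 = v * p := by linarith
          linear_combination (g 0 0) * this
        rw [e]
        exact dvd_add (Dvd.dvd.mul_right h6 _) (Dvd.intro_left _ rfl)

/-- Slashing with `T ^ n` is translation by `n`. -/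
theorem h89_slash_T_zpow (G : ℍ → ℂ) (k : ℤ) (n : ℤ) (τ : ℍ) :
    (G ∣[k] (ModularGroup.T ^ n)) τ = G ((n : ℝ) +ᵥ τ) := by
  rw [ModularForm.SL_slash_apply, UpperHalfPlane.modular_T_zpow_smul]
  have h1 : (ModularGroup.T ^ n) 1 0 = 0 := by rw [ModularGroup.coe_T_zpow]; rfl
  have h2 : (ModularGroup.T ^ n) 1 1 = 1 := by rw [ModularGroup.coe_T_zpow]; rfl
  have h3 : ∀ g : SL(2, ℤ), denom (toGL ((Matrix.SpecialLinearGroup.map (Int.castRingHom ℝ))
      g)) (τ : ℂ) = ((g 1 0 : ℤ) : ℂ) * τ + ((g 1 1 : ℤ) : ℂ) := by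
    intro g
    simp [UpperHalfPlane.denom]
  rw [h3, h1, h2]
  simp

/-- Slashing with `S T^j`. -/
theorem h89_slash_ST (G : ℍ → ℂ) (k : ℤ) (j : ℤ) (τ : ℍ) :
    (G ∣[k] (h89_ST j)) τ = (G ∣[k] ModularGroup.S) ((j : ℝ) +ᵥ τ) := by
  rw [h89_ST_eq, SlashAction.slash_mul, h89_slash_T_zpow]

/-- The cosets of `Γ₀(p)` in `𝒮ℒ`, parametrised by `Option (Fin p)`. -/
noncomputable def h89_cosetEquiv (p : ℕ) [Fact p.Prime] :
    Option (Fin p) ≃ 𝒮ℒ ⧸ ((Gamma0 p : Subgroup SL(2, ℤ)) : Subgroup (GL (Fin 2) ℝ)).subgroupOf 𝒮ℒ :=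
  (Equiv.ofBijective _ (h89_rep_bijective p)).trans (h84_quotEquiv (Gamma0 p))

theorem h89_cosetEquiv_apply (p : ℕ) [Fact p.Prime] (o : Option (Fin p)) :
    h89_cosetEquiv p o = QuotientGroup.mk (h84_toSL (h89_rep p o)) := rfl

theorem h89_quotientFunc_toSL {𝒢 : Subgroup (GL (Fin 2) ℝ)} {k : ℤ} (F : ModularForm 𝒢 k)
    (g : SL(2, ℤ)) :
    quotientFunc F (QuotientGroup.mk (h84_toSL g) : 𝒮ℒ ⧸ 𝒢.subgroupOf 𝒮ℒ) = ⇑F ∣[k] g⁻¹ := by
  have h : quotientFunc F (QuotientGroup.mk (h84_toSL g) : 𝒮ℒ ⧸ 𝒢.subgroupOf 𝒮ℒ)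
      = (F : ℍ → ℂ) ∣[k] (h84_toSL g).val⁻¹ := quotientFunc_mk F (h84_toSL g)
  rw [h, ModularForm.SL_slash, map_inv]
  rfl

/-- The norm of a modular form, evaluated with an arbitrary `Fintype` structure on the
cosets. -/
theorem h89_norm_apply {𝒢 : Subgroup (GL (Fin 2) ℝ)} [𝒢.IsFiniteRelIndex 𝒮ℒ]
    [Fintype (𝒮ℒ ⧸ 𝒢.subgroupOf 𝒮ℒ)] {k : ℤ} (F : ModularForm 𝒢 k) (τ : ℍ) :
    ModularForm.norm 𝒮ℒ F τ = ∏ q : 𝒮ℒ ⧸ 𝒢.subgroupOf 𝒮ℒ, quotientFunc F q τ := by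
  rw [ModularForm.coe_norm]
  simp only [Finset.prod_apply]
  convert rfl

/-- **The norm form.**  For `F ∈ M_k(Γ₀(p))` there is a level one form of weight `k (p + 1)`
with values `F(z) * ∏_{j<p} (F ∣[k] S)(z + j)`. -/
theorem h89_norm_exists (p : ℕ) [Fact p.Prime] {k : ℤ} (F : ModularForm (Gamma0 p) k) :
    ∃ N : ModularForm 𝒮ℒ (k * (p + 1)), ∀ z : ℍ,
      N z = F z * ∏ j ∈ Finset.range p, (⇑F ∣[k] ModularGroup.S) ((j : ℝ) +ᵥ z) := by
  classical
  let _ : Fintype (𝒮ℒ ⧸ ((Gamma0 p : Subgroup SL(2, ℤ)) : Subgroup (GL (Fin 2) ℝ)).subgroupOf 𝒮ℒ) :=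
    Fintype.ofEquiv _ (h89_cosetEquiv p)
  have hcard : Nat.card
      (𝒮ℒ ⧸ ((Gamma0 p : Subgroup SL(2, ℤ)) : Subgroup (GL (Fin 2) ℝ)).subgroupOf 𝒮ℒ) = p + 1 := by
    rw [← Nat.card_congr (h89_cosetEquiv p)]
    simp
  have hw : k * (Nat.card
      (𝒮ℒ ⧸ ((Gamma0 p : Subgroup SL(2, ℤ)) : Subgroup (GL (Fin 2) ℝ)).subgroupOf 𝒮ℒ) : ℤ)
      = k * (p + 1) := by
    rw [hcard]
    push_cast
    ring
  refine ⟨ModularForm.mcast hw (ModularForm.norm 𝒮ℒ F), fun z => ?_⟩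
  rw [coe_mcast, h89_norm_apply F z, ← Equiv.prod_comp (h89_cosetEquiv p), Fintype.prod_option]
  congr 1
  · rw [h89_cosetEquiv_apply, h89_quotientFunc_toSL]
    simp [h89_rep]
  · rw [← Fin.prod_univ_eq_prod_range
      (fun j : ℕ => (⇑F ∣[k] ModularGroup.S) ((j : ℝ) +ᵥ z)) p]
    refine Finset.prod_congr rfl fun j _ => ?_
    rw [h89_cosetEquiv_apply, h89_quotientFunc_toSL]
    simp only [h89_rep, inv_inv]
    rw [h89_slash_ST]
    simp

/-- Slashing with `S` in concrete terms. -/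
theorem h89_slash_S_apply (G : ℍ → ℂ) (k : ℤ) (τ : ℍ) :
    (G ∣[k] ModularGroup.S) τ = (τ : ℂ) ^ (-k) * G (ModularGroup.S • τ) := by
  rw [ModularForm.SL_slash_apply, ModularGroup.denom_S, mul_comm]

end Fermat.Agent.S16
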