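import Mathlib
import Fermat.Agent.S16.h89_Norm
import Fermat.Agent.S16.h89_Bridge
import Fermat.Agent.S16.h6_Sturm

/-!
# The two-cusp Sturm lemma (VB-lemma), core form (helper89)

`F ∈ M_w(Γ₀(p))`, `G ∈ M_w(Γ₀(p))` with `(F ∣[w] S)(z) = κ G(z/p)` (`κ ≠ 0`; for the Fricke
transform `G = F#` one has `κ = p^(-w)`).  If `c₁ qExp(F) = f ∈ ℤ⟦q⟧` has `ℓ`-order `n`,
`c₂ qExp(G) = b ∈ ℤ⟦q⟧`, `b ≡ A(q^p) mod ℓ` and `A` has `ℓ`-order `n'`, then
`12 (n + p n') ≤ w (p + 1)`.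
-/

set_option autoImplicit false

open UpperHalfPlane ModularForm Filter Topology CongruenceSubgroup
open scoped MatrixGroups Manifold ModularForm

namespace Fermat.Agent.S16

/-- The `ℓ`-adic order of `f * Nm(b)` when `b ≡ A(q^p) mod ℓ`. -/
theorem h89_order_core (p ℓ : ℕ) (hp : p ≠ 0) (hℓ : ℓ.Prime) (f b A : PowerSeries ℤ)
    (hb : ∀ i : ℕ, (ℓ : ℤ) ∣ PowerSeries.coeff i b -
      (if p ∣ i then PowerSeries.coeff (i / p) A else 0))
    (n n' : ℕ) (hn : ∀ i < n, (ℓ : ℤ) ∣ PowerSeries.coeff i f)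
    (hn' : ¬ (ℓ : ℤ) ∣ PowerSeries.coeff n f)
    (hm : ∀ i < n', (ℓ : ℤ) ∣ PowerSeries.coeff i A)
    (hm' : ¬ (ℓ : ℤ) ∣ PowerSeries.coeff n' A) :
    (∀ i < n + p * n', (ℓ : ℤ) ∣ PowerSeries.coeff i (f * h77_fnorm p b)) ∧
      ¬ (ℓ : ℤ) ∣ PowerSeries.coeff (n + p * n') (f * h77_fnorm p b) := by
  have : Fact ℓ.Prime := ⟨hℓ⟩
  set φ : ℤ →+* ZMod ℓ := Int.castRingHom (ZMod ℓ) with hφ
  have hdvd : ∀ a : ℤ, φ a = 0 ↔ (ℓ : ℤ) ∣ a := fun a => ZMod.intCast_zmod_eq_zero_iff_dvd a ℓ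
  have hbar : PowerSeries.map φ b = PowerSeries.expand p hp (PowerSeries.map φ A) := by
    ext i
    rw [PowerSeries.coeff_map, PowerSeries.coeff_expand]
    have h := (hdvd _).mpr (hb i)
    rw [map_sub, sub_eq_zero] at h
    rw [h]
    split_ifs with hd
    · rw [PowerSeries.coeff_map]
    · rw [map_zero]
  have hM : PowerSeries.map φ (f * h77_fnorm p b) =
      PowerSeries.map φ f * (PowerSeries.map φ A) ^ p := by
    rw [map_mul, h77_fnorm_map, hbar, h77_fnorm_expand]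
  have hof : (PowerSeries.map φ f).order = n := by
    rw [PowerSeries.order_eq_nat]
    refine ⟨?_, fun i hi => ?_⟩
    · rw [PowerSeries.coeff_map]
      exact fun h => hn' ((hdvd _).mp h)
    · rw [PowerSeries.coeff_map]
      exact (hdvd _).mpr (hn i hi)
  have hoA : (PowerSeries.map φ A).order = n' := by
    rw [PowerSeries.order_eq_nat]
    refine ⟨?_, fun i hi => ?_⟩
    · rw [PowerSeries.coeff_map]
      exact fun h => hm' ((hdvd _).mp h)
    · rw [PowerSeries.coeff_map]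
      exact (hdvd _).mpr (hm i hi)
  have ho : (PowerSeries.map φ (f * h77_fnorm p b)).order = ((n + p * n' : ℕ) : ℕ∞) := by
    rw [hM, PowerSeries.order_mul, PowerSeries.order_pow, hof, hoA]
    push_cast
    rw [nsmul_eq_mul]
  obtain ⟨h1, h2⟩ := PowerSeries.order_eq_nat.mp ho
  constructor
  · intro i hi
    have := h2 i hi
    rw [PowerSeries.coeff_map] at this
    exact (hdvd _).mp this
  · intro hd
    apply h1
    rw [PowerSeries.coeff_map]
    exact (hdvd _).mpr hd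

/-- **VB-lemma, core form** (two-cusp Sturm bound via the norm to level one). -/
theorem h89_vb_core (p ℓ : ℕ) [Fact p.Prime] (hℓ : ℓ.Prime) {w : ℤ}
    (F G : ModularForm (Gamma0 p) w) (κ : ℂ) (hκ : κ ≠ 0)
    (hFG : ∀ z : ℍ, (⇑F ∣[w] ModularGroup.S) z = κ * G (ofComplex ((z : ℂ) / p)))
    (c₁ c₂ : ℂ) (f b A : PowerSeries ℤ)
    (h1 : c₁ • qExpansion 1 F = PowerSeries.map (Int.castRingHom ℂ) f)
    (h2 : c₂ • qExpansion 1 G = PowerSeries.map (Int.castRingHom ℂ) b)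
    (hb : ∀ i : ℕ, (ℓ : ℤ) ∣ PowerSeries.coeff i b -
      (if p ∣ i then PowerSeries.coeff (i / p) A else 0))
    (n n' : ℕ) (hn : ∀ i < n, (ℓ : ℤ) ∣ PowerSeries.coeff i f)
    (hn' : ¬ (ℓ : ℤ) ∣ PowerSeries.coeff n f)
    (hm : ∀ i < n', (ℓ : ℤ) ∣ PowerSeries.coeff i A)
    (hm' : ¬ (ℓ : ℤ) ∣ PowerSeries.coeff n' A) :
    12 * ((n : ℤ) + p * n') ≤ w * (p + 1) := by
  have hp : p ≠ 0 := (Fact.out : p.Prime).ne_zero
  obtain ⟨N, hN⟩ := h89_norm_exists p F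
  have hqN := h89_qExp_norm p F G κ hFG N hN
  obtain ⟨hlow, htop⟩ := h89_order_core p ℓ hp hℓ f b A hb n n' hn hn' hm hm'
  set M : PowerSeries ℤ := f * h77_fnorm p b with hMdef
  -- the key identity `C (c₁ c₂^p) * qExp N = C (κ^p) * M`
  have hkey : PowerSeries.C (c₁ * c₂ ^ p) * qExpansion 1 N =
      PowerSeries.C (κ ^ p) * PowerSeries.map (Int.castRingHom ℂ) M := by
    have e1 : PowerSeries.map (Int.castRingHom ℂ) M = PowerSeries.map (Int.castRingHom ℂ) f *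
        h77_fnorm p (PowerSeries.map (Int.castRingHom ℂ) b) := by
      rw [hMdef, map_mul, h77_fnorm_map]
    have e2 : PowerSeries.map (Int.castRingHom ℂ) M =
        PowerSeries.C (c₁ * c₂ ^ p) * (qExpansion 1 F * h77_fnorm p (qExpansion 1 G)) := by
      rw [e1, ← h1, ← h2, PowerSeries.smul_eq_C_mul, PowerSeries.smul_eq_C_mul, h77_fnorm_mul,
        h77_fnorm_C p hp, map_mul, map_pow]
      ring
    rw [e2, hqN]
    ring
  have hcoeff : ∀ i : ℕ, (c₁ * c₂ ^ p) * (qExpansion 1 N).coeff i = κ ^ p * ((M.coeff i : ℤ) : ℂ) := by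
    intro i
    have := congrArg (PowerSeries.coeff i) hkey
    rw [PowerSeries.coeff_C_mul, PowerSeries.coeff_C_mul, PowerSeries.coeff_map] at this
    simpa using this
  -- the additive subgroup of the Sturm argument
  let J : AddSubgroup ℂ := (AddSubgroup.zmultiples (κ ^ p * (ℓ : ℂ))).comap
    (AddMonoidHom.mulLeft (c₁ * c₂ ^ p))
  have hJ : ∀ x : ℂ, x ∈ J ↔ ∃ m : ℤ, (m : ℂ) * (κ ^ p * (ℓ : ℂ)) = (c₁ * c₂ ^ p) * x := by
    intro x
    show (AddMonoidHom.mulLeft (c₁ * c₂ ^ p)) x ∈ AddSubgroup.zmultiples (κ ^ p * (ℓ : ℂ)) ↔ _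
    rw [AddSubgroup.mem_zmultiples_iff]
    simp [zsmul_eq_mul]
  by_contra hcon
  rw [not_le] at hcon
  have hsturm := h6_sturm_levelOne J N (fun i hi => by
    rw [hJ]
    have hlt : i < n + p * n' := by
      have : 12 * (i : ℤ) < 12 * ((n : ℤ) + p * n') := lt_of_le_of_lt hi hcon
      have h3 : (i : ℤ) < (n : ℤ) + p * n' := by linarith
      exact_mod_cast h3
    obtain ⟨m, hm0⟩ := hlow i hlt
    refine ⟨m, ?_⟩
    rw [hcoeff i, hm0]
    push_cast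
    ring) (n + p * n')
  rw [hJ] at hsturm
  obtain ⟨m, hm0⟩ := hsturm
  rw [hcoeff] at hm0
  have hκp : κ ^ p ≠ 0 := pow_ne_zero _ hκ
  have h3 : ((m * (ℓ : ℤ) : ℤ) : ℂ) = ((M.coeff (n + p * n') : ℤ) : ℂ) := by
    apply mul_left_cancel₀ hκp
    rw [← hm0]
    push_cast
    ring
  have h4 : m * (ℓ : ℤ) = M.coeff (n + p * n') := by exact_mod_cast h3
  exact htop ⟨m, by rw [← h4]; ring⟩

end Fermat.Agent.S16
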