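import Mathlib
import Fermat.Agent.S16.h89_VBCore
import Fermat.Agent.S16.h70_Fricke

/-!
# The two-cusp Sturm lemma (VB-lemma) (helper89)

`F ∈ M_w(Γ₀(p))` with Fricke transform `F# = h70_sharp F`.  If `c₁ qExp(F) = f ∈ ℤ⟦q⟧` has
`ℓ`-order `n`, `c₂ qExp(F#) = b ∈ ℤ⟦q⟧`, `b ≡ A(q^p) mod ℓ` and `A` has `ℓ`-order `n'`, then
`12 (n + p n') ≤ w (p + 1)`.
-/

set_option autoImplicit false

open UpperHalfPlane ModularForm Filter Topology CongruenceSubgroup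
open scoped MatrixGroups Manifold ModularForm

namespace Fermat.Agent.S16

/-- The conjugate of `F` at the other cusp in terms of the Fricke transform:
`(F ∣[w] S)(z) = p^(-w) F#(z/p)`. -/
theorem h89_sharp_slash_S (p : ℕ) [Fact p.Prime] {w : ℤ} (F : ModularForm (Gamma0 p) w)
    (z : ℍ) :
    (⇑F ∣[w] ModularGroup.S) z = (p : ℂ) ^ (-w) * h70_sharp F (ofComplex ((z : ℂ) / p)) := by
  have hp : (p : ℂ) ≠ 0 := Nat.cast_ne_zero.mpr (Fact.out : p.Prime).ne_zero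
  have hpR : (0 : ℝ) < p := Nat.cast_pos.mpr (Fact.out : p.Prime).pos
  have hz : (z : ℂ) ≠ 0 := z.ne_zero
  have him : 0 < ((z : ℂ) / p).im := by
    rw [Complex.div_natCast_im]
    exact div_pos z.im_pos hpR
  have hcoe : ((ofComplex ((z : ℂ) / p) : ℍ) : ℂ) = (z : ℂ) / p := by
    rw [UpperHalfPlane.ofComplex_apply_of_im_pos him, UpperHalfPlane.coe_mk]
  have hpt : h70_W p • (ofComplex ((z : ℂ) / p)) = ModularGroup.S • z := by
    apply UpperHalfPlane.ext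
    rw [h70_W_coe_smul, UpperHalfPlane.modular_S_smul, UpperHalfPlane.coe_mk, hcoe]
    field_simp
  have hpw : (p : ℂ) ^ w ≠ 0 := zpow_ne_zero _ hp
  have hzw : (z : ℂ) ^ w ≠ 0 := zpow_ne_zero _ hz
  rw [h89_slash_S_apply, h70_sharp_apply, hpt, hcoe, div_zpow, ← mul_assoc]
  congr 1
  simp only [zpow_neg]
  field_simp

/-- **VB-lemma** (two-cusp Sturm bound), in the shape fixed by the S16 lead. -/
theorem h89_vb (p ℓ : ℕ) [Fact p.Prime] (hℓ : ℓ.Prime) {w : ℤ}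
    (F : ModularForm (CongruenceSubgroup.Gamma0 p) w) (c₁ c₂ : ℂ) (f b A : PowerSeries ℤ)
    (h1 : c₁ • qExpansion 1 F = PowerSeries.map (Int.castRingHom ℂ) f)
    (h2 : c₂ • qExpansion 1 (h70_sharp F) = PowerSeries.map (Int.castRingHom ℂ) b)
    (hb : ∀ i : ℕ, (ℓ : ℤ) ∣ PowerSeries.coeff i b -
      (if p ∣ i then PowerSeries.coeff (i / p) A else 0))
    (n n' : ℕ) (hn : ∀ i < n, (ℓ : ℤ) ∣ PowerSeries.coeff i f)
    (hn' : ¬ (ℓ : ℤ) ∣ PowerSeries.coeff n f)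
    (hm : ∀ i < n', (ℓ : ℤ) ∣ PowerSeries.coeff i A)
    (hm' : ¬ (ℓ : ℤ) ∣ PowerSeries.coeff n' A) :
    12 * ((n : ℤ) + p * n') ≤ w * (p + 1) := by
  have hp : (p : ℂ) ≠ 0 := Nat.cast_ne_zero.mpr (Fact.out : p.Prime).ne_zero
  exact h89_vb_core p ℓ hℓ F (h70_sharp F) ((p : ℂ) ^ (-w)) (zpow_ne_zero _ hp)
    (h89_sharp_slash_S p F) c₁ c₂ f b A h1 h2 hb n n' hn hn' hm hm'

end Fermat.Agent.S16
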