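import Mathlib
import Fermat.Agent.S16.h34_UBOddCore
import Fermat.Agent.S16.h70_Fricke
import Fermat.Agent.S16.h89_VB

/-!
# S16, upper bound: the odd `B4` cases

* `h34_not_one_of_dvd` : for a prime `ℓ ≥ 5` with `ℓ ∣ p + 1`, no `G ∈ M₂(Γ₀(p))` has
  `q`-expansion in `1 + ℓ ℤ[[q]]`;
* `h34_not_one_nine` : if `9 ∣ p + 1`, no `G ∈ M₂(Γ₀(p))` has `q`-expansion in `1 + 9 ℤ[[q]]`.

The argument is in `h34_UBOddCore.lean`; here the toolkit (`h70_sharp`, `h89_vb`) is plugged in.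
-/

set_option autoImplicit false

open UpperHalfPlane ModularForm CongruenceSubgroup ModularFormClass
open scoped MatrixGroups ModularForm Manifold

namespace Fermat.Agent.S16

/-- The toolkit of `h34_UBOddCore.lean` is provided by `h70_Fricke.lean` and `h89_VB.lean`. -/
theorem h34_hasToolkit (p l : ℕ) [Fact p.Prime] (hl : l.Prime) : h34_HasToolkit p l := by
  refine ⟨fun F => h70_sharp F, fun z => h70_W p • z, fun F z => h70_sharp_apply F z, ?_, ?_, ?_⟩
  · intro k A n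
    have hfun : ⇑(h70_sharp (h34_restrict p A)) =
        ((p : ℂ) ^ k) • ⇑(Fermat.Agent.S23.h97_levelRaise p A) := by
      funext z
      rw [h70_sharp_levelOne A (h34_restrict p A) (fun z => rfl) z]
      rfl
    rw [qCoeff, hfun, ModularForm.qExpansion_smul one_pos (h70_hΓ p), PowerSeries.coeff_smul,
      Fermat.Agent.S23.h97_qExpansion_levelRaise, qCoeff, smul_eq_mul]
  · intro G n
    rw [h70_sharp_qc_two, mul_comm n p]
  · intro w F c₁ c₂ f b A h1 h2 hb n n' hn hn' hm hm'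
    exact h89_vb p l hl F c₁ c₂ f b A h1 h2 hb n n' hn hn' hm hm'

/-- **(U5) for `ℓ ∣ p + 1`**: for a prime `ℓ ≥ 5` dividing `p + 1`, no weight 2 form on `Γ₀(p)`
has `q`-expansion in `1 + ℓ ℤ[[q]]`.  (The hypothesis `ℓ ≠ p` is not needed.) -/
theorem h34_not_one_of_dvd (p : ℕ) [Fact p.Prime] (l : ℕ) (hl : l.Prime) (hl5 : 5 ≤ l)
    (hdvd : l ∣ p + 1) (G : ModularForm (Gamma0 p) 2) : ¬ h60_One p l G :=
  h34_core_prime p l hl hl5 hdvd (h34_hasToolkit p l hl) G

/-- **(U9) for `9 ∣ p + 1`**: no weight 2 form on `Γ₀(p)` has `q`-expansion in `1 + 9 ℤ[[q]]`. -/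
theorem h34_not_one_nine (p : ℕ) [Fact p.Prime] (hdvd : 9 ∣ p + 1)
    (G : ModularForm (Gamma0 p) 2) : ¬ h60_One p 9 G :=
  h34_core_nine p hdvd (h34_hasToolkit p 3 Nat.prime_three) G

end Fermat.Agent.S16
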