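import Mathlib

/-!
# S16, block UB-B4: pure power-series algebra

Integer power series `S₃ = ∑ σ₃(n) qⁿ`, `S₅ = ∑ σ₅(n) qⁿ`, `E₄ = 1 + 240 S₃`, `E₆ = 1 - 504 S₅`,
`Δ = (E₄³ - E₆²)/1728`, and the integrality / congruence identities (at both cusps) used in the
upper-bound cases `l = 2` (`8 ∣ p + 1`), `l = 3` (`9 ∣ p + 1`) and `l ≥ 5` (`l ∣ p + 1`).
Everything here is formal: commutative-ring identities in `PowerSeries ℤ`.
-/

set_option autoImplicit false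

namespace Fermat.Agent.S16

open PowerSeries

/-- `∑ σ_k(n) qⁿ` as an integer power series. -/
noncomputable def h42_S (k : ℕ) : PowerSeries ℤ :=
  PowerSeries.mk fun n => (ArithmeticFunction.sigma k n : ℤ)

@[simp] theorem h42_coeff_S (k n : ℕ) :
    (h42_S k).coeff n = (ArithmeticFunction.sigma k n : ℤ) := by
  simp [h42_S]

/-- The `q`-expansion of `E₄`. -/
noncomputable def h42_E4 : PowerSeries ℤ := 1 + 240 * h42_S 3

/-- The `q`-expansion of `E₆`. -/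
noncomputable def h42_E6 : PowerSeries ℤ := 1 - 504 * h42_S 5

theorem h42_twelve_dvd (d : ℤ) : (12 : ℤ) ∣ 5 * d ^ 3 + 7 * d ^ 5 := by
  have h : ∀ x : ZMod 12, 5 * x ^ 3 + 7 * x ^ 5 = 0 := by decide
  have := h (d : ZMod 12)
  have h2 := (ZMod.intCast_zmod_eq_zero_iff_dvd (5 * d ^ 3 + 7 * d ^ 5) 12).mp (by
    push_cast
    exact this)
  exact_mod_cast h2

theorem h42_two_dvd (d : ℤ) : (2 : ℤ) ∣ d ^ 3 - d ^ 5 := by
  have h : ∀ x : ZMod 2, x ^ 3 - x ^ 5 = 0 := by decide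
  have := h (d : ZMod 2)
  have h2 := (ZMod.intCast_zmod_eq_zero_iff_dvd (d ^ 3 - d ^ 5) 2).mp (by
    push_cast
    exact this)
  exact_mod_cast h2

theorem h42_twelve_dvd_sigma (n : ℕ) :
    (12 : ℤ) ∣ 5 * (ArithmeticFunction.sigma 3 n : ℤ) + 7 * (ArithmeticFunction.sigma 5 n : ℤ) := by
  rw [ArithmeticFunction.sigma_apply, ArithmeticFunction.sigma_apply]
  push_cast
  rw [Finset.mul_sum, Finset.mul_sum, ← Finset.sum_add_distrib]
  exact Finset.dvd_sum fun d _ => h42_twelve_dvd d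

theorem h42_two_dvd_sigma (n : ℕ) :
    (2 : ℤ) ∣ (ArithmeticFunction.sigma 3 n : ℤ) - (ArithmeticFunction.sigma 5 n : ℤ) := by
  rw [ArithmeticFunction.sigma_apply, ArithmeticFunction.sigma_apply]
  push_cast
  rw [← Finset.sum_sub_distrib]
  exact Finset.dvd_sum fun d _ => h42_two_dvd d

/-- `u = (5 S₃ + 7 S₅)/12`. -/
noncomputable def h42_u : PowerSeries ℤ :=
  PowerSeries.mk fun n =>
    (5 * (ArithmeticFunction.sigma 3 n : ℤ) + 7 * (ArithmeticFunction.sigma 5 n : ℤ)) / 12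

theorem h42_u_spec : 12 * h42_u = 5 * h42_S 3 + 7 * h42_S 5 := by
  ext n
  have h12 : (12 : PowerSeries ℤ) = C (12 : ℤ) := by simp
  have h5 : (5 : PowerSeries ℤ) = C (5 : ℤ) := by simp
  have h7 : (7 : PowerSeries ℤ) = C (7 : ℤ) := by simp
  rw [h12, h5, h7, map_add, coeff_C_mul, coeff_C_mul, coeff_C_mul]
  simp only [h42_u, coeff_mk, h42_coeff_S]
  exact Int.mul_ediv_cancel' (h42_twelve_dvd_sigma n)

/-- `s = (S₃ - S₅)/2`. -/
noncomputable def h42_s : PowerSeries ℤ :=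
  PowerSeries.mk fun n =>
    ((ArithmeticFunction.sigma 3 n : ℤ) - (ArithmeticFunction.sigma 5 n : ℤ)) / 2

theorem h42_s_spec : h42_S 3 - h42_S 5 = 2 * h42_s := by
  ext n
  have h2 : (2 : PowerSeries ℤ) = C (2 : ℤ) := by simp
  rw [h2, map_sub, coeff_C_mul]
  simp only [h42_s, coeff_mk, h42_coeff_S]
  exact (Int.mul_ediv_cancel' (h42_two_dvd_sigma n)).symm

/-- The `q`-expansion of `Δ`, as an integer power series. -/
noncomputable def h42_D : PowerSeries ℤ :=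
  h42_u + 100 * h42_S 3 ^ 2 + 8000 * h42_S 3 ^ 3 - 147 * h42_S 5 ^ 2

theorem h42_D_spec : 1728 * h42_D = h42_E4 ^ 3 - h42_E6 ^ 2 := by
  unfold h42_D h42_E4 h42_E6
  linear_combination (144 : PowerSeries ℤ) * h42_u_spec

theorem h42_coeff_zero_S (k : ℕ) : (h42_S k).coeff 0 = 0 := by simp

theorem h42_coeff_one_S (k : ℕ) : (h42_S k).coeff 1 = 1 := by simp

theorem h42_coeff_zero_u : h42_u.coeff 0 = 0 := by
  simp [h42_u]

theorem h42_coeff_one_u : h42_u.coeff 1 = 1 := by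
  simp [h42_u]

theorem h42_coeff_zero_D : h42_D.coeff 0 = 0 := by
  have h0 : ∀ k : ℕ, PowerSeries.constantCoeff (h42_S k) = 0 := fun k => by
    rw [← PowerSeries.coeff_zero_eq_constantCoeff_apply]; simp
  have hu0 : PowerSeries.constantCoeff h42_u = 0 := by
    rw [← PowerSeries.coeff_zero_eq_constantCoeff_apply]; exact h42_coeff_zero_u
  rw [PowerSeries.coeff_zero_eq_constantCoeff_apply]
  simp [h42_D, h0, hu0]

theorem h42_coeff_one_D : h42_D.coeff 1 = 1 := by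
  have h0 : ∀ k : ℕ, PowerSeries.constantCoeff (h42_S k) = 0 := fun k => by
    rw [← PowerSeries.coeff_zero_eq_constantCoeff_apply]; simp
  have h100 : (100 : PowerSeries ℤ) = C (100 : ℤ) := by simp
  have h8000 : (8000 : PowerSeries ℤ) = C (8000 : ℤ) := by simp
  have h147 : (147 : PowerSeries ℤ) = C (147 : ℤ) := by simp
  have e2 : ∀ k : ℕ, (h42_S k ^ 2).coeff 1 = 0 := fun k => by
    rw [pow_two, PowerSeries.coeff_one_mul, h0 k]; ring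
  have e3 : ∀ k : ℕ, (h42_S k ^ 3).coeff 1 = 0 := fun k => by
    rw [pow_succ, PowerSeries.coeff_one_mul, h0 k, e2 k, map_pow, h0 k]; ring
  unfold h42_D
  rw [map_sub, map_add, map_add, h100, h8000, h147, coeff_C_mul, coeff_C_mul, coeff_C_mul,
    e2, e3, e2, h42_coeff_one_u]
  ring

/-! ### Ring identities: the case `l = 2` -/

section ring_identities

variable {R : Type*} [CommRing R]

/-- `l = 2`, cusp `∞`: the weight-8 combination is `256 · f₁` with `f₁ ≡ Δ mod 2`. -/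
theorem h42_two_inf (g u S3 S5 s : R) (hu : 12 * u = 5 * S3 + 7 * S5) (hs : S3 - S5 = 2 * s) :
    ∃ f1 r : R, 256 * f1 = (1 + 8 * g) ^ 4 - 6 * (1 + 240 * S3) * (1 + 8 * g) ^ 2
        + 8 * (1 - 504 * S5) * (1 + 8 * g) - 3 * (1 + 240 * S3) ^ 2 ∧
      f1 = (u + 100 * S3 ^ 2 + 8000 * S3 ^ 3 - 147 * S5 ^ 2) + 2 * r := by
  refine ⟨16 * g ^ 4 + 8 * g ^ 3 - 27 * u - 90 * S3 * g - 360 * S3 * g ^ 2 - 126 * S5 * g
    - 675 * S3 ^ 2, ?_, ?_, ?_⟩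
  · exact (-108) * S5 * g + (-180) * S5 * g ^ 2 + (-1550) * S5 * s + (-48000) * S5 * s ^ 2 + (-314) * S5 ^ 2 + (-24000) * S5 ^ 2 * s + (-4000) * S5 ^ 3 + (-90) * g * s + (-360) * g ^ 2 * s + (4) * g ^ 3 + (8) * g ^ 4 + (-1550) * s ^ 2 + (-32000) * s ^ 3 + (-14) * u
  · linear_combination (-576 : R) * hu
  · obtain rfl : S3 = S5 + 2 * s := by linear_combination hs
    ring

/-- `l = 2`, the other cusp (`p = 8k - 1`): the transformed combination is `256 · b` with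
`b ≡ Δ(q^p) mod 2`. -/
theorem h42_two_oth (p k g v T3 T5 t : R) (hp : p = 8 * k - 1)
    (hv : 12 * v = 5 * T3 + 7 * T5) (ht : T3 - T5 = 2 * t) :
    ∃ b r : R, 256 * b = (1 + 8 * g) ^ 4 - 6 * p ^ 2 * (1 + 240 * T3) * (1 + 8 * g) ^ 2
        - 8 * p ^ 3 * (1 - 504 * T5) * (1 + 8 * g) - 3 * p ^ 4 * (1 + 240 * T3) ^ 2 ∧
      b = (v + 100 * T3 ^ 2 + 8000 * T3 ^ 3 - 147 * T5 ^ 2) + 2 * r := by
  subst hp
  refine ⟨-8 * k ^ 3 * (6 * k - 1) + -8 * k ^ 2 * (16 * k - 3) * g + 24 * k * (1 - 4 * k) * g ^ 2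
    + 8 * g ^ 3 + 16 * g ^ 4 + 27 * (8 * k - 1) ^ 3 * v - 360 * (8 * k - 1) ^ 2 * k ^ 2 * T3
    - 90 * (8 * k - 1) ^ 2 * T3 * g - 360 * (8 * k - 1) ^ 2 * T3 * g ^ 2
    + 126 * (8 * k - 1) ^ 3 * T5 * g - 675 * (8 * k - 1) ^ 4 * T3 ^ 2, ?_, ?_, ?_⟩
  · exact (-108) * T5 * g + (2232) * T5 * g * k + (-14976) * T5 * g * k ^ 2 + (32256) * T5 * g * k ^ 3 + (-180) * T5 * g ^ 2 + (2880) * T5 * g ^ 2 * k + (-11520) * T5 * g ^ 2 * k ^ 2 + (43200) * T5 * k * t + (-180) * T5 * k ^ 2 + (-518400) * T5 * k ^ 2 * t + (2880) * T5 * k ^ 3 + (2764800) * T5 * k ^ 3 * t + (-11520) * T5 * k ^ 4 + (-5529600) * T5 * k ^ 4 * t + (-1550) * T5 * t + (-48000) * T5 * t ^ 2 + (-314) * T5 ^ 2 + (10800) * T5 ^ 2 * k + (-129600) * T5 ^ 2 * k ^ 2 + (691200) * T5 ^ 2 * k ^ 3 + (-1382400) * T5 ^ 2 * k ^ 4 + (-24000) * T5 ^ 2 * t + (-4000) * T5 ^ 3 + (1440) * g * k * t + (12) * g * k ^ 2 + (-5760) * g * k ^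 2 * t + (-64) * g * k ^ 3 + (-90) * g * t + (12) * g ^ 2 * k + (5760) * g ^ 2 * k * t + (-48) * g ^ 2 * k ^ 2 + (-23040) * g ^ 2 * k ^ 2 * t + (-360) * g ^ 2 * t + (4) * g ^ 3 + (8) * g ^ 4 + (43200) * k * t ^ 2 + (324) * k * v + (-360) * k ^ 2 * t + (-518400) * k ^ 2 * t ^ 2 + (-2592) * k ^ 2 * v + (4) * k ^ 3 + (5760) * k ^ 3 * t + (2764800) * k ^ 3 * t ^ 2 + (6912) * k ^ 3 * v + (-24) * k ^ 4 + (-23040) * k ^ 4 * t + (-5529600) * k ^ 4 * t ^ 2 + (-1550) * t ^ 2 + (-32000) * t ^ 3 + (-14) * v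
  · linear_combination (576 * (8 * k - 1) ^ 3 : R) * hv
  · obtain rfl : T3 = T5 + 2 * t := by linear_combination ht
    ring

/-! ### Ring identities: the case `l = 3` -/

/-- `l = 3`, cusp `∞`. -/
theorem h42_three_inf (g S3 : R) :
    ∃ f1 r : R, 3 * f1 = (1 + 9 * g) ^ 2 - (1 + 240 * S3) ∧ f1 = S3 + 3 * r :=
  ⟨6 * g + 27 * g ^ 2 - 80 * S3, 2 * g + 9 * g ^ 2 - 27 * S3, by ring, by ring⟩

/-- `l = 3`, the other cusp (`p = 9k - 1`). -/
theorem h42_three_oth (p k g T3 : R) (hp : p = 9 * k - 1) :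
    ∃ b r : R, 3 * b = (1 + 9 * g) ^ 2 - p ^ 2 * (1 + 240 * T3) ∧ b = T3 + 3 * r := by
  subst hp
  exact ⟨3 * k * (2 - 9 * k) + 6 * g + 27 * g ^ 2 - 80 * (9 * k - 1) ^ 2 * T3,
    k * (2 - 9 * k) + 2 * g + 9 * g ^ 2 - (2160 * k ^ 2 - 480 * k + 27) * T3, by ring, by ring⟩

/-! ### Ring identities: the case `l ≥ 5` -/

/-- `E₄`-version, cusp `∞`. -/
theorem h42_E4_inf (l g S3 : R) :
    ∃ r : R, (1 + l * g) ^ 2 - (1 + 240 * S3) = -240 * S3 + l * r :=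
  ⟨2 * g + l * g ^ 2, by ring⟩

/-- `E₄`-version, the other cusp (`p = l k - 1`). -/
theorem h42_E4_oth (l p k g T3 : R) (hp : p = l * k - 1) :
    ∃ r : R, (1 + l * g) ^ 2 - p ^ 2 * (1 + 240 * T3) = -240 * T3 + l * r := by
  subst hp
  exact ⟨(2 - l * k) * k + 2 * g + l * g ^ 2 + 240 * (2 - l * k) * k * T3, by ring⟩

/-- `E₆`-version, cusp `∞`. -/
theorem h42_E6_inf (l g S5 : R) :
    ∃ r : R, (1 + l * g) ^ 3 - (1 - 504 * S5) = 504 * S5 + l * r :=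
  ⟨3 * g + 3 * l * g ^ 2 + l ^ 2 * g ^ 3, by ring⟩

/-- `E₆`-version, the other cusp (`p = l k - 1`). -/
theorem h42_E6_oth (l p k g T5 : R) (hp : p = l * k - 1) :
    ∃ r : R, (1 + l * g) ^ 3 + p ^ 3 * (1 - 504 * T5) = 504 * T5 + l * r := by
  subst hp
  exact ⟨3 * g + 3 * l * g ^ 2 + l ^ 2 * g ^ 3 + k * ((l * k - 1) ^ 2 - (l * k - 1) + 1)
    - 504 * k * ((l * k - 1) ^ 2 - (l * k - 1) + 1) * T5, by ring⟩

end ring_identities

end Fermat.Agent.S16
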