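import Mathlib
import Fermat.Prelude.Def_FLTPrelim_Modularity
import Fermat.Prelude.Thm_CongruenceSubgroup_one_mem_strictPeriods_Gamma0
import Fermat.Agent.S20.h84_Bridge
import Fermat.Agent.S16.h60_UB
import Fermat.Agent.S16.h42_UBAlg

/-!
# S16, block UB-B4-EVEN: no `G ∈ 1 + 8 ℤ[[q]]` in `M₂(Γ₀(p))` when `8 ∣ p + 1` (core)

The weight-8 form `F = (G⁴ - 6 E₄ G² + 8 E₆ G - 3 E₄²)/256` has `q`-expansion `≡ Δ mod 2` at `∞`
and its Fricke transform has `q`-expansion `p⁴ · b` with `b ≡ Δ(q^p) mod 2`; the two-cusp Sturm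
lemma (VB) then gives `12 (1 + p) ≤ 8 (p + 1)`, which is absurd.

This file is toolkit-agnostic: the Fricke operator `sh` (with its pointwise formula, its values
on level-one forms and on weight-2 forms) and the VB lemma are explicit hypotheses of
`h42_not_one_eight_core`.
-/

set_option autoImplicit false

namespace Fermat.Agent.S16

open UpperHalfPlane ModularForm CongruenceSubgroup ModularFormClass EisensteinSeries
open scoped MatrixGroups ModularForm Manifold

noncomputable section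

/-! ### Restriction of level-one forms to `Γ₀(p)` -/

theorem h42_exists_restrict (p : ℕ) {k : ℤ} (A : ModularForm 𝒮ℒ k) :
    ∃ F : ModularForm (Gamma0 p) k, (⇑F : ℍ → ℂ) = ⇑A :=
  Fermat.Agent.S20.h84_exists_modularForm
    (Fermat.Agent.S20.h84_Lfun_le_Mfun p k (Fermat.Agent.S20.h84_coe_mem_Lfun A))

/-- A level-one modular form, as a modular form on `Γ₀(p)`. -/
def h42_res (p : ℕ) {k : ℤ} (A : ModularForm 𝒮ℒ k) : ModularForm (Gamma0 p) k :=
  (h42_exists_restrict p A).choose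

theorem h42_coe_res (p : ℕ) {k : ℤ} (A : ModularForm 𝒮ℒ k) :
    (⇑(h42_res p A) : ℍ → ℂ) = ⇑A :=
  (h42_exists_restrict p A).choose_spec

/-! ### `q`-expansions of sums, multiples and products on `Γ₀(p)` -/

section qexp

variable {p : ℕ} {k k' : ℤ}

theorem h42_qE_smul (c : ℂ) (f : ModularForm (Gamma0 p) k) :
    qExpansion 1 (⇑(c • f)) = PowerSeries.C c * qExpansion 1 f := by
  rw [FunLike.coe_smul, ModularForm.qExpansion_smul one_pos
    (CongruenceSubgroup.one_mem_strictPeriods_Gamma0 p), PowerSeries.smul_eq_C_mul]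

theorem h42_qE_add (f g : ModularForm (Gamma0 p) k) :
    qExpansion 1 (⇑(f + g)) = qExpansion 1 f + qExpansion 1 g := by
  rw [FunLike.coe_add]
  exact ModularForm.qExpansion_add one_pos (CongruenceSubgroup.one_mem_strictPeriods_Gamma0 p) f g

theorem h42_qE_sub (f g : ModularForm (Gamma0 p) k) :
    qExpansion 1 (⇑(f - g)) = qExpansion 1 f - qExpansion 1 g := by
  rw [FunLike.coe_sub]
  exact ModularForm.qExpansion_sub one_pos (CongruenceSubgroup.one_mem_strictPeriods_Gamma0 p) f g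

theorem h42_qE_mul (f : ModularForm (Gamma0 p) k) (g : ModularForm (Gamma0 p) k') :
    qExpansion 1 (⇑(f.mul g)) = qExpansion 1 f * qExpansion 1 g :=
  ModularForm.qExpansion_mul one_pos (CongruenceSubgroup.one_mem_strictPeriods_Gamma0 p) f g

end qexp

/-! ### The weight-8 combination -/

section w8

variable {p : ℕ}

/-- The weight-8 form `(A⁴ - 6 B A² + 8 C A - 3 B²)/256`. -/
def h42_w8 (A : ModularForm (Gamma0 p) 2) (B : ModularForm (Gamma0 p) 4)
    (C : ModularForm (Gamma0 p) 6) : ModularForm (Gamma0 p) 8 :=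
  (256 : ℂ)⁻¹ • (ModularForm.mcast (by norm_num) ((A.mul A).mul (A.mul A))
    - (6 : ℂ) • ModularForm.mcast (by norm_num) (B.mul (A.mul A))
    + (8 : ℂ) • ModularForm.mcast (by norm_num) (C.mul A)
    - (3 : ℂ) • ModularForm.mcast (by norm_num) (B.mul B))

theorem h42_w8_apply (A : ModularForm (Gamma0 p) 2) (B : ModularForm (Gamma0 p) 4)
    (C : ModularForm (Gamma0 p) 6) (z : ℍ) :
    h42_w8 A B C z = (256 : ℂ)⁻¹ * (A z ^ 4 - 6 * B z * A z ^ 2 + 8 * C z * A z - 3 * B z ^ 2) := by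
  have hmul : ∀ {k₁ k₂ : ℤ} (f : ModularForm (Gamma0 p) k₁) (g : ModularForm (Gamma0 p) k₂),
      (f.mul g) z = f z * g z := fun f g => by rw [ModularForm.coe_mul]; rfl
  simp only [h42_w8, smul_apply, sub_apply, add_apply, ModularForm.mcast_apply, hmul, smul_eq_mul]
  ring

theorem h42_qExp_w8 (A : ModularForm (Gamma0 p) 2) (B : ModularForm (Gamma0 p) 4)
    (C : ModularForm (Gamma0 p) 6) :
    qExpansion 1 (h42_w8 A B C) = PowerSeries.C (256 : ℂ)⁻¹ *
      (qExpansion 1 A ^ 4 - 6 * qExpansion 1 B * qExpansion 1 A ^ 2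
        + 8 * qExpansion 1 C * qExpansion 1 A - 3 * qExpansion 1 B ^ 2) := by
  unfold h42_w8
  rw [h42_qE_smul, h42_qE_sub, h42_qE_add, h42_qE_sub, h42_qE_smul, h42_qE_smul, h42_qE_smul]
  simp only [ModularForm.qExpansion_mcast, h42_qE_mul]
  have h6 : (PowerSeries.C (6 : ℂ) : PowerSeries ℂ) = 6 := map_ofNat _ 6
  have h8 : (PowerSeries.C (8 : ℂ) : PowerSeries ℂ) = 8 := map_ofNat _ 8
  have h3 : (PowerSeries.C (3 : ℂ) : PowerSeries ℂ) = 3 := map_ofNat _ 3
  rw [h6, h8, h3]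
  ring

end w8

/-! ### The Fricke transform of the weight-8 combination -/

section sharp

variable {p : ℕ}

/-- Any operator with the pointwise formula `F#(z) = z^(-k) F(W z)` commutes with the weight-8
combination. -/
theorem h42_sh_w8 (sh : ∀ k : ℤ, ModularForm (Gamma0 p) k → ModularForm (Gamma0 p) k)
    (W : ℍ → ℍ)
    (hsh : ∀ (k : ℤ) (F : ModularForm (Gamma0 p) k) (z : ℍ),
      sh k F z = (z : ℂ) ^ (-k) * F (W z))
    (A : ModularForm (Gamma0 p) 2) (B : ModularForm (Gamma0 p) 4)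
    (C : ModularForm (Gamma0 p) 6) :
    sh 8 (h42_w8 A B C) = h42_w8 (sh 2 A) (sh 4 B) (sh 6 C) := by
  refine DFunLike.ext _ _ fun z => ?_
  have hz : (z : ℂ) ≠ 0 := UpperHalfPlane.ne_zero z
  rw [hsh, h42_w8_apply, h42_w8_apply, hsh, hsh, hsh]
  simp only [zpow_neg, zpow_ofNat]
  field_simp

end sharp

/-! ### Integer `q`-expansions -/

section series

/-- Integer power series as complex power series. -/
local notation "ι" => PowerSeries.map (Int.castRingHom ℂ)

theorem h42_coeff_ofNat_mul (m : ℕ) [m.AtLeastTwo] (f : PowerSeries ℤ) (n : ℕ) :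
    PowerSeries.coeff n ((OfNat.ofNat m : PowerSeries ℤ) * f)
      = (OfNat.ofNat m : ℤ) * PowerSeries.coeff n f := by
  have h : (OfNat.ofNat m : PowerSeries ℤ) = PowerSeries.C (OfNat.ofNat m : ℤ) :=
    (map_ofNat (PowerSeries.C (R := ℤ)) m).symm
  rw [h, PowerSeries.coeff_C_mul]

theorem h42_coeff_natCast_mul (m : ℕ) (f : PowerSeries ℤ) (n : ℕ) :
    PowerSeries.coeff n ((m : PowerSeries ℤ) * f) = (m : ℤ) * PowerSeries.coeff n f := by
  have h : (m : PowerSeries ℤ) = PowerSeries.C (m : ℤ) :=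
    (map_natCast (PowerSeries.C (R := ℤ)) m).symm
  rw [h, PowerSeries.coeff_C_mul]

/-- The `q`-expansion of `E₄`. -/
theorem h42_qExp_E4 : qExpansion 1 E₄ = ι h42_E4 := by
  ext n
  rw [E_qExpansion_coeff (by norm_num) ⟨2, rfl⟩, PowerSeries.coeff_map, h42_E4, map_add,
    h42_coeff_ofNat_mul, h42_coeff_S, PowerSeries.coeff_one]
  by_cases hn : n = 0
  · subst hn
    simp
  · rw [if_neg hn, if_neg hn, show bernoulli 4 = -1 / 30 by decide +kernel]
    simp only [eq_intCast]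
    push_cast
    ring

/-- The `q`-expansion of `E₆`. -/
theorem h42_qExp_E6 : qExpansion 1 E₆ = ι h42_E6 := by
  ext n
  rw [E_qExpansion_coeff (by norm_num) ⟨3, rfl⟩, PowerSeries.coeff_map, h42_E6, map_sub,
    h42_coeff_ofNat_mul, h42_coeff_S, PowerSeries.coeff_one]
  by_cases hn : n = 0
  · subst hn
    simp
  · rw [if_neg hn, if_neg hn, show bernoulli 6 = 1 / 42 by decide +kernel]
    simp only [eq_intCast]
    push_cast
    ring

end series

/-! ### The main argument -/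

section main

local notation "ι" => PowerSeries.map (Int.castRingHom ℂ)

theorem h42_C_inv_mul {c : ℂ} (hc : c ≠ 0) {X Y : PowerSeries ℂ}
    (h : X = PowerSeries.C c * Y) : PowerSeries.C c⁻¹ * X = Y := by
  rw [h, ← mul_assoc, ← map_mul, inv_mul_cancel₀ hc, map_one, one_mul]

/-- **(U8), toolkit-agnostic core.**  Let `sh` be the Fricke operator `F ↦ F#` on modular forms
of level `Γ₀(p)` (pointwise formula `hsh`; `hlev`: `A# = p^k A(q^p)` for level-one `A`;
`htwo`: `G# = -p U_p G` in weight 2) and assume the two-cusp Sturm lemma `hvb` for `ℓ = 2`.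
If `8 ∣ p + 1` then no weight-2 form on `Γ₀(p)` has `q`-expansion in `1 + 8 ℤ[[q]]`. -/
theorem h42_not_one_eight_core (p : ℕ) [Fact p.Prime] (h8 : 8 ∣ p + 1)
    (sh : ∀ k : ℤ, ModularForm (Gamma0 p) k → ModularForm (Gamma0 p) k)
    (W : ℍ → ℍ)
    (hsh : ∀ (k : ℤ) (F : ModularForm (Gamma0 p) k) (z : ℍ),
      sh k F z = (z : ℂ) ^ (-k) * F (W z))
    (hlev : ∀ (k : ℤ) (A : ModularForm 𝒮ℒ k) (F : ModularForm (Gamma0 p) k),
      (⇑F : ℍ → ℂ) = ⇑A →
      ∀ n : ℕ, qCoeff (sh k F) n = (p : ℂ) ^ k * (if p ∣ n then qCoeff A (n / p) else 0))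
    (htwo : ∀ (G : ModularForm (Gamma0 p) 2) (n : ℕ),
      qCoeff (sh 2 G) n = -(p : ℂ) * qCoeff G (p * n))
    (hvb : ∀ (w : ℤ) (F : ModularForm (Gamma0 p) w) (c₁ c₂ : ℂ) (f b A : PowerSeries ℤ),
      c₁ • qExpansion 1 F = ι f → c₂ • qExpansion 1 (sh w F) = ι b →
      (∀ i : ℕ, (2 : ℤ) ∣ PowerSeries.coeff i b -
        (if p ∣ i then PowerSeries.coeff (i / p) A else 0)) →
      ∀ n n' : ℕ, (∀ i < n, (2 : ℤ) ∣ PowerSeries.coeff i f) →
      ¬ (2 : ℤ) ∣ PowerSeries.coeff n f →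
      (∀ i < n', (2 : ℤ) ∣ PowerSeries.coeff i A) → ¬ (2 : ℤ) ∣ PowerSeries.coeff n' A →
      12 * ((n : ℤ) + p * n') ≤ w * (p + 1))
    (G : ModularForm (Gamma0 p) 2) : ¬ h60_One p 8 G := by
  intro hG
  obtain ⟨k, hk⟩ := h8
  have hp0 : p ≠ 0 := (Fact.out : p.Prime).ne_zero
  have hpC : (p : ℂ) ≠ 0 := Nat.cast_ne_zero.mpr hp0
  choose c hc using hG
  -- the integer series
  set g : PowerSeries ℤ := PowerSeries.mk c with hg
  set g' : PowerSeries ℤ := PowerSeries.mk (fun n => c (p * n)) with hg'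
  set T3 : PowerSeries ℤ := PowerSeries.expand p hp0 (h42_S 3) with hT3
  set T5 : PowerSeries ℤ := PowerSeries.expand p hp0 (h42_S 5) with hT5
  set v : PowerSeries ℤ := PowerSeries.expand p hp0 h42_u with hv
  set t : PowerSeries ℤ := PowerSeries.expand p hp0 h42_s with ht
  -- q-expansions of `G`, `E₄`, `E₆` and of their Fricke transforms
  have hG1 : qExpansion 1 G = ι (1 + 8 * g) := by
    ext n
    rw [show (qExpansion 1 G).coeff n = qCoeff G n from rfl, hc n, PowerSeries.coeff_map, map_add,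
      h42_coeff_ofNat_mul, PowerSeries.coeff_one, hg, PowerSeries.coeff_mk]
    split_ifs <;> simp
  have hG2 : qExpansion 1 (sh 2 G) = ι (-(p : PowerSeries ℤ) * (1 + 8 * g')) := by
    ext n
    have hpn : p * n = 0 ↔ n = 0 := by simp [hp0]
    have e : PowerSeries.coeff n (-(p : PowerSeries ℤ) * (1 + 8 * g'))
        = -((p : ℤ) * ((if n = 0 then 1 else 0) + 8 * c (p * n))) := by
      rw [neg_mul, map_neg, h42_coeff_natCast_mul, map_add, h42_coeff_ofNat_mul,
        PowerSeries.coeff_one, hg', PowerSeries.coeff_mk]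
    rw [show (qExpansion 1 (sh 2 G)).coeff n = qCoeff (sh 2 G) n from rfl, htwo G n, hc (p * n),
      PowerSeries.coeff_map, e]
    simp only [hpn]
    split_ifs <;> simp
  have hE4a : qExpansion 1 (h42_res p E₄) = ι h42_E4 := by
    rw [h42_coe_res, h42_qExp_E4]
  have hE6a : qExpansion 1 (h42_res p E₆) = ι h42_E6 := by
    rw [h42_coe_res, h42_qExp_E6]
  have hE4b : qExpansion 1 (sh 4 (h42_res p E₄)) =
      ι ((p : PowerSeries ℤ) ^ 4 * (1 + 240 * T3)) := by
    ext n
    have hq : ∀ m, qCoeff E₄ m = ((PowerSeries.coeff m h42_E4 : ℤ) : ℂ) := fun m => by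
      rw [show qCoeff E₄ m = (qExpansion 1 E₄).coeff m from rfl, h42_qExp_E4,
        PowerSeries.coeff_map]
      rfl
    have hT : (1 + 240 * T3 : PowerSeries ℤ) = PowerSeries.expand p hp0 h42_E4 := by
      rw [h42_E4, map_add, map_one, map_mul, map_ofNat, hT3]
    rw [show (qExpansion 1 (sh 4 (h42_res p E₄))).coeff n = qCoeff (sh 4 (h42_res p E₄)) n
      from rfl, hlev 4 E₄ _ (h42_coe_res p E₄) n, hT, PowerSeries.coeff_map, ← Nat.cast_pow,
      h42_coeff_natCast_mul, PowerSeries.coeff_expand]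
    split_ifs <;> simp [hq, zpow_ofNat]
  have hE6b : qExpansion 1 (sh 6 (h42_res p E₆)) =
      ι ((p : PowerSeries ℤ) ^ 6 * (1 - 504 * T5)) := by
    ext n
    have hq : ∀ m, qCoeff E₆ m = ((PowerSeries.coeff m h42_E6 : ℤ) : ℂ) := fun m => by
      rw [show qCoeff E₆ m = (qExpansion 1 E₆).coeff m from rfl, h42_qExp_E6,
        PowerSeries.coeff_map]
      rfl
    have hT : (1 - 504 * T5 : PowerSeries ℤ) = PowerSeries.expand p hp0 h42_E6 := by
      rw [h42_E6, map_sub, map_one, map_mul, map_ofNat, hT5]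
    rw [show (qExpansion 1 (sh 6 (h42_res p E₆))).coeff n = qCoeff (sh 6 (h42_res p E₆)) n
      from rfl, hlev 6 E₆ _ (h42_coe_res p E₆) n, hT, PowerSeries.coeff_map, ← Nat.cast_pow,
      h42_coeff_natCast_mul, PowerSeries.coeff_expand]
    split_ifs <;> simp [hq, zpow_ofNat]
  -- the algebra at both cusps
  obtain ⟨f1, r1, hf1, hr1⟩ :=
    h42_two_inf g h42_u (h42_S 3) (h42_S 5) h42_s h42_u_spec h42_s_spec
  have hf1' : 256 * f1 = (1 + 8 * g) ^ 4 - 6 * h42_E4 * (1 + 8 * g) ^ 2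
      + 8 * h42_E6 * (1 + 8 * g) - 3 * h42_E4 ^ 2 := hf1
  have hr1' : f1 = h42_D + 2 * r1 := hr1
  have hv12 : 12 * v = 5 * T3 + 7 * T5 := by
    have := congrArg (PowerSeries.expand p hp0) h42_u_spec
    rw [map_mul, map_add, map_mul, map_mul, map_ofNat, map_ofNat, map_ofNat] at this
    exact this
  have ht2 : T3 - T5 = 2 * t := by
    have := congrArg (PowerSeries.expand p hp0) h42_s_spec
    rw [map_sub, map_mul, map_ofNat] at this
    exact this
  have hpk : (p : PowerSeries ℤ) = 8 * (k : PowerSeries ℤ) - 1 := by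
    have h : ((p + 1 : ℕ) : PowerSeries ℤ) = ((8 * k : ℕ) : PowerSeries ℤ) := by rw [hk]
    push_cast at h
    linear_combination h
  obtain ⟨b, r2, hb, hr2⟩ :=
    h42_two_oth (p : PowerSeries ℤ) (k : PowerSeries ℤ) g' v T3 T5 t hpk hv12 ht2
  have hVD : PowerSeries.expand p hp0 h42_D = v + 100 * T3 ^ 2 + 8000 * T3 ^ 3 - 147 * T5 ^ 2 := by
    rw [h42_D, map_sub, map_add, map_add, map_mul, map_mul, map_mul, map_pow, map_pow, map_pow,
      map_ofNat, map_ofNat, map_ofNat]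
  -- the weight-8 form and its two expansions
  have h256 : (256 : PowerSeries ℂ) = PowerSeries.C (256 : ℂ) := (map_ofNat _ 256).symm
  have hF1 : (1 : ℂ) • qExpansion 1 (h42_w8 G (h42_res p E₄) (h42_res p E₆)) = ι f1 := by
    rw [one_smul, h42_qExp_w8, hG1, hE4a, hE6a]
    refine h42_C_inv_mul (by norm_num) ?_
    rw [← h256]
    have := congrArg (ι) hf1'
    simp only [map_mul, map_sub, map_add, map_pow, map_ofNat, map_one] at this ⊢
    exact this.symm
  have hF2 : ((p : ℂ) ^ 4)⁻¹ • qExpansion 1 (sh 8 (h42_w8 G (h42_res p E₄) (h42_res p E₆)))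
      = ι b := by
    rw [h42_sh_w8 sh W hsh, h42_qExp_w8, hG2, hE4b, hE6b, PowerSeries.smul_eq_C_mul]
    have key : (-(p : PowerSeries ℤ) * (1 + 8 * g')) ^ 4
        - 6 * ((p : PowerSeries ℤ) ^ 4 * (1 + 240 * T3)) * (-(p : PowerSeries ℤ) * (1 + 8 * g')) ^ 2
        + 8 * ((p : PowerSeries ℤ) ^ 6 * (1 - 504 * T5)) * (-(p : PowerSeries ℤ) * (1 + 8 * g'))
        - 3 * ((p : PowerSeries ℤ) ^ 4 * (1 + 240 * T3)) ^ 2
        = (p : PowerSeries ℤ) ^ 4 * (256 * b) := by
      rw [hb]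
      ring
    refine h42_C_inv_mul (pow_ne_zero 4 hpC) (h42_C_inv_mul (by norm_num) ?_)
    have hpp : (PowerSeries.C ((p : ℂ) ^ 4) : PowerSeries ℂ) = (p : PowerSeries ℂ) ^ 4 := by
      rw [map_pow, map_natCast]
    rw [← h256, hpp]
    have := congrArg (ι) key
    simp only [map_mul, map_sub, map_add, map_pow, map_ofNat, map_one, map_neg, map_natCast]
      at this ⊢
    rw [this]
    ring
  -- the hypotheses of the two-cusp Sturm lemma
  have hb' : ∀ i : ℕ, (2 : ℤ) ∣ PowerSeries.coeff i b -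
      (if p ∣ i then PowerSeries.coeff (i / p) h42_D else 0) := by
    intro i
    rw [← PowerSeries.coeff_expand p hp0, hVD, hr2]
    refine ⟨PowerSeries.coeff i r2, ?_⟩
    rw [map_add, h42_coeff_ofNat_mul]
    ring
  have hn : ∀ i < 1, (2 : ℤ) ∣ PowerSeries.coeff i f1 := by
    intro i hi
    obtain rfl : i = 0 := by omega
    rw [hr1', map_add, h42_coeff_ofNat_mul, h42_coeff_zero_D]
    exact ⟨_, by ring⟩
  have hn' : ¬ (2 : ℤ) ∣ PowerSeries.coeff 1 f1 := by
    rw [hr1', map_add, h42_coeff_ofNat_mul, h42_coeff_one_D]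
    omega
  have hm : ∀ i < 1, (2 : ℤ) ∣ PowerSeries.coeff i h42_D := by
    intro i hi
    obtain rfl : i = 0 := by omega
    rw [h42_coeff_zero_D]
    exact dvd_zero _
  have hm' : ¬ (2 : ℤ) ∣ PowerSeries.coeff 1 h42_D := by
    rw [h42_coeff_one_D]
    omega
  have hfin := hvb 8 _ 1 ((p : ℂ) ^ 4)⁻¹ f1 b h42_D hF1 hF2 hb' 1 1 hn hn' hm hm'
  push_cast at hfin
  omega

end main

end

end Fermat.Agent.S16
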