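import Mathlib
import Fermat.Agent.S16.h70_Fricke

set_option autoImplicit false

open UpperHalfPlane ModularForm Filter Topology CongruenceSubgroup
open scoped MatrixGroups ModularForm Manifold Pointwise

namespace Fermat.Agent.S16

/-! ### The conjugate formula in the `S`-shape, and q-expansion forms of the `#` lemmas -/

theorem h70_heckeMatrix_smul_eq (p : ℕ) [NeZero p] (j : ℕ) (z : ℍ) :
    heckeMatrix p j • z = UpperHalfPlane.ofComplex (((z : ℂ) + j) / p) := by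
  rw [← coe_heckeMatrix_smul (NeZero.ne p) j z, UpperHalfPlane.ofComplex_apply]

theorem h70_S_vadd_eq (j : ℕ) (z : ℍ) :
    ModularGroup.S • ((j : ℝ) +ᵥ z) = h70_ST (j : ℤ) • z := by
  apply UpperHalfPlane.ext
  rw [h70_ST_coe_smul, UpperHalfPlane.modular_S_smul]
  show (-(((j : ℝ) +ᵥ z : ℍ) : ℂ))⁻¹ = _
  rw [UpperHalfPlane.coe_vadd]
  have h : ((j : ℝ) : ℂ) + (z : ℂ) ≠ 0 := by
    have := ((j : ℝ) +ᵥ z).ne_zero
    rwa [UpperHalfPlane.coe_vadd] at this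
  push_cast at h ⊢
  have h' : (z : ℂ) + (j : ℂ) ≠ 0 := by rwa [add_comm]
  field_simp
  ring

theorem h70_slash_S_vadd_fun (k : ℤ) (f : ℍ → ℂ) (j : ℕ) (z : ℍ) :
    (f ∣[k] ModularGroup.S) ((j : ℝ) +ᵥ z) = (f ∣[k] h70_ST (j : ℤ)) z := by
  have hS : ModularGroup.S = h70_ST 0 := rfl
  rw [h70_ST_slash_apply, SL_slash_apply, h70_S_vadd_eq]
  congr 2
  rw [hS, h70_ST_denom, UpperHalfPlane.coe_vadd]
  push_cast
  ring

/-- The conjugates of `F ∈ M_k(Γ₀(p))` at the other cusp: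
`(F ∣ S)(z + j) = p^(-k) F#((z + j)/p)`. -/
theorem h70_slash_S_vadd {p : ℕ} [NeZero p] {k : ℤ}
    (F : ModularForm ((Gamma0 p : Subgroup SL(2, ℤ)) : Subgroup (GL (Fin 2) ℝ)) k) (j : ℕ)
    (z : ℍ) :
    (⇑F ∣[k] ModularGroup.S) ((j : ℝ) +ᵥ z) =
      (p : ℂ) ^ (-k) * h70_sharp F (heckeMatrix p j • z) := by
  rw [h70_slash_S_vadd_fun, h70_slash_ST_apply]

/-- The same with the point written as `ofComplex ((z + j)/p)`. -/
theorem h70_slash_S_vadd' {p : ℕ} [NeZero p] {k : ℤ}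
    (F : ModularForm ((Gamma0 p : Subgroup SL(2, ℤ)) : Subgroup (GL (Fin 2) ℝ)) k) (j : ℕ)
    (z : ℍ) :
    (⇑F ∣[k] ModularGroup.S) ((j : ℝ) +ᵥ z) =
      (p : ℂ) ^ (-k) * h70_sharp F (UpperHalfPlane.ofComplex (((z : ℂ) + j) / p)) := by
  rw [h70_slash_S_vadd, h70_heckeMatrix_smul_eq]

/-- `(F ∣ S)(z) = p^(-k) F#(z/p)`. -/
theorem h70_slash_S_apply {p : ℕ} [NeZero p] {k : ℤ}
    (F : ModularForm ((Gamma0 p : Subgroup SL(2, ℤ)) : Subgroup (GL (Fin 2) ℝ)) k) (z : ℍ) :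
    (⇑F ∣[k] ModularGroup.S) z =
      (p : ℂ) ^ (-k) * h70_sharp F (UpperHalfPlane.ofComplex ((z : ℂ) / p)) := by
  have h1 := h70_slash_S_vadd' F 0 z
  have h2 : ((0 : ℕ) : ℝ) +ᵥ z = z := by
    apply UpperHalfPlane.ext
    rw [UpperHalfPlane.coe_vadd]
    simp
  rw [h2] at h1
  simpa using h1

/-- Cusp form version of `h70_slash_S_vadd'`. -/
theorem h70_slash_S_vadd_cusp {p : ℕ} [NeZero p] {k : ℤ}
    (F : CuspForm ((Gamma0 p : Subgroup SL(2, ℤ)) : Subgroup (GL (Fin 2) ℝ)) k) (j : ℕ)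
    (z : ℍ) :
    (⇑F ∣[k] ModularGroup.S) ((j : ℝ) +ᵥ z) =
      (p : ℂ) ^ (-k) * h70_sharpCusp F (UpperHalfPlane.ofComplex (((z : ℂ) + j) / p)) := by
  have hp : (p : ℂ) ≠ 0 := by exact_mod_cast NeZero.ne p
  rw [h70_slash_S_vadd_fun, ← h70_heckeMatrix_smul_eq]
  have h1 := congr_fun (h70_slash_ST_fun p k ⇑F j) z
  rw [h1, Pi.smul_apply, slash_heckeMatrix_apply k (NeZero.ne p), smul_eq_mul, ← mul_assoc,
    ← zpow_neg_one, ← zpow_add₀ hp]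
  have h2 : (⇑(h70_sharpCusp F) : ℍ → ℂ) = (p : ℂ) • (⇑F ∣[k] h70_W p) := rfl
  rw [← h2]
  congr 2
  ring

/-! ### q-expansion forms -/

theorem h70_qExp_sharp_mul {p : ℕ} [NeZero p] {k₁ k₂ : ℤ}
    (F : ModularForm ((Gamma0 p : Subgroup SL(2, ℤ)) : Subgroup (GL (Fin 2) ℝ)) k₁)
    (G : ModularForm ((Gamma0 p : Subgroup SL(2, ℤ)) : Subgroup (GL (Fin 2) ℝ)) k₂) :
    qExpansion 1 ⇑(h70_sharp (F.mul G)) =
      qExpansion 1 ⇑(h70_sharp F) * qExpansion 1 ⇑(h70_sharp G) := by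
  rw [h70_sharp_mul, ModularForm.qExpansion_mul one_pos (h70_hΓ p)]

theorem h70_qExp_sharp_add {p : ℕ} [NeZero p] {k : ℤ}
    (F G : ModularForm ((Gamma0 p : Subgroup SL(2, ℤ)) : Subgroup (GL (Fin 2) ℝ)) k) :
    qExpansion 1 ⇑(h70_sharp (F + G)) =
      qExpansion 1 ⇑(h70_sharp F) + qExpansion 1 ⇑(h70_sharp G) := by
  rw [h70_sharp_add]
  exact ModularForm.qExpansion_add one_pos (h70_hΓ p) (h70_sharp F) (h70_sharp G)

theorem h70_qExp_sharp_smul {p : ℕ} [NeZero p] {k : ℤ} (c : ℂ)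
    (F : ModularForm ((Gamma0 p : Subgroup SL(2, ℤ)) : Subgroup (GL (Fin 2) ℝ)) k) :
    qExpansion 1 ⇑(h70_sharp (c • F)) = c • qExpansion 1 ⇑(h70_sharp F) := by
  rw [h70_sharp_smul]
  exact ModularForm.qExpansion_smul one_pos (h70_hΓ p) c (h70_sharp F)

theorem h70_qExp_sharp_sharp {p : ℕ} [NeZero p] {k : ℤ} (hk : Even k)
    (F : ModularForm ((Gamma0 p : Subgroup SL(2, ℤ)) : Subgroup (GL (Fin 2) ℝ)) k) :
    qExpansion 1 ⇑(h70_sharp (h70_sharp F)) = ((p : ℂ) ^ k) • qExpansion 1 ⇑F := by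
  rw [h70_sharp_sharp hk]
  exact ModularForm.qExpansion_smul one_pos (h70_hΓ p) ((p : ℂ) ^ k) F

/-- `(V_p A)# = A` for any `F` on `Γ₀(p)` with `F(z) = A(p z)`, on q-expansions. -/
theorem h70_qExp_sharp_of_levelRaise {p : ℕ} [NeZero p] {k : ℤ} (A : ModularForm 𝒮ℒ k)
    (F : ModularForm ((Gamma0 p : Subgroup SL(2, ℤ)) : Subgroup (GL (Fin 2) ℝ)) k)
    (h : ∀ z : ℍ, F z = A (heckeDiagMatrix p • z)) :
    qExpansion 1 ⇑(h70_sharp F) = qExpansion 1 ⇑A := by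
  have h' : (⇑(h70_sharp F) : ℍ → ℂ) = ⇑A := funext fun z => h70_sharp_levelRaise A F h z
  rw [h']

theorem h70_qExp_sharp_levelRaise {p : ℕ} [NeZero p] {k : ℤ} (A : ModularForm 𝒮ℒ k) :
    qExpansion 1 ⇑(h70_sharp (Fermat.Agent.S23.h97_levelRaise p A)) = qExpansion 1 ⇑A :=
  h70_qExp_sharp_of_levelRaise A _ (fun _ => rfl)

/-- `A# = p^k V_p A` for any `F` on `Γ₀(p)` with the same underlying function as the level one
form `A`, on q-expansions. -/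
theorem h70_qExp_sharp_of_levelOne {p : ℕ} [NeZero p] {k : ℤ} (A : ModularForm 𝒮ℒ k)
    (F : ModularForm ((Gamma0 p : Subgroup SL(2, ℤ)) : Subgroup (GL (Fin 2) ℝ)) k)
    (h : ∀ z : ℍ, F z = A z) :
    qExpansion 1 ⇑(h70_sharp F) =
      ((p : ℂ) ^ k) • qExpansion 1 ⇑(Fermat.Agent.S23.h97_levelRaise p A) := by
  have h' : (⇑(h70_sharp F) : ℍ → ℂ) =
      ⇑(((p : ℂ) ^ k) • Fermat.Agent.S23.h97_levelRaise p A) :=
    funext fun z => h70_sharp_levelOne A F h z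
  rw [h']
  exact ModularForm.qExpansion_smul one_pos (h70_hΓ p) ((p : ℂ) ^ k)
    (Fermat.Agent.S23.h97_levelRaise p A)

/-- `A# = p^k V_p A` on q-coefficients, for any `F` with the same function as `A`. -/
theorem h70_sharp_of_levelOne_qc {p : ℕ} [NeZero p] {k : ℤ} (A : ModularForm 𝒮ℒ k)
    (F : ModularForm ((Gamma0 p : Subgroup SL(2, ℤ)) : Subgroup (GL (Fin 2) ℝ)) k)
    (h : ∀ z : ℍ, F z = A z) (n : ℕ) :
    ModularFormClass.qCoeff ⇑(h70_sharp F) n =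
      (p : ℂ) ^ k * (if p ∣ n then ModularFormClass.qCoeff ⇑A (n / p) else 0) := by
  simp only [ModularFormClass.qCoeff]
  rw [h70_qExp_sharp_of_levelOne A F h, PowerSeries.coeff_smul,
    Fermat.Agent.S23.h97_qExpansion_levelRaise, smul_eq_mul]

/-- `#` commutes with weight casts. -/
theorem h70_sharp_mcast {p : ℕ} [NeZero p] {a b : ℤ} (h : a = b)
    (F : ModularForm ((Gamma0 p : Subgroup SL(2, ℤ)) : Subgroup (GL (Fin 2) ℝ)) a) :
    (⇑(h70_sharp (ModularForm.mcast h F)) : ℍ → ℂ) = ⇑(h70_sharp F) := by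
  subst h
  rfl

/-- The weight two relation in series form: `U_p`-coefficients of `G#`. -/
theorem h70_qExp_sharp_two {p : ℕ} [Fact p.Prime]
    (G : ModularForm ((Gamma0 p : Subgroup SL(2, ℤ)) : Subgroup (GL (Fin 2) ℝ)) 2) (n : ℕ) :
    (qExpansion 1 ⇑(h70_sharp G)).coeff n = -(p : ℂ) * (qExpansion 1 ⇑G).coeff (n * p) :=
  h70_sharp_qc_two G n

end Fermat.Agent.S16
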