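import Mathlib
import Fermat.Agent.S16.h42_UBEven
import Fermat.Agent.S16.h70_FrickeS
import Fermat.Agent.S16.h89_VB

/-!
# S16, block UB-B4-EVEN: `(U8)` under `8 ∣ p + 1`

`h42_not_one_eight`: if `8 ∣ p + 1` then no weight-2 modular form on `Γ₀(p)` has `q`-expansion in
`1 + 8 ℤ[[q]]`.  This is `h42_not_one_eight_core` instantiated with the Fricke toolkit
(`h70_sharp`) and the two-cusp Sturm lemma (`h89_vb`).
-/

set_option autoImplicit false

namespace Fermat.Agent.S16

open UpperHalfPlane ModularForm CongruenceSubgroup ModularFormClass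
open scoped MatrixGroups ModularForm Manifold

/-- **(U8)** for `8 ∣ p + 1`: no `G ∈ M₂(Γ₀(p))` with `q`-expansion in `1 + 8 ℤ[[q]]`. -/
theorem h42_not_one_eight (p : ℕ) [Fact p.Prime] (hd : 8 ∣ p + 1)
    (G : ModularForm (Gamma0 p) 2) : ¬ h60_One p 8 G := by
  have : NeZero p := ⟨(Fact.out : p.Prime).ne_zero⟩
  exact h42_not_one_eight_core p hd (fun k F => h70_sharp F) (fun z => h70_W p • z)
    (fun k F z => h70_sharp_apply F z)
    (fun k A F h n => h70_sharp_of_levelOne_qc A F (fun z => congrFun h z) n)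
    (fun G n => by rw [h70_sharp_qc_two, Nat.mul_comm])
    (fun w F c₁ c₂ f b A h1 h2 hb n n' hn hn' hm hm' =>
      h89_vb p 2 Nat.prime_two F c₁ c₂ f b A h1 h2 (by exact_mod_cast hb) n n'
        (by exact_mod_cast hn) (by exact_mod_cast hn') (by exact_mod_cast hm)
        (by exact_mod_cast hm')) G

end Fermat.Agent.S16
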