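import Mathlib
import Fermat.Prelude.Def_FLTPrelim_Modularity
import Fermat.Prelude.Def_ModularForm_HeckeOperator
import Fermat.Agent.S23.h97_LevelRaise

/-!
# The weight-2 Eisenstein series of level `N`

`h81_eis N : ModularForm (Gamma0 N) 2` is `E_N(τ) = (N E₂(Nτ) - E₂(τ)) / 24`, where `E₂` is
Mathlib's `EisensteinSeries.E2`.  Its `q`-expansion (in the prelude's `ModularFormClass.qCoeff`) is
`(N - 1)/24 + ∑_{n ≥ 1} (σ₁(n) - N σ₁(n/N)) qⁿ`; for `N = p` prime the `n`-th coefficient is the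
sum of the divisors of `n` prime to `p`.
-/

set_option autoImplicit false

open UpperHalfPlane ModularForm Filter Topology CongruenceSubgroup EisensteinSeries
open scoped MatrixGroups ModularForm Manifold Pointwise ArithmeticFunction.sigma

namespace Fermat.Agent.S16

theorem h81_D2_apply (γ : SL(2, ℤ)) (z : ℍ) :
    D2 γ z = (2 * Real.pi * Complex.I * ((γ 1 0 : ℤ) : ℂ)) /
      (((γ 1 0 : ℤ) : ℂ) * z + ((γ 1 1 : ℤ) : ℂ)) := by
  have : denom γ z = ((γ 1 0 : ℤ) : ℂ) * z + ((γ 1 1 : ℤ) : ℂ) := by simp [denom]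
  rw [← this]
  rfl

/-- `D2 γ` is bounded at `i∞`. -/
theorem h81_D2_bdd (γ : SL(2, ℤ)) : IsBoundedAtImInfty (D2 γ) := by
  rw [UpperHalfPlane.isBoundedAtImInfty_iff]
  refine ⟨2 * Real.pi, 1, fun z hz => ?_⟩
  rw [h81_D2_apply]
  rcases eq_or_ne (γ 1 0 : ℤ) 0 with hc | hc
  · simp [hc]; positivity
  · have hc' : ((γ 1 0 : ℤ) : ℂ) ≠ 0 := by exact_mod_cast hc
    have hcn : (0 : ℝ) < ‖((γ 1 0 : ℤ) : ℂ)‖ := norm_pos_iff.mpr hc'
    have him : ‖((γ 1 0 : ℤ) : ℂ)‖ ≤ ‖((γ 1 0 : ℤ) : ℂ) * z + ((γ 1 1 : ℤ) : ℂ)‖ := by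
      have h1 : (((γ 1 0 : ℤ) : ℂ) * z + ((γ 1 1 : ℤ) : ℂ)).im = ((γ 1 0 : ℤ) : ℝ) * z.im := by
        simp [Complex.add_im, Complex.mul_im]
      have h2 := Complex.abs_im_le_norm (((γ 1 0 : ℤ) : ℂ) * z + ((γ 1 1 : ℤ) : ℂ))
      rw [h1, abs_mul] at h2
      have h3 : ‖((γ 1 0 : ℤ) : ℂ)‖ = |((γ 1 0 : ℤ) : ℝ)| := by
        rw [← Complex.ofReal_intCast, Complex.norm_real, Real.norm_eq_abs]
      rw [h3]
      have h4 : |z.im| = z.im := abs_of_pos z.im_pos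
      rw [h4] at h2
      calc |((γ 1 0 : ℤ) : ℝ)| = |((γ 1 0 : ℤ) : ℝ)| * 1 := (mul_one _).symm
        _ ≤ |((γ 1 0 : ℤ) : ℝ)| * z.im := by
            apply mul_le_mul_of_nonneg_left hz (abs_nonneg _)
        _ ≤ _ := h2
    have hden : (0 : ℝ) < ‖((γ 1 0 : ℤ) : ℂ) * z + ((γ 1 1 : ℤ) : ℂ)‖ := lt_of_lt_of_le hcn him
    rw [norm_div, div_le_iff₀ hden]
    simp only [norm_mul, Complex.norm_I, mul_one, Complex.norm_real, Real.norm_eq_abs,
      RCLike.norm_ofNat]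
    rw [abs_of_pos Real.pi_pos]
    exact mul_le_mul_of_nonneg_left him (by positivity)

/-- `E2` is bounded (in weight 2) at every cusp of `SL(2, ℤ)`. -/
theorem h81_E2_isBoundedAt {c : OnePoint ℝ} (hc : IsCusp c 𝒮ℒ) :
    c.IsBoundedAt E2 2 := by
  rw [OnePoint.isBoundedAt_iff_forall_SL2Z hc]
  intro γ _
  rw [E2_slash_action]
  exact isBoundedAtImInfty_E2.sub ((h81_D2_bdd γ).smul _)

open Fermat.Agent.S23 in
theorem h81_D2_conj (N : ℕ) [NeZero N] (γ : SL(2, ℤ)) (h : (N : ℤ) ∣ γ 1 0) :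
    (D2 (h97_conjSL N γ h)) ∣[(2 : ℤ)] heckeDiagMatrix N = D2 γ := by
  have hN : N ≠ 0 := NeZero.ne N
  have hNc : (N : ℂ) ≠ 0 := by exact_mod_cast hN
  funext τ
  rw [slash_heckeDiagMatrix_apply 2 hN, h81_D2_apply, h81_D2_apply, coe_heckeDiagMatrix_smul hN]
  have h10 : ((h97_conjSL N γ h) 1 0 : ℤ) * N = γ 1 0 := by
    have : ((h97_conjSL N γ h) 1 0 : ℤ) = γ 1 0 / N := by simp [h97_conjSL]
    rw [this]
    exact Int.ediv_mul_cancel h
  have h11 : ((h97_conjSL N γ h) 1 1 : ℤ) = γ 1 1 := by simp [h97_conjSL]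
  have h10' : (((h97_conjSL N γ h) 1 0 : ℤ) : ℂ) * N = ((γ 1 0 : ℤ) : ℂ) := by
    exact_mod_cast h10
  rw [h11, ← h10']
  have hden : (((h97_conjSL N γ h) 1 0 : ℤ) : ℂ) * (N : ℂ) * (τ : ℂ) + ((γ 1 1 : ℤ) : ℂ) ≠ 0 := by
    have := UpperHalfPlane.denom_ne_zero (γ : GL (Fin 2) ℝ) τ
    have h2 : denom γ τ = ((γ 1 0 : ℤ) : ℂ) * τ + ((γ 1 1 : ℤ) : ℂ) := by simp [denom]
    rw [h2, ← h10'] at this
    exact this
  have hden' : (((h97_conjSL N γ h) 1 0 : ℤ) : ℂ) * ((N : ℂ) * (τ : ℂ)) + ((γ 1 1 : ℤ) : ℂ) ≠ 0 := by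
    rw [← mul_assoc]; exact hden
  rw [show (2 : ℤ) - 1 = 1 by norm_num, zpow_one]
  field_simp

theorem h81_sub_slash (k : ℤ) (g : GL (Fin 2) ℝ) (f f' : ℍ → ℂ) :
    (f - f') ∣[k] g = f ∣[k] g - f' ∣[k] g := by
  rw [sub_eq_add_neg, SlashAction.add_slash, SlashAction.neg_slash, ← sub_eq_add_neg]

/-- The (un-normalised) function `N E₂(Nτ) - E₂(τ)`. -/
noncomputable def h81_eisFun (N : ℕ) : ℍ → ℂ :=
  E2 ∣[(2 : ℤ)] heckeDiagMatrix N - E2

theorem h81_eisFun_apply (N : ℕ) [NeZero N] (τ : ℍ) :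
    h81_eisFun N τ = (N : ℂ) * E2 (heckeDiagMatrix N • τ) - E2 τ := by
  rw [h81_eisFun, Pi.sub_apply, slash_heckeDiagMatrix_apply 2 (NeZero.ne N)]
  norm_num

open Fermat.Agent.S23 in
theorem h81_eisFun_slash (N : ℕ) [NeZero N] (γ : GL (Fin 2) ℝ)
    (hγ : γ ∈ ((Gamma0 N : Subgroup SL(2, ℤ)) : Subgroup (GL (Fin 2) ℝ))) :
    h81_eisFun N ∣[(2 : ℤ)] γ = h81_eisFun N := by
  obtain ⟨γ0, hγ0, rfl⟩ := hγ
  have hdvd : (N : ℤ) ∣ γ0 1 0 := by
    have := Gamma0_mem.mp hγ0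
    exact (ZMod.intCast_zmod_eq_zero_iff_dvd _ _).mp this
  rw [h81_eisFun, h81_sub_slash, ← SlashAction.slash_mul, ← h97_conjSL_mul N γ0 hdvd,
    SlashAction.slash_mul]
  have h1 : E2 ∣[(2 : ℤ)] (Matrix.SpecialLinearGroup.mapGL ℝ (h97_conjSL N γ0 hdvd)) =
      E2 - (1 / (2 * riemannZeta 2)) • D2 (h97_conjSL N γ0 hdvd) :=
    E2_slash_action (h97_conjSL N γ0 hdvd)
  have h2 : E2 ∣[(2 : ℤ)] (Matrix.SpecialLinearGroup.mapGL ℝ γ0) =
      E2 - (1 / (2 * riemannZeta 2)) • D2 γ0 := E2_slash_action γ0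
  rw [h1, h2, h81_sub_slash, ModularForm.smul_slash, σ_heckeDiagMatrix, h81_D2_conj N γ0 hdvd]
  simp

theorem h81_eisFun_mdiff (N : ℕ) : MDiff (h81_eisFun N) :=
  (E2_mdifferentiable.slash 2 _).sub E2_mdifferentiable

open Fermat.Agent.S23 in
theorem h81_eisFun_isBoundedAt (N : ℕ) [NeZero N] {c : OnePoint ℝ}
    (hc : IsCusp c ((Gamma0 N : Subgroup SL(2, ℤ)) : Subgroup (GL (Fin 2) ℝ))) :
    c.IsBoundedAt (h81_eisFun N) 2 := by
  have hle : ((Gamma0 N : Subgroup SL(2, ℤ)) : Subgroup (GL (Fin 2) ℝ)) ≤ 𝒮ℒ := by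
    rintro _ ⟨γ, -, rfl⟩
    exact ⟨γ, rfl⟩
  have hc1 : IsCusp c 𝒮ℒ := hc.mono hle
  have hc2 : IsCusp (heckeDiagMatrix N • c) 𝒮ℒ := by
    simpa [mul_smul] using (hc.mono (h97_Gamma0_le_conj N)).smul (heckeDiagMatrix N)
  have hb1 : c.IsBoundedAt E2 2 := h81_E2_isBoundedAt hc1
  have hb2 : c.IsBoundedAt (E2 ∣[(2 : ℤ)] heckeDiagMatrix N) 2 :=
    OnePoint.IsBoundedAt.smul_iff.mp (h81_E2_isBoundedAt hc2)
  intro g hg
  rw [h81_eisFun, h81_sub_slash]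
  exact (hb2 g hg).sub (hb1 g hg)

/-- The weight-2 Eisenstein series of level `N`: `E_N(τ) = (N E₂(Nτ) - E₂(τ)) / 24`. -/
noncomputable def h81_eis (N : ℕ) [NeZero N] :
    ModularForm ((Gamma0 N : Subgroup SL(2, ℤ)) : Subgroup (GL (Fin 2) ℝ)) 2 :=
  (1 / 24 : ℂ) •
    ({ toFun := h81_eisFun N
       slash_action_eq' := h81_eisFun_slash N
       holo' := h81_eisFun_mdiff N
       bdd_at_cusps' := fun hc => h81_eisFun_isBoundedAt N hc } :
      ModularForm ((Gamma0 N : Subgroup SL(2, ℤ)) : Subgroup (GL (Fin 2) ℝ)) 2)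

theorem h81_eis_apply (N : ℕ) [NeZero N] (τ : ℍ) :
    h81_eis N τ = ((N : ℂ) * E2 (heckeDiagMatrix N • τ) - E2 τ) / 24 := by
  have : h81_eis N τ = (1 / 24 : ℂ) * h81_eisFun N τ := rfl
  rw [this, h81_eisFun_apply]
  ring

theorem h81_hasSum_E2 (τ : ℍ) :
    HasSum (fun m : ℕ => (if m = 0 then 1 else -24 * (σ 1 m : ℂ) : ℂ) •
      Function.Periodic.qParam 1 (τ : ℂ) ^ m) (E2 τ) := by
  have := hasSum_qExpansion_E2 (z := τ)
  simpa only [Function.Periodic.qParam, Complex.ofReal_one, div_one] using this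

theorem h81_hasSum_E2_scale (N : ℕ) [NeZero N] (τ : ℍ) :
    HasSum (fun n : ℕ =>
      (if N ∣ n then (if n / N = 0 then 1 else -24 * (σ 1 (n / N) : ℂ) : ℂ) else 0) •
        Function.Periodic.qParam 1 (τ : ℂ) ^ n) (E2 (heckeDiagMatrix N • τ)) := by
  have hN : N ≠ 0 := NeZero.ne N
  have h1 := h81_hasSum_E2 (heckeDiagMatrix N • τ)
  have hq : Function.Periodic.qParam 1 ((heckeDiagMatrix N • τ : ℍ) : ℂ) =
      Function.Periodic.qParam 1 (τ : ℂ) ^ N := by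
    rw [coe_heckeDiagMatrix_smul hN, Function.Periodic.qParam, Function.Periodic.qParam,
      ← Complex.exp_nat_mul]
    congr 1
    push_cast
    ring
  rw [hq] at h1
  have hinj : Function.Injective (fun m : ℕ => N * m) := fun a b hab =>
    Nat.eq_of_mul_eq_mul_left (Nat.pos_of_ne_zero hN) hab
  refine (hinj.hasSum_iff ?_).mp ?_
  · intro n hn
    have hnd : ¬ N ∣ n := fun ⟨m, hm⟩ => hn ⟨m, hm.symm⟩
    simp [hnd]
  · convert h1 using 2 with m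
    simp only [Function.comp_apply, dvd_mul_right, if_true, Nat.mul_div_cancel_left _
      (Nat.pos_of_ne_zero hN), smul_eq_mul, pow_mul]

/-- The `q`-expansion coefficients of `h81_eis N`. -/
noncomputable def h81_eisCoeff (N n : ℕ) : ℂ :=
  if n = 0 then ((N : ℂ) - 1) / 24
  else (σ 1 n : ℂ) - (N : ℂ) * (if N ∣ n then (σ 1 (n / N) : ℂ) else 0)

theorem h81_hasSum_eis (N : ℕ) [NeZero N] (τ : ℍ) :
    HasSum (fun n : ℕ => h81_eisCoeff N n • Function.Periodic.qParam 1 (τ : ℂ) ^ n)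
      (h81_eis N τ) := by
  have hN : N ≠ 0 := NeZero.ne N
  have h1 := ((h81_hasSum_E2_scale N τ).mul_left (N : ℂ)).sub (h81_hasSum_E2 τ)
  have h2 := h1.mul_left (1 / 24 : ℂ)
  have hv : h81_eis N τ = 1 / 24 * ((N : ℂ) * E2 (heckeDiagMatrix N • τ) - E2 τ) := by
    rw [h81_eis_apply]; ring
  have hf : (fun n : ℕ => h81_eisCoeff N n • Function.Periodic.qParam 1 (τ : ℂ) ^ n) =
      fun i : ℕ => 1 / 24 * ((N : ℂ) *
        (if N ∣ i then (if i / N = 0 then 1 else -24 * (σ 1 (i / N) : ℂ) : ℂ) else 0) •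
          Function.Periodic.qParam 1 (τ : ℂ) ^ i -
        (if i = 0 then 1 else -24 * (σ 1 i : ℂ) : ℂ) • Function.Periodic.qParam 1 (τ : ℂ) ^ i) := by
    funext n
    simp only [h81_eisCoeff, smul_eq_mul]
    rcases Nat.eq_zero_or_pos n with hn | hn
    · subst hn
      simp
      ring
    · have hn0 : n ≠ 0 := hn.ne'
      by_cases hd : N ∣ n
      · have hq : n / N ≠ 0 := by
          obtain ⟨m, rfl⟩ := hd
          rw [Nat.mul_div_cancel_left _ (Nat.pos_of_ne_zero hN)]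
          rintro rfl
          simp at hn
        simp only [hn0, hd, hq, if_true, if_false]
        ring
      · simp only [hn0, hd, if_false]
        ring
  rw [hf, hv]
  exact h2

theorem h81_Gamma0_one_mem_strictPeriods (N : ℕ) :
    (1 : ℝ) ∈ ((Gamma0 N : Subgroup SL(2, ℤ)) : Subgroup (GL (Fin 2) ℝ)).strictPeriods := by
  simp

theorem h81_eis_qCoeff_eq (N : ℕ) [NeZero N] (n : ℕ) :
    ModularFormClass.qCoeff (h81_eis N) n = h81_eisCoeff N n :=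
  (ModularFormClass.qExpansion_coeff_unique one_pos (h81_Gamma0_one_mem_strictPeriods N)
    (f := h81_eis N) (fun τ => h81_hasSum_eis N τ) n).symm

theorem h81_eis_qCoeff_zero (N : ℕ) [NeZero N] :
    ModularFormClass.qCoeff (h81_eis N) 0 = ((N : ℂ) - 1) / 24 := by
  rw [h81_eis_qCoeff_eq]
  simp [h81_eisCoeff]

theorem h81_eis_qCoeff (N : ℕ) [NeZero N] (n : ℕ) (hn : 0 < n) :
    ModularFormClass.qCoeff (h81_eis N) n =
      (σ 1 n : ℂ) - (N : ℂ) * (if N ∣ n then (σ 1 (n / N) : ℂ) else 0) := by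
  rw [h81_eis_qCoeff_eq]
  simp [h81_eisCoeff, hn.ne']

/-- The divisors of `n` divisible by `N` are `N` times the divisors of `n / N`. -/
theorem h81_sum_divisors_dvd (N n : ℕ) (hN : 0 < N) (hn : 0 < n) :
    ∑ d ∈ n.divisors.filter (fun d => N ∣ d), d =
      N * (if N ∣ n then σ 1 (n / N) else 0) := by
  by_cases hd : N ∣ n
  · obtain ⟨m, rfl⟩ := hd
    have hm : 0 < m := Nat.pos_of_mul_pos_left hn
    simp only [dvd_mul_right, if_true, Nat.mul_div_cancel_left _ hN]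
    rw [ArithmeticFunction.sigma_apply, Finset.mul_sum]
    refine Finset.sum_bij' (fun d _ => d / N) (fun e _ => N * e) ?_ ?_ ?_ ?_ ?_
    · intro d hd
      simp only [Finset.mem_filter, Nat.mem_divisors] at hd ⊢
      obtain ⟨⟨hdn, -⟩, e, rfl⟩ := hd
      rw [Nat.mul_div_cancel_left _ hN]
      exact ⟨(Nat.mul_dvd_mul_iff_left hN).mp hdn, hm.ne'⟩
    · intro e he
      simp only [Finset.mem_filter, Nat.mem_divisors] at he ⊢
      exact ⟨⟨Nat.mul_dvd_mul_left N he.1, (Nat.mul_pos hN hm).ne'⟩, dvd_mul_right _ _⟩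
    · intro d hd
      simp only [Finset.mem_filter, Nat.mem_divisors] at hd
      exact Nat.mul_div_cancel' hd.2
    · intro e _
      exact Nat.mul_div_cancel_left _ hN
    · intro d hd
      simp only [Finset.mem_filter, Nat.mem_divisors] at hd
      rw [pow_one, Nat.mul_div_cancel' hd.2]
  · simp only [hd, if_false, mul_zero]
    apply Finset.sum_eq_zero
    intro d hd'
    simp only [Finset.mem_filter, Nat.mem_divisors] at hd'
    exact absurd (dvd_trans hd'.2 hd'.1.1) hd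

theorem h81_sigma_eq (N n : ℕ) (hN : 0 < N) (hn : 0 < n) :
    σ 1 n = ∑ d ∈ n.divisors.filter (fun d => ¬ N ∣ d), d +
      N * (if N ∣ n then σ 1 (n / N) else 0) := by
  rw [← h81_sum_divisors_dvd N n hN hn, add_comm, Finset.sum_filter_add_sum_filter_not,
    ArithmeticFunction.sigma_apply]
  simp

/-- For `n ≥ 1` the `n`-th `q`-coefficient of `h81_eis N` is the sum of the divisors of `n` that
are not divisible by `N` (for `N = p` prime: the divisors prime to `p`). -/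
theorem h81_eis_qCoeff_sum (N : ℕ) [NeZero N] (n : ℕ) (hn : 0 < n) :
    ModularFormClass.qCoeff (h81_eis N) n =
      ((∑ d ∈ n.divisors.filter (fun d => ¬ N ∣ d), d : ℕ) : ℂ) := by
  rw [h81_eis_qCoeff N n hn]
  have h := h81_sigma_eq N n (Nat.pos_of_ne_zero (NeZero.ne N)) hn
  have h' : (σ 1 n : ℂ) = ((∑ d ∈ n.divisors.filter (fun d => ¬ N ∣ d), d : ℕ) : ℂ) +
      (N : ℂ) * (if N ∣ n then (σ 1 (n / N) : ℂ) else 0) := by
    have h2 : ((σ 1 n : ℕ) : ℂ) = ((∑ d ∈ n.divisors.filter (fun d => ¬ N ∣ d), d +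
      N * (if N ∣ n then σ 1 (n / N) else 0) : ℕ) : ℂ) := by rw [← h]
    rw [h2]
    push_cast
    split_ifs <;> simp
  rw [h']
  ring

/-- All `q`-coefficients of `h81_eis N` of positive index are integers. -/
theorem h81_eis_qCoeff_int (N : ℕ) [NeZero N] (n : ℕ) (hn : 0 < n) :
    ∃ c : ℤ, ModularFormClass.qCoeff (h81_eis N) n = (c : ℂ) :=
  ⟨((∑ d ∈ n.divisors.filter (fun d => ¬ N ∣ d), d : ℕ) : ℤ), by
    rw [h81_eis_qCoeff_sum N n hn]; push_cast; rfl⟩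

end Fermat.Agent.S16
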