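import Mathlib
import Fermat.Agent.S16.h60_UB
import Fermat.Agent.S16.h81_Eis

set_option autoImplicit false
set_option linter.unusedSectionVars false

/-!
# S16: the upper bound `hU` from the trace cases (B1), (B2) and the norm cases (B4)

`h60_upper_of` packages the five prime-power cases of `h60_UB.lean` from

* (B1) `G ∈ 1 + M ℤ[[q]]`, `gcd(M, p) = 1` forces `M ∣ p + 1`,
* (B2) no `G ∈ 1 + p ℤ[[q]]` (`p ≥ 5`),
* (B4) no `G ∈ 1 + ℓ ℤ[[q]]` if `ℓ ≥ 5`, `ℓ ≠ p`, `ℓ ∣ p + 1`; no `G ∈ 1 + 9 ℤ[[q]]` if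
  `9 ∣ p + 1`; no `G ∈ 1 + 8 ℤ[[q]]` if `8 ∣ p + 1`,

with the Eisenstein series `h81_eis p`.
-/

namespace Fermat.Agent.S16

open ModularCurve CuspForm CongruenceSubgroup ModularFormClass Fermat.Agent.S49

variable (p : ℕ) [Fact p.Prime]

/-- The five cases (U5), (U3), (U9), (U4), (U8) from (B1), (B2), (B4). -/
theorem h60_cases_of (hp5 : 5 ≤ p)
    (B1 : ∀ M : ℕ, Nat.Coprime M p → ∀ G : ModularForm (Gamma0 p) 2, h60_One p M G → M ∣ p + 1)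
    (B2 : ∀ G : ModularForm (Gamma0 p) 2, ¬ h60_One p p G)
    (B4odd : ∀ l : ℕ, l.Prime → 5 ≤ l → l ≠ p → l ∣ p + 1 →
      ∀ G : ModularForm (Gamma0 p) 2, ¬ h60_One p l G)
    (B4nine : 9 ∣ p + 1 → ∀ G : ModularForm (Gamma0 p) 2, ¬ h60_One p 9 G)
    (B4eight : 8 ∣ p + 1 → ∀ G : ModularForm (Gamma0 p) 2, ¬ h60_One p 8 G) :
    (∀ l : ℕ, l.Prime → 5 ≤ l → ∀ G : ModularForm (Gamma0 p) 2, ¬ h60_One p l G) ∧
    (∀ G : ModularForm (Gamma0 p) 2, h60_One p 3 G → 3 ∣ p + 1) ∧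
    (∀ G : ModularForm (Gamma0 p) 2, ¬ h60_One p 9 G) ∧
    (∀ G : ModularForm (Gamma0 p) 2, h60_One p 4 G → 4 ∣ p + 1) ∧
    (∀ G : ModularForm (Gamma0 p) 2, ¬ h60_One p 8 G) := by
  have hp : p.Prime := Fact.out
  have c2 : Nat.Coprime 2 p := (Nat.coprime_primes Nat.prime_two hp).mpr (by omega)
  have c3 : Nat.Coprime 3 p := (Nat.coprime_primes Nat.prime_three hp).mpr (by omega)
  have c4 : Nat.Coprime 4 p := by
    have : (4 : ℕ) = 2 ^ 2 := by norm_num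
    rw [this]
    exact Nat.Coprime.pow_left 2 c2
  have c8 : Nat.Coprime 8 p := by
    have : (8 : ℕ) = 2 ^ 3 := by norm_num
    rw [this]
    exact Nat.Coprime.pow_left 3 c2
  have c9 : Nat.Coprime 9 p := by
    have : (9 : ℕ) = 3 ^ 2 := by norm_num
    rw [this]
    exact Nat.Coprime.pow_left 2 c3
  refine ⟨?_, ?_, ?_, ?_, ?_⟩
  · intro l hl hl5 G hG
    by_cases hlp : l = p
    · subst hlp
      exact B2 G hG
    · have hc : Nat.Coprime l p := (Nat.coprime_primes hl hp).mpr hlp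
      exact B4odd l hl hl5 hlp (B1 l hc G hG) G hG
  · exact fun G hG => B1 3 c3 G hG
  · exact fun G hG => B4nine (B1 9 c9 G hG) G hG
  · exact fun G hG => B1 4 c4 G hG
  · exact fun G hG => B4eight (B1 8 c8 G hG) G hG

/-- **The upper bound `hU`** for every prime `p`, from (B1), (B2), (B4). -/
theorem h60_upper_of
    (B1 : 5 ≤ p → ∀ M : ℕ, Nat.Coprime M p →
      ∀ G : ModularForm (Gamma0 p) 2, h60_One p M G → M ∣ p + 1)
    (B2 : 5 ≤ p → ∀ G : ModularForm (Gamma0 p) 2, ¬ h60_One p p G)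
    (B4odd : 5 ≤ p → ∀ l : ℕ, l.Prime → 5 ≤ l → l ≠ p → l ∣ p + 1 →
      ∀ G : ModularForm (Gamma0 p) 2, ¬ h60_One p l G)
    (B4nine : 5 ≤ p → 9 ∣ p + 1 → ∀ G : ModularForm (Gamma0 p) 2, ¬ h60_One p 9 G)
    (B4eight : 5 ≤ p → 8 ∣ p + 1 → ∀ G : ModularForm (Gamma0 p) 2, ¬ h60_One p 8 G) :
    ∀ (m : ℕ) (f : CuspForm (Gamma0 p) 2), h60_Cong p m f → m ∣ eisensteinNumerator p := by
  have hp : p.Prime := Fact.out
  have : NeZero p := ⟨hp.ne_zero⟩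
  by_cases hp5 : 5 ≤ p
  · obtain ⟨U5, U3, U9, U4, U8⟩ :=
      h60_cases_of p hp5 (B1 hp5) (B2 hp5) (B4odd hp5) (B4nine hp5) (B4eight hp5)
    refine h60_hU_of_cases p hp5 (h81_eis p) (h81_eis_qCoeff_zero p) ?_ U5 U3 U9 U4 U8
    intro k hk
    rw [h81_eis_qCoeff_sum p k hk]
    rfl
  · exact h60_hU_small p (by omega)

end Fermat.Agent.S16
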