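import Mathlib
import Fermat.Agent.S16.h60_UBWrap
import Fermat.Agent.S16.h24_UBTrace
import Fermat.Agent.S16.h34_UBOdd
import Fermat.Agent.S16.h42_UBCases

set_option autoImplicit false
set_option linter.unusedSectionVars false

/-!
# S16: the upper bound `hU`, unconditionally

`h60_upper p` : an integral cusp form of weight 2 and level `p` congruent to the Eisenstein
series `δ = ∑ σ'(k) q^k` modulo `m` forces `m ∣ (p - 1) / gcd(p - 1, 12)`.
-/

namespace Fermat.Agent.S16

open ModularCurve CuspForm CongruenceSubgroup ModularFormClass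

/-- **The upper bound of S16.** -/
theorem h60_upper (p : ℕ) [Fact p.Prime] :
    ∀ (m : ℕ) (f : CuspForm (Gamma0 p) 2), h60_Cong p m f → m ∣ eisensteinNumerator p :=
  h60_upper_of p (fun _ => h24_one_dvd_succ p) (fun h => h24_not_one_self p h)
    (fun _ l hl hl5 _ hd => h34_not_one_of_dvd p l hl hl5 hd)
    (fun _ hd => h34_not_one_nine p hd) (fun _ hd => h42_not_one_eight p hd)

end Fermat.Agent.S16
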