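import Mathlib

/-!
# The unipotent generators `T`, `T' = [1, 0; N, 1]` of `Γ₀(N)`
-/

set_option autoImplicit false

namespace Fermat.Agent.S16

open scoped MatrixGroups
open ModularGroup CongruenceSubgroup

/-- The lower unipotent generator `[1, 0; N, 1]`. -/
def h18_T' (N : ℕ) : SL(2, ℤ) := ⟨!![1, 0; (N : ℤ), 1], by simp [Matrix.det_fin_two]⟩

theorem h18_T'_mem (N : ℕ) : h18_T' N ∈ Gamma0 N := by
  rw [Gamma0_mem]
  simp [h18_T']

theorem h18_T_mem (N : ℕ) : T ∈ Gamma0 N := by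
  rw [Gamma0_mem]
  simp [T]

theorem h18_neg_one_mem (N : ℕ) : (-1 : SL(2, ℤ)) ∈ Gamma0 N := by
  rw [Gamma0_mem]; simp

theorem h18_T'_inv (N : ℕ) : (h18_T' N)⁻¹ = S * T ^ N * S⁻¹ := by
  rw [inv_eq_iff_mul_eq_one]
  ext i j
  rw [S_inv]
  have hT := coe_T_zpow (N : ℤ)
  rw [zpow_natCast] at hT
  fin_cases i <;> fin_cases j <;>
    simp [h18_T', Matrix.SpecialLinearGroup.coe_mul, hT, coe_S]

end Fermat.Agent.S16
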