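import Mathlib
import Fermat.Prelude.Def_ModularCurve_PeriodMap
import Fermat.Agent.S16.h18_Defs

/-!
# Parabolic elements of `Γ₀(p)` and parabolic homomorphisms

Every element of `Γ₀(p)` (`p` prime) with `trace ^ 2 = 4` is, up to sign, `Γ₀(p)`-conjugate to a
power of `T = [1, 1; 0, 1]` or of `T' = [1, 0; p, 1]`.  Hence an additive map `φ : Γ₀(p) → A`
into a group without `2`-torsion is parabolic iff `φ T = 0` and `φ T' = 0`.
-/

set_option autoImplicit false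

namespace Fermat.Agent.S16

open scoped MatrixGroups
open ModularGroup CongruenceSubgroup

/-- An element of `SL(2, ℤ)` with lower left entry `0` and trace `2` is a power of `T`. -/
theorem h18_eq_T_zpow (g : SL(2, ℤ)) (h10 : g 1 0 = 0) (htr : g 0 0 + g 1 1 = 2) :
    g = T ^ (g 0 1) := by
  have hdet := Matrix.SpecialLinearGroup.det_coe g
  rw [Matrix.det_fin_two] at hdet
  have h1 : g 0 0 * g 1 1 = 1 := by
    have : (g : Matrix (Fin 2) (Fin 2) ℤ) 1 0 = 0 := h10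
    rw [this] at hdet; linarith
  have h00 : g 0 0 = 1 := by
    have : (g 0 0 - 1) ^ 2 = 0 := by linear_combination (g 0 0) * htr - h1
    have := pow_eq_zero_iff (two_ne_zero) |>.mp this
    linarith
  have h11 : g 1 1 = 1 := by linarith
  ext i j
  rw [coe_T_zpow]
  fin_cases i <;> fin_cases j <;> simp [h00, h11, h10]

/-- An element of `SL(2, ℤ)` of trace `2` is conjugate to a power of `T`. -/
theorem h18_exists_conj_T_zpow (γ : SL(2, ℤ)) (htr : γ 0 0 + γ 1 1 = 2) :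
    ∃ (g : SL(2, ℤ)) (k : ℤ), γ = g * T ^ k * g⁻¹ := by
  by_cases hc0 : γ 1 0 = 0
  · exact ⟨1, γ 0 1, by rw [one_mul, inv_one, mul_one]; exact h18_eq_T_zpow γ hc0 htr⟩
  -- the fixed vector `(x, c0)`, `x = γ 0 0 - 1`
  have hdet := Matrix.SpecialLinearGroup.det_coe γ
  rw [Matrix.det_fin_two] at hdet
  have hdet' : γ 0 0 * γ 1 1 - γ 0 1 * γ 1 0 = 1 := hdet
  have hpos : 0 < Int.gcd (γ 0 0 - 1) (γ 1 0) := Int.gcd_pos_of_ne_zero_right _ hc0
  obtain ⟨d, a, c, hd, hac, hx, hc⟩ := Int.exists_gcd_one' hpos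
  have hd0 : (d : ℤ) ≠ 0 := by exact_mod_cast hd.ne'
  have hcop : IsCoprime a c := Int.isCoprime_iff_gcd_eq_one.mpr hac
  obtain ⟨u, v, huv⟩ := hcop
  -- fixed vector equations
  have e1 : γ 0 0 * a + γ 0 1 * c = a := by
    apply mul_right_cancel₀ hd0
    have : γ 0 0 = a * d + 1 := by linarith
    calc (γ 0 0 * a + γ 0 1 * c) * d = γ 0 0 * (a * d) + γ 0 1 * (c * d) := by ring
      _ = γ 0 0 * (γ 0 0 - 1) + γ 0 1 * γ 1 0 := by rw [← hx, ← hc]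
      _ = (γ 0 0 - 1) + (γ 0 0 * (γ 0 0 + γ 1 1 - 2) - (γ 0 0 * γ 1 1 - γ 0 1 * γ 1 0 - 1)) := by
          ring
      _ = γ 0 0 - 1 := by rw [htr, hdet']; ring
      _ = a * d := hx
  have e2 : γ 1 0 * a + γ 1 1 * c = c := by
    apply mul_right_cancel₀ hd0
    calc (γ 1 0 * a + γ 1 1 * c) * d = γ 1 0 * (a * d) + γ 1 1 * (c * d) := by ring
      _ = γ 1 0 * (γ 0 0 - 1) + γ 1 1 * γ 1 0 := by rw [← hx, ← hc]
      _ = γ 1 0 * (γ 0 0 + γ 1 1 - 2) + γ 1 0 := by ring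
      _ = γ 1 0 := by rw [htr]; ring
      _ = c * d := hc
  let g : SL(2, ℤ) := ⟨!![a, -v; c, u], by rw [Matrix.det_fin_two_of]; linarith⟩
  have hg00 : g 0 0 = a := rfl
  have hg01 : g 0 1 = -v := rfl
  have hg10 : g 1 0 = c := rfl
  have hg11 : g 1 1 = u := rfl
  have hentry : (g⁻¹ * γ * g) 1 0 = 0 := by
    show ((g⁻¹ * γ * g : SL(2, ℤ)) : Matrix (Fin 2) (Fin 2) ℤ) 1 0 = 0
    rw [Matrix.SpecialLinearGroup.coe_mul, Matrix.SpecialLinearGroup.coe_mul,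
      Matrix.SpecialLinearGroup.coe_inv, Matrix.adjugate_fin_two]
    simp only [Matrix.mul_apply, Fin.sum_univ_two, Matrix.of_apply, Matrix.cons_val_zero,
      Matrix.cons_val_one, Matrix.cons_val', Matrix.cons_val_fin_one]
    show (-(g 1 0) * γ 0 0 + g 0 0 * γ 1 0) * g 0 0 + (-(g 1 0) * γ 0 1 + g 0 0 * γ 1 1) * g 1 0 = 0
    rw [hg00, hg10]
    linear_combination (-c) * e1 + a * e2
  have htrace : (g⁻¹ * γ * g) 0 0 + (g⁻¹ * γ * g) 1 1 = 2 := by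
    have h1 : Matrix.trace ((g⁻¹ * γ * g : SL(2, ℤ)) : Matrix (Fin 2) (Fin 2) ℤ) =
        Matrix.trace (γ : Matrix (Fin 2) (Fin 2) ℤ) := by
      rw [Matrix.SpecialLinearGroup.coe_mul, Matrix.trace_mul_comm,
        ← Matrix.SpecialLinearGroup.coe_mul, mul_inv_cancel_left]
    rw [Matrix.trace_fin_two, Matrix.trace_fin_two] at h1
    exact h1.trans htr
  refine ⟨g, (g⁻¹ * γ * g) 0 1, ?_⟩
  rw [← h18_eq_T_zpow (g⁻¹ * γ * g) hentry htrace]
  group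

/-- For a prime `p`, an element `g ∉ Γ₀(p)` can be moved into `Γ₀(p)` by right multiplication
with some `T ^ m * S⁻¹`. -/
theorem h18_exists_mul_mem (p : ℕ) [Fact p.Prime] (g : SL(2, ℤ)) (hg : g ∉ Gamma0 p) :
    ∃ m : ℤ, g * T ^ m * S⁻¹ ∈ Gamma0 p := by
  have hp := (Fact.out : p.Prime)
  have : NeZero p := ⟨hp.ne_zero⟩
  rw [Gamma0_mem, ZMod.intCast_zmod_eq_zero_iff_dvd] at hg
  have hcop : IsCoprime (p : ℤ) (g 1 0) :=
    (Nat.prime_iff_prime_int.mp hp).coprime_iff_not_dvd.mpr hg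
  obtain ⟨t, s, hts⟩ := hcop
  refine ⟨-(g 1 1) * s, ?_⟩
  rw [Gamma0_mem, ZMod.intCast_zmod_eq_zero_iff_dvd]
  have hentry : (g * T ^ (-(g 1 1) * s) * S⁻¹) 1 0 = -(g 1 0 * (-(g 1 1) * s) + g 1 1) := by
    show ((g * T ^ (-(g 1 1) * s) * S⁻¹ : SL(2, ℤ)) : Matrix (Fin 2) (Fin 2) ℤ) 1 0 = _
    rw [S_inv, Matrix.SpecialLinearGroup.coe_mul, Matrix.SpecialLinearGroup.coe_mul, coe_T_zpow,
      Matrix.SpecialLinearGroup.coe_neg, coe_S]
    simp [Matrix.mul_apply, Fin.sum_univ_two]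
  rw [hentry]
  exact ⟨-(g 1 1) * t, by linear_combination (g 1 1) * hts⟩

theorem h18_STS_inv_entry (k : ℤ) : (S * T ^ k * S⁻¹ : SL(2, ℤ)) 1 0 = -k := by
  show ((S * T ^ k * S⁻¹ : SL(2, ℤ)) : Matrix (Fin 2) (Fin 2) ℤ) 1 0 = _
  rw [S_inv, Matrix.SpecialLinearGroup.coe_mul, Matrix.SpecialLinearGroup.coe_mul, coe_T_zpow,
    Matrix.SpecialLinearGroup.coe_neg, coe_S]
  simp [Matrix.mul_apply, Fin.sum_univ_two]

/-- **Block (A2).** An additive map on `Γ₀(p)` (`p` prime) with values in a group without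
`2`-torsion that vanishes on `T` and on `T' = [1, 0; p, 1]` is parabolic. -/
theorem h18_isParabolicHom_of (p : ℕ) [Fact p.Prime] {A : Type*} [AddCommGroup A]
    (h2 : ∀ a : A, a + a = 0 → a = 0) (φ : Additive (Gamma0 p) →+ A)
    (hT : φ (Additive.ofMul ⟨T, h18_T_mem p⟩) = 0)
    (hT' : φ (Additive.ofMul ⟨h18_T' p, h18_T'_mem p⟩) = 0) :
    ModularCurve.Period.IsParabolicHom (Gamma0 p) φ := by
  have hp := (Fact.out : p.Prime)
  have : NeZero p := ⟨hp.ne_zero⟩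
  -- `φ (-1) = 0`
  have hneg1 : φ (Additive.ofMul ⟨-1, h18_neg_one_mem p⟩) = 0 := by
    apply h2
    rw [← map_add, ← ofMul_mul]
    have : (⟨-1, h18_neg_one_mem p⟩ : Gamma0 p) * ⟨-1, h18_neg_one_mem p⟩ = 1 := by
      apply Subtype.ext
      show (-1 : SL(2, ℤ)) * -1 = 1
      simp
    rw [this]
    exact map_zero φ
  -- the trace `2` case
  have key : ∀ γ : Gamma0 p, (γ : SL(2, ℤ)) 0 0 + (γ : SL(2, ℤ)) 1 1 = 2 →
      φ (Additive.ofMul γ) = 0 := by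
    intro γ htr
    obtain ⟨g, k, hgk⟩ := h18_exists_conj_T_zpow (γ : SL(2, ℤ)) htr
    by_cases hg : g ∈ Gamma0 p
    · have e : γ = ⟨g, hg⟩ * ⟨T, h18_T_mem p⟩ ^ k * ⟨g, hg⟩⁻¹ := by
        apply Subtype.ext
        rw [hgk]; rfl
      rw [e, ofMul_mul, ofMul_mul, map_add, map_add, ofMul_inv, map_neg, ofMul_zpow, map_zsmul, hT,
        smul_zero, add_zero, add_neg_cancel]
    · obtain ⟨m, hm⟩ := h18_exists_mul_mem p g hg
      have e : (γ : SL(2, ℤ)) =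
          (g * T ^ m * S⁻¹) * (S * T ^ k * S⁻¹) * (g * T ^ m * S⁻¹)⁻¹ := by
        rw [hgk]; group
      have hmem : S * T ^ k * S⁻¹ ∈ Gamma0 p := by
        have e' : S * T ^ k * S⁻¹ = (g * T ^ m * S⁻¹)⁻¹ * (γ : SL(2, ℤ)) * (g * T ^ m * S⁻¹) := by
          rw [e]; group
        rw [e']
        exact mul_mem (mul_mem (inv_mem hm) γ.2) hm
      have hk : (p : ℤ) ∣ k := by
        have h1 := hmem
        rw [Gamma0_mem, ZMod.intCast_zmod_eq_zero_iff_dvd, h18_STS_inv_entry] at h1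
        exact (dvd_neg).mp h1
      obtain ⟨j, rfl⟩ := hk
      have hpow : S * T ^ ((p : ℤ) * j) * S⁻¹ = ((h18_T' p)⁻¹) ^ j := by
        rw [h18_T'_inv, conj_zpow, ← zpow_natCast, ← zpow_mul]
      have e2 : γ = ⟨g * T ^ m * S⁻¹, hm⟩ * (⟨h18_T' p, h18_T'_mem p⟩⁻¹) ^ j *
          ⟨g * T ^ m * S⁻¹, hm⟩⁻¹ := by
        apply Subtype.ext
        rw [e, hpow]; rfl
      rw [e2, ofMul_mul, ofMul_mul, map_add, map_add, ofMul_inv, map_neg, ofMul_zpow, map_zsmul,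
        ofMul_inv, map_neg, hT', neg_zero, smul_zero, add_zero, add_neg_cancel]
  intro γ hγ
  have htr : Matrix.trace ((γ : SL(2, ℤ)) : Matrix (Fin 2) (Fin 2) ℤ) = 2 ∨
      Matrix.trace ((γ : SL(2, ℤ)) : Matrix (Fin 2) (Fin 2) ℤ) = -2 := by
    have : (Matrix.trace ((γ : SL(2, ℤ)) : Matrix (Fin 2) (Fin 2) ℤ) - 2) *
        (Matrix.trace ((γ : SL(2, ℤ)) : Matrix (Fin 2) (Fin 2) ℤ) + 2) = 0 := by
      linear_combination hγ
    rcases mul_eq_zero.mp this with h | h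
    · left; linarith
    · right; linarith
  rcases htr with h | h
  · exact key γ (by rwa [Matrix.trace_fin_two] at h)
  · rw [Matrix.trace_fin_two] at h
    have e : γ = ⟨-1, h18_neg_one_mem p⟩ * (⟨-1, h18_neg_one_mem p⟩ * γ) := by
      apply Subtype.ext
      show (γ : SL(2, ℤ)) = -1 * (-1 * (γ : SL(2, ℤ)))
      simp
    have h' : ((⟨-1, h18_neg_one_mem p⟩ * γ : Gamma0 p) : SL(2, ℤ)) 0 0 +
        ((⟨-1, h18_neg_one_mem p⟩ * γ : Gamma0 p) : SL(2, ℤ)) 1 1 = 2 := by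
      show (-1 * (γ : SL(2, ℤ))) 0 0 + (-1 * (γ : SL(2, ℤ))) 1 1 = 2
      simp only [neg_mul, one_mul, Matrix.SpecialLinearGroup.coe_neg, Matrix.neg_apply]
      linarith
    rw [e, ofMul_mul, map_add, hneg1, key _ h', add_zero]

theorem h18_isParabolicHom_iff (p : ℕ) [Fact p.Prime] {A : Type*} [AddCommGroup A]
    (h2 : ∀ a : A, a + a = 0 → a = 0) (φ : Additive (Gamma0 p) →+ A) :
    ModularCurve.Period.IsParabolicHom (Gamma0 p) φ ↔
      φ (Additive.ofMul ⟨T, h18_T_mem p⟩) = 0 ∧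
      φ (Additive.ofMul ⟨h18_T' p, h18_T'_mem p⟩) = 0 := by
  refine ⟨fun h => ⟨h _ ?_, h _ ?_⟩, fun h => h18_isParabolicHom_of p h2 φ h.1 h.2⟩
  · show Matrix.trace ((T : SL(2, ℤ)) : Matrix (Fin 2) (Fin 2) ℤ) ^ 2 = 4
    rw [coe_T, Matrix.trace_fin_two_of]; norm_num
  · show Matrix.trace ((h18_T' p : SL(2, ℤ)) : Matrix (Fin 2) (Fin 2) ℤ) ^ 2 = 4
    show Matrix.trace (!![1, 0; (p : ℤ), 1]) ^ 2 = 4
    rw [Matrix.trace_fin_two_of]; norm_num

end Fermat.Agent.S16
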