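import Mathlib

/-!
# Universal property of `SL(2, ℤ)` with respect to pairs `a ^ 2 = 1`, `b ^ 3 = 1`

Via the ping-pong lemma on the upper half plane, the images of `S` and `T * S` in the
permutation group of `ℍ` generate a free product `C₂ * C₃`.  Consequently, for every group `K`
and `a b : K` with `a ^ 2 = 1` and `b ^ 3 = 1` there is a homomorphism
`Φ : SL(2, ℤ) →* K` with `Φ S = a` and `Φ (T * S) = b`.
-/

set_option autoImplicit false

namespace Fermat.Agent.S16

open scoped MatrixGroups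
open UpperHalfPlane ModularGroup

/-- The homomorphism from the cyclic group `ZMod n` (written multiplicatively) to a group `G`
sending the generator to an element `g` with `g ^ n = 1`. -/
noncomputable def h18_cyc {G : Type*} [Group G] (g : G) (n : ℕ) (hg : g ^ n = 1) :
    Multiplicative (ZMod n) →* G :=
  AddMonoidHom.toMultiplicativeLeft
    (ZMod.lift n ⟨zmultiplesHom (Additive G) (Additive.ofMul g), by
      show (n : ℤ) • Additive.ofMul g = 0
      rw [natCast_zsmul, ← ofMul_pow, hg]; rfl⟩)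

theorem h18_cyc_apply {G : Type*} [Group G] (g : G) (n : ℕ) (hg : g ^ n = 1) (k : ℤ) :
    h18_cyc g n hg (Multiplicative.ofAdd (k : ZMod n)) = g ^ k := by
  unfold h18_cyc
  rw [AddMonoidHom.coe_toMultiplicativeLeft]
  show Additive.toMul (ZMod.lift n _ (k : ZMod n)) = g ^ k
  rw [ZMod.lift_coe]
  show Additive.toMul (k • Additive.ofMul g) = g ^ k
  rw [← ofMul_zpow]; rfl

theorem h18_cyc_one {G : Type*} [Group G] (g : G) (n : ℕ) (hg : g ^ n = 1) :
    h18_cyc g n hg (Multiplicative.ofAdd (1 : ZMod n)) = g := by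
  have := h18_cyc_apply g n hg 1
  simpa using this

theorem h18_TS_pow_three : (T * S) ^ 3 = (-1 : SL(2, ℤ)) := by decide

theorem h18_S_mul_S : S * S = (-1 : SL(2, ℤ)) := by decide

/-- The action of `SL(2, ℤ)` on `ℍ` as a homomorphism to permutations. -/
noncomputable def h18_act : SL(2, ℤ) →* Equiv.Perm ℍ := MulAction.toPermHom SL(2, ℤ) ℍ

theorem h18_act_apply (g : SL(2, ℤ)) (z : ℍ) : h18_act g z = g • z := rfl

theorem h18_act_neg_one : h18_act (-1) = 1 := by
  ext z
  rw [h18_act_apply, SL_neg_smul, one_smul]; rfl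

theorem h18_act_S_sq : h18_act S ^ 2 = 1 := by
  rw [← map_pow, sq, h18_S_mul_S, h18_act_neg_one]

theorem h18_act_TS_cube : h18_act (T * S) ^ 3 = 1 := by
  rw [← map_pow, h18_TS_pow_three, h18_act_neg_one]

theorem h18_re_S_smul (z : ℍ) : (S • z).re = -z.re / Complex.normSq z := by
  rw [modular_S_smul]
  show ((-(z : ℂ))⁻¹).re = _
  rw [Complex.inv_re, Complex.normSq_neg]
  simp

theorem h18_re_TS_smul (z : ℍ) : ((T * S) • z).re = 1 - z.re / Complex.normSq z := by
  rw [mul_smul, modular_T_smul]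
  show (1 : ℝ) + (S • z).re = _
  rw [h18_re_S_smul]; ring

/-- The two generators `S`, `T * S` as permutations of `ℍ`. -/
noncomputable def h18_gen : Fin 2 → Equiv.Perm ℍ := ![h18_act S, h18_act (T * S)]

theorem h18_gen_pow (i : Fin 2) : h18_gen i ^ (i.val + 2) = 1 := by
  fin_cases i
  · exact h18_act_S_sq
  · exact h18_act_TS_cube

/-- The family of homomorphisms `C₂ → Perm ℍ`, `C₃ → Perm ℍ`. -/
noncomputable def h18_f (i : Fin 2) : Multiplicative (ZMod (i.val + 2)) →* Equiv.Perm ℍ :=
  h18_cyc (h18_gen i) (i.val + 2) (h18_gen_pow i)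

/-- The ping-pong sets: the left and the right half of `ℍ`. -/
def h18_X : Fin 2 → Set ℍ := ![{z | z.re < 0}, {z | 0 < z.re}]

theorem h18_pp_S {z : ℍ} (hz : 0 < z.re) : (S • z).re < 0 := by
  rw [h18_re_S_smul]
  have := z.normSq_pos
  exact div_neg_of_neg_of_pos (by linarith) this

theorem h18_pp_TS {z : ℍ} (hz : z.re < 0) : 1 < ((T * S) • z).re := by
  rw [h18_re_TS_smul]
  have := z.normSq_pos
  have : z.re / Complex.normSq z < 0 := div_neg_of_neg_of_pos hz this
  linarith

theorem h18_pp_TS' {z : ℍ} (hz : 1 < z.re) : 0 < ((T * S) • z).re := by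
  rw [h18_re_TS_smul]
  have h1 := z.normSq_pos
  have h2 : z.re < Complex.normSq z := by
    rw [Complex.normSq_apply]
    have : 0 < (z : ℂ).im * (z : ℂ).im := mul_pos z.im_pos z.im_pos
    have h3 : z.re = (z : ℂ).re := rfl
    nlinarith
  have : z.re / Complex.normSq z < 1 := (div_lt_one h1).mpr h2
  linarith

theorem h18_ne_one_two (h : Multiplicative (ZMod 2)) (hh : h ≠ 1) :
    h = Multiplicative.ofAdd (1 : ZMod 2) := by
  revert h; decide

theorem h18_ne_one_three (h : Multiplicative (ZMod 3)) (hh : h ≠ 1) :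
    h = Multiplicative.ofAdd (1 : ZMod 3) ∨ h = Multiplicative.ofAdd (1 : ZMod 3) ^ 2 := by
  revert h; decide

theorem h18_lift_injective : Function.Injective (Monoid.CoprodI.lift h18_f) := by
  apply Monoid.CoprodI.lift_injective_of_ping_pong h18_f _ h18_X
  · intro i
    fin_cases i
    · refine ⟨(-1 : ℝ) +ᵥ UpperHalfPlane.I, ?_⟩
      show ((-1 : ℝ) +ᵥ UpperHalfPlane.I).re < 0
      rw [UpperHalfPlane.vadd_re]; simp
    · refine ⟨(1 : ℝ) +ᵥ UpperHalfPlane.I, ?_⟩
      show 0 < ((1 : ℝ) +ᵥ UpperHalfPlane.I).re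
      rw [UpperHalfPlane.vadd_re]; simp
  · intro i j hij
    have key : Disjoint (h18_X 0) (h18_X 1) := by
      rw [Set.disjoint_left]
      intro z (hz : z.re < 0) (hz' : 0 < z.re)
      linarith
    fin_cases i <;> fin_cases j
    · exact absurd rfl hij
    · exact key
    · exact key.symm
    · exact absurd rfl hij
  · intro i j hij
    fin_cases i <;> fin_cases j
    · exact absurd rfl hij
    · intro h hh
      have h1 := h18_ne_one_two h hh
      subst h1
      have h2 : h18_f 0 (Multiplicative.ofAdd (1 : ZMod 2)) = h18_act S :=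
        h18_cyc_one _ _ _
      rw [Set.smul_set_subset_iff]
      intro z (hz : 0 < z.re)
      show ((h18_f 0 (Multiplicative.ofAdd (1 : ZMod 2))) • z).re < 0
      rw [h2]
      exact h18_pp_S hz
    · intro h hh
      have h2 : h18_f 1 (Multiplicative.ofAdd (1 : ZMod 3)) = h18_act (T * S) :=
        h18_cyc_one _ _ _
      rw [Set.smul_set_subset_iff]
      intro z (hz : z.re < 0)
      rcases h18_ne_one_three h hh with h1 | h1
      · subst h1
        show 0 < ((h18_f 1 (Multiplicative.ofAdd (1 : ZMod 3))) • z).re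
        rw [h2]
        exact lt_trans one_pos (h18_pp_TS hz)
      · subst h1
        show 0 < ((h18_f 1 (Multiplicative.ofAdd (1 : ZMod 3) ^ 2)) • z).re
        rw [map_pow, h2, sq, mul_smul]
        exact h18_pp_TS' (h18_pp_TS hz)
    · exact absurd rfl hij
  · right
    refine ⟨1, ?_⟩
    show (3 : Cardinal) ≤ Cardinal.mk (Multiplicative (ZMod 3))
    rw [Cardinal.mk_fintype]
    simp [ZMod.card]

theorem h18_lift_of_zero :
    Monoid.CoprodI.lift h18_f (Monoid.CoprodI.of (i := (0 : Fin 2))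
      (Multiplicative.ofAdd (1 : ZMod 2))) = h18_act S := by
  rw [Monoid.CoprodI.lift_of]
  exact h18_cyc_one _ _ _

theorem h18_lift_of_one :
    Monoid.CoprodI.lift h18_f (Monoid.CoprodI.of (i := (1 : Fin 2))
      (Multiplicative.ofAdd (1 : ZMod 3))) = h18_act (T * S) := by
  rw [Monoid.CoprodI.lift_of]
  exact h18_cyc_one _ _ _

theorem h18_act_mem_range (g : SL(2, ℤ)) :
    h18_act g ∈ (Monoid.CoprodI.lift h18_f).range := by
  have hS : h18_act S ∈ (Monoid.CoprodI.lift h18_f).range := ⟨_, h18_lift_of_zero⟩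
  have hTS : h18_act (T * S) ∈ (Monoid.CoprodI.lift h18_f).range := ⟨_, h18_lift_of_one⟩
  have hT : h18_act T ∈ (Monoid.CoprodI.lift h18_f).range := by
    have : h18_act T = h18_act (T * S) * (h18_act S)⁻¹ := by
      rw [map_mul, mul_inv_cancel_right]
    rw [this]
    exact mul_mem hTS (inv_mem hS)
  have hg : g ∈ Subgroup.closure ({S, T} : Set SL(2, ℤ)) := by
    rw [SpecialLinearGroup.SL2Z_generators]; trivial
  induction hg using Subgroup.closure_induction with
  | mem x hx =>
    rcases hx with rfl | rfl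
    · exact hS
    · exact hT
  | one => rw [map_one]; exact one_mem _
  | mul x y _ _ hx hy => rw [map_mul]; exact mul_mem hx hy
  | inv x _ hx => rw [map_inv]; exact inv_mem hx

/-- The homomorphism from `SL(2, ℤ)` to the free product `C₂ * C₃`. -/
noncomputable def h18_Psi :
    SL(2, ℤ) →* Monoid.CoprodI (fun i : Fin 2 => Multiplicative (ZMod (i.val + 2))) :=
  (MonoidHom.ofInjective h18_lift_injective).symm.toMonoidHom.comp
    (h18_act.codRestrict (Monoid.CoprodI.lift h18_f).range h18_act_mem_range)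

theorem h18_lift_Psi (g : SL(2, ℤ)) : Monoid.CoprodI.lift h18_f (h18_Psi g) = h18_act g := by
  have h := (MonoidHom.ofInjective h18_lift_injective).apply_symm_apply
    (h18_act.codRestrict (Monoid.CoprodI.lift h18_f).range h18_act_mem_range g)
  have h2 := congrArg Subtype.val h
  rw [MonoidHom.ofInjective_apply] at h2
  exact h2

theorem h18_Psi_S : h18_Psi S = Monoid.CoprodI.of (i := (0 : Fin 2))
    (Multiplicative.ofAdd (1 : ZMod 2)) :=
  h18_lift_injective ((h18_lift_Psi S).trans h18_lift_of_zero.symm)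

theorem h18_Psi_TS : h18_Psi (T * S) = Monoid.CoprodI.of (i := (1 : Fin 2))
    (Multiplicative.ofAdd (1 : ZMod 3)) :=
  h18_lift_injective ((h18_lift_Psi (T * S)).trans h18_lift_of_one.symm)

/-- **Universal property of `SL(2, ℤ)`** (free product structure of `PSL(2, ℤ)`): for elements
`a`, `b` of a group with `a ^ 2 = 1` and `b ^ 3 = 1` there is a homomorphism from `SL(2, ℤ)`
sending `S` to `a` and `T * S` to `b`. -/
theorem h18_SL2Z_lift {K : Type*} [Group K] (a b : K) (ha : a ^ 2 = 1) (hb : b ^ 3 = 1) :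
    ∃ Φ : SL(2, ℤ) →* K, Φ S = a ∧ Φ (T * S) = b := by
  have hab : ∀ i : Fin 2, (![a, b] i) ^ (i.val + 2) = 1 := by
    intro i
    fin_cases i
    · exact ha
    · exact hb
  refine ⟨(Monoid.CoprodI.lift (fun i : Fin 2 =>
      h18_cyc (![a, b] i) (i.val + 2) (hab i))).comp h18_Psi, ?_, ?_⟩
  · rw [MonoidHom.comp_apply, h18_Psi_S, Monoid.CoprodI.lift_of]
    exact h18_cyc_one _ _ _
  · rw [MonoidHom.comp_apply, h18_Psi_TS, Monoid.CoprodI.lift_of]
    exact h18_cyc_one _ _ _

theorem h18_SL2Z_lift_T {K : Type*} [Group K] (a b : K) (ha : a ^ 2 = 1) (hb : b ^ 3 = 1) :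
    ∃ Φ : SL(2, ℤ) →* K, Φ S = a ∧ Φ (T * S) = b ∧ Φ T = b * a := by
  obtain ⟨Φ, h1, h2⟩ := h18_SL2Z_lift a b ha hb
  refine ⟨Φ, h1, h2, ?_⟩
  have : Φ T = Φ (T * S) * (Φ S)⁻¹ := by rw [map_mul, mul_inv_cancel_right]
  rw [this, h1, h2]
  congr 1
  exact inv_eq_of_mul_eq_one_left (by rw [← sq]; exact ha)

end Fermat.Agent.S16
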