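import Fermat.Agent.S16.h18_PingPong
import Fermat.Agent.S16.h18_Defs

/-!
# A homomorphism `Γ₀(N) → ℤ` with value `1` on `T` and on `T' = [1, 0; N, 1]`

For `N ≥ 2` we construct `ρ : Γ₀(N) → ℤ` additive with `ρ T = 1` and `ρ T' = 1`, using the
universal property `h18_SL2Z_lift_T` of `SL(2, ℤ)` applied to permutations of `(SL(2,ℤ)/Γ₀(N)) × ℤ`.
-/

set_option autoImplicit false

namespace Fermat.Agent.S16

open scoped MatrixGroups
open ModularGroup CongruenceSubgroup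

section

variable (N : ℕ)

/-- The coset space `SL(2, ℤ) / Γ₀(N)`. -/
abbrev h18_Cos : Type := SL(2, ℤ) ⧸ Gamma0 N

/-- The base point. -/
def h18_x0 : h18_Cos N := ((1 : SL(2, ℤ)) : SL(2, ℤ) ⧸ Gamma0 N)

theorem h18_smul_x0_eq_iff (g : SL(2, ℤ)) : g • h18_x0 N = h18_x0 N ↔ g ∈ Gamma0 N := by
  show ((g * 1 : SL(2, ℤ)) : SL(2, ℤ) ⧸ Gamma0 N) = ((1 : SL(2, ℤ)) : SL(2, ℤ) ⧸ Gamma0 N) ↔ _
  rw [QuotientGroup.eq, mul_one, mul_one, inv_mem_iff]

theorem h18_neg_one_smul (x : h18_Cos N) : (-1 : SL(2, ℤ)) • x = x := by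
  induction x using QuotientGroup.induction_on with
  | H g =>
    show ((-1 * g : SL(2, ℤ)) : SL(2, ℤ) ⧸ Gamma0 N) = (g : SL(2, ℤ) ⧸ Gamma0 N)
    rw [QuotientGroup.eq]
    have : (-1 * g)⁻¹ * g = -1 := by
      rw [inv_mul_eq_iff_eq_mul]
      ext i j
      simp
    rw [this]
    exact h18_neg_one_mem N

theorem h18_S_S_smul (x : h18_Cos N) : S • S • x = x := by
  rw [← mul_smul, h18_S_mul_S, h18_neg_one_smul]

theorem h18_TS_cube_smul (x : h18_Cos N) : (T * S) • (T * S) • (T * S) • x = x := by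
  have h : (T * S) * (T * S) * (T * S) = (-1 : SL(2, ℤ)) := by decide
  rw [← mul_smul, ← mul_smul, h, h18_neg_one_smul]

end

section Construction

variable (N : ℕ)

open Classical in
/-- The function `c = -1_{x₀}` on the coset space. -/
noncomputable def h18_c (x : h18_Cos N) : ℤ := if x = h18_x0 N then -1 else 0

theorem h18_c_of_mem {g : SL(2, ℤ)} (hg : g ∈ Gamma0 N) : h18_c N (g • h18_x0 N) = -1 := by
  unfold h18_c
  rw [if_pos ((h18_smul_x0_eq_iff N g).mpr hg)]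

theorem h18_c_of_not_mem {g : SL(2, ℤ)} (hg : g ∉ Gamma0 N) : h18_c N (g • h18_x0 N) = 0 := by
  unfold h18_c
  rw [if_neg (fun h => hg ((h18_smul_x0_eq_iff N g).mp h))]

theorem h18_c_x0 : h18_c N (h18_x0 N) = -1 := by
  unfold h18_c
  rw [if_pos rfl]

/-- The involution `a` of `(SL(2,ℤ)/Γ₀(N)) × ℤ`. -/
noncomputable def h18_A : Equiv.Perm (h18_Cos N × ℤ) where
  toFun v := (S • v.1, v.2 + h18_c N (S • v.1) - h18_c N v.1)
  invFun v := (S • v.1, v.2 + h18_c N (S • v.1) - h18_c N v.1)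
  left_inv v := by
    apply Prod.ext
    · exact h18_S_S_smul N v.1
    · show v.2 + h18_c N (S • v.1) - h18_c N v.1 + h18_c N (S • S • v.1) - h18_c N (S • v.1) = v.2
      rw [h18_S_S_smul]; ring
  right_inv v := by
    apply Prod.ext
    · exact h18_S_S_smul N v.1
    · show v.2 + h18_c N (S • v.1) - h18_c N v.1 + h18_c N (S • S • v.1) - h18_c N (S • v.1) = v.2
      rw [h18_S_S_smul]; ring

/-- The element `b` of order three. -/
noncomputable def h18_B : Equiv.Perm (h18_Cos N × ℤ) where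
  toFun v := ((T * S) • v.1, v.2)
  invFun v := ((T * S)⁻¹ • v.1, v.2)
  left_inv _ := Prod.ext (inv_smul_smul _ _) rfl
  right_inv _ := Prod.ext (smul_inv_smul _ _) rfl

theorem h18_A_apply (v : h18_Cos N × ℤ) :
    h18_A N v = (S • v.1, v.2 + h18_c N (S • v.1) - h18_c N v.1) := rfl

theorem h18_B_apply (v : h18_Cos N × ℤ) : h18_B N v = ((T * S) • v.1, v.2) := rfl

theorem h18_A_sq : h18_A N ^ 2 = 1 := by
  ext1 v
  rw [sq, Equiv.Perm.mul_apply]
  exact (h18_A N).left_inv v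

theorem h18_B_cube : h18_B N ^ 3 = 1 := by
  ext1 v
  rw [pow_succ, pow_succ, pow_one, Equiv.Perm.mul_apply, Equiv.Perm.mul_apply, h18_B_apply,
    h18_B_apply, h18_B_apply]
  apply Prod.ext
  · exact h18_TS_cube_smul N v.1
  · rfl

theorem h18_exists_Phi : ∃ Φ : SL(2, ℤ) →* Equiv.Perm (h18_Cos N × ℤ),
    (∀ v, Φ S v = (S • v.1, v.2 + h18_c N (S • v.1) - h18_c N v.1)) ∧
    (∀ v, Φ T v = (T • v.1, v.2 + h18_c N (S • v.1) - h18_c N v.1)) := by
  obtain ⟨Φ, hS, -, hT⟩ := h18_SL2Z_lift_T (h18_A N) (h18_B N) (h18_A_sq N) (h18_B_cube N)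
  refine ⟨Φ, fun v => by rw [hS, h18_A_apply], fun v => ?_⟩
  rw [hT, Equiv.Perm.mul_apply, h18_A_apply, h18_B_apply]
  apply Prod.ext
  · show (T * S) • S • v.1 = T • v.1
    rw [mul_smul, h18_S_S_smul]
  · rfl

/-- Every `Φ g` covers the action of `g` on the cosets and commutes with translations. -/
theorem h18_Phi_props (Φ : SL(2, ℤ) →* Equiv.Perm (h18_Cos N × ℤ))
    (hS : ∀ v, Φ S v = (S • v.1, v.2 + h18_c N (S • v.1) - h18_c N v.1))
    (hT : ∀ v, Φ T v = (T • v.1, v.2 + h18_c N (S • v.1) - h18_c N v.1)) (g : SL(2, ℤ)) :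
    (∀ v, (Φ g v).1 = g • v.1) ∧
      (∀ (x : h18_Cos N) (k m : ℤ), Φ g (x, k + m) = ((Φ g (x, k)).1, (Φ g (x, k)).2 + m)) := by
  have hg : g ∈ Subgroup.closure ({S, T} : Set SL(2, ℤ)) := by
    rw [SpecialLinearGroup.SL2Z_generators]; trivial
  induction hg using Subgroup.closure_induction with
  | mem y hy =>
    rcases hy with rfl | rfl
    · refine ⟨fun v => by rw [hS], fun x k m => ?_⟩
      rw [hS, hS]
      apply Prod.ext
      · rfl
      · show k + m + _ - _ = k + _ - _ + m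
        ring
    · refine ⟨fun v => by rw [hT], fun x k m => ?_⟩
      rw [hT, hT]
      apply Prod.ext
      · rfl
      · show k + m + _ - _ = k + _ - _ + m
        ring
  | one =>
    refine ⟨fun v => by rw [map_one, one_smul]; rfl, fun x k m => ?_⟩
    rw [map_one]; rfl
  | mul y z _ _ hy hz =>
    refine ⟨fun v => ?_, fun x k m => ?_⟩
    · rw [map_mul, Equiv.Perm.mul_apply, hy.1, hz.1, mul_smul]
    · rw [map_mul, Equiv.Perm.mul_apply, Equiv.Perm.mul_apply, hz.2 x k m, hy.2]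
  | inv y _ hy =>
    have hcancel : ∀ v, Φ y (Φ y⁻¹ v) = v := fun v => by
      rw [← Equiv.Perm.mul_apply, ← map_mul, mul_inv_cancel, map_one]; rfl
    refine ⟨fun v => ?_, fun x k m => ?_⟩
    · have h1 := hy.1 (Φ y⁻¹ v)
      rw [hcancel] at h1
      rw [h1, inv_smul_smul]
    · apply (Φ y).injective
      rw [hcancel, hy.2, hcancel]

theorem h18_coe_T_pow (i : ℕ) : ((T ^ i : SL(2, ℤ)) : Matrix (Fin 2) (Fin 2) ℤ) = !![1, (i : ℤ); 0, 1] := by
  have hT := coe_T_zpow (i : ℤ)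
  rwa [zpow_natCast] at hT

theorem h18_TS_entry (i : ℕ) : (T ^ i * S : SL(2, ℤ)) 1 0 = 1 := by
  show ((T ^ i * S : SL(2, ℤ)) : Matrix (Fin 2) (Fin 2) ℤ) 1 0 = 1
  rw [Matrix.SpecialLinearGroup.coe_mul, h18_coe_T_pow, coe_S]
  simp [Matrix.mul_apply, Fin.sum_univ_two]

theorem h18_STS_entry (i : ℕ) : (S * T ^ i * S : SL(2, ℤ)) 1 0 = (i : ℤ) := by
  show ((S * T ^ i * S : SL(2, ℤ)) : Matrix (Fin 2) (Fin 2) ℤ) 1 0 = (i : ℤ)
  rw [Matrix.SpecialLinearGroup.coe_mul, Matrix.SpecialLinearGroup.coe_mul, h18_coe_T_pow, coe_S]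
  simp [Matrix.mul_apply, Fin.sum_univ_two]

theorem h18_S_not_mem (hN : 2 ≤ N) : S ∉ Gamma0 N := by
  have : NeZero N := ⟨by omega⟩
  rw [Gamma0_mem]
  have : (S : SL(2, ℤ)) 1 0 = 1 := by simp [coe_S]
  rw [this, ZMod.intCast_zmod_eq_zero_iff_dvd]
  intro h
  have := Int.le_of_dvd one_pos h
  omega

theorem h18_TS_not_mem (hN : 2 ≤ N) (i : ℕ) : T ^ i * S ∉ Gamma0 N := by
  have : NeZero N := ⟨by omega⟩
  rw [Gamma0_mem, h18_TS_entry, ZMod.intCast_zmod_eq_zero_iff_dvd]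
  intro h
  have := Int.le_of_dvd one_pos h
  omega

theorem h18_STS_mem_iff (hN : 2 ≤ N) (i : ℕ) : S * T ^ i * S ∈ Gamma0 N ↔ N ∣ i := by
  have : NeZero N := ⟨by omega⟩
  rw [Gamma0_mem, h18_STS_entry, ZMod.intCast_zmod_eq_zero_iff_dvd, Int.natCast_dvd_natCast]

end Construction

/-- **Block (A1).** For `N ≥ 2` there is an additive map `ρ : Γ₀(N) → ℤ` with `ρ T = 1` and
`ρ [1, 0; N, 1] = 1`. -/
theorem h18_exists_rho (N : ℕ) (hN : 2 ≤ N) :
    ∃ ρ : Additive (Gamma0 N) →+ ℤ,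
      ρ (Additive.ofMul ⟨T, h18_T_mem N⟩) = 1 ∧
      ρ (Additive.ofMul ⟨h18_T' N, h18_T'_mem N⟩) = 1 := by
  obtain ⟨Φ, hS, hT⟩ := h18_exists_Phi N
  have hP := h18_Phi_props N Φ hS hT
  have hfix : ∀ γ : Gamma0 N, (Φ (γ : SL(2, ℤ)) (h18_x0 N, 0)).1 = h18_x0 N := fun γ => by
    rw [(hP γ).1]; exact (h18_smul_x0_eq_iff N _).mpr γ.2
  have hadd : ∀ γ δ : Gamma0 N,
      (Φ ((γ * δ : Gamma0 N) : SL(2, ℤ)) (h18_x0 N, 0)).2 =
        (Φ (γ : SL(2, ℤ)) (h18_x0 N, 0)).2 + (Φ (δ : SL(2, ℤ)) (h18_x0 N, 0)).2 := by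
    intro γ δ
    rw [Subgroup.coe_mul, map_mul, Equiv.Perm.mul_apply]
    have h1 : Φ (δ : SL(2, ℤ)) (h18_x0 N, 0) =
        (h18_x0 N, 0 + (Φ (δ : SL(2, ℤ)) (h18_x0 N, 0)).2) := by
      apply Prod.ext
      · exact hfix δ
      · show _ = 0 + _
        rw [zero_add]
    rw [h1, (hP γ).2]
    show _ = _ + (0 + _)
    rw [zero_add]
  let ρ : Additive (Gamma0 N) →+ ℤ :=
    AddMonoidHom.mk' (fun γ => (Φ ((Additive.toMul γ : Gamma0 N) : SL(2, ℤ)) (h18_x0 N, 0)).2)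
      (fun a b => hadd (Additive.toMul a) (Additive.toMul b))
  have hρ : ∀ γ : Gamma0 N, ρ (Additive.ofMul γ) = (Φ (γ : SL(2, ℤ)) (h18_x0 N, 0)).2 :=
    fun γ => rfl
  refine ⟨ρ, ?_, ?_⟩
  · rw [hρ]
    show (Φ T (h18_x0 N, 0)).2 = 1
    rw [hT]
    show 0 + h18_c N (S • h18_x0 N) - h18_c N (h18_x0 N) = 1
    rw [h18_c_of_not_mem N (h18_S_not_mem N hN), h18_c_x0]; norm_num
  · -- first compute on the inverse `S * T ^ N * S⁻¹`
    have hSinv : Φ S⁻¹ (h18_x0 N, 0) = (S • h18_x0 N, 1) := by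
      rw [map_inv, Equiv.Perm.inv_eq_iff_eq, hS]
      apply Prod.ext
      · exact (h18_S_S_smul N _).symm
      · show (0 : ℤ) = 1 + h18_c N (S • S • h18_x0 N) - h18_c N (S • h18_x0 N)
        rw [h18_S_S_smul, h18_c_x0, h18_c_of_not_mem N (h18_S_not_mem N hN)]; norm_num
    have hpow : ∀ i : ℕ, 1 ≤ i → i ≤ N → ∀ k : ℤ,
        Φ (T ^ i) (S • h18_x0 N, k) = (T ^ i • S • h18_x0 N, k - 1) := by
      intro i hi
      induction i, hi using Nat.le_induction with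
      | base =>
        intro _ k
        rw [pow_one, hT]
        apply Prod.ext
        · rfl
        · show k + h18_c N (S • S • h18_x0 N) - h18_c N (S • h18_x0 N) = k - 1
          rw [h18_S_S_smul, h18_c_x0, h18_c_of_not_mem N (h18_S_not_mem N hN)]; ring
      | succ i hi ih =>
        intro hiN k
        rw [pow_succ', map_mul, Equiv.Perm.mul_apply, ih (by omega) k, hT]
        apply Prod.ext
        · show T • T ^ i • S • h18_x0 N = (T * T ^ i) • S • h18_x0 N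
          rw [mul_smul]
        · show k - 1 + h18_c N (S • T ^ i • S • h18_x0 N) - h18_c N (T ^ i • S • h18_x0 N) = k - 1
          have e1 : S • T ^ i • S • h18_x0 N = (S * T ^ i * S) • h18_x0 N := by
            rw [mul_smul, mul_smul]
          have e2 : T ^ i • S • h18_x0 N = (T ^ i * S) • h18_x0 N := by rw [mul_smul]
          have hnot : S * T ^ i * S ∉ Gamma0 N := by
            rw [h18_STS_mem_iff N hN]
            intro hdvd
            have := Nat.le_of_dvd (by omega) hdvd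
            omega
          rw [e1, e2, h18_c_of_not_mem N hnot, h18_c_of_not_mem N (h18_TS_not_mem N hN i)]; ring
    have hinv : ρ (Additive.ofMul (⟨h18_T' N, h18_T'_mem N⟩⁻¹ : Gamma0 N)) = -1 := by
      rw [hρ]
      show (Φ ((h18_T' N)⁻¹) (h18_x0 N, 0)).2 = -1
      rw [h18_T'_inv, map_mul, map_mul, Equiv.Perm.mul_apply, Equiv.Perm.mul_apply, hSinv,
        hpow N (by omega) le_rfl, hS]
      show (1 : ℤ) - 1 + h18_c N (S • T ^ N • S • h18_x0 N) - h18_c N (T ^ N • S • h18_x0 N) = -1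
      have e1 : S • T ^ N • S • h18_x0 N = (S * T ^ N * S) • h18_x0 N := by
        rw [mul_smul, mul_smul]
      have e2 : T ^ N • S • h18_x0 N = (T ^ N * S) • h18_x0 N := by rw [mul_smul]
      rw [e1, e2, h18_c_of_mem N ((h18_STS_mem_iff N hN N).mpr dvd_rfl),
        h18_c_of_not_mem N (h18_TS_not_mem N hN N)]; norm_num
    have h2 : ρ (Additive.ofMul (⟨h18_T' N, h18_T'_mem N⟩⁻¹ : Gamma0 N)) =
        -ρ (Additive.ofMul ⟨h18_T' N, h18_T'_mem N⟩) := by
      rw [ofMul_inv, map_neg]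
    rw [h2] at hinv
    linarith

end Fermat.Agent.S16
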