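import Fermat.Agent.S16.h18_Rho
import Fermat.Agent.S16.h18_Parab

/-!
# Block (A) of the S16 lower bound: correcting an integral class to a parabolic one

If `φ : Γ₀(p) → ℤ` is additive with `φ T = m = φ T'` (`T' = [1, 0; p, 1]`), then there is an
additive `ρ : Γ₀(p) → ℤ` such that `m • ρ - φ` is parabolic (vanishes on all elements with
`trace ^ 2 = 4`).
-/

set_option autoImplicit false

namespace Fermat.Agent.S16

open scoped MatrixGroups
open ModularGroup CongruenceSubgroup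

theorem h18_exists_rho_parabolic (p : ℕ) [Fact p.Prime] (φ : Additive (Gamma0 p) →+ ℤ) (m : ℤ)
    (hT : φ (Additive.ofMul ⟨T, h18_T_mem p⟩) = m)
    (hT' : φ (Additive.ofMul ⟨h18_T' p, h18_T'_mem p⟩) = m) :
    ∃ ρ : Additive (Gamma0 p) →+ ℤ,
      ρ (Additive.ofMul ⟨T, h18_T_mem p⟩) = 1 ∧
      ρ (Additive.ofMul ⟨h18_T' p, h18_T'_mem p⟩) = 1 ∧
      ModularCurve.Period.IsParabolicHom (Gamma0 p) (m • ρ - φ) := by
  obtain ⟨ρ, h1, h2⟩ := h18_exists_rho p (Fact.out : p.Prime).two_le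
  refine ⟨ρ, h1, h2, h18_isParabolicHom_of p (fun a ha => by omega) _ ?_ ?_⟩
  · show m • ρ _ - φ _ = 0
    rw [h1, hT]; simp
  · show m • ρ _ - φ _ = 0
    rw [h2, hT']; simp

end Fermat.Agent.S16
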