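import Mathlib
import Fermat.Prelude.Def_ModularCurve_PeriodHomPair
import Fermat.Prelude.Def_CuspForm_HeckeAlgebra
import Fermat.Prelude.Sol.S_ModularForm_heckeT_slash_eq_self_of_mem_Gamma0
import Fermat.Agent.S22.Defs
import Fermat.Agent.S22.Eichler
import Fermat.Agent.S22.EichlerHecke
import Fermat.Agent.S21.h58_Prim

/-!
# S16, block PER-HECKE (analytic core)

Hecke-equivariance of the prelude period map `ModularCurve.periodMap` for weight-2 cusp forms on
`Γ₀(N)`, in raw coset form: for ANY decomposition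
`α_x · γ = γ'_x · α_{π x}` (with `α` the prelude coset representatives, `π` a permutation of the
index set and `γ'_x ∈ Γ₀(N)`),

* `h42_period_heckeT`: `periodMap N (T_ℓ f) γ = ∑ x, periodMap N f (γ' x)`,
* `h42_period_heckeU`: `periodMap N (U_q f) γ = ∑ x, periodMap N f (γ' x)`.

Also the pointwise description of the canonical primitive of `T_ℓ f`, `U_q f`
(`h42_F_heckeT`, `h42_F_heckeU`).
-/

set_option autoImplicit false

namespace Fermat.Agent.S16

open UpperHalfPlane Derivative Filter Topology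
open scoped MatrixGroups ModularForm Manifold Real

open Fermat.Agent.S22 Fermat.Agent.S21
open P2MW.S_ModularForm_heckeT_slash_eq_self_of_mem_Gamma0.ModularForm.HeckeSlashInvariance

variable {N : ℕ} [NeZero N]

/-- The canonical primitive is `(2πi)⁻¹` times the Eichler integral of order `0`. -/
theorem h42_eichler_zero (f : CuspForm (CongruenceSubgroup.Gamma0 N) 2) :
    eichler 0 ⇑f = (2 * π * Complex.I) • h58_F f := by
  have h3 : (2 * (π : ℂ) * Complex.I) ≠ 0 := by
    simp [Real.pi_ne_zero, Complex.I_ne_zero]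
  refine eichler_eq_of 0 ((h58_F_isCuspPer f).smul _) ?_
  rw [Function.iterate_one, normalizedDerivOfComplex_smul _ _ (h58_F_mdiff f), h58_F_D,
    smul_smul, mul_inv_cancel₀ h3, one_smul]

/-- Weight-zero slash by a Hecke coset representative. -/
theorem h42_slash_zero_heckeRep {l : ℕ} (hl : l ≠ 0) (G : ℍ → ℂ) (x : OnePoint (ZMod l))
    (z : ℍ) : (G ∣[(0 : ℤ)] heckeRep l x) z = (l : ℂ)⁻¹ * G (heckeRep l x • z) := by
  induction x using OnePoint.rec with
  | infty =>
    rw [heckeRep_infty, ModularForm.slash_heckeDiagMatrix_apply 0 hl]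
    norm_num
  | coe j =>
    rw [heckeRep_coe, ModularForm.slash_heckeMatrix_apply 0 hl]

/-- The canonical primitive of `T_ℓ f` is the sum of the translates of the canonical primitive
of `f` by the Hecke coset representatives. -/
theorem h42_F_heckeT {l : ℕ} [NeZero l] (hl : l.Prime) (hlN : ¬ l ∣ N)
    (f : CuspForm (CongruenceSubgroup.Gamma0 N) 2) (z : ℍ) :
    h58_F (CuspForm.heckeTLin 2 hl hlN f) z =
      ∑ x : OnePoint (ZMod l), h58_F f (heckeRep l x • z) := by
  have hc : (2 * (π : ℂ) * Complex.I) ≠ 0 := by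
    simp [Real.pi_ne_zero, Complex.I_ne_zero]
  have hlC : (l : ℂ) ≠ 0 := Nat.cast_ne_zero.mpr hl.ne_zero
  have h1 := h42_eichler_zero (CuspForm.heckeTLin 2 hl hlN f)
  have h2 := h42_eichler_zero f
  have hTf : IsCuspPer 1 (ModularForm.heckeT (((0 : ℕ) : ℤ) + 2) l ⇑f) := by
    have := isCuspPer_of_cuspForm (CuspForm.heckeTLin (((0 : ℕ) : ℤ) + 2) hl hlN f)
    rwa [CuspForm.coe_heckeTLin_apply] at this
  have h3 := eichler_heckeT 0 hl.ne_zero (isCuspPer_of_cuspForm f) hTf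
  have h4 : eichler 0 ⇑(CuspForm.heckeTLin 2 hl hlN f) =
      (l : ℂ) • ModularForm.heckeT 0 l (eichler 0 ⇑f) := by
    have e : ⇑(CuspForm.heckeTLin 2 hl hlN f) = ModularForm.heckeT (((0 : ℕ) : ℤ) + 2) l ⇑f := rfl
    rw [e, h3]
    simp
  rw [h1, h2, heckeT_eq_sum_onePoint] at h4
  have h5 := congrFun h4 z
  simp only [Pi.smul_apply, Finset.sum_apply, smul_eq_mul, h42_slash_zero_heckeRep hl.ne_zero,
    ← Finset.mul_sum] at h5
  apply mul_left_cancel₀ hc
  rw [h5]
  field_simp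

/-- The canonical primitive of `U_q f` is the sum of the translates of the canonical primitive
of `f` by the `U_q` coset representatives. -/
theorem h42_F_heckeU {q : ℕ} [NeZero q] (hqN : q ∣ N)
    (f : CuspForm (CongruenceSubgroup.Gamma0 N) 2) (z : ℍ) :
    h58_F (CuspForm.heckeULin 2 hqN f) z =
      ∑ x : ZMod q, h58_F f (ModularForm.heckeMatrix q x.val • z) := by
  have hq : q ≠ 0 := NeZero.ne q
  have hc : (2 * (π : ℂ) * Complex.I) ≠ 0 := by
    simp [Real.pi_ne_zero, Complex.I_ne_zero]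
  have hqC : (q : ℂ) ≠ 0 := Nat.cast_ne_zero.mpr hq
  have h1 := h42_eichler_zero (CuspForm.heckeULin 2 hqN f)
  have h2 := h42_eichler_zero f
  have hUf : IsCuspPer 1 (ModularForm.heckeU (((0 : ℕ) : ℤ) + 2) q ⇑f) := by
    have := isCuspPer_of_cuspForm (CuspForm.heckeULin (((0 : ℕ) : ℤ) + 2) hqN f)
    rwa [CuspForm.coe_heckeULin_apply] at this
  have h3 := eichler_heckeU 0 hq (isCuspPer_of_cuspForm f) hUf
  have h4 : eichler 0 ⇑(CuspForm.heckeULin 2 hqN f) =
      (q : ℂ) • ModularForm.heckeU 0 q (eichler 0 ⇑f) := by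
    have e : ⇑(CuspForm.heckeULin 2 hqN f) = ModularForm.heckeU (((0 : ℕ) : ℤ) + 2) q ⇑f := rfl
    rw [e, h3]
    simp
  rw [h1, h2, heckeU_eq_sum_zmod] at h4
  have h5 := congrFun h4 z
  simp only [Pi.smul_apply, Finset.sum_apply, smul_eq_mul,
    ModularForm.slash_heckeMatrix_apply 0 hq, ← Finset.mul_sum] at h5
  apply mul_left_cancel₀ hc
  rw [h5]
  field_simp

/-- Abstract period formula: if the canonical primitive of `f'` is the sum of the translates of
the canonical primitive of `f` by a finite family `α` of matrices, then for any decomposition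
`α x * γ = γ' x * α (e x)` the period of `f'` along `γ` is the sum of the periods of `f` along
the `γ' x`. -/
theorem h42_period_of_sum {ι : Type*} [Fintype ι] (α : ι → GL (Fin 2) ℝ)
    (f f' : CuspForm (CongruenceSubgroup.Gamma0 N) 2)
    (hF : ∀ z : ℍ, h58_F f' z = ∑ x, h58_F f (α x • z))
    (γ : CongruenceSubgroup.Gamma0 N) (e : Equiv.Perm ι)
    (γ' : ι → CongruenceSubgroup.Gamma0 N)
    (hmul : ∀ x, α x * Matrix.SpecialLinearGroup.mapGL ℝ (γ : SL(2, ℤ)) =
      Matrix.SpecialLinearGroup.mapGL ℝ (γ' x : SL(2, ℤ)) * α (e x)) :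
    ModularCurve.periodMap N f' (Additive.ofMul γ) =
      ∑ x, ModularCurve.periodMap N f (Additive.ofMul (γ' x)) := by
  rw [h58_periodMap_apply f' γ UpperHalfPlane.I, hF, hF,
    ← Equiv.sum_comp e (fun x => h58_F f (α x • UpperHalfPlane.I)), ← Finset.sum_sub_distrib]
  refine Finset.sum_congr rfl fun x _ => ?_
  rw [h58_periodMap_apply f (γ' x) (α (e x) • UpperHalfPlane.I)]
  congr 2
  have e1 : ((γ : SL(2, ℤ)) • UpperHalfPlane.I : ℍ) =
      Matrix.SpecialLinearGroup.mapGL ℝ (γ : SL(2, ℤ)) • UpperHalfPlane.I := rfl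
  have e2 : ((γ' x : SL(2, ℤ)) • (α (e x) • UpperHalfPlane.I) : ℍ) =
      Matrix.SpecialLinearGroup.mapGL ℝ (γ' x : SL(2, ℤ)) • (α (e x) • UpperHalfPlane.I) := rfl
  rw [e1, e2, ← mul_smul, hmul x, mul_smul]

/-- **PER-HECKE, `T_ℓ`.** For any decomposition `α_x · γ = γ'_x · α_{e x}` of `γ ∈ Γ₀(N)` with
respect to the prelude coset representatives `heckeRep ℓ`, the period of `T_ℓ f` along `γ` is the
sum of the periods of `f` along the `γ'_x`. -/
theorem h42_period_heckeT {l : ℕ} [NeZero l] (hl : l.Prime) (hlN : ¬ l ∣ N)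
    (f : CuspForm (CongruenceSubgroup.Gamma0 N) 2)
    (γ : CongruenceSubgroup.Gamma0 N) (e : Equiv.Perm (OnePoint (ZMod l)))
    (γ' : OnePoint (ZMod l) → CongruenceSubgroup.Gamma0 N)
    (hmul : ∀ x, heckeRep l x * Matrix.SpecialLinearGroup.mapGL ℝ (γ : SL(2, ℤ)) =
      Matrix.SpecialLinearGroup.mapGL ℝ (γ' x : SL(2, ℤ)) * heckeRep l (e x)) :
    ModularCurve.periodMap N (CuspForm.heckeTLin 2 hl hlN f) (Additive.ofMul γ) =
      ∑ x, ModularCurve.periodMap N f (Additive.ofMul (γ' x)) :=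
  h42_period_of_sum (heckeRep l) f _ (h42_F_heckeT hl hlN f) γ e γ' hmul

/-- **PER-HECKE, `U_q`.** For any decomposition `α_x · γ = γ'_x · α_{e x}` of `γ ∈ Γ₀(N)` with
respect to the prelude coset representatives `heckeMatrix q x.val`, the period of `U_q f` along
`γ` is the sum of the periods of `f` along the `γ'_x`. -/
theorem h42_period_heckeU {q : ℕ} [NeZero q] (hqN : q ∣ N)
    (f : CuspForm (CongruenceSubgroup.Gamma0 N) 2)
    (γ : CongruenceSubgroup.Gamma0 N) (e : Equiv.Perm (ZMod q))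
    (γ' : ZMod q → CongruenceSubgroup.Gamma0 N)
    (hmul : ∀ x : ZMod q, ModularForm.heckeMatrix q x.val *
        Matrix.SpecialLinearGroup.mapGL ℝ (γ : SL(2, ℤ)) =
      Matrix.SpecialLinearGroup.mapGL ℝ (γ' x : SL(2, ℤ)) * ModularForm.heckeMatrix q (e x).val) :
    ModularCurve.periodMap N (CuspForm.heckeULin 2 hqN f) (Additive.ofMul γ) =
      ∑ x, ModularCurve.periodMap N f (Additive.ofMul (γ' x)) :=
  h42_period_of_sum (fun x : ZMod q => ModularForm.heckeMatrix q x.val) f _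
    (h42_F_heckeU hqN f) γ e γ' hmul

omit [NeZero N] in
/-- Existence of the decomposition for `T_ℓ` (`ℓ` prime, `ℓ ∤ N`). -/
theorem h42_exists_decomp_heckeT {l : ℕ} [Fact l.Prime] (hlN : ¬ l ∣ N)
    (γ : CongruenceSubgroup.Gamma0 N) :
    ∃ (e : Equiv.Perm (OnePoint (ZMod l))) (γ' : OnePoint (ZMod l) → CongruenceSubgroup.Gamma0 N),
      ∀ x, heckeRep l x * Matrix.SpecialLinearGroup.mapGL ℝ (γ : SL(2, ℤ)) =
        Matrix.SpecialLinearGroup.mapGL ℝ (γ' x : SL(2, ℤ)) * heckeRep l (e x) := by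
  have hcN : (N : ℤ) ∣ (γ : SL(2, ℤ)) 1 0 :=
    (ZMod.intCast_zmod_eq_zero_iff_dvd _ _).mp (CongruenceSubgroup.Gamma0_mem.mp γ.2)
  choose γ' hγ'N hmul using fun x => heckeRep_mul hlN (γ : SL(2, ℤ)) hcN x
  exact ⟨MulAction.toPerm (redMatrix l (γ : SL(2, ℤ))),
    fun x => ⟨γ' x, CongruenceSubgroup.Gamma0_mem.mpr
      ((ZMod.intCast_zmod_eq_zero_iff_dvd _ _).mpr (hγ'N x))⟩, hmul⟩

omit [NeZero N] in
/-- Existence of the decomposition for `U_q` (`q ∣ N`). -/
theorem h42_exists_decomp_heckeU {q : ℕ} [NeZero q] (hqN : q ∣ N)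
    (γ : CongruenceSubgroup.Gamma0 N) :
    ∃ (e : Equiv.Perm (ZMod q)) (γ' : ZMod q → CongruenceSubgroup.Gamma0 N),
      ∀ x : ZMod q, ModularForm.heckeMatrix q x.val *
          Matrix.SpecialLinearGroup.mapGL ℝ (γ : SL(2, ℤ)) =
        Matrix.SpecialLinearGroup.mapGL ℝ (γ' x : SL(2, ℤ)) *
          ModularForm.heckeMatrix q (e x).val := by
  have hγ := CongruenceSubgroup.Gamma0_mem.mp γ.2
  have hcN : (N : ℤ) ∣ (γ : SL(2, ℤ)) 1 0 := (ZMod.intCast_zmod_eq_zero_iff_dvd _ _).mp hγ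
  have hc : (q : ℤ) ∣ (γ : SL(2, ℤ)) 1 0 := (Int.natCast_dvd_natCast.mpr hqN).trans hcN
  choose γ' hγ'0 hmul using fun x => heckeMatrix_mul_of_dvd (γ : SL(2, ℤ)) hc x
  refine ⟨affinePerm (γ : SL(2, ℤ)) ((ZMod.intCast_zmod_eq_zero_iff_dvd _ _).mpr hc),
    fun x => ⟨γ' x, ?_⟩, hmul⟩
  rw [CongruenceSubgroup.Gamma0_mem, hγ'0 x]
  push_cast
  rw [hγ, mul_zero]

end Fermat.Agent.S16
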