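import Mathlib
import Fermat.Agent.S16.h60_Red
import Fermat.Agent.S23.h22_Main

set_option autoImplicit false
set_option linter.unusedSectionVars false

/-!
# S16: the lower bound `hL'` in terms of `heckeEvalForms`

By the integral structure (S23) an element of the abstract Hecke algebra acts as zero on the
integral lattice iff it acts as zero on all cusp forms.
-/

namespace Fermat.Agent.S16

open ModularCurve CuspForm CongruenceSubgroup ModularFormClass Fermat.Agent.S49

variable (p : ℕ) [Fact p.Prime]

/-- acting as zero on the lattice means being zero in the Hecke algebra of `S₂(Γ₀(p))` -/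
theorem h60_evalForms_eq_zero_of_pi (t : HeckeAlg) (ht : h60_pi p t = 0) :
    heckeEvalForms p 2 t = 0 := by
  have hp : p.Prime := Fact.out
  have : NeZero p := ⟨hp.ne_zero⟩
  exact (latticeRestrictHom_bijective p ∅ (Fermat.Agent.S23.h22_hasIntegralStructure p 2)).1
    (ht.trans (map_zero _).symm)

theorem h60_pi_eq_zero_iff (t : HeckeAlg) : h60_pi p t = 0 ↔ heckeEvalForms p 2 t = 0 := by
  refine ⟨h60_evalForms_eq_zero_of_pi p t, fun h => ?_⟩
  unfold h60_pi
  rw [RingHom.comp_apply, h, map_zero]

/-- acting as zero on the lattice means acting as zero on every cusp form -/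
theorem h60_act_eq_zero_of_pi (t : HeckeAlg) (ht : h60_pi p t = 0)
    (f : CuspForm (Gamma0 p) 2) : h60_act p t f = 0 := by
  unfold h60_act
  rw [h60_evalForms_eq_zero_of_pi p t ht]
  rfl

/-- **The lower bound `hL'`** from its `heckeEvalForms` form. -/
theorem h60_lower_of (n : ℕ)
    (h : ∀ t : HeckeAlg, heckeEvalForms p 2 t = 0 →
      (n : ℤ) ∣ MvPolynomial.aeval (eisensteinSystem p) t) :
    ∀ t : HeckeAlg, h60_pi p t = 0 → (n : ℤ) ∣ h60_ev p t :=
  fun t ht => h t (h60_evalForms_eq_zero_of_pi p t ht)

end Fermat.Agent.S16
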