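import Mathlib
import Fermat.Agent.S24.h77_QBridge
import Fermat.Agent.S16.h77_FormalNorm

/-!
# The analytic bridge for the formal norm

If `g : ℍ → ℂ` has `q`-expansion `b` (period one), then `z ↦ ∏_{j < p} g((z + j) / p)` has
`q`-expansion `h77_fnorm p b`.
-/

set_option autoImplicit false

open UpperHalfPlane Fermat.Agent.S24

namespace Fermat.Agent.S16

open PowerSeries

/-- rescaling the variable of a convergent power series by `‖a‖ ≤ 1`. -/
lemma h77_isPS_rescale {b : PowerSeries ℂ} {G : ℂ → ℂ} (h : h77_IsPS b G) (a : ℂ)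
    (ha : ‖a‖ ≤ 1) : h77_IsPS (PowerSeries.rescale a b) (fun x => G (a * x)) := by
  intro x hx
  have hax : ‖a * x‖ < 1 := by
    rw [norm_mul]
    exact lt_of_le_of_lt (mul_le_of_le_one_left (norm_nonneg _) ha) hx
  have h1 := h (a * x) hax
  have h2 : (fun n : ℕ => coeff n (PowerSeries.rescale a b) * x ^ n) =
      fun n : ℕ => coeff n b * (a * x) ^ n := by
    funext n
    rw [coeff_rescale, mul_pow]; ring
  rw [h2]
  exact h1

/-- the disc version of the bridge: the product over the `p`-th roots of unity is the sum of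
the expanded formal norm. -/
theorem h77_isPS_expand_fnorm (p : ℕ) (hp : p ≠ 0) {b : PowerSeries ℂ} {G : ℂ → ℂ}
    (h : h77_IsPS b G) :
    h77_IsPS (expand p hp (h77_fnorm p b))
      (fun x => ∏ j ∈ Finset.range p, G (Complex.exp (2 * Real.pi * Complex.I / p) ^ j * x)) := by
  have hζ := Complex.isPrimitiveRoot_exp p hp
  rw [h77_expand_fnorm p hp _ hζ b]
  refine h77_IsPS.prod _ fun j _ => h77_isPS_rescale h _ ?_
  rw [norm_pow, hζ.norm'_eq_one hp, one_pow]

/-- contraction `x ↦ x ^ p` of an expanded power series. -/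
lemma h77_hasSum_of_expand (p : ℕ) (hp : p ≠ 0) (c : PowerSeries ℂ) (x a : ℂ)
    (h : HasSum (fun n : ℕ => coeff n (expand p hp c) * x ^ n) a) :
    HasSum (fun m : ℕ => coeff m c * (x ^ p) ^ m) a := by
  have hinj : Function.Injective (fun m : ℕ => p * m) :=
    fun m m' hmm => Nat.eq_of_mul_eq_mul_left (Nat.pos_of_ne_zero hp) hmm
  have h0 : ∀ n ∉ Set.range (fun m : ℕ => p * m),
      coeff n (expand p hp c) * x ^ n = 0 := by
    intro n hn
    rw [coeff_expand_of_not_dvd p hp c, zero_mul]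
    rintro ⟨m, rfl⟩
    exact hn ⟨m, rfl⟩
  have h1 := (hinj.hasSum_iff h0).mpr h
  have h2 : ((fun n : ℕ => coeff n (expand p hp c) * x ^ n) ∘ fun m : ℕ => p * m) =
      fun m : ℕ => coeff m c * (x ^ p) ^ m := by
    funext m
    simp only [Function.comp_apply, coeff_expand_mul, pow_mul]
  rw [h2] at h1
  exact h1

/-- **Analytic bridge.** If `g` has `q`-expansion `b` (period one), then the product of `g` over
the points `(z + j) / p`, `j < p`, is the sum of the formal norm `h77_fnorm p b` at `q(z)`. -/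
theorem h77_norm_hasSum (p : ℕ) (hp : p ≠ 0) (b : PowerSeries ℂ) (g : ℍ → ℂ)
    (hg : ∀ τ : ℍ, HasSum (fun m : ℕ => coeff m b * Function.Periodic.qParam 1 τ ^ m) (g τ))
    (z : ℍ) (w : ℕ → ℍ) (hw : ∀ j < p, (w j : ℂ) = ((z : ℂ) + j) / p) :
    HasSum (fun m : ℕ => coeff m (h77_fnorm p b) * Function.Periodic.qParam 1 z ^ m)
      (∏ j ∈ Finset.range p, g (w j)) := by
  have hpR : (0 : ℝ) < p := by exact_mod_cast Nat.pos_of_ne_zero hp
  have hpC : (p : ℂ) ≠ 0 := by exact_mod_cast hp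
  have hG : h77_IsPS b (fun q => ∑' n : ℕ, coeff n b * q ^ n) :=
    h77_isPS_tsum_of_forall one_pos hg
  set x : ℂ := Function.Periodic.qParam p z with hx
  have hxlt : ‖x‖ < 1 := h77_norm_qParam_lt_one hpR z
  have h1 := h77_isPS_expand_fnorm p hp hG x hxlt
  have h2 := h77_hasSum_of_expand p hp _ x _ h1
  have hxp : x ^ p = Function.Periodic.qParam 1 z := by
    rw [hx, Function.Periodic.qParam, Function.Periodic.qParam, ← Complex.exp_nat_mul]
    congr 1
    simp only [Complex.ofReal_natCast, Complex.ofReal_one, div_one]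
    field_simp
  rw [hxp] at h2
  have hprod : (∏ j ∈ Finset.range p,
      (fun q => ∑' n : ℕ, coeff n b * q ^ n)
        (Complex.exp (2 * Real.pi * Complex.I / p) ^ j * x)) =
      ∏ j ∈ Finset.range p, g (w j) := by
    refine Finset.prod_congr rfl fun j hj => ?_
    have hj' := hw j (Finset.mem_range.mp hj)
    have hq : Complex.exp (2 * Real.pi * Complex.I / p) ^ j * x =
        Function.Periodic.qParam 1 (w j) := by
      rw [hx, Function.Periodic.qParam, Function.Periodic.qParam, ← Complex.exp_nat_mul,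
        ← Complex.exp_add, hj']
      congr 1
      simp only [Complex.ofReal_natCast, Complex.ofReal_one, div_one]
      field_simp
      ring
    show (∑' n : ℕ, coeff n b * (Complex.exp (2 * Real.pi * Complex.I / p) ^ j * x) ^ n) = _
    rw [hq]
    exact (hg (w j)).tsum_eq
  convert h2 using 1
  exact hprod.symm

/-- consumer form: `N = c · F · ∏_j G((z + j)/p)` has `q`-expansion `c · b_F · Nm(b_G)`. -/
theorem h77_hasSum_mul_fnorm (p : ℕ) (hp : p ≠ 0) (N F G : ℍ → ℂ) (bF bG : PowerSeries ℂ)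
    (hF : ∀ τ : ℍ, HasSum (fun m : ℕ => coeff m bF * Function.Periodic.qParam 1 τ ^ m) (F τ))
    (hG : ∀ τ : ℍ, HasSum (fun m : ℕ => coeff m bG * Function.Periodic.qParam 1 τ ^ m) (G τ))
    (c : ℂ) (w : ℍ → ℕ → ℍ) (hw : ∀ z : ℍ, ∀ j < p, (w z j : ℂ) = ((z : ℂ) + j) / p)
    (hN : ∀ z : ℍ, N z = c * F z * ∏ j ∈ Finset.range p, G (w z j)) (z : ℍ) :
    HasSum (fun m : ℕ => coeff m (C c * bF * h77_fnorm p bG) *
      Function.Periodic.qParam 1 z ^ m) (N z) := by
  have h1 := h77_norm_hasSum p hp bG G hG z (w z) (hw z)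
  have h2 := h77_hasSum_mul (hF z) h1
  have h3 : HasSum (fun m : ℕ => coeff m (C c : PowerSeries ℂ) *
      Function.Periodic.qParam 1 z ^ m) c := by
    have := h77_isPS_C c (Function.Periodic.qParam 1 z) (h77_norm_qParam_lt_one one_pos z)
    exact this
  have h4 := h77_hasSum_mul h3 h2
  rw [hN z, mul_assoc c, ← mul_assoc (C c)] at *
  exact h4

/-- **Bridge for modular forms** (Mathlib `qExpansion 1`): if `N z = c · F z · ∏_{j<p} G((z+j)/p)`
then `qExpansion 1 N = c · qExpansion 1 F · Nm_p (qExpansion 1 G)`. -/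
theorem h77_qExpansion_eq_mul_fnorm (p : ℕ) (hp : p ≠ 0)
    {Γ₁ Γ₂ Γ₃ : Subgroup (GL (Fin 2) ℝ)} {k₁ k₂ k₃ : ℤ}
    (N : ModularForm Γ₁ k₁) (F : ModularForm Γ₂ k₂) (G : ModularForm Γ₃ k₃)
    [Fact (IsCusp OnePoint.infty Γ₂)] [Fact (IsCusp OnePoint.infty Γ₃)]
    (h1 : (1 : ℝ) ∈ Γ₁.strictPeriods) (h2 : (1 : ℝ) ∈ Γ₂.strictPeriods)
    (h3 : (1 : ℝ) ∈ Γ₃.strictPeriods)
    (c : ℂ) (w : ℍ → ℕ → ℍ) (hw : ∀ z : ℍ, ∀ j < p, (w z j : ℂ) = ((z : ℂ) + j) / p)
    (hN : ∀ z : ℍ, N z = c * F z * ∏ j ∈ Finset.range p, G (w z j)) :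
    qExpansion 1 N = C c * qExpansion 1 F * h77_fnorm p (qExpansion 1 G) := by
  have hF := fun τ : ℍ => ModularForm.hasSum_qExpansion (f := F) one_pos h2 τ
  have hG := fun τ : ℍ => ModularForm.hasSum_qExpansion (f := G) one_pos h3 τ
  have hsum := h77_hasSum_mul_fnorm p hp (⇑N) (⇑F) (⇑G) _ _ hF hG c w hw hN
  ext m
  have := ModularFormClass.qExpansion_coeff_unique (f := N)
    (c := fun m => coeff m (C c * qExpansion 1 F * h77_fnorm p (qExpansion 1 G))) one_pos h1
    (fun τ => by simpa [smul_eq_mul] using hsum τ) m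
  exact this.symm

end Fermat.Agent.S16
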