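import Mathlib
import Fermat.Agent.S16.Defs
import Fermat.Agent.S16.h6_Sturm
import Fermat.Agent.S23.h97_LevelRaise

/-!
# S16, UPPER bound: the level-one bridge

* `h79_res N A` : a level one form `A` seen as a form on `Γ₀(N)` (same function, same
  `q`-expansion);
* the `q`-expansions of `E₄`, `E₆`, `Δ` as images of the integer series `h79_E4s`, `h79_E6s`,
  `h79_Ds` of `Defs.lean`;
* `h79_qExp_V` : the `q`-expansion of `A(pz)` for a level one form with integral expansion.
-/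

set_option autoImplicit false

open UpperHalfPlane ModularForm CongruenceSubgroup EisensteinSeries ModularFormClass
open scoped MatrixGroups ModularForm Manifold

namespace Fermat.Agent.S16

theorem h79_Gamma0_le (N : ℕ) :
    ((Gamma0 N : Subgroup SL(2, ℤ)) : Subgroup (GL (Fin 2) ℝ)) ≤ 𝒮ℒ := by
  rintro _ ⟨γ, -, rfl⟩
  exact ⟨γ, rfl⟩

/-- `1` is a strict period of `Γ₀(N)`: the hypothesis `hΓ` of Mathlib's
`ModularForm.qExpansion_mul / _add / _sub / _smul / _pow` at level `Γ₀(N)` (with `one_pos`). -/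
theorem h79_one_mem_strictPeriods (N : ℕ) :
    (1 : ℝ) ∈ ((Gamma0 N : Subgroup SL(2, ℤ)) : Subgroup (GL (Fin 2) ℝ)).strictPeriods := by
  simp

/-- A level one modular form, seen as a modular form on `Γ₀(N)`. -/
noncomputable def h79_res (N : ℕ) {k : ℤ} (A : ModularForm 𝒮ℒ k) :
    ModularForm ((Gamma0 N : Subgroup SL(2, ℤ)) : Subgroup (GL (Fin 2) ℝ)) k where
  toFun := A
  slash_action_eq' := fun γ hγ => A.slash_action_eq' γ (h79_Gamma0_le N hγ)
  holo' := A.holo'
  bdd_at_cusps' := fun hc => A.bdd_at_cusps' (hc.mono (h79_Gamma0_le N))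

/-- A level one cusp form, seen as a cusp form on `Γ₀(N)`. -/
noncomputable def h79_resCusp (N : ℕ) {k : ℤ} (A : CuspForm 𝒮ℒ k) :
    CuspForm ((Gamma0 N : Subgroup SL(2, ℤ)) : Subgroup (GL (Fin 2) ℝ)) k where
  toFun := A
  slash_action_eq' := fun γ hγ => A.slash_action_eq' γ (h79_Gamma0_le N hγ)
  holo' := A.holo'
  zero_at_cusps' := fun hc => A.zero_at_cusps' (hc.mono (h79_Gamma0_le N))

theorem h79_res_apply (N : ℕ) {k : ℤ} (A : ModularForm 𝒮ℒ k) (z : ℍ) : h79_res N A z = A z := rfl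

theorem h79_coe_res (N : ℕ) {k : ℤ} (A : ModularForm 𝒮ℒ k) : ⇑(h79_res N A) = ⇑A := rfl

theorem h79_resCusp_apply (N : ℕ) {k : ℤ} (A : CuspForm 𝒮ℒ k) (z : ℍ) :
    h79_resCusp N A z = A z := rfl

theorem h79_coe_resCusp (N : ℕ) {k : ℤ} (A : CuspForm 𝒮ℒ k) : ⇑(h79_resCusp N A) = ⇑A := rfl

theorem h79_qExp_res (N : ℕ) {k : ℤ} (A : ModularForm 𝒮ℒ k) :
    qExpansion 1 (h79_res N A) = qExpansion 1 A := rfl

theorem h79_qExp_resCusp (N : ℕ) {k : ℤ} (A : CuspForm 𝒮ℒ k) :
    qExpansion 1 (h79_resCusp N A) = qExpansion 1 A := rfl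

/-! ### Integer `q`-expansions of `E₄`, `E₆`, `Δ` -/

theorem h79_coeff_S (j n : ℕ) :
    PowerSeries.coeff n (h79_S j) = (ArithmeticFunction.sigma j n : ℤ) := by
  simp [h79_S]

theorem h79_map_S (j : ℕ) : PowerSeries.map (Int.castRingHom ℂ) (h79_S j) = h6_S j := by
  ext n
  rw [PowerSeries.coeff_map, h79_coeff_S, h6_S_coeff]
  by_cases hn : n = 0
  · simp [hn]
  · simp [hn]

/-- `E₄ = 1 + 240 ∑ σ₃(n) qⁿ`, with the integer series `h79_E4s`. -/
theorem h79_qExp_E4 : qExpansion 1 E₄ = PowerSeries.map (Int.castRingHom ℂ) h79_E4s := by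
  rw [h6_qExp_E4, h79_E4s, map_add, map_mul, map_one, h79_map_S, map_ofNat]
  simp

/-- `E₆ = 1 - 504 ∑ σ₅(n) qⁿ`, with the integer series `h79_E6s`. -/
theorem h79_qExp_E6 : qExpansion 1 E₆ = PowerSeries.map (Int.castRingHom ℂ) h79_E6s := by
  rw [h6_qExp_E6, h79_E6s, map_sub, map_mul, map_one, h79_map_S, map_ofNat]
  simp

theorem h79_coeff_E4s_zero : PowerSeries.coeff 0 h79_E4s = 1 := by
  simp [h79_E4s, h79_S]

theorem h79_coeff_E6s_zero : PowerSeries.coeff 0 h79_E6s = 1 := by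
  simp [h79_E6s, h79_S]

theorem h79_coeff_E4s (n : ℕ) (hn : n ≠ 0) :
    PowerSeries.coeff n h79_E4s = 240 * (ArithmeticFunction.sigma 3 n : ℤ) := by
  have h240 : (240 : PowerSeries ℤ) = PowerSeries.C (240 : ℤ) := by simp
  rw [h79_E4s, map_add, PowerSeries.coeff_one, if_neg hn, h240, PowerSeries.coeff_C_mul,
    h79_coeff_S, zero_add]

theorem h79_coeff_E6s (n : ℕ) (hn : n ≠ 0) :
    PowerSeries.coeff n h79_E6s = -504 * (ArithmeticFunction.sigma 5 n : ℤ) := by
  have h504 : (504 : PowerSeries ℤ) = PowerSeries.C (504 : ℤ) := by simp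
  rw [h79_E6s, map_sub, PowerSeries.coeff_one, if_neg hn, h504, PowerSeries.coeff_C_mul,
    h79_coeff_S, zero_sub, neg_mul]

/-- `1728 Δ = E₄³ - E₆²` for the integer series: the division defining `h79_Ds` is exact. -/
theorem h79_Ds_spec : (1728 : PowerSeries ℤ) * h79_Ds = h79_E4s ^ 3 - h79_E6s ^ 2 := by
  ext n
  have h1728 : (1728 : PowerSeries ℤ) = PowerSeries.C (1728 : ℤ) := by simp
  rw [h1728, PowerSeries.coeff_C_mul, h79_Ds, PowerSeries.coeff_mk]
  obtain ⟨m, hm⟩ := h6_delta_isIntPS n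
  have h := congrArg (PowerSeries.coeff n) Fermat.Agent.S23.h62_qExpansion_discriminant
  rw [h79_qExp_E4, h79_qExp_E6, ← map_pow, ← map_pow, ← map_sub, PowerSeries.coeff_map,
    PowerSeries.coeff_smul, hm] at h
  have h' : (1728 : ℤ) * m = PowerSeries.coeff n (h79_E4s ^ 3 - h79_E6s ^ 2) := by
    have : ((1728 * m : ℤ) : ℂ) = ((PowerSeries.coeff n (h79_E4s ^ 3 - h79_E6s ^ 2) : ℤ) : ℂ) := by
      push_cast
      simpa using h
    exact_mod_cast this
  rw [← h', Int.mul_ediv_cancel_left m (by norm_num)]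

/-- The `q`-expansion of `Δ` is the image of the integer series `h79_Ds`. -/
theorem h79_qExp_delta :
    qExpansion 1 ModularForm.discriminant = PowerSeries.map (Int.castRingHom ℂ) h79_Ds := by
  have h := Fermat.Agent.S23.h62_qExpansion_discriminant
  rw [h79_qExp_E4, h79_qExp_E6, ← map_pow, ← map_pow, ← map_sub, ← h79_Ds_spec, map_mul,
    CuspForm.coe_discriminant] at h
  ext n
  have hn := congrArg (PowerSeries.coeff n) h
  have h1728 : PowerSeries.map (Int.castRingHom ℂ) (1728 : PowerSeries ℤ)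
      = PowerSeries.C (1728 : ℂ) := by
    rw [show (1728 : PowerSeries ℤ) = PowerSeries.C (1728 : ℤ) by simp, PowerSeries.map_C]
    simp
  rw [PowerSeries.coeff_smul, h1728, PowerSeries.coeff_C_mul, smul_eq_mul] at hn
  exact mul_left_cancel₀ (by norm_num : (1728 : ℂ) ≠ 0) hn

theorem h79_coeff_Ds_zero : PowerSeries.coeff 0 h79_Ds = 0 := by
  have h := congrArg (PowerSeries.coeff 0) h79_qExp_delta
  rw [h6_delta_coeff_zero, PowerSeries.coeff_map] at h
  have : ((PowerSeries.coeff 0 h79_Ds : ℤ) : ℂ) = ((0 : ℤ) : ℂ) := by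
    rw [Int.cast_zero]; exact h.symm
  exact_mod_cast this

theorem h79_coeff_Ds_one : PowerSeries.coeff 1 h79_Ds = 1 := by
  have h := congrArg (PowerSeries.coeff 1) h79_qExp_delta
  rw [ModularForm.discriminant_qExpansion_coeff_one, PowerSeries.coeff_map] at h
  have : ((PowerSeries.coeff 1 h79_Ds : ℤ) : ℂ) = ((1 : ℤ) : ℂ) := by
    rw [Int.cast_one]; exact h.symm
  exact_mod_cast this

/-! ### `V_p` -/

theorem h79_coeff_V {R : Type*} [Semiring R] (p : ℕ) (a : PowerSeries R) (n : ℕ) :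
    PowerSeries.coeff n (h79_V p a) = if p ∣ n then PowerSeries.coeff (n / p) a else 0 := by
  simp [h79_V]

theorem h79_coeff_U {R : Type*} [Semiring R] (p : ℕ) (a : PowerSeries R) (n : ℕ) :
    PowerSeries.coeff n (h79_U p a) = PowerSeries.coeff (p * n) a := by
  simp [h79_U]

/-- The `q`-expansion of `A(Nz)`: coefficientwise `V_N` of the expansion of `A`. -/
theorem h79_qExp_V (N : ℕ) [NeZero N] {k : ℤ} (A : ModularForm 𝒮ℒ k) (a : PowerSeries ℤ)
    (h : qExpansion 1 A = PowerSeries.map (Int.castRingHom ℂ) a) :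
    qExpansion 1 (Fermat.Agent.S23.h97_levelRaise N A)
      = PowerSeries.map (Int.castRingHom ℂ) (h79_V N a) := by
  ext n
  rw [Fermat.Agent.S23.h97_qExpansion_levelRaise, PowerSeries.coeff_map, h79_coeff_V, h]
  split_ifs
  · rw [PowerSeries.coeff_map]
  · simp

/-- Example of use: `E₄` on `Γ₀(N)` has the integer expansion `h79_E4s`. -/
theorem h79_qExp_res_E4 (N : ℕ) :
    qExpansion 1 (h79_res N E₄) = PowerSeries.map (Int.castRingHom ℂ) h79_E4s := h79_qExp_E4

theorem h79_qExp_res_E6 (N : ℕ) :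
    qExpansion 1 (h79_res N E₆) = PowerSeries.map (Int.castRingHom ℂ) h79_E6s := h79_qExp_E6

/-- `Δ` as a level one modular form of weight `12`. -/
noncomputable def h79_delta : ModularForm 𝒮ℒ 12 :=
  CuspForm.toModularFormₗ CuspForm.discriminant

theorem h79_coe_delta : ⇑h79_delta = ModularForm.discriminant := by
  funext z
  show CuspForm.discriminant z = ModularForm.discriminant z
  rw [CuspForm.coe_discriminant]

theorem h79_delta_apply (z : ℍ) : h79_delta z = ModularForm.discriminant z :=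
  congrFun h79_coe_delta z

theorem h79_qExp_delta' :
    qExpansion 1 h79_delta = PowerSeries.map (Int.castRingHom ℂ) h79_Ds := by
  rw [h79_coe_delta, h79_qExp_delta]

theorem h79_qExp_res_delta (N : ℕ) :
    qExpansion 1 (h79_res N h79_delta) = PowerSeries.map (Int.castRingHom ℂ) h79_Ds :=
  h79_qExp_delta'

theorem h79_qExp_resCusp_delta (N : ℕ) :
    qExpansion 1 (h79_resCusp N CuspForm.discriminant)
      = PowerSeries.map (Int.castRingHom ℂ) h79_Ds := by
  rw [h79_qExp_resCusp, CuspForm.coe_discriminant, h79_qExp_delta]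

end Fermat.Agent.S16
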