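import Mathlib
import Fermat.Agent.S16.h89_Norm

/-!
# The trace of a modular form of level `Γ₀(p)` to level one (helper89)

With the coset representatives `1`, `(S T^j)⁻¹` (`j < p`) of `h89_Norm.lean`, Mathlib's
`ModularForm.trace` of `F ∈ M_k(Γ₀(p))` is the level one form with values
`F(z) + ∑_{j<p} (F ∣[k] S)(z + j)`.
-/

set_option autoImplicit false

open UpperHalfPlane ModularForm SlashInvariantForm CongruenceSubgroup Matrix.SpecialLinearGroup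
open scoped MatrixGroups ModularForm Manifold

namespace Fermat.Agent.S16

open Fermat.Agent.S20

/-- The trace of a modular form, evaluated with an arbitrary `Fintype` structure on the
cosets. -/
theorem h89_trace_apply {𝒢 : Subgroup (GL (Fin 2) ℝ)} [𝒢.IsFiniteRelIndex 𝒮ℒ]
    [Fintype (𝒮ℒ ⧸ 𝒢.subgroupOf 𝒮ℒ)] {k : ℤ} (F : ModularForm 𝒢 k) (τ : ℍ) :
    ModularForm.trace 𝒮ℒ F τ = ∑ q : 𝒮ℒ ⧸ 𝒢.subgroupOf 𝒮ℒ, quotientFunc F q τ := by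
  rw [ModularForm.coe_trace]
  simp only [Finset.sum_apply]
  convert rfl

/-- The trace of a cusp form, evaluated with an arbitrary `Fintype` structure on the
cosets. -/
theorem h89_trace_cusp_apply {𝒢 : Subgroup (GL (Fin 2) ℝ)} [𝒢.IsFiniteRelIndex 𝒮ℒ]
    [Fintype (𝒮ℒ ⧸ 𝒢.subgroupOf 𝒮ℒ)] {k : ℤ} (F : CuspForm 𝒢 k) (τ : ℍ) :
    CuspForm.trace 𝒮ℒ F τ = ∑ q : 𝒮ℒ ⧸ 𝒢.subgroupOf 𝒮ℒ, quotientFunc F q τ := by
  rw [CuspForm.coe_trace]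
  simp only [Finset.sum_apply]
  convert rfl

theorem h89_quotientFunc_toSL' {𝒢 : Subgroup (GL (Fin 2) ℝ)} {k : ℤ} (F : CuspForm 𝒢 k)
    (g : SL(2, ℤ)) :
    quotientFunc F (QuotientGroup.mk (h84_toSL g) : 𝒮ℒ ⧸ 𝒢.subgroupOf 𝒮ℒ) = ⇑F ∣[k] g⁻¹ := by
  have h : quotientFunc F (QuotientGroup.mk (h84_toSL g) : 𝒮ℒ ⧸ 𝒢.subgroupOf 𝒮ℒ)
      = (F : ℍ → ℂ) ∣[k] (h84_toSL g).val⁻¹ := quotientFunc_mk F (h84_toSL g)
  rw [h, ModularForm.SL_slash, map_inv]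
  rfl

/-- **The trace form.**  For `F ∈ M_k(Γ₀(p))` there is a level one form of weight `k`
with values `F(z) + ∑_{j<p} (F ∣[k] S)(z + j)`. -/
theorem h89_trace_exists (p : ℕ) [Fact p.Prime] {k : ℤ} (F : ModularForm (Gamma0 p) k) :
    ∃ T : ModularForm 𝒮ℒ k, ∀ z : ℍ,
      T z = F z + ∑ j ∈ Finset.range p, (⇑F ∣[k] ModularGroup.S) ((j : ℝ) +ᵥ z) := by
  classical
  let _ : Fintype (𝒮ℒ ⧸ ((Gamma0 p : Subgroup SL(2, ℤ)) : Subgroup (GL (Fin 2) ℝ)).subgroupOf 𝒮ℒ) :=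
    Fintype.ofEquiv _ (h89_cosetEquiv p)
  refine ⟨ModularForm.trace 𝒮ℒ F, fun z => ?_⟩
  rw [h89_trace_apply F z, ← Equiv.sum_comp (h89_cosetEquiv p), Fintype.sum_option]
  congr 1
  · rw [h89_cosetEquiv_apply, h89_quotientFunc_toSL]
    simp [h89_rep]
  · rw [← Fin.sum_univ_eq_sum_range
      (fun j : ℕ => (⇑F ∣[k] ModularGroup.S) ((j : ℝ) +ᵥ z)) p]
    refine Finset.sum_congr rfl fun j _ => ?_
    rw [h89_cosetEquiv_apply, h89_quotientFunc_toSL]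
    simp only [h89_rep, inv_inv]
    rw [h89_slash_ST]
    simp

/-- **The trace form, cuspidal version.** -/
theorem h89_trace_cusp_exists (p : ℕ) [Fact p.Prime] {k : ℤ} (F : CuspForm (Gamma0 p) k) :
    ∃ T : CuspForm 𝒮ℒ k, ∀ z : ℍ,
      T z = F z + ∑ j ∈ Finset.range p, (⇑F ∣[k] ModularGroup.S) ((j : ℝ) +ᵥ z) := by
  classical
  let _ : Fintype (𝒮ℒ ⧸ ((Gamma0 p : Subgroup SL(2, ℤ)) : Subgroup (GL (Fin 2) ℝ)).subgroupOf 𝒮ℒ) :=
    Fintype.ofEquiv _ (h89_cosetEquiv p)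
  refine ⟨CuspForm.trace 𝒮ℒ F, fun z => ?_⟩
  rw [h89_trace_cusp_apply F z, ← Equiv.sum_comp (h89_cosetEquiv p), Fintype.sum_option]
  congr 1
  · rw [h89_cosetEquiv_apply, h89_quotientFunc_toSL']
    simp [h89_rep]
  · rw [← Fin.sum_univ_eq_sum_range
      (fun j : ℕ => (⇑F ∣[k] ModularGroup.S) ((j : ℝ) +ᵥ z)) p]
    refine Finset.sum_congr rfl fun j _ => ?_
    rw [h89_cosetEquiv_apply, h89_quotientFunc_toSL']
    simp only [h89_rep, inv_inv]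
    rw [h89_slash_ST]
    simp

end Fermat.Agent.S16
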