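import Mathlib

set_option autoImplicit false

namespace Fermat.Agent.S16

section Comb

/-- Summing over `c` full periods of a periodic point. -/
theorem h9_sum_range_mul_iter {X : Type*} (f : X → X) (g : X → ℤ) (x : X) (w : ℕ)
    (hw : f^[w] x = x) (c : ℕ) :
    ∑ i ∈ Finset.range (w * c), g (f^[i] x) = c * ∑ i ∈ Finset.range w, g (f^[i] x) := by
  induction c with
  | zero => simp
  | succ c ih =>
    have hwc : f^[w * c] x = x := by
      have h0 : Function.IsPeriodicPt f w x := hw
      exact h0.mul_const c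
    rw [Nat.mul_succ, Finset.sum_range_add, ih]
    have h1 : ∀ i, g (f^[w * c + i] x) = g (f^[i] x) := by
      intro i
      rw [add_comm, Function.iterate_add_apply, hwc]
    simp only [h1]
    push_cast
    ring

/-- A sum over a full period does not depend on the starting point in the orbit. -/
theorem h9_sum_range_shift {X : Type*} (f : X → X) (g : X → ℤ) (x : X) (w : ℕ)
    (hw : f^[w] x = x) (j : ℕ) :
    ∑ i ∈ Finset.range w, g (f^[i] (f^[j] x)) = ∑ i ∈ Finset.range w, g (f^[i] x) := by
  induction j with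
  | zero => rfl
  | succ j ih =>
    rw [← ih]
    have h1 : ∀ i, f^[i] (f^[j + 1] x) = f^[i + 1] (f^[j] x) := by
      intro i
      rw [Function.iterate_succ_apply' f j x, Function.iterate_succ_apply]
    simp only [h1]
    have hwj : f^[w] (f^[j] x) = f^[j] x := by
      rw [← Function.iterate_add_apply, add_comm, Function.iterate_add_apply, hw]
    have h2 := Finset.sum_range_succ (fun i => g (f^[i] (f^[j] x))) w
    have h3 := Finset.sum_range_succ' (fun i => g (f^[i] (f^[j] x))) w
    simp only [Function.iterate_zero, id_eq] at h3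
    rw [hwj] at h2
    linarith

/-- The divisibility lemma along the orbits of a periodic self-map. -/
theorem h9_Z {X : Type*} [Fintype X] (f : X → X) (per : ℕ) (hper : 0 < per)
    (hf : ∀ x, f^[per] x = x) (n : ℤ) (F : X → ℤ)
    (hdvd : ∀ (k : ℕ) (x : X), f^[k] x = x → n ∣ ∑ i ∈ Finset.range k, F (f^[i] x))
    (hF : ∑ x, F x = 0) :
    ∃ h : X → ℤ, ∑ x, h x = 0 ∧
      ∀ x, n * ∑ i ∈ Finset.range per, h (f^[i] x) = ∑ i ∈ Finset.range per, F (f^[i] x) := by
  classical
  rcases eq_or_ne n 0 with hn | hn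
  · refine ⟨0, by simp, fun x => ?_⟩
    have h0 := hdvd per x (hf x)
    rw [hn, zero_dvd_iff] at h0
    rw [h0, hn]
    simp
  have hinj : Function.Injective f := by
    have h0 : Function.LeftInverse (f^[per - 1]) f := by
      intro x
      rw [← Function.iterate_succ_apply, Nat.succ_eq_add_one, Nat.sub_add_cancel hper, hf]
    exact h0.injective
  obtain ⟨e, he⟩ : ∃ e : X → ℕ, Function.Injective e :=
    ⟨fun x => (Fintype.equivFin X x : ℕ), Fin.val_injective.comp (Fintype.equivFin X).injective⟩
  set w : X → ℕ := fun x => Function.minimalPeriod f x with hw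
  have hwper : ∀ x, f^[w x] x = x := fun x => Function.isPeriodicPt_minimalPeriod f x
  have hwpos : ∀ x, 0 < w x := fun x =>
    Function.IsPeriodicPt.minimalPeriod_pos hper (hf x)
  have hwdvd : ∀ x, w x ∣ per := fun x => Function.IsPeriodicPt.minimalPeriod_dvd (hf x)
  have hwiter : ∀ x j, w (f^[j] x) = w x := fun x j =>
    Function.minimalPeriod_apply_iterate (Function.mk_mem_periodicPts hper (hf x)) j
  set s : X → ℤ := fun x => ∑ i ∈ Finset.range (w x), F (f^[i] x) with hs
  have hsiter : ∀ x j, s (f^[j] x) = s x := by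
    intro x j
    simp only [hs, hwiter]
    exact h9_sum_range_shift f F x (w x) (hwper x) j
  have hsdvd : ∀ x, n ∣ s x := fun x => hdvd (w x) x (hwper x)
  choose t ht using hsdvd
  set rep : X → Prop := fun y => ∀ k : ℕ, e y ≤ e (f^[k] y) with hrep
  set h : X → ℤ := fun y => if rep y then t y else 0 with hh
  have key : ∀ x, n * ∑ i ∈ Finset.range per, h (f^[i] x)
      = ∑ i ∈ Finset.range per, F (f^[i] x) := by
    intro x
    obtain ⟨c, hc⟩ := hwdvd x
    rw [hc, h9_sum_range_mul_iter f h x (w x) (hwper x) c,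
      h9_sum_range_mul_iter f F x (w x) (hwper x) c]
    obtain ⟨i₀, hi₀, hmin⟩ := Finset.exists_min_image (Finset.range (w x))
      (fun i => e (f^[i] x)) ⟨0, Finset.mem_range.mpr (hwpos x)⟩
    have hrep0 : rep (f^[i₀] x) := by
      intro k
      have h1 : f^[k] (f^[i₀] x) = f^[(k + i₀) % w x] x := by
        rw [← Function.iterate_add_apply]
        exact (Function.iterate_mod_minimalPeriod_eq).symm
      rw [h1]
      exact hmin _ (Finset.mem_range.mpr (Nat.mod_lt _ (hwpos x)))
    have huniq : ∀ i ∈ Finset.range (w x), i ≠ i₀ → h (f^[i] x) = 0 := by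
      intro i hi hne
      simp only [hh]
      rw [if_neg]
      intro hr
      apply hne
      have h1 : e (f^[i] x) ≤ e (f^[i₀] x) := by
        have h0 := hr (i₀ + (w x - i))
        have h2 : f^[i₀ + (w x - i)] (f^[i] x) = f^[i₀] x := by
          rw [← Function.iterate_add_apply]
          have h3 : i₀ + (w x - i) + i = i₀ + w x := by
            have := Finset.mem_range.mp hi
            omega
          rw [h3, Function.iterate_add_apply, hwper]
        rwa [h2] at h0
      have h3 : f^[i] x = f^[i₀] x := he (le_antisymm h1 (hmin i hi))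
      exact Function.iterate_injOn_Iio_minimalPeriod (Finset.mem_range.mp hi)
        (Finset.mem_range.mp hi₀) h3
    rw [Finset.sum_eq_single i₀ huniq (fun h' => absurd hi₀ h')]
    have h4 : h (f^[i₀] x) = t (f^[i₀] x) := by
      simp only [hh]
      rw [if_pos hrep0]
    rw [h4]
    have h5 : n * t (f^[i₀] x) = s x := by rw [← ht, hsiter]
    calc n * ((c : ℤ) * t (f^[i₀] x)) = c * (n * t (f^[i₀] x)) := by ring
      _ = c * s x := by rw [h5]
  refine ⟨h, ?_, key⟩
  have hbij : ∀ i : ℕ, Function.Bijective (f^[i]) := fun i =>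
    Finite.injective_iff_bijective.mp (hinj.iterate i)
  have hsum : ∀ g : X → ℤ, ∑ x, ∑ i ∈ Finset.range per, g (f^[i] x) = per * ∑ x, g x := by
    intro g
    rw [Finset.sum_comm]
    have h0 : ∀ i ∈ Finset.range per, ∑ x, g (f^[i] x) = ∑ x, g x := by
      intro i _
      exact Function.Bijective.sum_comp (hbij i) g
    rw [Finset.sum_congr rfl h0, Finset.sum_const, Finset.card_range, nsmul_eq_mul]
  have h6 : n * (per * ∑ x, h x) = per * ∑ x, F x := by
    rw [← hsum h, ← hsum F, Finset.mul_sum]
    exact Finset.sum_congr rfl (fun x _ => key x)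
  rw [hF, mul_zero] at h6
  have hper' : (per : ℤ) ≠ 0 := by exact_mod_cast hper.ne'
  rcases mul_eq_zero.mp h6 with h7 | h7
  · exact absurd h7 hn
  · rcases mul_eq_zero.mp h7 with h8 | h8
    · exact absurd h8 hper'
    · exact h8

/-- Integral functions of total sum zero are sums of two coboundaries along generators. -/
theorem h9_augZ {G : Type*} [Group G] {X : Type*} [Fintype X] [MulAction G X]
    [MulAction.IsPretransitive G X] (s u : G) (hgen : Subgroup.closure {s, u} = ⊤)
    (h : X → ℤ) (hsum : ∑ x, h x = 0) :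
    ∃ p q : X → ℤ, ∀ x, h x = (p x - p (s • x)) + (q x - q (u • x)) := by
  classical
  let M : AddSubgroup (X → ℤ) :=
    { carrier := {f | ∃ p q : X → ℤ, ∀ x, f x = (p x - p (s • x)) + (q x - q (u • x))}
      zero_mem' := ⟨0, 0, fun x => by simp⟩
      add_mem' := by
        rintro f f' ⟨p, q, hpq⟩ ⟨p', q', hpq'⟩
        refine ⟨p + p', q + q', fun x => ?_⟩
        simp only [Pi.add_apply, hpq x, hpq' x]
        ring
      neg_mem' := by
        rintro f ⟨p, q, hpq⟩
        refine ⟨-p, -q, fun x => ?_⟩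
        simp only [Pi.neg_apply, hpq x]
        ring }
  have key : ∀ g : G, ∀ z : X,
      (Pi.single z (1 : ℤ) - Pi.single (g • z) (1 : ℤ) : X → ℤ) ∈ M := by
    intro g
    have hg : g ∈ Subgroup.closure {s, u} := by rw [hgen]; trivial
    induction hg using Subgroup.closure_induction with
    | mem g hg =>
      intro z
      have hgen' : ∀ x, (Pi.single z (1 : ℤ) - Pi.single (g • z) (1 : ℤ) : X → ℤ) x
          = (-(Pi.single (g • z) (1 : ℤ) : X → ℤ)) x
            - (-(Pi.single (g • z) (1 : ℤ) : X → ℤ)) (g • x) := by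
        intro x
        simp only [Pi.sub_apply, Pi.neg_apply, Pi.single_apply, smul_left_cancel_iff]
        ring
      rcases hg with rfl | rfl
      · exact ⟨-(Pi.single (g • z) (1 : ℤ)), 0, fun x => by rw [hgen' x]; simp⟩
      · exact ⟨0, -(Pi.single (g • z) (1 : ℤ)), fun x => by rw [hgen' x]; simp⟩
    | one => intro z; simp
    | mul g h _ _ ihg ihh =>
      intro z
      have h0 : (Pi.single z (1 : ℤ) - Pi.single ((g * h) • z) (1 : ℤ) : X → ℤ)
          = (Pi.single z 1 - Pi.single (h • z) 1)
            + (Pi.single (h • z) 1 - Pi.single (g • h • z) 1) := by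
        rw [mul_smul]; abel
      rw [h0]
      exact M.add_mem (ihh z) (ihg (h • z))
    | inv g _ ih =>
      intro z
      have h0 : (Pi.single z (1 : ℤ) - Pi.single (g⁻¹ • z) (1 : ℤ) : X → ℤ)
          = -(Pi.single (g⁻¹ • z) 1 - Pi.single (g • g⁻¹ • z) 1) := by
        rw [smul_inv_smul]; abel
      rw [h0]
      exact M.neg_mem (ih (g⁻¹ • z))
  rcases isEmpty_or_nonempty X with hX | ⟨⟨x0⟩⟩
  · exact ⟨0, 0, fun x => isEmptyElim x⟩
  have hdecomp : h = ∑ x, h x •
      (Pi.single x (1 : ℤ) - Pi.single x0 (1 : ℤ) : X → ℤ) := by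
    funext y
    have h1 : ∑ x, h x * (if y = x then (1 : ℤ) else 0) = h y := by simp
    have h2 : ∑ x, h x * (if y = x0 then (1 : ℤ) else 0) = 0 := by
      rw [← Finset.sum_mul, hsum, zero_mul]
    simp only [Finset.sum_apply, Pi.smul_apply, Pi.sub_apply, Pi.single_apply, smul_eq_mul,
      mul_sub, Finset.sum_sub_distrib, h1, h2, sub_zero]
  have hmem : h ∈ M := by
    rw [hdecomp]
    refine M.sum_mem fun x _ => M.zsmul_mem ?_ _
    obtain ⟨g, hg⟩ := MulAction.exists_smul_eq G x x0
    rw [← hg]
    exact key g x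
  exact hmem

/-- **Combinatorial integral lift** of a pair of Shapiro coordinates. -/
theorem h9_lift_comb {G : Type*} [Group G] {X : Type*} [Fintype X] [MulAction G X]
    [MulAction.IsPretransitive G X] (s u t : G) (hgen : Subgroup.closure {s, u} = ⊤)
    (hs : ∀ x : X, s • s • x = x) (hu : ∀ x : X, u • u • u • x = x)
    (per : ℕ) (hper : 0 < per) (ht : ∀ x : X, t ^ per • x = x) (n : ℕ)
    (a' b' : X → ZMod n)
    (hA1 : ∀ x, a' x + a' (s • x) = 0) (hA2 : ∀ x, s • x = x → a' x = 0)
    (hB1 : ∀ x, b' x + b' (u • x) + b' (u • u • x) = 0) (hB2 : ∀ x, u • x = x → b' x = 0)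
    (hC : ∀ (k : ℕ) (x : X), t ^ k • x = x →
      ∑ i ∈ Finset.range k, (b' (t ^ i • x) - a' (t ^ i • x)) = 0) :
    ∃ a b : X → ℤ, (∀ x, a x + a (s • x) = 0) ∧ (∀ x, b x + b (u • x) + b (u • u • x) = 0) ∧
      (∀ x, ∑ i ∈ Finset.range per, (b (t ^ i • x) - a (t ^ i • x)) = 0) ∧
      (∀ x, ((a x : ℤ) : ZMod n) = a' x) ∧ (∀ x, ((b x : ℤ) : ZMod n) = b' x) := by
  classical
  obtain ⟨e, he⟩ : ∃ e : X → ℕ, Function.Injective e :=
    ⟨fun x => (Fintype.equivFin X x : ℕ), Fin.val_injective.comp (Fintype.equivFin X).injective⟩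
  set L : ZMod n → ℤ := fun z => (ZMod.cast z : ℤ) with hL
  have hL0 : L 0 = 0 := by simp [hL]
  have hLc : ∀ z : ZMod n, ((L z : ℤ) : ZMod n) = z := fun z => by simp [hL]
  -- first lifts
  set χs : X → ℤ := fun x => if e x < e (s • x) then 1 else 0 with hχs
  set χu : X → ℤ := fun x => if e x < e (u • x) ∧ e x < e (u • u • x) then 1 else 0 with hχu
  set a₀ : X → ℤ := fun x => L (a' x) - χs x * (L (a' x) + L (a' (s • x))) with ha₀
  set b₀ : X → ℤ := fun x => L (b' x)
    - χu x * (L (b' x) + L (b' (u • x)) + L (b' (u • u • x))) with hb₀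
  have ha₀S : ∀ x, a₀ x + a₀ (s • x) = 0 := by
    intro x
    by_cases hx : s • x = x
    · simp only [ha₀, hx, hA2 x hx, hL0]
      ring
    · have hne : e x ≠ e (s • x) := fun h => hx (he h).symm
      have hχ : χs x + χs (s • x) = 1 := by
        simp only [hχs, hs]
        split_ifs <;> omega
      simp only [ha₀, hs]
      linear_combination (-(L (a' x) + L (a' (s • x)))) * hχ
  have hb₀U : ∀ x, b₀ x + b₀ (u • x) + b₀ (u • u • x) = 0 := by
    intro x
    by_cases hx : u • x = x
    · simp only [hb₀, hx, hB2 x hx, hL0]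
      ring
    · have hne1 : e x ≠ e (u • x) := fun h => hx (he h).symm
      have hne2 : e (u • x) ≠ e (u • u • x) := by
        intro h
        have h1 := he h
        exact hx (smul_left_cancel u h1).symm
      have hne3 : e (u • u • x) ≠ e x := by
        intro h
        have h1 := he h
        have h2 : u • u • u • x = u • x := by rw [h1]
        rw [hu] at h2
        exact hx h2.symm
      have hχ : χu x + χu (u • x) + χu (u • u • x) = 1 := by
        simp only [hχu, hu]
        split_ifs <;> omega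
      simp only [hb₀, hu]
      linear_combination (-(L (b' x) + L (b' (u • x)) + L (b' (u • u • x)))) * hχ
  have ha₀c : ∀ x, ((a₀ x : ℤ) : ZMod n) = a' x := by
    intro x
    simp only [ha₀]
    push_cast
    rw [hLc, hLc, hA1 x]
    ring
  have hb₀c : ∀ x, ((b₀ x : ℤ) : ZMod n) = b' x := by
    intro x
    simp only [hb₀]
    push_cast
    rw [hLc, hLc, hLc, hB1 x]
    ring
  -- total sums vanish
  have hsumS : ∀ g : X → ℤ, ∑ x, g (s • x) = ∑ x, g x := fun g =>
    Function.Bijective.sum_comp (MulAction.bijective s) g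
  have hsumU : ∀ g : X → ℤ, ∑ x, g (u • x) = ∑ x, g x := fun g =>
    Function.Bijective.sum_comp (MulAction.bijective u) g
  have hsa : ∑ x, a₀ x = 0 := by
    have h1 : ∑ x, (a₀ x + a₀ (s • x)) = 0 := Finset.sum_eq_zero (fun x _ => ha₀S x)
    rw [Finset.sum_add_distrib, hsumS a₀] at h1
    omega
  have hsb : ∑ x, b₀ x = 0 := by
    have h1 : ∑ x, (b₀ x + b₀ (u • x) + b₀ (u • u • x)) = 0 :=
      Finset.sum_eq_zero (fun x _ => hb₀U x)
    rw [Finset.sum_add_distrib, Finset.sum_add_distrib, hsumU (fun x => b₀ (u • x)),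
      hsumU b₀] at h1
    omega
  -- the correction
  have hiter : ∀ (i : ℕ) (x : X), (fun y : X => t • y)^[i] x = t ^ i • x := by
    intro i x
    rw [smul_iterate]
  obtain ⟨h, hhsum, hh⟩ := h9_Z (fun y : X => t • y) per hper
    (fun x => by rw [hiter]; exact ht x) (n : ℤ) (fun x => b₀ x - a₀ x)
    (by
      intro k x hkx
      rw [hiter] at hkx
      have h1 := hC k x hkx
      apply (CharP.intCast_eq_zero_iff (ZMod n) n _).mp
      rw [← h1]
      push_cast
      refine Finset.sum_congr rfl fun i _ => ?_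
      rw [hiter, hb₀c, ha₀c])
    (by rw [Finset.sum_sub_distrib, hsa, hsb, sub_zero])
  obtain ⟨p, q, hpq⟩ := h9_augZ s u hgen h hhsum
  refine ⟨fun x => a₀ x + n * (p x - p (s • x)), fun x => b₀ x - n * (q x - q (u • x)),
    ?_, ?_, ?_, ?_, ?_⟩
  · intro x
    simp only [hs]
    linear_combination ha₀S x
  · intro x
    simp only [hu]
    linear_combination hb₀U x
  · intro x
    have h1 := hh x
    simp only [hiter] at h1
    have h2 : ∀ i : ℕ, b₀ (t ^ i • x) - (n : ℤ) * (q (t ^ i • x) - q (u • t ^ i • x))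
        - (a₀ (t ^ i • x) + (n : ℤ) * (p (t ^ i • x) - p (s • t ^ i • x)))
        = (b₀ (t ^ i • x) - a₀ (t ^ i • x)) - (n : ℤ) * h (t ^ i • x) := by
      intro i
      rw [hpq (t ^ i • x)]
      ring
    simp only [h2]
    rw [Finset.sum_sub_distrib, ← Finset.mul_sum, h1, sub_self]
  · intro x
    push_cast
    rw [ha₀c]
    simp
  · intro x
    push_cast
    rw [hb₀c]
    simp

end Comb

end Fermat.Agent.S16
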