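import Mathlib
import Fermat.Prelude.Def_ModularCurve_PeriodMap
import Fermat.Agent.S20.h9_Shapiro

set_option autoImplicit false

open scoped MatrixGroups

namespace Fermat.Agent.S16

open ModularGroup ModularCurve.Period Fermat.Agent.S20

noncomputable section

variable (Γ : Subgroup SL(2, ℤ))

/-- **Shapiro surjectivity in the equality case**: if the Shapiro bound is attained, every pair
of Shapiro coordinates `(a, b)` satisfying the `S`, `ST` and `T`-norm relations comes from a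
parabolic character and a coboundary. -/
theorem h9_shapiro_surj [Γ.FiniteIndex] (hneg : (-1 : SL(2, ℤ)) ∈ Γ)
    (hEQ : Nat.card (SL(2, ℤ) ⧸ Γ) + 2 ≤ Module.finrank ℂ (parabolicHoms ℂ Γ ℂ)
      + Nat.card (MulAction.orbitRel.Quotient (Subgroup.zpowers S) (SL(2, ℤ) ⧸ Γ))
      + Nat.card (MulAction.orbitRel.Quotient (Subgroup.zpowers (S * T)) (SL(2, ℤ) ⧸ Γ))
      + Nat.card (MulAction.orbitRel.Quotient (Subgroup.zpowers T) (SL(2, ℤ) ⧸ Γ)))
    (a b : SL(2, ℤ) ⧸ Γ → ℂ)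
    (ha : ∀ x, a x + a (S • x) = 0)
    (hb : ∀ x, b x + b ((S * T) • x) + b ((S * T) • (S * T) • x) = 0)
    (hT : ∀ x, ∑ i ∈ Finset.range (h9_per Γ), (b (T ^ i • x) - a (T ^ i • x)) = 0) :
    ∃ φ : Additive Γ →+ ℂ, φ ∈ parabolicHoms ℂ Γ ℂ ∧ ∃ v : SL(2, ℤ) ⧸ Γ → ℂ,
      h9_tot Γ φ v S = a ∧ h9_tot Γ φ v (S * T) = b := by
  classical
  have : Fintype (SL(2, ℤ) ⧸ Γ) := Fintype.ofFinite _
  set σ : (SL(2, ℤ) ⧸ Γ → ℂ) →ₗ[ℂ] (SL(2, ℤ) ⧸ Γ → ℂ) := h9_op S with hσ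
  set υ : (SL(2, ℤ) ⧸ Γ → ℂ) →ₗ[ℂ] (SL(2, ℤ) ⧸ Γ → ℂ) := h9_op (S * T) with hυ
  set τ : (SL(2, ℤ) ⧸ Γ → ℂ) →ₗ[ℂ] (SL(2, ℤ) ⧸ Γ → ℂ) := h9_op T with hτ
  have hμ : Module.finrank ℂ (SL(2, ℤ) ⧸ Γ → ℂ) = Nat.card (SL(2, ℤ) ⧸ Γ) := by
    rw [Module.finrank_fintype_fun_eq_card, Nat.card_eq_fintype_card]
  have hσσ : ∀ (v : SL(2, ℤ) ⧸ Γ → ℂ) (x : SL(2, ℤ) ⧸ Γ), v (S • S • x) = v x := by
    intro v x
    rw [← mul_smul, h9_S_mul_S, h9_neg_one_smul Γ hneg]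
  have hυυυ : ∀ (v : SL(2, ℤ) ⧸ Γ → ℂ) (x : SL(2, ℤ) ⧸ Γ),
      v ((S * T) • (S * T) • (S * T) • x) = v x := by
    intro v x
    rw [← mul_smul, ← mul_smul, h9_U_cube, h9_neg_one_smul Γ hneg]
  set A := LinearMap.ker (LinearMap.id + σ) with hA
  set B := LinearMap.ker (LinearMap.id + υ + υ ∘ₗ υ) with hB
  -- dimensions of `A` and `B`
  have hAdim : Module.finrank ℂ A
      + Nat.card (MulAction.orbitRel.Quotient (Subgroup.zpowers S) (SL(2, ℤ) ⧸ Γ))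
      ≤ Nat.card (SL(2, ℤ) ⧸ Γ) := by
    have h0 : Module.finrank ℂ (LinearMap.ker (LinearMap.id - σ))
        = Nat.card (MulAction.orbitRel.Quotient (Subgroup.zpowers S) (SL(2, ℤ) ⧸ Γ)) :=
      h9_finrank_invariants S
    rw [← h0, ← hμ]
    apply h9_finrank_ker_add_le
    intro v hv
    have hv2 : σ v = v := by
      have := sub_eq_zero.mp (LinearMap.mem_ker.mp hv)
      exact this.symm
    refine ⟨(1 / 2 : ℂ) • v, ?_⟩
    simp only [LinearMap.add_apply, LinearMap.id_coe, id_eq, map_smul, hv2]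
    funext x
    simp only [Pi.smul_apply, Pi.add_apply, smul_eq_mul]
    ring
  have hBdim : Module.finrank ℂ B
      + Nat.card (MulAction.orbitRel.Quotient (Subgroup.zpowers (S * T)) (SL(2, ℤ) ⧸ Γ))
      ≤ Nat.card (SL(2, ℤ) ⧸ Γ) := by
    have h0 : Module.finrank ℂ (LinearMap.ker (LinearMap.id - υ))
        = Nat.card (MulAction.orbitRel.Quotient (Subgroup.zpowers (S * T)) (SL(2, ℤ) ⧸ Γ)) :=
      h9_finrank_invariants (S * T)
    rw [← h0, ← hμ]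
    apply h9_finrank_ker_add_le
    intro v hv
    have hv2 : υ v = v := by
      have := sub_eq_zero.mp (LinearMap.mem_ker.mp hv)
      exact this.symm
    refine ⟨(1 / 3 : ℂ) • v, ?_⟩
    simp only [LinearMap.add_apply, LinearMap.id_coe, id_eq, map_smul, hv2,
      LinearMap.comp_apply]
    funext x
    simp only [Pi.smul_apply, Pi.add_apply, smul_eq_mul]
    ring
  -- the norm map along `T`
  set m := h9_per Γ with hm
  have hmpos : 0 < m := h9_per_pos Γ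
  set NT : (SL(2, ℤ) ⧸ Γ → ℂ) →ₗ[ℂ] (SL(2, ℤ) ⧸ Γ → ℂ) :=
    ∑ i ∈ Finset.range m, h9_op (T ^ i) with hNT
  have hNT_apply : ∀ (w : SL(2, ℤ) ⧸ Γ → ℂ) (x : SL(2, ℤ) ⧸ Γ),
      NT w x = ∑ i ∈ Finset.range m, w (T ^ i • x) := by
    intro w x
    simp only [hNT, LinearMap.sum_apply, Finset.sum_apply, h9_op_apply]
  set Dr : (A × B) →ₗ[ℂ] (SL(2, ℤ) ⧸ Γ → ℂ) :=
    NT ∘ₗ (B.subtype ∘ₗ LinearMap.snd ℂ A B - A.subtype ∘ₗ LinearMap.fst ℂ A B) with hDr
  have hDr_apply : ∀ (e : A × B) (x : SL(2, ℤ) ⧸ Γ),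
      Dr e x = ∑ i ∈ Finset.range m,
        ((e.2 : SL(2, ℤ) ⧸ Γ → ℂ) (T ^ i • x) - (e.1 : SL(2, ℤ) ⧸ Γ → ℂ) (T ^ i • x)) := by
    intro e x
    simp only [hDr, LinearMap.comp_apply, hNT_apply, LinearMap.sub_apply, Submodule.subtype_apply,
      LinearMap.snd_apply, LinearMap.fst_apply, Pi.sub_apply]
  -- the invariants of `T` and the augmentation kernel
  set W := LinearMap.ker (LinearMap.id - τ) with hW
  set sumf : (SL(2, ℤ) ⧸ Γ → ℂ) →ₗ[ℂ] ℂ :=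
    ∑ x : SL(2, ℤ) ⧸ Γ, (LinearMap.proj x : (SL(2, ℤ) ⧸ Γ → ℂ) →ₗ[ℂ] ℂ) with hsumf
  set Vaug := LinearMap.ker sumf with hVaug
  have hWdim : Module.finrank ℂ W
      = Nat.card (MulAction.orbitRel.Quotient (Subgroup.zpowers T) (SL(2, ℤ) ⧸ Γ)) :=
    h9_finrank_invariants T
  have hVaugdim : Nat.card (SL(2, ℤ) ⧸ Γ) ≤ Module.finrank ℂ Vaug + 1 := by
    have h1 : Module.finrank ℂ (LinearMap.range sumf) + Module.finrank ℂ Vaug
        = Module.finrank ℂ (SL(2, ℤ) ⧸ Γ → ℂ) := LinearMap.finrank_range_add_finrank_ker sumf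
    have h2 : Module.finrank ℂ (LinearMap.range sumf) ≤ 1 := by
      have := Submodule.finrank_le (LinearMap.range sumf)
      rwa [Module.finrank_self] at this
    rw [hμ] at h1
    omega
  have hinfdim : Nat.card (MulAction.orbitRel.Quotient (Subgroup.zpowers T) (SL(2, ℤ) ⧸ Γ))
      + Module.finrank ℂ Vaug ≤ Nat.card (SL(2, ℤ) ⧸ Γ) + Module.finrank ℂ ↥(W ⊓ Vaug) := by
    have h1 : Module.finrank ℂ ↥(W ⊔ Vaug) + Module.finrank ℂ ↥(W ⊓ Vaug)
        = Module.finrank ℂ W + Module.finrank ℂ Vaug :=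
      Submodule.finrank_sup_add_finrank_inf_eq W Vaug
    have h2 : Module.finrank ℂ ↥(W ⊔ Vaug) ≤ Module.finrank ℂ (SL(2, ℤ) ⧸ Γ → ℂ) :=
      Submodule.finrank_le (W ⊔ Vaug)
    rw [hμ] at h2
    omega
  -- the range of `Dr` contains `W ⊓ Vaug`
  have hrange : W ⊓ Vaug ≤ LinearMap.range Dr := by
    intro w hw
    obtain ⟨hw1, hw2⟩ := hw
    have hw1' : w - τ w = 0 := LinearMap.mem_ker.mp hw1
    have hw2' : w ∈ Vaug := hw2
    have hwT : ∀ x, w (T • x) = w x := by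
      intro x
      have := congrFun (sub_eq_zero.mp hw1') x
      exact this.symm
    have hw' : (1 / (m : ℂ)) • w ∈ Vaug := Submodule.smul_mem _ _ hw2'
    obtain ⟨y, hy, z, hz, hyz⟩ := Submodule.mem_sup.mp (h9_aug_le Γ hw')
    obtain ⟨p, hp⟩ := hy
    obtain ⟨q, hq⟩ := hz
    have hp' : y = p - σ p := by rw [← hp]; rfl
    have hq' : z = q - υ q := by rw [← hq]; rfl
    have hyA : -(p - σ p) ∈ A := by
      rw [LinearMap.mem_ker]
      funext x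
      simp only [LinearMap.add_apply, LinearMap.id_coe, id_eq, map_neg,
        map_sub, Pi.add_apply, Pi.neg_apply, Pi.sub_apply, hσ, h9_op_apply, hσσ p x,
        Pi.zero_apply]
      ring
    have hzB : q - υ q ∈ B := by
      rw [LinearMap.mem_ker]
      funext x
      simp only [LinearMap.add_apply, LinearMap.id_coe, id_eq,
        map_sub, Pi.add_apply, Pi.sub_apply, hυ, h9_op_apply, LinearMap.comp_apply, hυυυ q x,
        Pi.zero_apply]
      ring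
    refine ⟨(⟨_, hyA⟩, ⟨_, hzB⟩), ?_⟩
    funext x
    rw [hDr_apply]
    have hsum : ∀ i : ℕ, (q - υ q) (T ^ i • x) - (-(p - σ p)) (T ^ i • x)
        = (1 / (m : ℂ)) * w x := by
      intro i
      have h1 := congrFun hyz (T ^ i • x)
      rw [hp', hq'] at h1
      simp only [Pi.add_apply, Pi.smul_apply, smul_eq_mul] at h1
      have h2 : w (T ^ i • x) = w x := by
        have := h9_invariant_zpow T w hwT (i : ℤ) x
        rwa [zpow_natCast] at this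
      rw [h2] at h1
      rw [← h1, Pi.neg_apply]
      ring
    simp only [hsum]
    rw [Finset.sum_const, Finset.card_range, nsmul_eq_mul]
    have hm0 : (m : ℂ) ≠ 0 := Nat.cast_ne_zero.mpr hmpos.ne'
    field_simp
  -- the injection
  set x0 : SL(2, ℤ) ⧸ Γ := ((1 : SL(2, ℤ)) : SL(2, ℤ) ⧸ Γ) with hx0
  set W0 := LinearMap.ker (LinearMap.proj x0 : (SL(2, ℤ) ⧸ Γ → ℂ) →ₗ[ℂ] ℂ) with hW0
  have hW0dim : Nat.card (SL(2, ℤ) ⧸ Γ) ≤ Module.finrank ℂ W0 + 1 := by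
    have h1 : Module.finrank ℂ (LinearMap.range
        (LinearMap.proj x0 : (SL(2, ℤ) ⧸ Γ → ℂ) →ₗ[ℂ] ℂ)) + Module.finrank ℂ W0
        = Module.finrank ℂ (SL(2, ℤ) ⧸ Γ → ℂ) := LinearMap.finrank_range_add_finrank_ker
      (LinearMap.proj x0 : (SL(2, ℤ) ⧸ Γ → ℂ) →ₗ[ℂ] ℂ)
    have h2 : Module.finrank ℂ (LinearMap.range
        (LinearMap.proj x0 : (SL(2, ℤ) ⧸ Γ → ℂ) →ₗ[ℂ] ℂ)) ≤ 1 := by
      have := Submodule.finrank_le (LinearMap.range
        (LinearMap.proj x0 : (SL(2, ℤ) ⧸ Γ → ℂ) →ₗ[ℂ] ℂ))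
      rwa [Module.finrank_self] at this
    rw [hμ] at h1
    omega
  set incl : (parabolicHoms ℂ Γ ℂ × W0) →ₗ[ℂ] ((Additive Γ →+ ℂ) × (SL(2, ℤ) ⧸ Γ → ℂ)) :=
    LinearMap.prodMap (parabolicHoms ℂ Γ ℂ).subtype W0.subtype with hincl
  have hAmem : ∀ c : parabolicHoms ℂ Γ ℂ × W0, (h9_totLin Γ S ∘ₗ incl) c ∈ A := by
    intro c
    rw [LinearMap.mem_ker]
    funext x
    simp only [LinearMap.add_apply, LinearMap.id_coe, id_eq, Pi.add_apply, hσ, h9_op_apply,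
      LinearMap.comp_apply, h9_totLin_apply, Pi.zero_apply]
    exact h9_mem_A Γ hneg _ c.1.2 _ x
  have hBmem : ∀ c : parabolicHoms ℂ Γ ℂ × W0, (h9_totLin Γ (S * T) ∘ₗ incl) c ∈ B := by
    intro c
    rw [LinearMap.mem_ker]
    funext x
    simp only [LinearMap.add_apply, LinearMap.id_coe, id_eq, Pi.add_apply, hυ, h9_op_apply,
      LinearMap.comp_apply, h9_totLin_apply, Pi.zero_apply]
    exact h9_mem_B Γ hneg _ c.1.2 _ x
  set ι : (parabolicHoms ℂ Γ ℂ × W0) →ₗ[ℂ] (A × B) :=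
    LinearMap.prod (LinearMap.codRestrict A (h9_totLin Γ S ∘ₗ incl) hAmem)
      (LinearMap.codRestrict B (h9_totLin Γ (S * T) ∘ₗ incl) hBmem) with hι
  have hιinj : Function.Injective ι := by
    rw [injective_iff_map_eq_zero]
    intro c hc
    have h1 : h9_tot Γ (c.1 : Additive Γ →+ ℂ) (c.2 : SL(2, ℤ) ⧸ Γ → ℂ) S = 0 := by
      have := congrArg (fun e : A × B => (e.1 : SL(2, ℤ) ⧸ Γ → ℂ)) hc
      exact this
    have h2 : h9_tot Γ (c.1 : Additive Γ →+ ℂ) (c.2 : SL(2, ℤ) ⧸ Γ → ℂ) (S * T) = 0 := by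
      have := congrArg (fun e : A × B => (e.2 : SL(2, ℤ) ⧸ Γ → ℂ)) hc
      exact this
    have hv0 : (c.2 : SL(2, ℤ) ⧸ Γ → ℂ) x0 = 0 := by
      exact LinearMap.mem_ker.mp c.2.2
    obtain ⟨h3, h4⟩ := h9_inj Γ _ _ hv0 h1 h2
    exact Prod.ext (Subtype.ext h3) (Subtype.ext h4)
  have hιker : LinearMap.range ι ≤ LinearMap.ker Dr := by
    rintro _ ⟨c, rfl⟩
    rw [LinearMap.mem_ker]
    funext x
    rw [hDr_apply]
    exact h9_norm_zero Γ _ c.1.2 _ x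
  have hfin2 : Module.Finite ℂ (parabolicHoms ℂ Γ ℂ) := (h9_parabolicHoms_finrank_le Γ hneg).1
  have hd1 : Module.finrank ℂ (LinearMap.range ι)
      = Module.finrank ℂ (parabolicHoms ℂ Γ ℂ) + Module.finrank ℂ W0 := by
    rw [LinearMap.finrank_range_of_inj hιinj, Module.finrank_prod]
  have hd2 : Module.finrank ℂ (LinearMap.range Dr) + Module.finrank ℂ (LinearMap.ker Dr)
      = Module.finrank ℂ (A × B) := LinearMap.finrank_range_add_finrank_ker Dr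
  rw [Module.finrank_prod] at hd2
  have hd3 : Module.finrank ℂ ↥(W ⊓ Vaug) ≤ Module.finrank ℂ (LinearMap.range Dr) :=
    Submodule.finrank_mono hrange
  have hle : Module.finrank ℂ (LinearMap.ker Dr) ≤ Module.finrank ℂ (LinearMap.range ι) := by
    omega
  have heq : LinearMap.range ι = LinearMap.ker Dr :=
    Submodule.eq_of_le_of_finrank_le hιker hle
  have haA : a ∈ A := by
    rw [LinearMap.mem_ker]
    funext x
    simp only [LinearMap.add_apply, LinearMap.id_coe, id_eq, Pi.add_apply, hσ, h9_op_apply,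
      Pi.zero_apply]
    exact ha x
  have hbB : b ∈ B := by
    rw [LinearMap.mem_ker]
    funext x
    simp only [LinearMap.add_apply, LinearMap.id_coe, id_eq, Pi.add_apply, hυ, h9_op_apply,
      LinearMap.comp_apply, Pi.zero_apply]
    exact hb x
  have hmem : ((⟨a, haA⟩, ⟨b, hbB⟩) : A × B) ∈ LinearMap.ker Dr := by
    rw [LinearMap.mem_ker]
    funext x
    rw [hDr_apply]
    exact hT x
  rw [← heq] at hmem
  obtain ⟨c, hc⟩ := hmem
  refine ⟨c.1, c.1.2, c.2, ?_, ?_⟩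
  · exact congrArg (fun e : A × B => (e.1 : SL(2, ℤ) ⧸ Γ → ℂ)) hc
  · exact congrArg (fun e : A × B => (e.2 : SL(2, ℤ) ⧸ Γ → ℂ)) hc

end

end Fermat.Agent.S16
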