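import Mathlib
import Fermat.Prelude.Def_ModularCurve_PeriodMap
import Fermat.Agent.S21.h20_Glue
import Fermat.Agent.S20.Lower
import Fermat.Agent.S16.h9_LiftComb
import Fermat.Agent.S16.h9_LiftSurj

set_option autoImplicit false

open scoped MatrixGroups

namespace Fermat.Agent.S16

open ModularGroup ModularCurve.Period Fermat.Agent.S20

noncomputable section

section General

variable (Γ : Subgroup SL(2, ℤ)) {A : Type*} [AddCommGroup A]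

/-- The coset cocycle of a character with arbitrary coefficients. -/
def h9_totA (ψ : Additive Γ →+ A) (g : SL(2, ℤ)) (x : SL(2, ℤ) ⧸ Γ) : A :=
  ψ (Additive.ofMul (h9_coc Γ g x))

theorem h9_totA_mul (ψ : Additive Γ →+ A) (g h : SL(2, ℤ)) (x : SL(2, ℤ) ⧸ Γ) :
    h9_totA Γ ψ (g * h) x = h9_totA Γ ψ g (h • x) + h9_totA Γ ψ h x := by
  simp only [h9_totA, h9_coc_mul, ofMul_mul, map_add]

theorem h9_totA_one (ψ : Additive Γ →+ A) (x : SL(2, ℤ) ⧸ Γ) : h9_totA Γ ψ 1 x = 0 := by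
  have h := h9_totA_mul Γ ψ 1 1 x
  simp only [mul_one, one_smul] at h
  simpa using h

theorem h9_totA_inv (ψ : Additive Γ →+ A) (g : SL(2, ℤ)) (x : SL(2, ℤ) ⧸ Γ) :
    h9_totA Γ ψ g⁻¹ x = -h9_totA Γ ψ g (g⁻¹ • x) := by
  have h := h9_totA_mul Γ ψ g g⁻¹ x
  rw [mul_inv_cancel, h9_totA_one] at h
  exact eq_neg_of_add_eq_zero_right h.symm

theorem h9_totA_pow (ψ : Additive Γ →+ A) (g : SL(2, ℤ)) (k : ℕ) (x : SL(2, ℤ) ⧸ Γ) :
    h9_totA Γ ψ (g ^ k) x = ∑ i ∈ Finset.range k, h9_totA Γ ψ g (g ^ i • x) := by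
  induction k generalizing x with
  | zero => simp [h9_totA_one]
  | succ k ih =>
    rw [pow_succ, h9_totA_mul, ih, Finset.sum_range_succ']
    simp only [pow_zero, one_smul, pow_succ, mul_smul]

theorem h9_totA_fix (ψ : Additive Γ →+ A)
    (hψ : ∀ γ : Γ, ((γ : SL(2, ℤ)) : Matrix (Fin 2) (Fin 2) ℤ).trace ^ 2 ≤ 4 →
      ψ (Additive.ofMul γ) = 0)
    (g : SL(2, ℤ)) (x : SL(2, ℤ) ⧸ Γ) (hx : g • x = x)
    (hg : (g : Matrix (Fin 2) (Fin 2) ℤ).trace ^ 2 ≤ 4) : h9_totA Γ ψ g x = 0 := by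
  apply hψ
  rw [h9_coc_coe, hx, h9_trace_conj]
  exact hg

theorem h9_trace_S_le : ((S : SL(2, ℤ)) : Matrix (Fin 2) (Fin 2) ℤ).trace ^ 2 ≤ 4 := by
  decide

theorem h9_trace_ST_le : ((S * T : SL(2, ℤ)) : Matrix (Fin 2) (Fin 2) ℤ).trace ^ 2 ≤ 4 := by
  decide

theorem h9_trace_neg_one_le :
    ((-1 : SL(2, ℤ)) : Matrix (Fin 2) (Fin 2) ℤ).trace ^ 2 ≤ 4 := by
  decide

theorem h9_trace_T_pow_le (k : ℕ) :
    ((T ^ k : SL(2, ℤ)) : Matrix (Fin 2) (Fin 2) ℤ).trace ^ 2 ≤ 4 := by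
  rw [← zpow_natCast, coe_T_zpow]
  simp [Matrix.trace_fin_two]

variable (hneg : (-1 : SL(2, ℤ)) ∈ Γ) (ψ : Additive Γ →+ A)
  (hψ : ∀ γ : Γ, ((γ : SL(2, ℤ)) : Matrix (Fin 2) (Fin 2) ℤ).trace ^ 2 ≤ 4 →
    ψ (Additive.ofMul γ) = 0)

include hneg hψ in
theorem h9_totA_neg_one (x : SL(2, ℤ) ⧸ Γ) : h9_totA Γ ψ (-1) x = 0 :=
  h9_totA_fix Γ ψ hψ (-1) x (h9_neg_one_smul Γ hneg x) h9_trace_neg_one_le

include hneg hψ in
theorem h9_totA_A1 (x : SL(2, ℤ) ⧸ Γ) : h9_totA Γ ψ S x + h9_totA Γ ψ S (S • x) = 0 := by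
  have h := h9_totA_mul Γ ψ S S x
  rw [h9_S_mul_S, h9_totA_neg_one Γ hneg ψ hψ] at h
  rw [add_comm]
  exact h.symm

include hψ in
theorem h9_totA_A2 (x : SL(2, ℤ) ⧸ Γ) (hx : S • x = x) : h9_totA Γ ψ S x = 0 :=
  h9_totA_fix Γ ψ hψ S x hx h9_trace_S_le

include hneg hψ in
theorem h9_totA_B1 (x : SL(2, ℤ) ⧸ Γ) :
    h9_totA Γ ψ (S * T) x + h9_totA Γ ψ (S * T) ((S * T) • x)
      + h9_totA Γ ψ (S * T) ((S * T) • (S * T) • x) = 0 := by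
  have h := h9_totA_mul Γ ψ ((S * T) * (S * T)) (S * T) x
  rw [h9_U_cube, h9_totA_neg_one Γ hneg ψ hψ, h9_totA_mul] at h
  rw [h]
  abel

include hψ in
theorem h9_totA_B2 (x : SL(2, ℤ) ⧸ Γ) (hx : (S * T) • x = x) : h9_totA Γ ψ (S * T) x = 0 :=
  h9_totA_fix Γ ψ hψ (S * T) x hx h9_trace_ST_le

include hψ in
theorem h9_totA_C (k : ℕ) (x : SL(2, ℤ) ⧸ Γ) (hx : T ^ k • x = x) :
    ∑ i ∈ Finset.range k,
      (h9_totA Γ ψ (S * T) (T ^ i • x) - h9_totA Γ ψ S (T ^ i • x)) = 0 := by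
  have h1 : ∀ i : ℕ, h9_totA Γ ψ (S * T) (T ^ i • x) - h9_totA Γ ψ S (T ^ i • x)
      = h9_totA Γ ψ T (T ^ i • x)
        + (h9_totA Γ ψ S (T ^ (i + 1) • x) - h9_totA Γ ψ S (T ^ i • x)) := by
    intro i
    rw [h9_totA_mul, pow_succ', mul_smul]
    abel
  rw [Finset.sum_congr rfl (fun i _ => h1 i), Finset.sum_add_distrib,
    Finset.sum_range_sub (fun i => h9_totA Γ ψ S (T ^ i • x)), ← h9_totA_pow]
  rw [h9_totA_fix Γ ψ hψ (T ^ k) x hx (h9_trace_T_pow_le k), hx, pow_zero, one_smul]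
  abel

end General

section Lift

variable (Γ : Subgroup SL(2, ℤ))

/-- **Integral lift**, for a finite index subgroup attaining the Shapiro bound. -/
theorem h9_exists_integral_lift_of [Γ.FiniteIndex] (hneg : (-1 : SL(2, ℤ)) ∈ Γ)
    (hEQ : Nat.card (SL(2, ℤ) ⧸ Γ) + 2 ≤ Module.finrank ℂ (parabolicHoms ℂ Γ ℂ)
      + Nat.card (MulAction.orbitRel.Quotient (Subgroup.zpowers S) (SL(2, ℤ) ⧸ Γ))
      + Nat.card (MulAction.orbitRel.Quotient (Subgroup.zpowers (S * T)) (SL(2, ℤ) ⧸ Γ))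
      + Nat.card (MulAction.orbitRel.Quotient (Subgroup.zpowers T) (SL(2, ℤ) ⧸ Γ)))
    (n : ℕ) (ψ : Additive Γ →+ ZMod n)
    (hψ : ∀ γ : Γ, ((γ : SL(2, ℤ)) : Matrix (Fin 2) (Fin 2) ℤ).trace ^ 2 ≤ 4 →
      ψ (Additive.ofMul γ) = 0) :
    ∃ Ψ : Additive Γ →+ ℤ, IsParabolicHom Γ Ψ ∧ ∀ γ, ((Ψ γ : ℤ) : ZMod n) = ψ γ := by
  classical
  have : Fintype (SL(2, ℤ) ⧸ Γ) := Fintype.ofFinite _
  obtain ⟨a, b, haS, hbU, habT, hac, hbc⟩ :=
    h9_lift_comb (G := SL(2, ℤ)) (X := SL(2, ℤ) ⧸ Γ) S (S * T) T h9_closure_S_U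
      (fun x => by rw [← mul_smul, h9_S_mul_S, h9_neg_one_smul Γ hneg])
      (fun x => by rw [← mul_smul, ← mul_smul, h9_U_cube, h9_neg_one_smul Γ hneg])
      (h9_per Γ) (h9_per_pos Γ) (h9_T_pow_per_smul Γ) n
      (h9_totA Γ ψ S) (h9_totA Γ ψ (S * T))
      (h9_totA_A1 Γ hneg ψ hψ) (h9_totA_A2 Γ ψ hψ) (h9_totA_B1 Γ hneg ψ hψ)
      (h9_totA_B2 Γ ψ hψ) (h9_totA_C Γ ψ hψ)
  obtain ⟨φ, hφ, v, hvS, hvU⟩ := h9_shapiro_surj Γ hneg hEQ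
    (fun x => (a x : ℂ)) (fun x => (b x : ℂ))
    (fun x => by exact_mod_cast haS x) (fun x => by exact_mod_cast hbU x)
    (fun x => by exact_mod_cast habT x)
  -- integrality of the whole cocycle
  have hint : ∀ g : SL(2, ℤ), ∀ x : SL(2, ℤ) ⧸ Γ, ∃ m : ℤ,
      h9_tot Γ φ v g x = (m : ℂ) ∧ ((m : ℤ) : ZMod n) = h9_totA Γ ψ g x := by
    intro g
    have hg : g ∈ Subgroup.closure {S, S * T} := by rw [h9_closure_S_U]; trivial
    induction hg using Subgroup.closure_induction with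
    | mem g hg =>
      intro x
      rcases hg with rfl | rfl
      · exact ⟨a x, by rw [hvS], hac x⟩
      · exact ⟨b x, by rw [hvU], hbc x⟩
    | one =>
      intro x
      exact ⟨0, by rw [h9_tot_one]; simp, by rw [h9_totA_one]; simp⟩
    | mul g h _ _ ihg ihh =>
      intro x
      obtain ⟨m1, hm1, hm1'⟩ := ihg (h • x)
      obtain ⟨m2, hm2, hm2'⟩ := ihh x
      refine ⟨m1 + m2, ?_, ?_⟩
      · rw [h9_tot_mul, hm1, hm2]
        push_cast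
        rfl
      · rw [h9_totA_mul, ← hm1', ← hm2']
        push_cast
        rfl
    | inv g _ ih =>
      intro x
      obtain ⟨m, hm, hm'⟩ := ih (g⁻¹ • x)
      refine ⟨-m, ?_, ?_⟩
      · have h0 := h9_tot_mul Γ φ v g g⁻¹ x
        rw [mul_inv_cancel, h9_tot_one, hm] at h0
        simp only [Pi.zero_apply] at h0
        push_cast
        linear_combination -h0
      · rw [h9_totA_inv, ← hm']
        push_cast
        rfl
  -- evaluation at the base coset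
  set x0 : SL(2, ℤ) ⧸ Γ := ((1 : SL(2, ℤ)) : SL(2, ℤ) ⧸ Γ) with hx0
  have hout : (Quotient.out x0 : SL(2, ℤ)) ∈ Γ := by
    have h2 : ((Quotient.out x0 : SL(2, ℤ)) : SL(2, ℤ) ⧸ Γ) = ((1 : SL(2, ℤ)) : SL(2, ℤ) ⧸ Γ) :=
      QuotientGroup.out_eq' _
    have h3 := QuotientGroup.eq.mp h2
    rw [mul_one] at h3
    simpa using Γ.inv_mem h3
  have hfix : ∀ γ : Γ, (γ : SL(2, ℤ)) • x0 = x0 := by
    intro γ
    show (((γ : SL(2, ℤ)) * 1 : SL(2, ℤ)) : SL(2, ℤ) ⧸ Γ) = ((1 : SL(2, ℤ)) : SL(2, ℤ) ⧸ Γ)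
    rw [mul_one, ← one_mul (γ : SL(2, ℤ))]
    exact QuotientGroup.mk_mul_of_mem 1 γ.2
  have hc : ∀ γ : Γ, h9_coc Γ (γ : SL(2, ℤ)) x0
      = (⟨Quotient.out x0, hout⟩ : Γ)⁻¹ * γ * ⟨Quotient.out x0, hout⟩ := by
    intro γ
    apply Subtype.ext
    simp only [h9_coc_coe, hfix γ, Subgroup.coe_mul, Subgroup.coe_inv]
  have htot0 : ∀ γ : Γ, h9_tot Γ φ v (γ : SL(2, ℤ)) x0 = φ (Additive.ofMul γ) := by
    intro γ
    simp only [h9_tot, hfix γ, hc γ, ofMul_mul, ofMul_inv, map_add, map_neg]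
    ring
  have htotA0 : ∀ γ : Γ, h9_totA Γ ψ (γ : SL(2, ℤ)) x0 = ψ (Additive.ofMul γ) := by
    intro γ
    simp only [h9_totA, hc γ, ofMul_mul, ofMul_inv, map_add, map_neg]
    ring
  have hex : ∀ γ : Γ, ∃ m : ℤ, φ (Additive.ofMul γ) = (m : ℂ) ∧
      ((m : ℤ) : ZMod n) = ψ (Additive.ofMul γ) := by
    intro γ
    obtain ⟨m, hm, hm'⟩ := hint (γ : SL(2, ℤ)) x0
    exact ⟨m, by rw [← htot0, hm], by rw [hm', htotA0]⟩
  choose Ψf hΨ1 hΨ2 using hex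
  refine ⟨AddMonoidHom.mk' (fun γ => Ψf (Additive.toMul γ)) ?_, ?_, ?_⟩
  · intro γ δ
    apply Int.cast_injective (α := ℂ)
    push_cast
    rw [← hΨ1, ← hΨ1, ← hΨ1]
    exact map_add φ γ δ
  · intro γ hγ
    show Ψf γ = 0
    apply Int.cast_injective (α := ℂ)
    rw [← hΨ1, Int.cast_zero]
    exact hφ γ hγ
  · intro γ
    exact hΨ2 (Additive.toMul γ)

end Lift

section Gamma0

open CongruenceSubgroup

/-- The Shapiro bound is attained for `Γ₀(N)` (dimension formula + Eichler–Shimura). -/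
theorem h9_shapiro_eq (N : ℕ) [NeZero N] :
    Nat.card (SL(2, ℤ) ⧸ Gamma0 N) + 2 ≤ Module.finrank ℂ (parabolicHoms ℂ (Gamma0 N) ℂ)
      + Nat.card (MulAction.orbitRel.Quotient (Subgroup.zpowers S) (SL(2, ℤ) ⧸ Gamma0 N))
      + Nat.card (MulAction.orbitRel.Quotient (Subgroup.zpowers (S * T)) (SL(2, ℤ) ⧸ Gamma0 N))
      + Nat.card (MulAction.orbitRel.Quotient (Subgroup.zpowers T) (SL(2, ℤ) ⧸ Gamma0 N)) := by
  have h1 := (Nat.cast_le (α := ℚ)).mpr (Fermat.Agent.S21.h20_two_mul_finrank_le N)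
  have h2 := (Fermat.Agent.S21.h20_S20_S21_of_le N (Fermat.Agent.S20.genusFormula_le N)).1
  have hn := congrArg (Nat.cast (R := ℚ)) (Fermat.Agent.S24.h29_card_quotient_Gamma0 N)
  have hS : (2 : ℚ) * (Nat.card (MulAction.orbitRel.Quotient (Subgroup.zpowers S)
      (SL(2, ℤ) ⧸ Gamma0 N)) : ℚ)
      = (Nat.card (SL(2, ℤ) ⧸ Gamma0 N) : ℚ) + (ModularCurve.nuTwo N : ℚ) := by
    have h0 := congrArg (Nat.cast (R := ℚ)) (Fermat.Agent.S24.h29_orbits_S N)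
    push_cast at h0
    exact h0
  have hU : (3 : ℚ) * (Nat.card (MulAction.orbitRel.Quotient (Subgroup.zpowers (S * T))
      (SL(2, ℤ) ⧸ Gamma0 N)) : ℚ)
      = (Nat.card (SL(2, ℤ) ⧸ Gamma0 N) : ℚ) + 2 * (ModularCurve.nuThree N : ℚ) := by
    have h0 := congrArg (Nat.cast (R := ℚ)) (Fermat.Agent.S24.h29_orbits_ST N)
    push_cast at h0
    exact h0
  have hT : (Nat.card (MulAction.orbitRel.Quotient (Subgroup.zpowers T)
      (SL(2, ℤ) ⧸ Gamma0 N)) : ℚ) = (ModularCurve.cuspCount N : ℚ) :=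
    congrArg (Nat.cast (R := ℚ)) (Fermat.Agent.S24.h33_orbits_T N)
  rw [ModularCurve.genusFormula] at h2
  push_cast at h1
  apply (Nat.cast_le (α := ℚ)).mp
  push_cast
  linarith

/-- **Integral lift of a character of `Γ₀(N)`** killing all elements with `trace² ≤ 4`. -/
theorem h9_exists_integral_lift (N : ℕ) [NeZero N] (n : ℕ)
    (ψ : Additive (CongruenceSubgroup.Gamma0 N) →+ ZMod n)
    (hψ : ∀ γ : CongruenceSubgroup.Gamma0 N,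
      ((γ : SL(2, ℤ)) : Matrix (Fin 2) (Fin 2) ℤ).trace ^ 2 ≤ 4 → ψ (Additive.ofMul γ) = 0) :
    ∃ Ψ : Additive (CongruenceSubgroup.Gamma0 N) →+ ℤ,
      ModularCurve.Period.IsParabolicHom (CongruenceSubgroup.Gamma0 N) Ψ ∧
      ∀ γ, ((Ψ γ : ℤ) : ZMod n) = ψ γ :=
  h9_exists_integral_lift_of (Gamma0 N) (by rw [CongruenceSubgroup.Gamma0_mem]; simp)
    (h9_shapiro_eq N) n ψ hψ

end Gamma0

end

end Fermat.Agent.S16
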